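import Mathlib
import Fermat.Agent.S21.Prim
import Fermat.Agent.S22.Decay

/-!
# S41 library, bridge part 1: periods of `∑ f ∣ B x`
-/

set_option autoImplicit false

namespace Fermat.Agent.S41Lib

open UpperHalfPlane hiding I
open Complex Filter Function Matrix.SpecialLinearGroup CongruenceSubgroup
open Fermat.Agent.S22Lib Fermat.Agent.S21Lib ModularCurve ModularCurve.Period
open scoped Manifold Topology Real ModularForm MatrixGroups

/-- Periods of a "Hecke translate".  If `g = ∑ₓ f ∣ Bₓ` and `Bₓ γ = γ'ₓ B_{σ x}` then the period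
of `g` along `γ` is the sum of the periods of `f` along the `γ'ₓ`. -/
theorem per_of_family {N M : ℕ} [NeZero N] [NeZero M] (f : CuspForm (Gamma0 N) 2)
    (g : CuspForm (Gamma0 M) 2) {X : Type*} [Fintype X] (B : X → GL (Fin 2) ℝ)
    (hB : ∀ x, 0 < (B x).val.det)
    (hg : (⇑g : ℍ → ℂ) = ∑ x, (⇑f : ℍ → ℂ) ∣[(2 : ℤ)] B x)
    (γ : Gamma0 M) (σ : Equiv.Perm X) (γ' : X → Gamma0 N)
    (h : ∀ x, B x * mapGL ℝ (γ : SL(2, ℤ)) = mapGL ℝ (γ' x : SL(2, ℤ)) * B (σ x)) :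
    per g γ = ∑ x, per f (γ' x) := by
  have h1 : IsPrim (fun τ => ∑ x, FP f (B x • τ)) (⇑g) := by
    have := IsPrim.sum (Finset.univ : Finset X) (G := fun x τ => FP f (B x • τ))
      (g := fun x => (⇑f : ℍ → ℂ) ∣[(2 : ℤ)] B x)
      (fun x _ => IsPrim.comp_smul (FP_isPrim f) (B x) (hB x))
    rw [hg]
    convert this using 1
    funext τ
    simp
  have h2 := h1.sub_eq_sub (FP_isPrim g) ((γ : SL(2, ℤ)) • UpperHalfPlane.I) UpperHalfPlane.I
  have h3 : per g γ = ∑ x, FP f (B x • ((γ : SL(2, ℤ)) • UpperHalfPlane.I)) -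
      ∑ x, FP f (B x • UpperHalfPlane.I) := by
    unfold per
    linear_combination -h2
  rw [h3]
  have h4 : ∀ x, FP f (B x • ((γ : SL(2, ℤ)) • UpperHalfPlane.I)) =
      per f (γ' x) + FP f (B (σ x) • UpperHalfPlane.I) := by
    intro x
    have e1 : B x • ((γ : SL(2, ℤ)) • UpperHalfPlane.I) =
        ((γ' x : Gamma0 N) : SL(2, ℤ)) • (B (σ x) • UpperHalfPlane.I) := by
      have a1 : ((γ : SL(2, ℤ)) • UpperHalfPlane.I : ℍ) =
          (mapGL ℝ (γ : SL(2, ℤ)) : GL (Fin 2) ℝ) • UpperHalfPlane.I := rfl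
      have a2 : (((γ' x : Gamma0 N) : SL(2, ℤ)) • (B (σ x) • UpperHalfPlane.I) : ℍ) =
          (mapGL ℝ ((γ' x : Gamma0 N) : SL(2, ℤ)) : GL (Fin 2) ℝ) •
            (B (σ x) • UpperHalfPlane.I) := rfl
      rw [a1, a2, ← mul_smul, ← mul_smul, h x]
    rw [e1, ← FP_smul_sub f (γ' x) (B (σ x) • UpperHalfPlane.I)]
    ring
  simp only [h4, Finset.sum_add_distrib]
  rw [Equiv.sum_comp σ (fun x => FP f (B x • UpperHalfPlane.I))]
  ring

theorem periodMap_apply' {N : ℕ} [NeZero N] (f : CuspForm (Gamma0 N) 2) (γ : Gamma0 N) :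
    periodMap N f (Additive.ofMul γ) = per f γ := periodMap_apply f γ

end Fermat.Agent.S41Lib
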