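import Mathlib
import Fermat.Prelude.Def_ModularCurve_PeriodMap

/-!
# S41 library: restriction, conjugated restriction, corestriction and Hecke operators
on `Hom(Γ₀(N), A)`.
-/

set_option autoImplicit false

open scoped MatrixGroups
open CongruenceSubgroup

namespace Fermat.Agent.S41Lib

theorem Gamma0_dvd {M : ℕ} (γ : Gamma0 M) :
    (M : ℤ) ∣ ((γ : SL(2, ℤ)) : Matrix (Fin 2) (Fin 2) ℤ) 1 0 := by
  have h := Gamma0_mem.mp γ.2
  exact (ZMod.intCast_zmod_eq_zero_iff_dvd _ _).mp h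

theorem mem_Gamma0_of_dvd {M : ℕ} {γ : SL(2, ℤ)}
    (h : (M : ℤ) ∣ (γ : Matrix (Fin 2) (Fin 2) ℤ) 1 0) : γ ∈ Gamma0 M :=
  Gamma0_mem.mpr ((ZMod.intCast_zmod_eq_zero_iff_dvd _ _).mpr h)

theorem Gamma0_mul_le (N t : ℕ) : Gamma0 (N * t) ≤ Gamma0 N := by
  intro γ hγ
  apply mem_Gamma0_of_dvd
  have := Gamma0_dvd (⟨γ, hγ⟩ : Gamma0 (N * t))
  exact (Dvd.intro _ (by push_cast; rfl) : (N : ℤ) ∣ ((N * t : ℕ) : ℤ)).trans this

/-- the inclusion `Γ₀(Nt) → Γ₀(N)` -/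
def inclG (N t : ℕ) : Gamma0 (N * t) →* Gamma0 N :=
  Subgroup.inclusion (Gamma0_mul_le N t)

@[simp] theorem inclG_coe (N t : ℕ) (γ : Gamma0 (N * t)) :
    ((inclG N t γ : Gamma0 N) : SL(2, ℤ)) = γ := rfl

theorem inclG_injective (N t : ℕ) : Function.Injective (inclG N t) :=
  Subgroup.inclusion_injective _

/-- the matrix of `diag(t,1) γ diag(t,1)⁻¹` -/
def conjDMat (t : ℕ) (A : Matrix (Fin 2) (Fin 2) ℤ) : Matrix (Fin 2) (Fin 2) ℤ :=
  !![A 0 0, t * A 0 1; A 1 0 / t, A 1 1]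

theorem conjDMat_det {t : ℕ} {A : Matrix (Fin 2) (Fin 2) ℤ} (h : (t : ℤ) ∣ A 1 0) :
    (conjDMat t A).det = A.det := by
  obtain ⟨c, hc⟩ := h
  rcases Nat.eq_zero_or_pos t with rfl | ht
  · simp [conjDMat, Matrix.det_fin_two, hc]
  · have ht' : (t : ℤ) ≠ 0 := by exact_mod_cast ht.ne'
    rw [conjDMat, Matrix.det_fin_two_of, Matrix.det_fin_two, hc, Int.mul_ediv_cancel_left _ ht']
    ring

theorem dvd_of_Gamma0_mul {N t : ℕ} (γ : Gamma0 (N * t)) :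
    ∃ c : ℤ, ((γ : SL(2, ℤ)) : Matrix (Fin 2) (Fin 2) ℤ) 1 0 = t * (N * c) := by
  obtain ⟨c, hc⟩ := Gamma0_dvd γ
  exact ⟨c, by rw [hc]; push_cast; ring⟩

/-- conjugation by `diag(t,1)` as a map `Γ₀(Nt) → SL₂(ℤ)` -/
def conjDSL (N t : ℕ) (γ : Gamma0 (N * t)) : SL(2, ℤ) :=
  ⟨conjDMat t ((γ : SL(2, ℤ)) : Matrix (Fin 2) (Fin 2) ℤ), by
    obtain ⟨c, hc⟩ := dvd_of_Gamma0_mul γ
    rw [conjDMat_det ⟨_, hc⟩]; exact (γ : SL(2, ℤ)).2⟩

theorem conjDSL_mem (N t : ℕ) [NeZero t] (γ : Gamma0 (N * t)) : conjDSL N t γ ∈ Gamma0 N := by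
  apply mem_Gamma0_of_dvd
  obtain ⟨c, hc⟩ := dvd_of_Gamma0_mul γ
  have ht' : (t : ℤ) ≠ 0 := by exact_mod_cast NeZero.ne t
  show (N : ℤ) ∣ conjDMat t _ 1 0
  simp only [conjDMat, Matrix.of_apply, Matrix.cons_val_one, Matrix.cons_val_zero,
    Matrix.cons_val_fin_one]
  rw [hc, Int.mul_ediv_cancel_left _ ht']
  exact Dvd.intro _ rfl

/-- conjugation by `diag(t,1)`: `[[a,b],[c,d]] ↦ [[a,tb],[c/t,d]]`, `Γ₀(Nt) → Γ₀(N)`. -/
def conjD (N t : ℕ) [NeZero t] : Gamma0 (N * t) →* Gamma0 N where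
  toFun γ := ⟨conjDSL N t γ, conjDSL_mem N t γ⟩
  map_one' := by
    have ht' : (t : ℤ) ≠ 0 := by exact_mod_cast NeZero.ne t
    apply Subtype.ext; apply Subtype.ext
    show conjDMat t ((1 : SL(2, ℤ)) : Matrix (Fin 2) (Fin 2) ℤ) = 1
    ext i j; fin_cases i <;> fin_cases j <;> simp [conjDMat]
  map_mul' γ γ' := by
    have ht' : (t : ℤ) ≠ 0 := by exact_mod_cast NeZero.ne t
    obtain ⟨c, hc⟩ := dvd_of_Gamma0_mul γ
    obtain ⟨c', hc'⟩ := dvd_of_Gamma0_mul γ'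
    apply Subtype.ext; apply Subtype.ext
    show conjDMat t (((γ : SL(2, ℤ)) : Matrix (Fin 2) (Fin 2) ℤ) *
        ((γ' : SL(2, ℤ)) : Matrix (Fin 2) (Fin 2) ℤ)) =
      conjDMat t ((γ : SL(2, ℤ)) : Matrix (Fin 2) (Fin 2) ℤ) *
        conjDMat t ((γ' : SL(2, ℤ)) : Matrix (Fin 2) (Fin 2) ℤ)
    ext i j
    fin_cases i <;> fin_cases j
    · simp only [conjDMat, Matrix.mul_apply, Fin.sum_univ_two, Fin.zero_eta, Fin.isValue,
        Matrix.of_apply, Matrix.cons_val_zero, Matrix.cons_val_one, Matrix.cons_val_fin_one]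
      rw [hc', Int.mul_ediv_cancel_left _ ht']; ring
    · simp only [conjDMat, Matrix.mul_apply, Fin.sum_univ_two, Fin.zero_eta, Fin.isValue,
        Fin.mk_one, Matrix.of_apply, Matrix.cons_val_zero, Matrix.cons_val_one,
        Matrix.cons_val_fin_one]
      ring
    · simp only [conjDMat, Matrix.mul_apply, Fin.sum_univ_two, Fin.zero_eta, Fin.isValue,
        Fin.mk_one, Matrix.of_apply, Matrix.cons_val_zero, Matrix.cons_val_one,
        Matrix.cons_val_fin_one]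
      rw [hc, hc', Int.mul_ediv_cancel_left _ ht', Int.mul_ediv_cancel_left _ ht']
      have : (t : ℤ) * (N * c) * ((γ' : SL(2, ℤ)) : Matrix (Fin 2) (Fin 2) ℤ) 0 0 +
          ((γ : SL(2, ℤ)) : Matrix (Fin 2) (Fin 2) ℤ) 1 1 * (t * (N * c')) =
          t * (N * c * ((γ' : SL(2, ℤ)) : Matrix (Fin 2) (Fin 2) ℤ) 0 0 +
          ((γ : SL(2, ℤ)) : Matrix (Fin 2) (Fin 2) ℤ) 1 1 * (N * c')) := by ring
      rw [this, Int.mul_ediv_cancel_left _ ht']
    · simp only [conjDMat, Matrix.mul_apply, Fin.sum_univ_two, Fin.isValue,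
        Fin.mk_one, Matrix.of_apply, Matrix.cons_val_zero, Matrix.cons_val_one,
        Matrix.cons_val_fin_one]
      rw [hc, Int.mul_ediv_cancel_left _ ht']; ring

theorem conjD_coe (N t : ℕ) [NeZero t] (γ : Gamma0 (N * t)) :
    (((conjD N t γ : Gamma0 N) : SL(2, ℤ)) : Matrix (Fin 2) (Fin 2) ℤ) =
      conjDMat t ((γ : SL(2, ℤ)) : Matrix (Fin 2) (Fin 2) ℤ) := rfl

section Homs

variable {A : Type*} [AddCommGroup A]

/-- restriction `Hom(Γ₀(N),A) → Hom(Γ₀(Nt),A)` -/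
def res (N t : ℕ) : (Additive (Gamma0 N) →+ A) →+ (Additive (Gamma0 (N * t)) →+ A) where
  toFun Φ := Φ.comp (MonoidHom.toAdditive (inclG N t))
  map_zero' := rfl
  map_add' _ _ := rfl

/-- restriction twisted by conjugation with `diag(t,1)` -/
def resD (N t : ℕ) [NeZero t] :
    (Additive (Gamma0 N) →+ A) →+ (Additive (Gamma0 (N * t)) →+ A) where
  toFun Φ := Φ.comp (MonoidHom.toAdditive (conjD N t))
  map_zero' := rfl
  map_add' _ _ := rfl

@[simp] theorem res_apply (N t : ℕ) (Φ : Additive (Gamma0 N) →+ A) (γ : Gamma0 (N * t)) :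
    res N t Φ (Additive.ofMul γ) = Φ (Additive.ofMul (inclG N t γ)) := rfl

@[simp] theorem resD_apply (N t : ℕ) [NeZero t] (Φ : Additive (Gamma0 N) →+ A)
    (γ : Gamma0 (N * t)) :
    resD N t Φ (Additive.ofMul γ) = Φ (Additive.ofMul (conjD N t γ)) := rfl

/-- `Γ₀(Nt)` as a subgroup of the group `Γ₀(N)` -/
abbrev subG (N t : ℕ) : Subgroup (Gamma0 N) := (Gamma0 (N * t)).subgroupOf (Gamma0 N)

/-- the identification of `subG N t` with `Γ₀(Nt)` -/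
noncomputable def subGEquiv (N t : ℕ) : subG N t ≃* Gamma0 (N * t) :=
  Subgroup.subgroupOfEquivOfLe (Gamma0_mul_le N t)

@[simp] theorem subGEquiv_coe (N t : ℕ) (h : subG N t) :
    ((subGEquiv N t h : Gamma0 (N * t)) : SL(2, ℤ)) = ((h : Gamma0 N) : SL(2, ℤ)) := rfl

/-- a hom on `Γ₀(Nt)` seen as a multiplicative hom on `subG N t` -/
noncomputable def toSub (N t : ℕ) (Ψ : Additive (Gamma0 (N * t)) →+ A) :
    subG N t →* Multiplicative A :=
  (AddMonoidHom.toMultiplicativeRight Ψ).comp (subGEquiv N t).toMonoidHom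

theorem toSub_apply (N t : ℕ) (Ψ : Additive (Gamma0 (N * t)) →+ A) (h : subG N t) :
    toSub N t Ψ h = Multiplicative.ofAdd (Ψ (Additive.ofMul (subGEquiv N t h))) := rfl

/-- corestriction (transfer) `Hom(Γ₀(Nt),A) → Hom(Γ₀(N),A)` -/
noncomputable def cores (N t : ℕ) [NeZero (N * t)] (Ψ : Additive (Gamma0 (N * t)) →+ A) :
    Additive (Gamma0 N) →+ A :=
  MonoidHom.toAdditiveLeft (MonoidHom.transfer (toSub N t Ψ))

theorem cores_apply (N t : ℕ) [NeZero (N * t)] (Ψ : Additive (Gamma0 (N * t)) →+ A)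
    (γ : Gamma0 N) :
    cores N t Ψ (Additive.ofMul γ) = Multiplicative.toAdd (MonoidHom.transfer (toSub N t Ψ) γ) :=
  rfl

/-- the Hecke operator `T_W` (`W ∤ N`) on `Hom(Γ₀(N),A)`: `cores ∘ resD`. -/
noncomputable def heckeHom (N W : ℕ) [NeZero W] [NeZero (N * W)]
    (Φ : Additive (Gamma0 N) →+ A) : Additive (Gamma0 N) →+ A :=
  cores N W (resD N W Φ)

end Homs

end Fermat.Agent.S41Lib
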