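import Mathlib
import Fermat.Agent.S41.IharaDefs

/-!
# S41 library, bridge part 0: the transfer computed with an arbitrary system of representatives
-/

set_option autoImplicit false

open scoped MatrixGroups
open CongruenceSubgroup

namespace Fermat.Agent.S41Lib

section Transfer

variable {G : Type*} [Group G] {H : Subgroup G} {A : Type*} [CommGroup A]

open Subgroup in
/-- The transfer computed with an arbitrary finite family of left coset representatives. -/
theorem transfer_eq_prod_of_reps [H.FiniteIndex] (ϕ : H →* A) {ι : Type*} [Fintype ι]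
    (t : ι → G) (ht : Function.Bijective (fun i => (t i : G ⧸ H))) (g : G) (π : ι → ι)
    (hπ : ∀ i, (t (π i))⁻¹ * g * t i ∈ H) :
    MonoidHom.transfer ϕ g = ∏ i, ϕ ⟨(t (π i))⁻¹ * g * t i, hπ i⟩ := by
  classical
  let e : ι ≃ G ⧸ H := Equiv.ofBijective _ ht
  let f : G ⧸ H → G := fun q => t (e.symm q)
  have hf : ∀ q, (f q : G ⧸ H) = q := fun q => e.apply_symm_apply q
  let T : H.LeftTransversal := ⟨Set.range f, isComplement_range_left hf⟩
  have hT : ∀ q, (T.2.leftQuotientEquiv q : G) = f q := fun q =>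
    IsComplement.leftQuotientEquiv_apply hf q
  rw [MonoidHom.transfer_def ϕ T g]
  let := H.fintypeQuotientOfFiniteIndex
  have hπe : ∀ i, e (π i) = g • e i := by
    intro i
    show ((t (π i) : G) : G ⧸ H) = g • ((t i : G) : G ⧸ H)
    rw [MulAction.Quotient.smul_coe, QuotientGroup.eq, smul_eq_mul, ← mul_assoc]
    exact hπ i
  unfold Subgroup.leftTransversals.diff
  simp only
  -- reindex along `i ↦ g • e i`
  let e' : ι ≃ G ⧸ H := e.trans (MulAction.toPerm g)
  rw [← e'.prod_comp]
  refine Finset.prod_congr rfl fun i _ => ?_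
  congr 1
  apply Subtype.ext
  show ((T.2.leftQuotientEquiv (g • e i) : G))⁻¹ * ((g • T).2.leftQuotientEquiv (g • e i) : G) = _
  rw [smul_apply_eq_smul_apply_inv_smul, inv_smul_smul, hT, hT, ← hπe]
  simp only [f, Equiv.symm_apply_apply, smul_eq_mul, mul_assoc]

end Transfer

section Transfer2

variable {G G' : Type*} [Group G] [Group G'] {H : Subgroup G} {H' : Subgroup G'}
  {A : Type*} [CommGroup A]

/-- Base change for the transfer: if `ψ : G' → G` induces a bijection `G'/H' ≃ G/H`, then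
`transfer ϕ ∘ ψ = transfer (ϕ ∘ ψ)`. -/
theorem transfer_comp_hom [H.FiniteIndex] [H'.FiniteIndex] (ψ : G' →* G)
    (hH : ∀ g', g' ∈ H' ↔ ψ g' ∈ H) (hsurj : ∀ g : G, ∃ g' : G', (ψ g')⁻¹ * g ∈ H)
    (ϕ : H →* A) (ϕ' : H' →* A) (hϕ : ∀ h' : H', ϕ' h' = ϕ ⟨ψ h', (hH _).1 h'.2⟩) (g' : G') :
    MonoidHom.transfer ϕ (ψ g') = MonoidHom.transfer ϕ' g' := by
  classical
  let := H'.fintypeQuotientOfFiniteIndex
  let t' : G' ⧸ H' → G' := Quotient.out
  have ht' : ∀ q, ((t' q : G') : G' ⧸ H') = q := fun q => Quotient.out_eq' q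
  have hb' : Function.Bijective (fun i => ((t' i : G') : G' ⧸ H')) := by
    have : (fun i => ((t' i : G') : G' ⧸ H')) = id := funext ht'
    rw [this]; exact Function.bijective_id
  have hb : Function.Bijective (fun i => ((ψ (t' i) : G) : G ⧸ H)) := by
    constructor
    · intro i j hij
      have h1 : (ψ (t' i))⁻¹ * ψ (t' j) ∈ H := QuotientGroup.eq.mp hij
      rw [← map_inv, ← map_mul, ← hH] at h1
      have h2 : ((t' i : G') : G' ⧸ H') = t' j := QuotientGroup.eq.mpr h1
      rwa [ht', ht'] at h2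
    · intro q
      induction q using QuotientGroup.induction_on with
      | H g =>
        obtain ⟨g₁, hg₁⟩ := hsurj g
        refine ⟨(g₁ : G' ⧸ H'), ?_⟩
        show ((ψ (t' (g₁ : G' ⧸ H')) : G) : G ⧸ H) = g
        rw [QuotientGroup.eq]
        have h1 : (t' (g₁ : G' ⧸ H'))⁻¹ * g₁ ∈ H' := QuotientGroup.eq.mp (ht' _)
        rw [hH, map_mul, map_inv] at h1
        have := H.mul_mem h1 hg₁
        simpa [mul_assoc] using this
  let π : G' ⧸ H' → G' ⧸ H' := fun i => g' • i
  have hπ' : ∀ i, (t' (π i))⁻¹ * g' * t' i ∈ H' := by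
    intro i
    have h1 : ((t' (π i) : G') : G' ⧸ H') = ((g' * t' i : G') : G' ⧸ H') := by
      rw [ht']
      show g' • i = _
      conv_lhs => rw [← ht' i]
      rfl
    have := QuotientGroup.eq.mp h1
    simpa [mul_assoc] using this
  have hπ : ∀ i, (ψ (t' (π i)))⁻¹ * ψ g' * ψ (t' i) ∈ H := by
    intro i
    have := (hH _).1 (hπ' i)
    simpa using this
  rw [transfer_eq_prod_of_reps ϕ (fun i => ψ (t' i)) hb (ψ g') π hπ,
    transfer_eq_prod_of_reps ϕ' t' hb' g' π hπ']
  refine Finset.prod_congr rfl fun i _ => ?_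
  rw [hϕ]
  congr 1
  apply Subtype.ext
  simp

end Transfer2

end Fermat.Agent.S41Lib
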