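import Fermat.Agent.S41.IharaDefs

/-!
# S41 library: the second corestriction `coresD` (transfer along `conjD`) and `heckeHomU`
-/

set_option autoImplicit false

open scoped MatrixGroups
open CongruenceSubgroup

namespace Fermat.Agent.S41Lib

theorem conjD_injective (N t : ℕ) [NeZero t] : Function.Injective (conjD N t) := by
  intro γ γ' h
  have ht' : (t : ℤ) ≠ 0 := by exact_mod_cast NeZero.ne t
  obtain ⟨c, hc⟩ := dvd_of_Gamma0_mul γ
  obtain ⟨c', hc'⟩ := dvd_of_Gamma0_mul γ'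
  have hM : conjDMat t ((γ : SL(2, ℤ)) : Matrix (Fin 2) (Fin 2) ℤ) =
      conjDMat t ((γ' : SL(2, ℤ)) : Matrix (Fin 2) (Fin 2) ℤ) := by
    rw [← conjD_coe, ← conjD_coe, h]
  apply Subtype.ext; apply Subtype.ext
  ext i j
  fin_cases i <;> fin_cases j
  · simpa [conjDMat] using congrFun (congrFun hM 0) 0
  · have := congrFun (congrFun hM 0) 1
    simp only [conjDMat, Matrix.of_apply, Matrix.cons_val_zero, Matrix.cons_val_one,
      Matrix.cons_val_fin_one] at this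
    exact mul_left_cancel₀ ht' this
  · have := congrFun (congrFun hM 1) 0
    simp only [conjDMat, Matrix.of_apply, Matrix.cons_val_zero, Matrix.cons_val_one,
      Matrix.cons_val_fin_one] at this
    rw [hc, hc', Int.mul_ediv_cancel_left _ ht', Int.mul_ediv_cancel_left _ ht'] at this
    show ((γ : SL(2, ℤ)) : Matrix (Fin 2) (Fin 2) ℤ) 1 0 = ((γ' : SL(2, ℤ)) : Matrix (Fin 2) (Fin 2) ℤ) 1 0
    rw [hc, hc', this]
  · simpa [conjDMat] using congrFun (congrFun hM 1) 1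

/-- the image of `conjD`: `Γ₀(N) ∩ Γ⁰(t)` as a subgroup of `Γ₀(N)` -/
abbrev subD (N t : ℕ) [NeZero t] : Subgroup (Gamma0 N) := (conjD N t).range

theorem mem_subD_iff (N t : ℕ) [NeZero t] (g : Gamma0 N) :
    g ∈ subD N t ↔ (t : ℤ) ∣ ((g : SL(2, ℤ)) : Matrix (Fin 2) (Fin 2) ℤ) 0 1 := by
  have ht' : (t : ℤ) ≠ 0 := by exact_mod_cast NeZero.ne t
  constructor
  · rintro ⟨γ, rfl⟩
    rw [conjD_coe]
    simp [conjDMat]
  · rintro ⟨b, hb⟩
    obtain ⟨c, hc⟩ := Gamma0_dvd g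
    have hdet : ((g : SL(2, ℤ)) : Matrix (Fin 2) (Fin 2) ℤ) 0 0 *
        ((g : SL(2, ℤ)) : Matrix (Fin 2) (Fin 2) ℤ) 1 1 -
        ((g : SL(2, ℤ)) : Matrix (Fin 2) (Fin 2) ℤ) 0 1 *
        ((g : SL(2, ℤ)) : Matrix (Fin 2) (Fin 2) ℤ) 1 0 = 1 := by
      have := (g : SL(2, ℤ)).2
      rwa [Matrix.det_fin_two] at this
    let γ0 : SL(2, ℤ) := ⟨!![((g : SL(2, ℤ)) : Matrix (Fin 2) (Fin 2) ℤ) 0 0, b;
        t * ((g : SL(2, ℤ)) : Matrix (Fin 2) (Fin 2) ℤ) 1 0,
        ((g : SL(2, ℤ)) : Matrix (Fin 2) (Fin 2) ℤ) 1 1], by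
      rw [Matrix.det_fin_two_of]; rw [hb] at hdet; linear_combination hdet⟩
    have hγ0 : γ0 ∈ Gamma0 (N * t) := by
      apply mem_Gamma0_of_dvd
      show ((N * t : ℕ) : ℤ) ∣ t * ((g : SL(2, ℤ)) : Matrix (Fin 2) (Fin 2) ℤ) 1 0
      rw [hc]; exact ⟨c, by push_cast; ring⟩
    refine ⟨⟨γ0, hγ0⟩, ?_⟩
    apply Subtype.ext; apply Subtype.ext
    rw [conjD_coe]
    ext i j
    fin_cases i <;> fin_cases j
    · rfl
    · show (t : ℤ) * b = ((g : SL(2, ℤ)) : Matrix (Fin 2) (Fin 2) ℤ) 0 1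
      rw [hb]
    · show (t * ((g : SL(2, ℤ)) : Matrix (Fin 2) (Fin 2) ℤ) 1 0) / (t : ℤ) =
        ((g : SL(2, ℤ)) : Matrix (Fin 2) (Fin 2) ℤ) 1 0
      rw [Int.mul_ediv_cancel_left _ ht']
    · rfl

instance subD_finiteIndex (N t : ℕ) [NeZero t] : (subD N t).FiniteIndex := by
  have : ((Gamma t).subgroupOf (Gamma0 N)) ≤ subD N t := by
    intro g hg
    rw [mem_subD_iff]
    have h1 : (g : SL(2, ℤ)) ∈ Gamma t := hg
    rw [Gamma_mem] at h1
    exact (ZMod.intCast_zmod_eq_zero_iff_dvd _ _).mp h1.2.1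
  exact Subgroup.finiteIndex_of_le this

/-- the identification of `subD N t` with `Γ₀(Nt)` -/
noncomputable def subDEquiv (N t : ℕ) [NeZero t] : subD N t ≃* Gamma0 (N * t) :=
  (MonoidHom.ofInjective (conjD_injective N t)).symm

theorem conjD_subDEquiv (N t : ℕ) [NeZero t] (h : subD N t) :
    conjD N t (subDEquiv N t h) = (h : Gamma0 N) := by
  have := (MonoidHom.ofInjective (conjD_injective N t)).apply_symm_apply h
  exact congrArg Subtype.val this

section Homs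

variable {A : Type*} [AddCommGroup A]

/-- a hom on `Γ₀(Nt)` seen as a multiplicative hom on `subD N t` -/
noncomputable def toSubD (N t : ℕ) [NeZero t] (Ψ : Additive (Gamma0 (N * t)) →+ A) :
    subD N t →* Multiplicative A :=
  (AddMonoidHom.toMultiplicativeRight Ψ).comp (subDEquiv N t).toMonoidHom

theorem toSubD_apply (N t : ℕ) [NeZero t] (Ψ : Additive (Gamma0 (N * t)) →+ A) (h : subD N t) :
    toSubD N t Ψ h = Multiplicative.ofAdd (Ψ (Additive.ofMul (subDEquiv N t h))) := rfl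

/-- corestriction along `conjD` (adjoint of `resD`) -/
noncomputable def coresD (N t : ℕ) [NeZero t] (Ψ : Additive (Gamma0 (N * t)) →+ A) :
    Additive (Gamma0 N) →+ A :=
  MonoidHom.toAdditiveLeft (MonoidHom.transfer (toSubD N t Ψ))

theorem coresD_apply (N t : ℕ) [NeZero t] (Ψ : Additive (Gamma0 (N * t)) →+ A)
    (γ : Gamma0 N) :
    coresD N t Ψ (Additive.ofMul γ) =
      Multiplicative.toAdd (MonoidHom.transfer (toSubD N t Ψ) γ) := rfl

/-- the Hecke operator attached to `Γ₀(N) diag(1,q) Γ₀(N)`: `coresD ∘ res`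
(`= U_q` for `q ∣ N`, `= T_q` for `q ∤ N`). -/
noncomputable def heckeHomU (N q : ℕ) [NeZero q]
    (Φ : Additive (Gamma0 N) →+ A) : Additive (Gamma0 N) →+ A :=
  coresD N q (res N q Φ)

end Homs

end Fermat.Agent.S41Lib
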