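import Mathlib
import Fermat.Agent.S41.Bridge0
import Fermat.Agent.S41.IharaDefs2
import Fermat.Prelude.Def_ModularForm_HeckeOperator

/-!
# S41 library, bridge part 2: `heckeHomU` computed with a Hecke family of matrices
-/

set_option autoImplicit false

open scoped MatrixGroups
open CongruenceSubgroup Matrix.SpecialLinearGroup ModularForm

namespace Fermat.Agent.S41Lib

/-- entries of `mapGL ℝ g` -/
theorem mapGL_entry (g : SL(2, ℤ)) (i j : Fin 2) :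
    (mapGL ℝ g : GL (Fin 2) ℝ) i j = ((g i j : ℤ) : ℝ) := by
  simp

/-- If `D h = k D` with `D = diag(1,q)`, then `h ∈ Γ₀(M) ∩ Γ⁰(q)` and `k = D h D⁻¹`. -/
theorem key_conj {M q : ℕ} [NeZero q] (h k : Gamma0 M)
    (hk : heckeMatrix q 0 * mapGL ℝ (h : SL(2, ℤ)) = mapGL ℝ (k : SL(2, ℤ)) * heckeMatrix q 0) :
    ∃ hm : h ∈ subD M q, inclG M q (subDEquiv M q ⟨h, hm⟩) = k := by
  have hq : q ≠ 0 := NeZero.ne q
  have hqZ : (q : ℤ) ≠ 0 := by exact_mod_cast hq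
  have hE : ∀ i j : Fin 2, ((heckeMatrix q 0 * mapGL ℝ (h : SL(2, ℤ)) : GL (Fin 2) ℝ) :
      Matrix (Fin 2) (Fin 2) ℝ) i j =
      ((mapGL ℝ (k : SL(2, ℤ)) * heckeMatrix q 0 : GL (Fin 2) ℝ) :
      Matrix (Fin 2) (Fin 2) ℝ) i j := fun i j => by rw [hk]
  have e00 := hE 0 0
  have e01 := hE 0 1
  have e10 := hE 1 0
  have e11 := hE 1 1
  simp only [Units.val_mul, Matrix.mul_apply, Fin.sum_univ_two, val_heckeMatrix hq] at e00 e01 e10 e11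
  simp at e00 e01 e10 e11
  have f00 : (h : SL(2, ℤ)) 0 0 = (k : SL(2, ℤ)) 0 0 := by exact_mod_cast e00
  have f01 : (h : SL(2, ℤ)) 0 1 = (k : SL(2, ℤ)) 0 1 * q := by exact_mod_cast e01
  have f10 : (q : ℤ) * (h : SL(2, ℤ)) 1 0 = (k : SL(2, ℤ)) 1 0 := by exact_mod_cast e10
  have f11 : (h : SL(2, ℤ)) 1 1 = (k : SL(2, ℤ)) 1 1 := by
    have : (q : ℤ) * (h : SL(2, ℤ)) 1 1 = (k : SL(2, ℤ)) 1 1 * q := by exact_mod_cast e11
    have h2 : (q : ℤ) * (h : SL(2, ℤ)) 1 1 = q * (k : SL(2, ℤ)) 1 1 := by rw [this]; ring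
    exact mul_left_cancel₀ hqZ h2
  have hm : h ∈ subD M q := by
    rw [mem_subD_iff]
    refine ⟨(k : SL(2, ℤ)) 0 1, ?_⟩
    show (h : SL(2, ℤ)) 0 1 = _
    rw [f01]; ring
  refine ⟨hm, ?_⟩
  set k' := subDEquiv M q ⟨h, hm⟩ with hk'
  have hc : conjD M q k' = h := conjD_subDEquiv M q ⟨h, hm⟩
  have hM : conjDMat q ((k' : SL(2, ℤ)) : Matrix (Fin 2) (Fin 2) ℤ) =
      ((h : SL(2, ℤ)) : Matrix (Fin 2) (Fin 2) ℤ) := by rw [← conjD_coe, hc]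
  obtain ⟨c, hc'⟩ := dvd_of_Gamma0_mul k'
  have g00 := congrFun (congrFun hM 0) 0
  have g01 := congrFun (congrFun hM 0) 1
  have g10 := congrFun (congrFun hM 1) 0
  have g11 := congrFun (congrFun hM 1) 1
  simp only [conjDMat, Matrix.of_apply, Matrix.cons_val_zero, Matrix.cons_val_one,
      Matrix.cons_val_fin_one] at g00 g01 g10 g11
  rw [hc', Int.mul_ediv_cancel_left _ hqZ] at g10
  apply Subtype.ext; apply Subtype.ext
  ext i j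
  fin_cases i <;> fin_cases j
  · exact g00.trans f00
  · show ((k' : SL(2, ℤ)) : Matrix (Fin 2) (Fin 2) ℤ) 0 1 = (k : SL(2, ℤ)) 0 1
    have : (q : ℤ) * ((k' : SL(2, ℤ)) : Matrix (Fin 2) (Fin 2) ℤ) 0 1 = q * (k : SL(2, ℤ)) 0 1 := by
      rw [g01]
      show (h : SL(2, ℤ)) 0 1 = _
      rw [f01]; ring
    exact mul_left_cancel₀ hqZ this
  · show ((k' : SL(2, ℤ)) : Matrix (Fin 2) (Fin 2) ℤ) 1 0 = (k : SL(2, ℤ)) 1 0
    rw [hc', g10, ← f10]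
  · exact g11.trans f11

variable {A : Type*} [AddCommGroup A]

/-- `heckeHomU` computed with a family of matrices `B x = κ x · diag(1,q) · ρ x`. -/
theorem heckeHomU_eq_sum {M q : ℕ} [NeZero q] {X : Type*} [Fintype X]
    (B : X → GL (Fin 2) ℝ) (ρ κ : X → Gamma0 M)
    (hdec : ∀ x, B x = mapGL ℝ (κ x : SL(2, ℤ)) * heckeMatrix q 0 * mapGL ℝ (ρ x : SL(2, ℤ)))
    (hrep : Function.Bijective (fun x => (((ρ x)⁻¹ : Gamma0 M) : Gamma0 M ⧸ subD M q)))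
    (Φ : Additive (Gamma0 M) →+ A) (γ : Gamma0 M) (σ : Equiv.Perm X) (γ' : X → Gamma0 M)
    (h : ∀ x, B x * mapGL ℝ (γ : SL(2, ℤ)) = mapGL ℝ (γ' x : SL(2, ℤ)) * B (σ x)) :
    heckeHomU M q Φ (Additive.ofMul γ) = ∑ x, Φ (Additive.ofMul (γ' x)) := by
  classical
  have hkey : ∀ x, ∃ hm : ρ x * γ * (ρ (σ x))⁻¹ ∈ subD M q,
      inclG M q (subDEquiv M q ⟨ρ x * γ * (ρ (σ x))⁻¹, hm⟩) = (κ x)⁻¹ * γ' x * κ (σ x) := by
    intro x
    apply key_conj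
    have h1 := h x
    rw [hdec x, hdec (σ x)] at h1
    simp only [Subgroup.coe_mul, Subgroup.coe_inv, map_mul, map_inv]
    have h2 : heckeMatrix q 0 * mapGL ℝ (ρ x : SL(2, ℤ)) * mapGL ℝ (γ : SL(2, ℤ)) =
        (mapGL ℝ (κ x : SL(2, ℤ)))⁻¹ * mapGL ℝ (γ' x : SL(2, ℤ)) * mapGL ℝ (κ (σ x) : SL(2, ℤ)) *
          heckeMatrix q 0 * mapGL ℝ (ρ (σ x) : SL(2, ℤ)) := by
      rw [eq_comm, mul_assoc, mul_assoc, mul_assoc, inv_mul_eq_iff_eq_mul]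
      simp only [mul_assoc] at h1 ⊢
      exact h1.symm
    calc heckeMatrix q 0 * (mapGL ℝ (ρ x : SL(2, ℤ)) * mapGL ℝ (γ : SL(2, ℤ)) *
          (mapGL ℝ (ρ (σ x) : SL(2, ℤ)))⁻¹)
        = (heckeMatrix q 0 * mapGL ℝ (ρ x : SL(2, ℤ)) * mapGL ℝ (γ : SL(2, ℤ))) *
          (mapGL ℝ (ρ (σ x) : SL(2, ℤ)))⁻¹ := by simp only [mul_assoc]
      _ = _ := by rw [h2]; simp only [mul_assoc, mul_inv_cancel, mul_one]
  have hπ : ∀ i, ((ρ (σ.symm i))⁻¹)⁻¹ * γ * (ρ i)⁻¹ ∈ subD M q := by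
    intro i
    obtain ⟨hm, -⟩ := hkey (σ.symm i)
    simpa using hm
  show coresD M q (res M q Φ) (Additive.ofMul γ) = _
  rw [coresD_apply, transfer_eq_prod_of_reps (toSubD M q (res M q Φ)) (fun x => (ρ x)⁻¹) hrep γ
    σ.symm hπ, toAdd_prod]
  rw [← Equiv.sum_comp σ]
  have hterm : ∀ x, Multiplicative.toAdd (toSubD M q (res M q Φ)
      ⟨((ρ (σ.symm (σ x)))⁻¹)⁻¹ * γ * (ρ (σ x))⁻¹, hπ (σ x)⟩) =
      - Φ (Additive.ofMul (κ x)) + Φ (Additive.ofMul (γ' x)) + Φ (Additive.ofMul (κ (σ x))) := by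
    intro x
    obtain ⟨hm, hk⟩ := hkey x
    have e1 : (⟨((ρ (σ.symm (σ x)))⁻¹)⁻¹ * γ * (ρ (σ x))⁻¹, hπ (σ x)⟩ : subD M q) =
        ⟨ρ x * γ * (ρ (σ x))⁻¹, hm⟩ := by
      apply Subtype.ext
      simp
    rw [e1, toSubD_apply, toAdd_ofAdd, res_apply, hk]
    rw [ofMul_mul, ofMul_mul, ofMul_inv, map_add, map_add, map_neg]
  simp only [hterm, Finset.sum_add_distrib, Finset.sum_neg_distrib]
  rw [Equiv.sum_comp σ (fun x => Φ (Additive.ofMul (κ x)))]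
  abel

end Fermat.Agent.S41Lib
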