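import Mathlib
import Fermat.Agent.S41.Bridge2
import Fermat.Prelude.Thm_ModularForm_heckeT_slash_eq_self_of_mem_Gamma0

/-!
# S41 library, bridge part 3: explicit coset representatives for `Γ₀(M) / (Γ₀(M) ∩ Γ⁰(q))`
-/

set_option autoImplicit false

open scoped MatrixGroups
open CongruenceSubgroup Matrix.SpecialLinearGroup ModularForm
open P2MW.S_ModularForm_heckeT_slash_eq_self_of_mem_Gamma0.ModularForm.HeckeSlashInvariance

namespace Fermat.Agent.S41Lib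

/-- the translation `[[1,j],[0,1]]` as an element of `Γ₀(M)` -/
def tauG (M : ℕ) (j : ℤ) : Gamma0 M :=
  ⟨⟨!![1, j; 0, 1], by simp [Matrix.det_fin_two_of]⟩, by
    apply mem_Gamma0_of_dvd
    simp⟩

theorem tauG_coe (M : ℕ) (j : ℤ) :
    (((tauG M j : Gamma0 M) : SL(2, ℤ)) : Matrix (Fin 2) (Fin 2) ℤ) = !![1, j; 0, 1] := rfl

theorem det_eq' (g : SL(2, ℤ)) : g 0 0 * g 1 1 - g 0 1 * g 1 0 = 1 := by
  have h := g.det_coe
  rwa [Matrix.det_fin_two] at h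

theorem mul_inv_entry {M : ℕ} (g₁ g₂ : Gamma0 M) :
    (((g₁ * g₂⁻¹ : Gamma0 M) : SL(2, ℤ)) : Matrix (Fin 2) (Fin 2) ℤ) 0 1 =
      - ((g₁ : SL(2, ℤ)) 0 0 * (g₂ : SL(2, ℤ)) 0 1) + (g₁ : SL(2, ℤ)) 0 1 * (g₂ : SL(2, ℤ)) 0 0 := by
  simp only [Subgroup.coe_mul, Subgroup.coe_inv, Matrix.SpecialLinearGroup.coe_mul,
    Matrix.SpecialLinearGroup.coe_inv, Matrix.adjugate_fin_two, Matrix.mul_apply, Fin.sum_univ_two]
  simp

theorem mul_entry {M : ℕ} (g₁ g₂ : Gamma0 M) :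
    (((g₁ * g₂ : Gamma0 M) : SL(2, ℤ)) : Matrix (Fin 2) (Fin 2) ℤ) 0 1 =
      (g₁ : SL(2, ℤ)) 0 0 * (g₂ : SL(2, ℤ)) 0 1 + (g₁ : SL(2, ℤ)) 0 1 * (g₂ : SL(2, ℤ)) 1 1 := by
  simp only [Subgroup.coe_mul, Matrix.SpecialLinearGroup.coe_mul, Matrix.mul_apply,
    Fin.sum_univ_two]

theorem mk_inv_eq_mk_inv_iff {M q : ℕ} [NeZero q] (g₁ g₂ : Gamma0 M) :
    ((g₁⁻¹ : Gamma0 M) : Gamma0 M ⧸ subD M q) = ((g₂⁻¹ : Gamma0 M) : Gamma0 M ⧸ subD M q) ↔
      (q : ℤ) ∣ - ((g₁ : SL(2, ℤ)) 0 0 * (g₂ : SL(2, ℤ)) 0 1) +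
        (g₁ : SL(2, ℤ)) 0 1 * (g₂ : SL(2, ℤ)) 0 0 := by
  rw [QuotientGroup.eq, inv_inv, mem_subD_iff, mul_inv_entry]

theorem mk_inv_eq_mk_iff {M q : ℕ} [NeZero q] (g₁ g : Gamma0 M) :
    ((g₁⁻¹ : Gamma0 M) : Gamma0 M ⧸ subD M q) = (g : Gamma0 M ⧸ subD M q) ↔
      (q : ℤ) ∣ (g₁ : SL(2, ℤ)) 0 0 * (g : SL(2, ℤ)) 0 1 +
        (g₁ : SL(2, ℤ)) 0 1 * (g : SL(2, ℤ)) 1 1 := by
  rw [QuotientGroup.eq, inv_inv, mem_subD_iff, mul_entry]

theorem heckeMatrix_eq_mul_tau (M q : ℕ) [NeZero q] (j : ℕ) :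
    heckeMatrix q j = mapGL ℝ ((1 : Gamma0 M) : SL(2, ℤ)) * heckeMatrix q 0 *
      mapGL ℝ ((tauG M j : Gamma0 M) : SL(2, ℤ)) := by
  have hq : q ≠ 0 := NeZero.ne q
  ext i k
  simp only [Units.val_mul, Matrix.mul_apply, Fin.sum_univ_two, val_heckeMatrix hq, mapGL_entry]
  have e00 : ((tauG M j : Gamma0 M) : SL(2, ℤ)) 0 0 = 1 := rfl
  have e01 : ((tauG M j : Gamma0 M) : SL(2, ℤ)) 0 1 = j := rfl
  have e10 : ((tauG M j : Gamma0 M) : SL(2, ℤ)) 1 0 = 0 := rfl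
  have e11 : ((tauG M j : Gamma0 M) : SL(2, ℤ)) 1 1 = 1 := rfl
  fin_cases i <;> fin_cases k <;> simp [e00, e01, e10, e11]

/-- the translations `τ_j` represent `Γ₀(M) / (Γ₀(M) ∩ Γ⁰(q))` when `q ∣ M`. -/
theorem rep_U {M q : ℕ} [NeZero q] (hqM : q ∣ M) :
    Function.Bijective (fun x : ZMod q =>
      (((tauG M x.val)⁻¹ : Gamma0 M) : Gamma0 M ⧸ subD M q)) := by
  constructor
  · intro x y hxy
    have h1 := (mk_inv_eq_mk_inv_iff _ _).1 hxy
    have h2 : (q : ℤ) ∣ -(y.val : ℤ) + x.val := by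
      simpa [tauG] using h1
    rw [← ZMod.intCast_zmod_eq_zero_iff_dvd] at h2
    push_cast at h2
    rw [ZMod.natCast_zmod_val, ZMod.natCast_zmod_val] at h2
    linear_combination h2
  · intro c
    induction c using QuotientGroup.induction_on with
    | H g =>
      have hc : (((g : SL(2, ℤ)) 1 0 : ℤ) : ZMod q) = 0 := by
        rw [ZMod.intCast_zmod_eq_zero_iff_dvd]
        exact (Int.natCast_dvd_natCast.mpr hqM).trans (Gamma0_dvd g)
      have hdet := congrArg (Int.cast : ℤ → ZMod q) (det_eq' (g : SL(2, ℤ)))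
      push_cast at hdet
      refine ⟨-(((g : SL(2, ℤ)) 0 1 : ℤ) : ZMod q) * (((g : SL(2, ℤ)) 0 0 : ℤ) : ZMod q), ?_⟩
      show (((tauG M _)⁻¹ : Gamma0 M) : Gamma0 M ⧸ subD M q) = _
      rw [mk_inv_eq_mk_iff, ← ZMod.intCast_zmod_eq_zero_iff_dvd]
      simp only [tauG]
      push_cast
      simp only [Matrix.of_apply, Matrix.cons_val_zero,
        Matrix.cons_val_one, Matrix.cons_val_fin_one]
      push_cast
      rw [ZMod.natCast_zmod_val]
      linear_combination (-(((g : SL(2, ℤ)) 0 1 : ℤ) : ZMod q)) * hdet -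
        (((g : SL(2, ℤ)) 0 1 : ℤ) : ZMod q) * (((g : SL(2, ℤ)) 0 1 : ℤ) : ZMod q) * hc

variable {A : Type*} [AddCommGroup A]

/-- `heckeHomU M q` for `q ∣ M` computed with the matrices `[[1,j],[0,q]]`. -/
theorem heckeHomU_eq_sum_U {M q : ℕ} [NeZero q] (hqM : q ∣ M)
    (Φ : Additive (Gamma0 M) →+ A) (γ : Gamma0 M) (σ : Equiv.Perm (ZMod q))
    (γ' : ZMod q → Gamma0 M)
    (h : ∀ x : ZMod q, heckeMatrix q x.val * mapGL ℝ (γ : SL(2, ℤ)) =
      mapGL ℝ (γ' x : SL(2, ℤ)) * heckeMatrix q (σ x).val) :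
    heckeHomU M q Φ (Additive.ofMul γ) = ∑ x, Φ (Additive.ofMul (γ' x)) :=
  heckeHomU_eq_sum (fun x : ZMod q => heckeMatrix q x.val) (fun x => tauG M x.val) (fun _ => 1)
    (fun x => heckeMatrix_eq_mul_tau M q x.val) (rep_U hqM) Φ γ σ γ' h

section Tcase

variable {M q : ℕ}

/-- the extra representative `[[q,-v],[M,u]]` -/
def g0 (M q : ℕ) (u v : ℤ) (h : (q : ℤ) * u + M * v = 1) : Gamma0 M :=
  ⟨⟨!![(q : ℤ), -v; (M : ℤ), u], by rw [Matrix.det_fin_two_of]; linear_combination h⟩, by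
    apply mem_Gamma0_of_dvd
    simp⟩

/-- the matrix `κ` with `diag(q,1) = κ · diag(1,q) · g0` -/
def k0 (M q : ℕ) (u v : ℤ) (h : (q : ℤ) * u + M * v = 1) : Gamma0 M :=
  ⟨⟨!![(q : ℤ) * u, v; -(M : ℤ), 1], by rw [Matrix.det_fin_two_of]; linear_combination h⟩, by
    apply mem_Gamma0_of_dvd
    simp⟩

theorem heckeDiagMatrix_eq_mul [NeZero q] (u v : ℤ) (h : (q : ℤ) * u + M * v = 1) :
    heckeDiagMatrix q = mapGL ℝ ((k0 M q u v h : Gamma0 M) : SL(2, ℤ)) * heckeMatrix q 0 *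
      mapGL ℝ ((g0 M q u v h : Gamma0 M) : SL(2, ℤ)) := by
  have hq : q ≠ 0 := NeZero.ne q
  have hR : (q : ℝ) * u + M * v = 1 := by exact_mod_cast h
  ext i k
  simp only [Units.val_mul, Matrix.mul_apply, Fin.sum_univ_two, val_heckeMatrix hq,
    val_heckeDiagMatrix hq, mapGL_entry]
  have e00 : ((g0 M q u v h : Gamma0 M) : SL(2, ℤ)) 0 0 = q := rfl
  have e01 : ((g0 M q u v h : Gamma0 M) : SL(2, ℤ)) 0 1 = -v := rfl
  have e10 : ((g0 M q u v h : Gamma0 M) : SL(2, ℤ)) 1 0 = M := rfl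
  have e11 : ((g0 M q u v h : Gamma0 M) : SL(2, ℤ)) 1 1 = u := rfl
  have f00 : ((k0 M q u v h : Gamma0 M) : SL(2, ℤ)) 0 0 = q * u := rfl
  have f01 : ((k0 M q u v h : Gamma0 M) : SL(2, ℤ)) 0 1 = v := rfl
  have f10 : ((k0 M q u v h : Gamma0 M) : SL(2, ℤ)) 1 0 = -M := rfl
  have f11 : ((k0 M q u v h : Gamma0 M) : SL(2, ℤ)) 1 1 = 1 := rfl
  fin_cases i <;> fin_cases k <;> simp [e00, e01, e10, e11, f00, f01, f10, f11]
  · linear_combination (-(q : ℝ)) * hR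
  · ring
  · ring
  · linear_combination (-1 : ℝ) * hR

/-- representatives indexed by `ℙ¹(𝔽_q)` -/
def rhoT (M q : ℕ) (u v : ℤ) (h : (q : ℤ) * u + M * v = 1) (x : OnePoint (ZMod q)) : Gamma0 M :=
  x.elim (g0 M q u v h) (fun j => tauG M j.val)

def kappaT (M q : ℕ) (u v : ℤ) (h : (q : ℤ) * u + M * v = 1) (x : OnePoint (ZMod q)) : Gamma0 M :=
  x.elim (k0 M q u v h) (fun _ => 1)

theorem not_dvd_v [Fact q.Prime] (u v : ℤ) (h : (q : ℤ) * u + M * v = 1) : ¬ (q : ℤ) ∣ v := by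
  intro hv
  have h1 : (q : ℤ) ∣ 1 := by
    rw [← h]
    exact dvd_add (Dvd.intro _ rfl) (hv.mul_left _)
  have h2 := Int.natCast_dvd_natCast.mp (by simpa using h1 : ((q : ℕ) : ℤ) ∣ ((1 : ℕ) : ℤ))
  exact (Fact.out : q.Prime).one_lt.ne' (Nat.dvd_one.mp h2)

theorem rep_T [Fact q.Prime] [NeZero q] (u v : ℤ) (h : (q : ℤ) * u + M * v = 1) :
    Function.Bijective (fun x : OnePoint (ZMod q) =>
      (((rhoT M q u v h x)⁻¹ : Gamma0 M) : Gamma0 M ⧸ subD M q)) := by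
  have e00 : ((g0 M q u v h : Gamma0 M) : SL(2, ℤ)) 0 0 = q := rfl
  have e01 : ((g0 M q u v h : Gamma0 M) : SL(2, ℤ)) 0 1 = -v := rfl
  have t00 : ∀ j : ℤ, ((tauG M j : Gamma0 M) : SL(2, ℤ)) 0 0 = 1 := fun _ => rfl
  have t01 : ∀ j : ℤ, ((tauG M j : Gamma0 M) : SL(2, ℤ)) 0 1 = j := fun _ => rfl
  constructor
  · intro x y hxy
    have h1 := (mk_inv_eq_mk_inv_iff _ _).1 hxy
    induction x using OnePoint.rec with
    | infty =>
      induction y using OnePoint.rec with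
      | infty => rfl
      | coe y =>
        exfalso
        have h2 : (q : ℤ) ∣ -((q : ℤ) * (y.val : ℤ)) + -v * 1 := by
          simpa [rhoT, e00, e01, t00, t01] using h1
        apply not_dvd_v u v h
        have h3 : (q : ℤ) ∣ (q : ℤ) * (y.val : ℤ) := Dvd.intro _ rfl
        have := dvd_add h2 h3
        have h4 : -((q : ℤ) * (y.val : ℤ)) + -v * 1 + (q : ℤ) * (y.val : ℤ) = -v := by ring
        rw [h4] at this
        exact (dvd_neg.mp this)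
    | coe x =>
      induction y using OnePoint.rec with
      | infty =>
        exfalso
        have h2 : (q : ℤ) ∣ -(1 * -v) + (x.val : ℤ) * (q : ℤ) := by
          simpa [rhoT, e00, e01, t00, t01] using h1
        apply not_dvd_v u v h
        have h3 : (q : ℤ) ∣ (x.val : ℤ) * (q : ℤ) := Dvd.intro_left _ rfl
        have := dvd_sub h2 h3
        have h4 : -(1 * -v) + (x.val : ℤ) * (q : ℤ) - (x.val : ℤ) * (q : ℤ) = v := by ring
        rwa [h4] at this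
      | coe y =>
        have h2 : (q : ℤ) ∣ -(y.val : ℤ) + x.val := by
          simpa [rhoT, t00, t01] using h1
        rw [← ZMod.intCast_zmod_eq_zero_iff_dvd] at h2
        push_cast at h2
        rw [ZMod.natCast_zmod_val, ZMod.natCast_zmod_val] at h2
        congr 1
        linear_combination h2
  · intro c
    induction c using QuotientGroup.induction_on with
    | H g =>
      by_cases hd : (((g : SL(2, ℤ)) 1 1 : ℤ) : ZMod q) = 0
      · refine ⟨OnePoint.infty, ?_⟩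
        show (((g0 M q u v h)⁻¹ : Gamma0 M) : Gamma0 M ⧸ subD M q) = _
        rw [mk_inv_eq_mk_iff, e00, e01]
        rw [ZMod.intCast_zmod_eq_zero_iff_dvd] at hd
        exact dvd_add (Dvd.intro _ rfl) (hd.mul_left _)
      · refine ⟨((-(((g : SL(2, ℤ)) 0 1 : ℤ) : ZMod q) / (((g : SL(2, ℤ)) 1 1 : ℤ) : ZMod q) :
          ZMod q) : OnePoint (ZMod q)), ?_⟩
        show (((tauG M _)⁻¹ : Gamma0 M) : Gamma0 M ⧸ subD M q) = _
        rw [mk_inv_eq_mk_iff, ← ZMod.intCast_zmod_eq_zero_iff_dvd, t00, t01]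
        push_cast
        rw [ZMod.natCast_zmod_val]
        field_simp
        ring

/-- `heckeHomU M q` for a prime `q ∤ M` computed with the standard matrices of `T_q`. -/
theorem heckeHomU_eq_sum_T [Fact q.Prime] [NeZero q] (hqM : ¬ q ∣ M)
    (Φ : Additive (Gamma0 M) →+ A) (γ : Gamma0 M) (σ : Equiv.Perm (OnePoint (ZMod q)))
    (γ' : OnePoint (ZMod q) → Gamma0 M)
    (h : ∀ x : OnePoint (ZMod q), heckeRep q x * mapGL ℝ (γ : SL(2, ℤ)) =
      mapGL ℝ (γ' x : SL(2, ℤ)) * heckeRep q (σ x)) :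
    heckeHomU M q Φ (Additive.ofMul γ) = ∑ x, Φ (Additive.ofMul (γ' x)) := by
  have hcop : IsCoprime (q : ℤ) (M : ℤ) :=
    Nat.isCoprime_iff_coprime.mpr ((Nat.Prime.coprime_iff_not_dvd Fact.out).mpr hqM)
  obtain ⟨u, v, huv⟩ := hcop
  have huv' : (q : ℤ) * u + M * v = 1 := by linear_combination huv
  refine heckeHomU_eq_sum (heckeRep q) (rhoT M q u v huv') (kappaT M q u v huv') ?_
    (rep_T u v huv') Φ γ σ γ' h
  intro x
  induction x using OnePoint.rec with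
  | infty => exact heckeDiagMatrix_eq_mul u v huv'
  | coe j => exact heckeMatrix_eq_mul_tau M q j.val

end Tcase

end Fermat.Agent.S41Lib
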