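import Mathlib
import Fermat.Agent.S41.Bridge1
import Fermat.Agent.S41.Bridge3
import Fermat.Prelude.Def_ModularForm_HeckeOperatorForms

/-!
# S41 library, bridge part 4: the period map intertwines `T_ℓ`, `U_q` with `heckeHomU`
-/

set_option autoImplicit false

open scoped MatrixGroups ModularForm
open CongruenceSubgroup Matrix.SpecialLinearGroup ModularForm UpperHalfPlane
open P2MW.S_ModularForm_heckeT_slash_eq_self_of_mem_Gamma0.ModularForm.HeckeSlashInvariance
open Fermat.Agent.S21Lib ModularCurve ModularCurve.Period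

namespace Fermat.Agent.S41Lib

theorem det_heckeRep_pos (p : ℕ) (x : OnePoint (ZMod p)) : 0 < (heckeRep p x).val.det := by
  rw [← Matrix.GeneralLinearGroup.val_det_apply]
  induction x using OnePoint.rec with
  | infty => exact det_heckeDiagMatrix_pos p
  | coe j => exact det_heckeMatrix_pos p j.val

/-- (BR1) the period map intertwines `T_ℓ` and `heckeHomU N ℓ`. -/
theorem periodMap_heckeTLin {N l : ℕ} [NeZero N] [NeZero l] (hl : l.Prime) (hlN : ¬ l ∣ N)
    (f : CuspForm (Gamma0 N) 2) :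
    periodMap N (CuspForm.heckeTLin 2 hl hlN f) = heckeHomU N l (periodMap N f) := by
  have : Fact l.Prime := ⟨hl⟩
  refine AddMonoidHom.ext fun γ => ?_
  obtain ⟨γ, rfl⟩ := Additive.ofMul.surjective γ
  have hex : ∀ x : OnePoint (ZMod l), ∃ g' : Gamma0 N,
      heckeRep l x * mapGL ℝ (γ : SL(2, ℤ)) =
        mapGL ℝ (g' : SL(2, ℤ)) * heckeRep l (redMatrix l (γ : SL(2, ℤ)) • x) := by
    intro x
    obtain ⟨g', hg', hmul⟩ := heckeRep_mul hlN (γ : SL(2, ℤ)) (Gamma0_dvd γ) x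
    exact ⟨⟨g', mem_Gamma0_of_dvd hg'⟩, hmul⟩
  choose γ' hγ' using hex
  rw [heckeHomU_eq_sum_T hlN (periodMap N f) γ (MulAction.toPerm (redMatrix l (γ : SL(2, ℤ)))) γ'
    hγ', periodMap_apply']
  simp only [periodMap_apply']
  refine per_of_family f _ (heckeRep l) (det_heckeRep_pos l) ?_ γ
    (MulAction.toPerm (redMatrix l (γ : SL(2, ℤ)))) γ' hγ'
  rw [CuspForm.coe_heckeTLin_apply, heckeT_eq_sum_onePoint]

/-- (BR2) the period map intertwines `U_q` and `heckeHomU M q`. -/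
theorem periodMap_heckeULin {M q : ℕ} [NeZero M] [NeZero q] (hqM : q ∣ M)
    (f : CuspForm (Gamma0 M) 2) :
    periodMap M (CuspForm.heckeULin 2 hqM f) = heckeHomU M q (periodMap M f) := by
  refine AddMonoidHom.ext fun γ => ?_
  obtain ⟨γ, rfl⟩ := Additive.ofMul.surjective γ
  have hc : (q : ℤ) ∣ (γ : SL(2, ℤ)) 1 0 := (Int.natCast_dvd_natCast.mpr hqM).trans (Gamma0_dvd γ)
  have hex : ∀ x : ZMod q, ∃ g' : Gamma0 M,
      heckeMatrix q x.val * mapGL ℝ (γ : SL(2, ℤ)) =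
        mapGL ℝ (g' : SL(2, ℤ)) * heckeMatrix q
          (affinePerm (γ : SL(2, ℤ)) ((ZMod.intCast_zmod_eq_zero_iff_dvd _ _).mpr hc) x).val := by
    intro x
    obtain ⟨g', hg', hmul⟩ := heckeMatrix_mul_of_dvd (γ : SL(2, ℤ)) hc x
    refine ⟨⟨g', mem_Gamma0_of_dvd ?_⟩, hmul⟩
    show (M : ℤ) ∣ g' 1 0
    rw [hg']
    exact (Gamma0_dvd γ).mul_left _
  choose γ' hγ' using hex
  rw [heckeHomU_eq_sum_U hqM (periodMap M f) γ
    (affinePerm (γ : SL(2, ℤ)) ((ZMod.intCast_zmod_eq_zero_iff_dvd _ _).mpr hc)) γ' hγ',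
    periodMap_apply']
  simp only [periodMap_apply']
  refine per_of_family f _ (fun x : ZMod q => heckeMatrix q x.val) (fun x => ?_) ?_ γ
    (affinePerm (γ : SL(2, ℤ)) ((ZMod.intCast_zmod_eq_zero_iff_dvd _ _).mpr hc)) γ' hγ'
  · rw [← Matrix.GeneralLinearGroup.val_det_apply]
    exact det_heckeMatrix_pos q x.val
  · rw [CuspForm.coe_heckeULin_apply, heckeU_eq_sum_zmod]

end Fermat.Agent.S41Lib
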