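import Mathlib

/-!
# S41 library: two evaluations of the transfer homomorphism
-/

set_option autoImplicit false

namespace Fermat.Agent.S41Lib

open Subgroup MulAction

variable {G : Type*} [Group G] {H : Subgroup G} {A : Type*} [CommGroup A] (ϕ : H →* A)

/-- If every conjugate of every power of `g` that lies in `H` is killed by `ϕ`,
the transfer of `ϕ` kills `g`. -/
theorem transfer_eq_one_of_conj_pow [FiniteIndex H] (g : G)
    (key : ∀ (k : ℕ) (x : G) (h : x⁻¹ * g ^ k * x ∈ H), ϕ ⟨x⁻¹ * g ^ k * x, h⟩ = 1) :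
    MonoidHom.transfer ϕ g = 1 := by
  classical
  let := H.fintypeQuotientOfFiniteIndex
  rw [MonoidHom.transfer_eq_prod_quotient_orbitRel_zpowers_quot]
  exact Finset.prod_eq_one fun q _ => key _ _ _

/-- If all conjugates of `g` lie in `H` and `ϕ` takes the constant value `c` on them,
the transfer of `ϕ` at `g` is `c ^ [G:H]`. -/
theorem transfer_eq_pow_of_conj [FiniteIndex H] (g : G) (hg : ∀ x : G, x⁻¹ * g * x ∈ H) (c : A)
    (hc : ∀ x : G, ϕ ⟨x⁻¹ * g * x, hg x⟩ = c) :
    MonoidHom.transfer ϕ g = c ^ H.index := by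
  classical
  let := H.fintypeQuotientOfFiniteIndex
  let T : H.LeftTransversal := default
  rw [MonoidHom.transfer_def ϕ T g, leftTransversals.diff]
  have hfix : ∀ q : G ⧸ H, g⁻¹ • q = q := by
    intro q
    induction q using QuotientGroup.induction_on with
    | H x =>
      show ((g⁻¹ * x : G) : G ⧸ H) = x
      rw [QuotientGroup.eq]
      have := hg x
      simpa [mul_assoc] using this
  have : ∀ q : G ⧸ H, ϕ ⟨((T.2.leftQuotientEquiv q : G))⁻¹ * ((g • T).2.leftQuotientEquiv q : G),
      QuotientGroup.leftRel_apply.mp <| Quotient.exact'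
        (((T.2.leftQuotientEquiv).symm_apply_apply q).trans
          (((g • T).2.leftQuotientEquiv).symm_apply_apply q).symm)⟩ = c := by
    intro q
    rw [← hc (T.2.leftQuotientEquiv q : G)]
    congr 1
    apply Subtype.ext
    show (T.2.leftQuotientEquiv q : G)⁻¹ * ((g • T).2.leftQuotientEquiv q : G) =
      (T.2.leftQuotientEquiv q : G)⁻¹ * g * (T.2.leftQuotientEquiv q : G)
    have h1 := smul_apply_eq_smul_apply_inv_smul g T q
    rw [h1, hfix q, smul_eq_mul, mul_assoc]
  rw [Finset.prod_congr rfl (fun q _ => this q), Finset.prod_const, Finset.card_univ,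
    Subgroup.index, Nat.card_eq_fintype_card]

end Fermat.Agent.S41Lib
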