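import Mathlib
import Fermat.Agent.S41.Bridge0
import Fermat.Agent.S41.IharaDefs2
import Fermat.Agent.S41.IharaTransfer
import Fermat.Prelude.Def_ModularCurve_PeriodHomPair

/-!
# S41 library, bridge part 5: formal properties of `heckeHomU`
(naturality in the coefficients, additivity, compatibility with the involution `J`,
preservation of parabolic classes)
-/

set_option autoImplicit false

open scoped MatrixGroups
open CongruenceSubgroup ModularCurve.Period

namespace Fermat.Agent.S41Lib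

section General

variable {G : Type*} [Group G] {H : Subgroup G} {A A' : Type*} [CommGroup A] [CommGroup A']

theorem transfer_comp_left [H.FiniteIndex] (f : A →* A') (ϕ : H →* A) (g : G) :
    MonoidHom.transfer (f.comp ϕ) g = f (MonoidHom.transfer ϕ g) := by
  rw [MonoidHom.transfer_def ϕ default, MonoidHom.transfer_def (f.comp ϕ) default]
  unfold Subgroup.leftTransversals.diff
  simp only [map_prod, MonoidHom.comp_apply]

theorem transfer_mul_hom' [H.FiniteIndex] (ϕ ψ : H →* A) (g : G) :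
    MonoidHom.transfer (ϕ * ψ) g = MonoidHom.transfer ϕ g * MonoidHom.transfer ψ g := by
  rw [MonoidHom.transfer_def ϕ default, MonoidHom.transfer_def ψ default,
    MonoidHom.transfer_def (ϕ * ψ) default]
  unfold Subgroup.leftTransversals.diff
  simp only [MonoidHom.mul_apply, Finset.prod_mul_distrib]

end General

section Nat

variable {A A' : Type*} [AddCommGroup A] [AddCommGroup A']

theorem res_comp (N t : ℕ) (ξ : A →+ A') (Φ : Additive (Gamma0 N) →+ A) :
    res N t (ξ.comp Φ) = ξ.comp (res N t Φ) := rfl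

theorem resD_comp (N t : ℕ) [NeZero t] (ξ : A →+ A') (Φ : Additive (Gamma0 N) →+ A) :
    resD N t (ξ.comp Φ) = ξ.comp (resD N t Φ) := rfl

theorem coresD_comp (N t : ℕ) [NeZero t] (ξ : A →+ A') (Ψ : Additive (Gamma0 (N * t)) →+ A) :
    coresD N t (ξ.comp Ψ) = ξ.comp (coresD N t Ψ) := by
  refine AddMonoidHom.ext fun γ => ?_
  obtain ⟨γ, rfl⟩ := Additive.ofMul.surjective γ
  rw [AddMonoidHom.comp_apply, coresD_apply, coresD_apply]
  have : toSubD N t (ξ.comp Ψ) = (AddMonoidHom.toMultiplicative ξ).comp (toSubD N t Ψ) := rfl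
  rw [this, transfer_comp_left]
  rfl

theorem cores_comp (N t : ℕ) [NeZero (N * t)] (ξ : A →+ A') (Ψ : Additive (Gamma0 (N * t)) →+ A) :
    cores N t (ξ.comp Ψ) = ξ.comp (cores N t Ψ) := by
  refine AddMonoidHom.ext fun γ => ?_
  obtain ⟨γ, rfl⟩ := Additive.ofMul.surjective γ
  rw [AddMonoidHom.comp_apply, cores_apply, cores_apply]
  have : toSub N t (ξ.comp Ψ) = (AddMonoidHom.toMultiplicative ξ).comp (toSub N t Ψ) := rfl
  rw [this, transfer_comp_left]
  rfl

theorem heckeHomU_comp (N q : ℕ) [NeZero q] (ξ : A →+ A') (Φ : Additive (Gamma0 N) →+ A) :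
    heckeHomU N q (ξ.comp Φ) = ξ.comp (heckeHomU N q Φ) := by
  unfold heckeHomU
  rw [res_comp, coresD_comp]

theorem coresD_add (N t : ℕ) [NeZero t] (Ψ₁ Ψ₂ : Additive (Gamma0 (N * t)) →+ A) :
    coresD N t (Ψ₁ + Ψ₂) = coresD N t Ψ₁ + coresD N t Ψ₂ := by
  refine AddMonoidHom.ext fun γ => ?_
  obtain ⟨γ, rfl⟩ := Additive.ofMul.surjective γ
  rw [AddMonoidHom.add_apply, coresD_apply, coresD_apply, coresD_apply]
  have : toSubD N t (Ψ₁ + Ψ₂) = toSubD N t Ψ₁ * toSubD N t Ψ₂ := rfl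
  rw [this, transfer_mul_hom']
  rfl

theorem cores_add (N t : ℕ) [NeZero (N * t)] (Ψ₁ Ψ₂ : Additive (Gamma0 (N * t)) →+ A) :
    cores N t (Ψ₁ + Ψ₂) = cores N t Ψ₁ + cores N t Ψ₂ := by
  refine AddMonoidHom.ext fun γ => ?_
  obtain ⟨γ, rfl⟩ := Additive.ofMul.surjective γ
  rw [AddMonoidHom.add_apply, cores_apply, cores_apply, cores_apply]
  have : toSub N t (Ψ₁ + Ψ₂) = toSub N t Ψ₁ * toSub N t Ψ₂ := rfl
  rw [this, transfer_mul_hom']
  rfl

/-- `coresD` as an additive map -/
noncomputable def coresDA (N t : ℕ) [NeZero t] :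
    (Additive (Gamma0 (N * t)) →+ A) →+ (Additive (Gamma0 N) →+ A) :=
  AddMonoidHom.mk' (coresD N t) (coresD_add N t)

/-- `cores` as an additive map -/
noncomputable def coresA (N t : ℕ) [NeZero (N * t)] :
    (Additive (Gamma0 (N * t)) →+ A) →+ (Additive (Gamma0 N) →+ A) :=
  AddMonoidHom.mk' (cores N t) (cores_add N t)

/-- `heckeHomU` as an additive map -/
noncomputable def TU (N q : ℕ) [NeZero q] :
    (Additive (Gamma0 N) →+ A) →+ (Additive (Gamma0 N) →+ A) :=
  (coresDA N q).comp (res N q)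

@[simp] theorem coresDA_apply (N t : ℕ) [NeZero t] (Ψ : Additive (Gamma0 (N * t)) →+ A) :
    coresDA N t Ψ = coresD N t Ψ := rfl

@[simp] theorem coresA_apply (N t : ℕ) [NeZero (N * t)] (Ψ : Additive (Gamma0 (N * t)) →+ A) :
    coresA N t Ψ = cores N t Ψ := rfl

theorem TU_apply (N q : ℕ) [NeZero q] (Φ : Additive (Gamma0 N) →+ A) :
    TU N q Φ = heckeHomU N q Φ := rfl

theorem TU_comp (N q : ℕ) [NeZero q] (ξ : A →+ A') (Φ : Additive (Gamma0 N) →+ A) :
    TU N q (ξ.comp Φ) = ξ.comp (TU N q Φ) := heckeHomU_comp N q ξ Φ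

end Nat

section Linear

/-- `heckeHomU` as a `ℂ`-linear endomorphism of `Hom(Γ₀(N), ℂ)` -/
noncomputable def TUC (N q : ℕ) [NeZero q] : Module.End ℂ (Additive (Gamma0 N) →+ ℂ) where
  toFun := heckeHomU N q
  map_add' := (TU N q).map_add
  map_smul' c Φ := by
    have h1 : c • Φ = (AddMonoidHom.mulLeft c).comp Φ := rfl
    have h2 : c • heckeHomU N q Φ = (AddMonoidHom.mulLeft c).comp (heckeHomU N q Φ) := rfl
    rw [RingHom.id_apply, h1, h2, heckeHomU_comp]

theorem TUC_apply (N q : ℕ) [NeZero q] (Φ : Additive (Gamma0 N) →+ ℂ) :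
    TUC N q Φ = heckeHomU N q Φ := rfl

end Linear

section Invol

variable {A : Type*} [AddCommGroup A]

theorem conjD_jConj (N t : ℕ) [NeZero t] (γ : Gamma0 (N * t)) :
    conjD N t (jConjGamma0 (N * t) γ) = jConjGamma0 N (conjD N t γ) := by
  apply Subtype.ext; apply Subtype.ext
  rw [conjD_coe, jConjGamma0_coe, jConjGamma0_coe, jConjSL_coe, jConjSL_coe, conjD_coe]
  obtain ⟨c, hc⟩ := dvd_of_Gamma0_mul γ
  have ht' : (t : ℤ) ≠ 0 := by exact_mod_cast NeZero.ne t
  ext i j
  fin_cases i <;> fin_cases j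
  · simp [conjDMat, jConjMat]
  · simp [conjDMat, jConjMat]
  · simp only [conjDMat, jConjMat, Matrix.of_apply, Matrix.cons_val_zero, Matrix.cons_val_one,
      Matrix.cons_val_fin_one, Fin.mk_one, Fin.zero_eta]
    rw [hc, Int.mul_ediv_cancel_left _ ht', ← mul_neg, Int.mul_ediv_cancel_left _ ht']
  · simp [conjDMat, jConjMat]

theorem jConj_mem_subD_iff (N t : ℕ) [NeZero t] (g : Gamma0 N) :
    g ∈ subD N t ↔ jConjGamma0 N g ∈ subD N t := by
  rw [mem_subD_iff, mem_subD_iff, jConjGamma0_coe, jConjSL_coe, jConjMat_apply_zero_one, dvd_neg]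

/-- `heckeHomU` commutes with the involution `J`. -/
theorem heckeHomU_comp_jConj (N q : ℕ) [NeZero q] (Φ : Additive (Gamma0 N) →+ A) :
    heckeHomU N q (Φ.comp (MonoidHom.toAdditive (jConjGamma0 N))) =
      (heckeHomU N q Φ).comp (MonoidHom.toAdditive (jConjGamma0 N)) := by
  refine AddMonoidHom.ext fun γ => ?_
  obtain ⟨γ, rfl⟩ := Additive.ofMul.surjective γ
  show coresD N q (res N q (Φ.comp (MonoidHom.toAdditive (jConjGamma0 N)))) (Additive.ofMul γ) =
    coresD N q (res N q Φ) (Additive.ofMul (jConjGamma0 N γ))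
  rw [coresD_apply, coresD_apply]
  congr 1
  symm
  refine transfer_comp_hom (jConjGamma0 N) (jConj_mem_subD_iff N q) (fun g => ?_) _ _ (fun h' => ?_) γ
  · exact ⟨jConjGamma0 N g, by rw [jConjGamma0_jConjGamma0, inv_mul_cancel]; exact one_mem _⟩
  · rw [toSubD_apply, toSubD_apply]
    congr 1
    show Φ (Additive.ofMul (jConjGamma0 N (inclG N q (subDEquiv N q h')))) =
      Φ (Additive.ofMul (inclG N q (subDEquiv N q ⟨jConjGamma0 N h', _⟩)))
    congr 2
    have e1 : subDEquiv N q ⟨jConjGamma0 N h', (jConj_mem_subD_iff N q _).1 h'.2⟩ =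
        jConjGamma0 (N * q) (subDEquiv N q h') := by
      apply conjD_injective N q
      rw [conjD_subDEquiv, conjD_jConj, conjD_subDEquiv]
    rw [e1]
    rfl

theorem TUC_charInvolution (N q : ℕ) [NeZero q] (Φ : Additive (Gamma0 N) →+ ℂ) :
    TUC N q (charInvolution N ℂ ℂ Φ) = charInvolution N ℂ ℂ (TUC N q Φ) :=
  heckeHomU_comp_jConj N q Φ

end Invol

end Fermat.Agent.S41Lib
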