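import Mathlib
import Fermat.Agent.S41.Bridge4
import Fermat.Agent.S41.Bridge5
import Fermat.Agent.S21
import Fermat.Prelude.Def_CuspForm_HeckeAlgebra

/-!
# S41 library, bridge part 6: Hecke equivariance of `periodHomPair`, the integral lattice
-/

set_option autoImplicit false
set_option linter.unusedSectionVars false

open scoped MatrixGroups
open CongruenceSubgroup ModularCurve ModularCurve.Period
open Fermat.Agent.S21Lib

namespace Fermat.Agent.S41Lib

variable {M : ℕ} [NeZero M]

theorem periodHomPair_eq (f g : CuspForm (Gamma0 M) 2) :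
    periodHomPair M (f, g) = (periodMap M f + charInvolution M ℂ ℂ (periodMap M f)) +
      (periodMap M g - charInvolution M ℂ ℂ (periodMap M g)) := by
  obtain ⟨p, hp, h⟩ := periodHomPair_def M (existsPeriodMapLinear M)
  rw [h]
  simp only [LinearMap.coprod_apply, LinearMap.comp_apply, LinearMap.add_apply, LinearMap.sub_apply,
    LinearMap.id_apply, hp]

theorem TUC_periodHomPair_T {l : ℕ} [NeZero l] (hl : l.Prime) (hlM : ¬ l ∣ M)
    (f g : CuspForm (Gamma0 M) 2) :
    TUC M l (periodHomPair M (f, g)) =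
      periodHomPair M (CuspForm.heckeTLin 2 hl hlM f, CuspForm.heckeTLin 2 hl hlM g) := by
  rw [periodHomPair_eq, periodHomPair_eq, map_add, map_add, map_sub, TUC_charInvolution,
    TUC_charInvolution, periodMap_heckeTLin, periodMap_heckeTLin]
  rfl

theorem TUC_periodHomPair_U {q : ℕ} [NeZero q] (hqM : q ∣ M)
    (f g : CuspForm (Gamma0 M) 2) :
    TUC M q (periodHomPair M (f, g)) =
      periodHomPair M (CuspForm.heckeULin 2 hqM f, CuspForm.heckeULin 2 hqM g) := by
  rw [periodHomPair_eq, periodHomPair_eq, map_add, map_add, map_sub, TUC_charInvolution,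
    TUC_charInvolution, periodMap_heckeULin, periodMap_heckeULin]
  rfl

/-- the inclusion `ℤ → ℂ` as an additive map -/
noncomputable def iZC : ℤ →+ ℂ := (Int.castRingHom ℂ).toAddMonoidHom

theorem iZC_apply (n : ℤ) : iZC n = (n : ℂ) := rfl

theorem iZC_comp_injective {G : Type*} [AddZeroClass G] :
    Function.Injective (fun x : G →+ ℤ => iZC.comp x) := by
  intro x y h
  refine AddMonoidHom.ext fun γ => ?_
  have := congrArg (fun F : G →+ ℂ => F γ) h
  simpa [iZC] using this

theorem isParabolic_iff_iZC (x : Additive (Gamma0 M) →+ ℤ) :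
    IsParabolicHom (Gamma0 M) x ↔ IsParabolicHom (Gamma0 M) (iZC.comp x) := by
  constructor
  · intro h γ hγ
    show ((x (Additive.ofMul γ) : ℤ) : ℂ) = 0
    rw [h γ hγ]; simp
  · intro h γ hγ
    have : ((x (Additive.ofMul γ) : ℤ) : ℂ) = 0 := h γ hγ
    exact_mod_cast this

/-- The lattice of pairs of cusp forms whose period class is integral. -/
def intLat (M : ℕ) [NeZero M] : AddSubgroup (CuspForm (Gamma0 M) 2 × CuspForm (Gamma0 M) 2) where
  carrier := {fg | ∃ x : Additive (Gamma0 M) →+ ℤ, periodHomPair M fg = iZC.comp x}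
  zero_mem' := ⟨0, by simp⟩
  add_mem' := by
    rintro a b ⟨x, hx⟩ ⟨y, hy⟩
    exact ⟨x + y, by rw [map_add, hx, hy, AddMonoidHom.comp_add]⟩
  neg_mem' := by
    rintro a ⟨x, hx⟩
    exact ⟨-x, by
      rw [map_neg, hx]
      refine AddMonoidHom.ext fun γ => ?_
      simp [iZC]⟩

theorem mem_intLat {fg : CuspForm (Gamma0 M) 2 × CuspForm (Gamma0 M) 2} :
    fg ∈ intLat M ↔ ∃ x : Additive (Gamma0 M) →+ ℤ, periodHomPair M fg = iZC.comp x := Iff.rfl

/-- every parabolic integral class comes from a (unique) pair of cusp forms -/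
theorem exists_pair_of_parabolic (x : Additive (Gamma0 M) →+ ℤ)
    (hx : IsParabolicHom (Gamma0 M) x) :
    ∃ fg : CuspForm (Gamma0 M) 2 × CuspForm (Gamma0 M) 2, periodHomPair M fg = iZC.comp x := by
  have h1 : iZC.comp x ∈ parabolicHoms ℂ (Gamma0 M) ℂ := (isParabolic_iff_iZC x).1 hx
  rw [← (Fermat.Agent.S21.result M).2] at h1
  exact h1

theorem parabolic_of_pair {x : Additive (Gamma0 M) →+ ℤ}
    {fg : CuspForm (Gamma0 M) 2 × CuspForm (Gamma0 M) 2} (h : periodHomPair M fg = iZC.comp x) :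
    IsParabolicHom (Gamma0 M) x := by
  rw [isParabolic_iff_iZC, ← h]
  have : periodHomPair M fg ∈ parabolicHoms ℂ (Gamma0 M) ℂ := by
    rw [← (Fermat.Agent.S21.result M).2]
    exact ⟨fg, rfl⟩
  exact this

/-- diagonal action of an endomorphism on pairs -/
noncomputable def diagEnd (t : Module.End ℂ (CuspForm (Gamma0 M) 2))
    (fg : CuspForm (Gamma0 M) 2 × CuspForm (Gamma0 M) 2) :
    CuspForm (Gamma0 M) 2 × CuspForm (Gamma0 M) 2 := (t fg.1, t fg.2)

theorem TUC_iZC {q : ℕ} [NeZero q] (x : Additive (Gamma0 M) →+ ℤ) :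
    TUC M q (iZC.comp x) = iZC.comp (heckeHomU M q x) := heckeHomU_comp M q iZC x

/-- the Hecke algebra preserves the integral lattice -/
theorem heckeAlgebra_intLat (t : Module.End ℂ (CuspForm (Gamma0 M) 2))
    (ht : t ∈ CuspForm.heckeAlgebra M 2 ∅) :
    ∀ fg ∈ intLat M, diagEnd t fg ∈ intLat M := by
  induction ht using Algebra.adjoin_induction with
  | mem t ht =>
    rintro ⟨f, g⟩ ⟨x, hx⟩
    rcases ht with ⟨l, hl, hlM, -, rfl⟩ | ⟨q, hqM, hq, -, rfl⟩
    · have : NeZero l := ⟨hl.ne_zero⟩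
      exact ⟨heckeHomU M l x, by
        show periodHomPair M (CuspForm.heckeTLin 2 hl hlM f, CuspForm.heckeTLin 2 hl hlM g) = _
        rw [← TUC_periodHomPair_T, hx, TUC_iZC]⟩
    · have : NeZero q := ⟨hq.ne_zero⟩
      exact ⟨heckeHomU M q x, by
        show periodHomPair M (CuspForm.heckeULin 2 hqM f, CuspForm.heckeULin 2 hqM g) = _
        rw [← TUC_periodHomPair_U, hx, TUC_iZC]⟩
  | algebraMap n =>
    rintro ⟨f, g⟩ hfg
    have : diagEnd (algebraMap ℤ (Module.End ℂ (CuspForm (Gamma0 M) 2)) n) (f, g) = n • (f, g) := by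
      simp [diagEnd]
    rw [this]
    exact (intLat M).zsmul_mem hfg n
  | add a b _ _ ha hb =>
    intro fg hfg
    exact (intLat M).add_mem (ha fg hfg) (hb fg hfg)
  | mul a b _ _ ha hb =>
    intro fg hfg
    exact ha _ (hb fg hfg)

end Fermat.Agent.S41Lib
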