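import Mathlib
import Fermat.Agent.S41.Bridge6
import Fermat.Agent.S22
import Fermat.Agent.S23.Fin
import Fermat.Agent.S49.Formal
import Fermat.Agent.S49.CommAlg
import Fermat.Agent.S49.QCoeff

/-!
# S41 library, bridge part 7: from an integral class to a normalized eigenform (Deligne–Serre)
-/

set_option autoImplicit false
set_option linter.unusedSectionVars false

open scoped MatrixGroups
open CongruenceSubgroup ModularCurve ModularCurve.Period ModularFormClass CuspForm
open Fermat.Agent.S21Lib Fermat.Agent.S49Lib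

namespace Fermat.Agent.S41Lib

/-- a common eigenvector of all Hecke operators can be normalized -/
theorem normalized_of_eigen {N : ℕ} [NeZero N] (v : CuspForm (Gamma0 N) 2) (hv0 : v ≠ 0)
    (lam : ℕ → ℂ)
    (hT : ∀ (l : ℕ) (hl : l.Prime) (hlN : ¬ l ∣ N), CuspForm.heckeTLin 2 hl hlN v = lam l • v)
    (hU : ∀ (q : ℕ) (_ : q.Prime) (hqN : q ∣ N), CuspForm.heckeULin 2 hqN v = lam q • v) :
    ∃ g : CuspForm (Gamma0 N) 2, g.IsNormalizedEigenform ∧ ∀ l : ℕ, l.Prime → qCoeff g l = lam l := by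
  classical
  let e : ℕ → ℂ := fun ℓ => if ℓ ∣ N then 0 else (ℓ : ℂ)
  have hrec : ∀ ℓ : ℕ, ℓ.Prime → ∀ n : ℕ,
      qCoeff v (ℓ * n) + e ℓ * (if ℓ ∣ n then qCoeff v (n / ℓ) else 0) = lam ℓ * qCoeff v n := by
    intro ℓ hℓ n
    by_cases hN : ℓ ∣ N
    · have h1 := hU ℓ hℓ hN
      have h2 := congrArg (fun g : CuspForm (Gamma0 N) 2 => qCoeff (⇑g) n) h1
      simp only [qCoeff_heckeULin hℓ hN, qCoeff_smul] at h2
      simp only [e, hN, if_pos, zero_mul, add_zero]
      exact h2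
    · have h1 := hT ℓ hℓ hN
      have h2 := congrArg (fun g : CuspForm (Gamma0 N) 2 => qCoeff (⇑g) n) h1
      simp only [qCoeff_heckeTLin hℓ hN, qCoeff_smul] at h2
      simp only [e, hN, if_neg, not_false_eq_true]
      exact h2
  have hb1 : qCoeff v 1 ≠ 0 := by
    intro h1
    exact hv0 (eq_zero_of_qCoeff v (eq_zero_of_hecke_rec (qCoeff_zero_idx v) h1 hrec))
  set c₁ : ℂ := qCoeff v 1 with hc₁
  let g : CuspForm (Gamma0 N) 2 := c₁⁻¹ • v
  have hg : ∀ n, qCoeff g n = c₁⁻¹ * qCoeff v n := fun n => qCoeff_smul _ _ _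
  have hg1 : qCoeff g 1 = 1 := by
    rw [hg, ← hc₁]
    exact inv_mul_cancel₀ hb1
  have hrecg : ∀ ℓ : ℕ, ℓ.Prime → ∀ n : ℕ,
      qCoeff g (ℓ * n) + e ℓ * (if ℓ ∣ n then qCoeff g (n / ℓ) else 0) = lam ℓ * qCoeff g n := by
    intro ℓ hℓ n
    have := hrec ℓ hℓ n
    simp only [hg]
    split_ifs at this ⊢ with hd
    · linear_combination c₁⁻¹ * this
    · linear_combination c₁⁻¹ * this
  have hlam : ∀ ℓ : ℕ, ℓ.Prime → lam ℓ = qCoeff g ℓ := by
    intro ℓ hℓ
    have := hrecg ℓ hℓ 1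
    have hd : ¬ ℓ ∣ 1 := fun hd => hℓ.one_lt.ne' (Nat.dvd_one.mp hd)
    rw [if_neg hd, mul_one, mul_zero, add_zero, hg1, mul_one] at this
    exact this.symm
  have hgeig : FormalHecke.IsEigensystem e (fun n => qCoeff g n) := by
    refine ⟨hg1, ?_⟩
    intro ℓ hℓ n
    have := hrecg ℓ hℓ n
    rw [hlam ℓ hℓ] at this
    exact this
  have hnorm : g.IsNormalizedEigenform := by
    refine ⟨hg1, isEigensystem_mul_of_coprime hgeig, ?_, ?_⟩
    · intro p r hp hpN
      have := isEigensystem_prime_pow hgeig p r hp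
      simpa only [e, if_neg hpN] using this
    · intro p r hp hpN
      have := isEigensystem_prime_pow hgeig p r hp
      simpa only [e, if_pos hpN, zero_mul, sub_zero] using this
  exact ⟨g, hnorm, fun l hl => (hlam l hl).symm⟩

section Final

variable {M : ℕ} [NeZero M]

local notation "S2" => CuspForm (Gamma0 M) 2
local notation "HA" => CuspForm.heckeAlgebra M 2 ∅

/-- the subspace `U_r² = 1` -/
noncomputable def newSub {r : ℕ} (hrM : r ∣ M) : Submodule ℂ S2 :=
  LinearMap.ker (CuspForm.heckeULin 2 hrM * CuspForm.heckeULin 2 hrM - 1)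

theorem mem_newSub {r : ℕ} (hrM : r ∣ M) (g : S2) :
    g ∈ newSub hrM ↔ CuspForm.heckeULin 2 hrM (CuspForm.heckeULin 2 hrM g) = g := by
  simp [newSub, LinearMap.mem_ker, sub_eq_zero]

theorem heckeAlgebra_newSub {r : ℕ} (hr : r.Prime) (hrM : r ∣ M) (t : HA) (g : S2)
    (hg : g ∈ newSub hrM) : (t : Module.End ℂ S2) g ∈ newSub hrM := by
  rw [mem_newSub] at hg ⊢
  have hc : (heckeAlgebra.U hr hrM (Set.notMem_empty r) : HA) * t =
      t * heckeAlgebra.U hr hrM (Set.notMem_empty r) := mul_comm _ _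
  have hc' : ∀ x : S2, CuspForm.heckeULin 2 hrM ((t : Module.End ℂ S2) x) =
      (t : Module.End ℂ S2) (CuspForm.heckeULin 2 hrM x) := by
    intro x
    have := congrArg (fun a : HA => (a : Module.End ℂ S2) x) hc
    simpa using this
  rw [hc', hc', hg]

/-- the Hecke algebra acting on the subspace `U_r² = 1` -/
noncomputable def resHom {r : ℕ} (hr : r.Prime) (hrM : r ∣ M) :
    HA →+* Module.End ℂ (newSub hrM) where
  toFun t := (t : Module.End ℂ S2).restrict (heckeAlgebra_newSub hr hrM t)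
  map_one' := by ext x; simp
  map_mul' a b := by ext x; simp
  map_zero' := by ext x; simp
  map_add' a b := by ext x; simp

theorem resHom_apply {r : ℕ} (hr : r.Prime) (hrM : r ∣ M) (t : HA) (x : newSub hrM) :
    ((resHom hr hrM t x : newSub hrM) : S2) = (t : Module.End ℂ S2) (x : S2) := rfl

/-- **From an integral class to an eigenform.** -/
theorem exists_eigenform_of_class {r p : ℕ} [NeZero r] (hr : r.Prime) (hrM : r ∣ M)
    (P : ℕ → Prop) (n : ℕ → ℤ) (hP : ∀ l, P l → l.Prime ∧ ¬ l ∣ M)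
    (x₁ : Additive (Gamma0 M) →+ ℤ) (hpar : IsParabolicHom (Gamma0 M) x₁)
    (hU : heckeHomU M r (heckeHomU M r x₁) = x₁)
    (hne : ¬ ∃ w : Additive (Gamma0 M) →+ ℤ, x₁ = p • w) (hp0 : p ≠ 0)
    (heig : ∀ (l : ℕ) [NeZero l], P l →
      ∃ w : Additive (Gamma0 M) →+ ℤ, heckeHomU M l x₁ - n l • x₁ = p • w) :
    ∃ (g : S2) (𝔪' : Ideal (integralClosure ℤ ℂ)),
      g.IsNormalizedEigenform ∧ 𝔪'.IsMaximal ∧ (p : integralClosure ℤ ℂ) ∈ 𝔪' ∧
      (∀ l, P l → ∃ a : integralClosure ℤ ℂ, (a : ℂ) = qCoeff g l ∧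
        a - ((n l : ℤ) : integralClosure ℤ ℂ) ∈ 𝔪') ∧
      qCoeff g r ^ 2 = 1 := by
  classical
  have hinj := (Fermat.Agent.S21.result M).1
  have hpC : (p : ℂ) ≠ 0 := by exact_mod_cast hp0
  obtain ⟨⟨g₁, g₂⟩, hg⟩ := exists_pair_of_parabolic x₁ hpar
  -- the two components lie in `newSub`
  have hnew : g₁ ∈ newSub hrM ∧ g₂ ∈ newSub hrM := by
    have h1 : periodHomPair M (CuspForm.heckeULin 2 hrM (CuspForm.heckeULin 2 hrM g₁),
        CuspForm.heckeULin 2 hrM (CuspForm.heckeULin 2 hrM g₂)) = periodHomPair M (g₁, g₂) := by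
      rw [← TUC_periodHomPair_U, ← TUC_periodHomPair_U, hg, TUC_iZC, TUC_iZC, hU]
    have h2 := hinj h1
    rw [Prod.mk.injEq] at h2
    exact ⟨(mem_newSub hrM g₁).2 h2.1, (mem_newSub hrM g₂).2 h2.2⟩
  -- the ideal
  let Sgen : Set HA := {(p : HA)} ∪ {t | ∃ (l : ℕ) (hl : P l),
    t = heckeAlgebra.T (hP l hl).1 (hP l hl).2 (Set.notMem_empty l) - ((n l : ℤ) : HA)}
  let J : Ideal HA := Ideal.span Sgen
  -- `p • intLat`
  have hJ : ∀ j ∈ J, ∃ a ∈ intLat M, diagEnd (j : Module.End ℂ S2) (g₁, g₂) = p • a := by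
    intro j hj
    induction hj using Submodule.span_induction with
    | mem s hs =>
      rcases hs with hs | ⟨l, hl, rfl⟩
      · rw [Set.mem_singleton_iff] at hs
        subst hs
        refine ⟨(g₁, g₂), ⟨x₁, hg⟩, ?_⟩
        have : (((p : HA) : HA) : Module.End ℂ S2) = (p : Module.End ℂ S2) := by
          simp
        rw [this]
        simp [diagEnd, Module.End.natCast_apply]
      · have : NeZero l := ⟨(hP l hl).1.ne_zero⟩
        obtain ⟨w, hw⟩ := heig l hl
        set T := CuspForm.heckeTLin 2 (hP l hl).1 (hP l hl).2 with hT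
        have hval : ∀ x : S2, ((heckeAlgebra.T (hP l hl).1 (hP l hl).2 (Set.notMem_empty l) -
            ((n l : ℤ) : HA) : HA) : Module.End ℂ S2) x = T x - (n l : ℂ) • x := by
          intro x
          simp only [AddSubgroupClass.coe_sub, heckeAlgebra.coe_T, LinearMap.sub_apply]
          congr 1
          change (((n l : ℤ) : Module.End ℂ S2)) x = _
          rw [show (((n l : ℤ) : Module.End ℂ S2)) = ((n l : ℤ) : ℂ) • 1 by
            rw [Algebra.smul_def, mul_one]; simp]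
          rfl
        refine ⟨((p : ℂ)⁻¹ • (T g₁ - (n l : ℂ) • g₁), (p : ℂ)⁻¹ • (T g₂ - (n l : ℂ) • g₂)),
          ⟨w, ?_⟩, ?_⟩
        · have e1 : periodHomPair M ((p : ℂ)⁻¹ • (T g₁ - (n l : ℂ) • g₁),
              (p : ℂ)⁻¹ • (T g₂ - (n l : ℂ) • g₂)) =
              (p : ℂ)⁻¹ • (periodHomPair M (T g₁, T g₂) - (n l : ℂ) • periodHomPair M (g₁, g₂)) := by
            rw [← map_smul, ← map_sub, ← map_smul]
            rfl
          rw [e1, hT, ← TUC_periodHomPair_T, hg, TUC_iZC]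
          have e2 : iZC.comp (heckeHomU M l x₁) - (n l : ℂ) • iZC.comp x₁ =
              (p : ℂ) • iZC.comp w := by
            have := congrArg (fun y => iZC.comp y) hw
            refine AddMonoidHom.ext fun γ => ?_
            have h3 := congrArg (fun F : Additive (Gamma0 M) →+ ℂ => F γ) this
            simp only [AddMonoidHom.comp_apply, AddMonoidHom.sub_apply, AddMonoidHom.smul_apply,
              iZC_apply, smul_eq_mul, nsmul_eq_mul] at h3 ⊢
            push_cast at h3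
            exact h3
          rw [e2, smul_smul, inv_mul_cancel₀ hpC, one_smul]
        · simp only [diagEnd, hval]
          rw [Prod.smul_mk, ← Nat.cast_smul_eq_nsmul ℂ, ← Nat.cast_smul_eq_nsmul ℂ, smul_smul,
            smul_smul, mul_inv_cancel₀ hpC, one_smul, one_smul]
    | zero => exact ⟨0, (intLat M).zero_mem, by simp [diagEnd]⟩
    | add a b _ _ ha hb =>
      obtain ⟨a', ha', hea⟩ := ha
      obtain ⟨b', hb', heb⟩ := hb
      refine ⟨a' + b', (intLat M).add_mem ha' hb', ?_⟩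
      rw [smul_add, ← hea, ← heb]
      simp [diagEnd]
    | smul c a _ ha =>
      obtain ⟨a', ha', hea⟩ := ha
      refine ⟨diagEnd (c : Module.End ℂ S2) a', heckeAlgebra_intLat _ c.2 a' ha', ?_⟩
      have : diagEnd ((c • a : HA) : Module.End ℂ S2) (g₁, g₂) =
          diagEnd (c : Module.End ℂ S2) (diagEnd (a : Module.End ℂ S2) (g₁, g₂)) := by
        simp [diagEnd]
      rw [this, hea]
      simp [diagEnd]
  -- quotient ring
  let ρ := resHom (M := M) hr hrM
  let A₁ := HA ⧸ RingHom.ker ρ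
  have hfinHA : Module.Finite ℤ HA := Fermat.Agent.S22.result M 2 ∅
  have hfin : Module.Finite ℤ A₁ :=
    Module.Finite.of_surjective (Ideal.Quotient.mkₐ ℤ (RingHom.ker ρ)).toLinearMap
      (Ideal.Quotient.mkₐ_surjective ℤ _)
  let ι₁ : A₁ →+* Module.End ℂ (newSub hrM) := RingHom.kerLift ρ
  have hι₁ : Function.Injective ι₁ := RingHom.kerLift_injective ρ
  let J₁ : Ideal A₁ := J.map (Ideal.Quotient.mk (RingHom.ker ρ))
  have hJ₁ : J₁ ≠ ⊤ := by
    intro htop
    have h1 : (1 : A₁) ∈ J₁ := htop ▸ Submodule.mem_top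
    obtain ⟨j, hj, hj1⟩ := (Ideal.mem_map_iff_of_surjective _ Ideal.Quotient.mk_surjective).1 h1
    have h2 : j - 1 ∈ RingHom.ker ρ := by
      rw [← Ideal.Quotient.eq, hj1, map_one]
    have h3 : ∀ x : newSub hrM, (j : Module.End ℂ S2) (x : S2) = x := by
      intro x
      have h4 : ρ (j - 1) x = 0 := by rw [(RingHom.mem_ker).1 h2]; rfl
      have h5 := congrArg (Subtype.val) h4
      rw [resHom_apply] at h5
      simpa [sub_eq_zero] using h5
    obtain ⟨a, ⟨w, hw⟩, hea⟩ := hJ j hj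
    have h6 : diagEnd (j : Module.End ℂ S2) (g₁, g₂) = (g₁, g₂) := by
      simp only [diagEnd]
      rw [h3 ⟨g₁, hnew.1⟩, h3 ⟨g₂, hnew.2⟩]
    apply hne
    refine ⟨w, ?_⟩
    apply iZC_comp_injective
    show iZC.comp x₁ = iZC.comp (p • w)
    rw [← hg, ← h6, hea, map_nsmul, hw]
    refine AddMonoidHom.ext fun γ => ?_
    simp [iZC]
  obtain ⟨v, χ, 𝔪', hv0, hv, h𝔪', hχJ⟩ := deligneSerre_lift ι₁ hι₁ J₁ hJ₁
  have hv0' : (v : S2) ≠ 0 := fun h => hv0 (Subtype.ext h)
  let χ' : HA →+* integralClosure ℤ ℂ := χ.comp (Ideal.Quotient.mk (RingHom.ker ρ))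
  have hχ'J : ∀ t ∈ J, χ' t ∈ 𝔪' := fun t ht => hχJ _ (Ideal.mem_map_of_mem _ ht)
  have hact : ∀ t : HA, (t : Module.End ℂ S2) (v : S2) =
      ((χ' t : integralClosure ℤ ℂ) : ℂ) • (v : S2) := by
    intro t
    have h1 := hv (Ideal.Quotient.mk _ t)
    have h2 : ι₁ (Ideal.Quotient.mk _ t) = ρ t := RingHom.kerLift_mk ρ t
    rw [h2] at h1
    exact congrArg Subtype.val h1
  clear_value χ'
  let lam : ℕ → ℂ := fun ℓ =>
    if hℓ : ℓ.Prime then
      (if hN : ℓ ∣ M then
        ((χ' (heckeAlgebra.U hℓ hN (Set.notMem_empty ℓ)) : integralClosure ℤ ℂ) : ℂ)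
      else ((χ' (heckeAlgebra.T hℓ hN (Set.notMem_empty ℓ)) : integralClosure ℤ ℂ) : ℂ))
    else 0
  obtain ⟨g, hgn, hgl⟩ := normalized_of_eigen (v : S2) hv0' lam
    (fun l hl hlN => by
      have := hact (heckeAlgebra.T hl hlN (Set.notMem_empty l))
      simp only [lam, hl, hlN, dif_pos, dif_neg, not_false_eq_true]
      exact this)
    (fun q hq hqN => by
      have := hact (heckeAlgebra.U hq hqN (Set.notMem_empty q))
      simp only [lam, hq, hqN, dif_pos]
      exact this)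
  refine ⟨g, 𝔪', hgn, h𝔪', ?_, ?_, ?_⟩
  · have := hχ'J (p : HA) (Ideal.subset_span (Or.inl rfl))
    rwa [map_natCast] at this
  · intro l hl
    refine ⟨χ' (heckeAlgebra.T (hP l hl).1 (hP l hl).2 (Set.notMem_empty l)), ?_, ?_⟩
    · rw [hgl l (hP l hl).1]
      simp only [lam, (hP l hl).1, (hP l hl).2, dif_pos, dif_neg, not_false_eq_true]
    · have := hχ'J (heckeAlgebra.T (hP l hl).1 (hP l hl).2 (Set.notMem_empty l) - ((n l : ℤ) : HA))
        (Ideal.subset_span (Or.inr ⟨l, hl, rfl⟩))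
      rwa [map_sub, map_intCast] at this
  · rw [hgl r hr]
    have h1 := hact (heckeAlgebra.U hr hrM (Set.notMem_empty r))
    rw [heckeAlgebra.coe_U] at h1
    have h2 := (mem_newSub hrM (v : S2)).1 v.2
    rw [h1, map_smul, h1, smul_smul] at h2
    have h3 : (lam r * lam r - 1) • (v : S2) = 0 := by
      simp only [lam, hr, hrM, dif_pos]
      rw [sub_smul, h2, one_smul, sub_self]
    rcases smul_eq_zero.1 h3 with h4 | h4
    · linear_combination h4
    · exact absurd h4 hv0'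

end Final

end Fermat.Agent.S41Lib
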