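import Mathlib
import Fermat.Agent.S41.Bridge6
import Fermat.Agent.S22.Abstract
import Fermat.Agent.S49.QCoeff
import Fermat.Prelude.Def_FLTPrelim_ModularRep

/-!
# S41 library, bridge part 8: from an eigenform to an integral class which is an eigenvector mod `p`
-/

set_option autoImplicit false
set_option linter.unusedSectionVars false

open scoped MatrixGroups
open CongruenceSubgroup ModularCurve ModularCurve.Period ModularFormClass CuspForm
open Fermat.Agent.S21Lib Fermat.Agent.S49Lib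

namespace Fermat.Agent.S41Lib

section Down

variable {N : ℕ} [NeZero N]

theorem qCoeff_rec_of_normalized {f : CuspForm (Gamma0 N) 2} (hf : f.IsNormalizedEigenform)
    {l : ℕ} (hl : l.Prime) (hlN : ¬ l ∣ N) (n : ℕ) :
    qCoeff f (l * n) + (l : ℂ) * (if l ∣ n then qCoeff f (n / l) else 0) =
      qCoeff f l * qCoeff f n := by
  rcases Nat.eq_zero_or_pos n with rfl | hn
  · simp [qCoeff_zero_idx]
  obtain ⟨k, m, hm, rfl⟩ := Nat.exists_eq_pow_mul_and_not_dvd hn.ne' l hl.ne_one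
  have hcop : ∀ j : ℕ, (l ^ j).Coprime m :=
    fun j => Nat.Coprime.pow_left j ((Nat.Prime.coprime_iff_not_dvd hl).2 hm)
  rcases k with _ | j
  · simp only [pow_zero, one_mul]
    rw [if_neg hm, mul_zero, add_zero]
    have := hf.qCoeff_mul_of_coprime l m (by simpa using hcop 1)
    exact this
  · have hd : l ∣ l ^ (j + 1) * m := Dvd.dvd.mul_right (dvd_pow_self l (Nat.succ_ne_zero j)) m
    rw [if_pos hd]
    have e1 : l * (l ^ (j + 1) * m) = l ^ (j + 2) * m := by ring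
    have e2 : l ^ (j + 1) * m / l = l ^ j * m := by
      rw [pow_succ, mul_assoc, mul_comm l m, ← mul_assoc]
      exact Nat.mul_div_cancel _ hl.pos
    rw [e1, e2, hf.qCoeff_mul_of_coprime _ _ (hcop _), hf.qCoeff_mul_of_coprime _ _ (hcop _),
      hf.qCoeff_mul_of_coprime _ _ (hcop _), hf.qCoeff_prime_pow_of_not_dvd l j hl hlN]
    ring

theorem heckeTLin_of_normalized {f : CuspForm (Gamma0 N) 2} (hf : f.IsNormalizedEigenform)
    {l : ℕ} (hl : l.Prime) (hlN : ¬ l ∣ N) :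
    CuspForm.heckeTLin 2 hl hlN f = qCoeff f l • f := by
  rw [← sub_eq_zero]
  apply eq_zero_of_qCoeff
  intro n
  have := (qCoeffLin N n).map_sub (CuspForm.heckeTLin 2 hl hlN f) (qCoeff f l • f)
  simp only [qCoeffLin_apply] at this
  rw [this, qCoeff_heckeTLin, qCoeff_smul, qCoeff_rec_of_normalized hf hl hlN, sub_self]

theorem periodMap_smul (c : ℂ) (f : CuspForm (Gamma0 N) 2) :
    periodMap N (c • f) = c • periodMap N f := (pml N).map_smul c f

theorem periodMap_ne_zero {f : CuspForm (Gamma0 N) 2} (hf : f ≠ 0) : periodMap N f ≠ 0 := by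
  intro h
  have h1 : periodHomPair N (f, f) = periodHomPair N (0, 0) := by
    rw [periodHomPair_eq, h]
    have : ((0 : CuspForm (Gamma0 N) 2), (0 : CuspForm (Gamma0 N) 2)) = 0 := rfl
    rw [this, map_zero]
    simp
  have h2 := (Fermat.Agent.S21.result N).1 h1
  exact hf (congrArg Prod.fst h2)

theorem periodMap_parabolic (f : CuspForm (Gamma0 N) 2) :
    IsParabolicHom (Gamma0 N) (periodMap N f) := pml_mem_parabolicHoms f

theorem heckeHomU_periodMap_of_normalized {f : CuspForm (Gamma0 N) 2}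
    (hf : f.IsNormalizedEigenform) {l : ℕ} [NeZero l] (hl : l.Prime) (hlN : ¬ l ∣ N) :
    heckeHomU N l (periodMap N f) = qCoeff f l • periodMap N f := by
  rw [← periodMap_heckeTLin hl hlN, heckeTLin_of_normalized hf hl hlN, periodMap_smul]

end Down

section Red

local notation "𝒪" => integralClosure ℤ ℂ

/-- reduction mod `p` on coefficients -/
noncomputable def rZ (p : ℕ) : ℤ →+ ZMod p := Int.castAddHom (ZMod p)

theorem rZ_apply (p : ℕ) (n : ℤ) : rZ p n = (n : ZMod p) := rfl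

theorem exists_addHom_ne_zero' {p : ℕ} [Fact p.Prime] {Q : Type*} [AddCommGroup Q]
    [Module (ZMod p) Q] {q₀ : Q} (hq₀ : q₀ ≠ 0) : ∃ η : Q →+ ZMod p, η q₀ ≠ 0 := by
  by_contra hcon
  push Not at hcon
  have h1 : ∀ η : Module.Dual (ZMod p) Q, η q₀ = 0 := fun η => hcon η.toAddMonoidHom
  exact hq₀ ((Module.forall_dual_apply_eq_zero_iff (ZMod p) q₀).1 h1)

theorem exists_addHom_ne_zero {p : ℕ} [Fact p.Prime] {Q : Type*} [AddCommGroup Q]
    (hpQ : ∀ x : Q, p • x = 0) {q₀ : Q} (hq₀ : q₀ ≠ 0) : ∃ η : Q →+ ZMod p, η q₀ ≠ 0 :=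
  @exists_addHom_ne_zero' p _ Q _ (AddCommGroup.zmodModule hpQ) q₀ hq₀

variable {N : ℕ} [NeZero N]

/-- **Reduction of an eigenclass modulo a maximal ideal.** -/
theorem exists_reduction {p : ℕ} (hp : p.Prime) (φ : Additive (Gamma0 N) →+ ℂ) (hφ : φ ≠ 0)
    (𝔪 : Ideal 𝒪) (hmax : 𝔪.IsMaximal) (hpm : (p : 𝒪) ∈ 𝔪) :
    ∃ x₀ : Additive (Gamma0 N) →+ ℤ,
      (∀ γ, φ γ = 0 → x₀ γ = 0) ∧ (rZ p).comp x₀ ≠ 0 ∧
      (∀ (q : ℕ) [NeZero q] (c : 𝒪) (n : ℤ), heckeHomU N q φ = (c : ℂ) • φ → c - (n : 𝒪) ∈ 𝔪 →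
        heckeHomU N q ((rZ p).comp x₀) = n • (rZ p).comp x₀) := by
  classical
  have : Fact p.Prime := ⟨hp⟩
  have : Group.FG (Gamma0 N) := Fermat.Agent.S22Lib.groupFG_Gamma0 N
  -- the image of `φ`
  let I : AddSubgroup ℂ := φ.range
  have hIfg : AddGroup.FG I := AddGroup.fg_range φ
  have hIfin : Module.Finite ℤ I := Module.Finite.iff_addGroup_fg.mpr hIfg
  -- the `𝒪`-span
  let Λ : Submodule 𝒪 ℂ := Submodule.span 𝒪 (Set.range φ)
  have hΛfg : Λ.FG := by
    have h1 : (AddSubgroup.toIntSubmodule I).FG := by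
      rw [← Module.Finite.iff_fg]
      exact hIfin
    obtain ⟨s, hs⟩ := h1
    refine ⟨s, ?_⟩
    have h2 : (Set.range φ : Set ℂ) = ((Submodule.span ℤ (s : Set ℂ) : Submodule ℤ ℂ) : Set ℂ) := by
      rw [hs]; rfl
    show Submodule.span 𝒪 (s : Set ℂ) = Submodule.span 𝒪 (Set.range φ)
    rw [h2, Submodule.span_span_of_tower]
  have hmemΛ : ∀ γ, φ γ ∈ Λ := fun γ => Submodule.subset_span ⟨γ, rfl⟩
  -- Nakayama
  have hnak : ¬ Λ ≤ 𝔪 • Λ := by
    intro hle
    obtain ⟨r, hr1, hr⟩ := Submodule.exists_sub_one_mem_and_smul_eq_zero_of_fg_of_le_smul 𝔪 Λ hΛfg hle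
    have hr0 : r ≠ 0 := by
      rintro rfl
      apply hmax.ne_top
      rw [Ideal.eq_top_iff_one]
      have := 𝔪.neg_mem hr1
      simpa using this
    apply hφ
    refine AddMonoidHom.ext fun γ => ?_
    have h1 := hr (φ γ) (hmemΛ γ)
    have h2 : (r : ℂ) * φ γ = 0 := h1
    rcases mul_eq_zero.1 h2 with h3 | h3
    · exact absurd (Subtype.ext h3) hr0
    · simpa using h3
  obtain ⟨γ₀, hγ₀⟩ : ∃ γ₀, φ γ₀ ∉ 𝔪 • Λ := by
    by_contra hcon
    push Not at hcon
    apply hnak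
    apply Submodule.span_le.2
    rintro _ ⟨γ, rfl⟩
    exact hcon γ
  -- the quotient
  let Q := Λ ⧸ (𝔪 • (⊤ : Submodule 𝒪 Λ))
  have hpQ : ∀ x : Q, p • x = 0 := by
    intro x
    induction x using Submodule.Quotient.induction_on with
    | H x =>
      rw [← Submodule.Quotient.mk_smul, Submodule.Quotient.mk_eq_zero]
      have : p • x = (p : 𝒪) • x := by rw [Nat.cast_smul_eq_nsmul]
      rw [this]
      exact Submodule.smul_mem_smul hpm Submodule.mem_top
  let φΛ : Additive (Gamma0 N) →+ Λ := φ.codRestrict Λ hmemΛ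
  have hq0 : (Submodule.Quotient.mk (φΛ γ₀) : Q) ≠ 0 := by
    rw [Ne, Submodule.Quotient.mk_eq_zero]
    intro hmem
    apply hγ₀
    have h1 : (Submodule.map Λ.subtype (𝔪 • (⊤ : Submodule 𝒪 Λ))) = 𝔪 • Λ := by
      rw [Submodule.map_smul'', Submodule.map_top, Submodule.range_subtype]
    rw [← h1]
    exact ⟨_, hmem, rfl⟩
  obtain ⟨η, hη⟩ := exists_addHom_ne_zero hpQ hq0
  let ξ : Λ →+ ZMod p :=
    η.comp (Submodule.mkQ (𝔪 • (⊤ : Submodule 𝒪 Λ))).toAddMonoidHom
  have hξ : ∀ (c : 𝒪) (n : ℤ), c - (n : 𝒪) ∈ 𝔪 → ∀ x : Λ, ξ (c • x) = n • ξ x := by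
    intro c n hc x
    have h1 : (Submodule.Quotient.mk (c • x) : Q) = n • Submodule.Quotient.mk x := by
      rw [← Submodule.Quotient.mk_smul, Submodule.Quotient.eq]
      have : c • x - n • x = (c - (n : 𝒪)) • x := by
        apply Subtype.ext
        show (c : ℂ) * (x : ℂ) - n • (x : ℂ) = ((c - (n : 𝒪) : 𝒪) : ℂ) * (x : ℂ)
        push_cast
        rw [zsmul_eq_mul]
        ring
      rw [this]
      exact Submodule.smul_mem_smul hc Submodule.mem_top
    show η (Submodule.Quotient.mk (c • x)) = n • η (Submodule.Quotient.mk x)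
    rw [h1, map_zsmul]
  -- lifting to `ℤ`
  let jI : I →+ Λ := (AddSubgroup.subtype I).codRestrict Λ (by
    rintro ⟨_, γ, rfl⟩
    exact hmemΛ γ)
  let g : I →ₗ[ℤ] ZMod p := (ξ.comp jI).toIntLinearMap
  let fZ : ℤ →ₗ[ℤ] ZMod p := (rZ p).toIntLinearMap
  have hfZ : Function.Surjective fZ := ZMod.intCast_surjective
  obtain ⟨h, hh⟩ := Module.projective_lifting_property fZ g hfZ
  let x₀ : Additive (Gamma0 N) →+ ℤ := h.toAddMonoidHom.comp φ.rangeRestrict
  have hx₀ : (rZ p).comp x₀ = ξ.comp φΛ := by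
    refine AddMonoidHom.ext fun γ => ?_
    have := congrArg (fun F : I →ₗ[ℤ] ZMod p => F (φ.rangeRestrict γ)) hh
    exact this
  refine ⟨x₀, ?_, ?_, ?_⟩
  · intro γ hγ
    have : φ.rangeRestrict γ = 0 := Subtype.ext hγ
    show h (φ.rangeRestrict γ) = 0
    rw [this, map_zero]
  · rw [hx₀]
    intro h0
    exact hη (congrArg (fun F : Additive (Gamma0 N) →+ ZMod p => F γ₀) h0)
  · intro q _ c n hc hcn
    rw [hx₀, heckeHomU_comp]
    let incl : Λ →+ ℂ := Λ.subtype.toAddMonoidHom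
    have hincl : incl.comp φΛ = φ := rfl
    have h1 : heckeHomU N q φΛ = (DistribSMul.toAddMonoidHom Λ c).comp φΛ := by
      have h2 : incl.comp (heckeHomU N q φΛ) =
          incl.comp ((DistribSMul.toAddMonoidHom Λ c).comp φΛ) := by
        rw [← heckeHomU_comp, hincl, hc]
        rfl
      refine AddMonoidHom.ext fun γ => ?_
      have h3 := congrArg (fun F : Additive (Gamma0 N) →+ ℂ => F γ) h2
      exact Subtype.ext h3
    rw [h1]
    refine AddMonoidHom.ext fun γ => ?_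
    exact hξ c n hcn (φΛ γ)

end Red

end Fermat.Agent.S41Lib
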