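import Fermat.Agent.S41.Par1

/-!
# S41, leaf (PAR): for a prime `W ≡ 1 mod M` the operator `T_W - (W+1)` maps
`Hom(Γ₀(M), A)` into the parabolic homomorphisms.
-/

set_option autoImplicit false

open Matrix MatrixGroups CongruenceSubgroup MulAction Subgroup

namespace Fermat.Agent.S41Lib

variable {M W : ℕ} {A : Type*} [AddCommGroup A]

theorem not_dvd_snd_of_dvd_fst (hW : W.Prime) {z : V2} (hz : IsCoprime z.1 z.2)
    (h : (W : ℤ) ∣ z.1) : ¬ (W : ℤ) ∣ z.2 := by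
  intro h2
  have h1 : IsUnit (W : ℤ) := hz.isUnit_of_dvd' h h2
  exact (Nat.prime_iff_prime_int.mp hW).not_isUnit h1

theorem caseA_unique [NeZero W] (hW : W.Prime) {y : V2} (hy : IsCoprime y.1 y.2)
    {x x' : Gamma0 M} (h : (W : ℤ) ∣ (sv ((x : SL(2, ℤ))⁻¹) y).1)
    (h' : (W : ℤ) ∣ (sv ((x' : SL(2, ℤ))⁻¹) y).1) : x⁻¹ * x' ∈ subD M W := by
  rw [mem_subD_iff]
  have hz' : IsCoprime (sv ((x' : SL(2, ℤ))⁻¹) y).1 (sv ((x' : SL(2, ℤ))⁻¹) y).2 :=
    isCoprime_sv _ hy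
  have e : sv ((x : SL(2, ℤ))⁻¹) y =
      sv ((x : SL(2, ℤ))⁻¹ * (x' : SL(2, ℤ))) (sv ((x' : SL(2, ℤ))⁻¹) y) := by
    rw [← sv_mul]; congr 1; group
  have e1 := congrArg Prod.fst e
  simp only [sv, mv] at e1 h h' hz' ⊢
  rw [e1] at h
  have h3 := (dvd_add_right (Dvd.dvd.mul_left h' _)).mp h
  rcases (Nat.prime_iff_prime_int.mp hW).dvd_or_dvd h3 with h4 | h4
  · exact h4
  · exact absurd h4 (not_dvd_snd_of_dvd_fst hW (z := (_, _)) hz' h')

theorem caseA_mul_right [NeZero W] {y : V2} {x h : Gamma0 M} (hh : h ∈ subD M W)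
    (hx : (W : ℤ) ∣ (sv ((x : SL(2, ℤ))⁻¹) y).1) :
    (W : ℤ) ∣ (sv (((x * h : Gamma0 M) : SL(2, ℤ))⁻¹) y).1 := by
  have h1 := (mem_subD_iff M W _).mp ((subD M W).inv_mem hh)
  have e : sv (((x * h : Gamma0 M) : SL(2, ℤ))⁻¹) y =
      sv (((h⁻¹ : Gamma0 M) : SL(2, ℤ))) (sv ((x : SL(2, ℤ))⁻¹) y) := by
    rw [← sv_mul]; congr 1
    simp [_root_.mul_inv_rev]
  rw [e]
  simp only [sv, mv] at hx ⊢
  exact dvd_add (Dvd.dvd.mul_left hx _) (Dvd.dvd.mul_right h1 _)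

theorem caseA_exists (hW : W.Prime) (hW1 : (M : ℤ) ∣ (W : ℤ) - 1) (y : V2) : ∃ x : Gamma0 M, (W : ℤ) ∣ (sv ((x : SL(2, ℤ))⁻¹) y).1 := by
  by_cases h2 : (W : ℤ) ∣ y.2
  · obtain ⟨t, ht⟩ := hW1
    have huv : (W : ℤ) * 1 + M * (-t) = 1 := by linear_combination ht
    refine ⟨(g0 M W 1 (-t) huv)⁻¹, ?_⟩
    rw [Subgroup.coe_inv, inv_inv]
    show (W : ℤ) ∣ (W : ℤ) * y.1 + -(-t) * y.2
    exact dvd_add (Dvd.intro _ rfl) (Dvd.dvd.mul_left h2 _)
  · obtain ⟨u, v, huv⟩ := isCoprime_of_prime_not_dvd hW h2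
    refine ⟨(tauG M (-(u * y.1)))⁻¹, ?_⟩
    rw [Subgroup.coe_inv, inv_inv]
    show (W : ℤ) ∣ 1 * y.1 + -(u * y.1) * y.2
    exact ⟨v * y.1, by linear_combination (-y.1) * huv⟩

theorem sv_Umat_self (y : V2) (n : ℤ) : sv (Umat y n) y = y := by
  ext
  · show (1 - n * y.1 * y.2) * y.1 + n * y.1 ^ 2 * y.2 = y.1
    ring
  · show -(n * y.2 ^ 2) * y.1 + (1 + n * y.1 * y.2) * y.2 = y.2
    ring

theorem index_subD [NeZero W] (hW : W.Prime) (hW1 : (M : ℤ) ∣ (W : ℤ) - 1) :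
    (subD M W).index = W + 1 := by
  have : Fact W.Prime := ⟨hW⟩
  obtain ⟨t, ht⟩ := hW1
  have huv : (W : ℤ) * 1 + M * (-t) = 1 := by linear_combination ht
  rw [Subgroup.index, ← Nat.card_congr (Equiv.ofBijective _ (rep_T (M := M) (q := W) 1 (-t) huv))]
  show Nat.card (Option (ZMod W)) = W + 1
  rw [Finite.card_option, Nat.card_zmod]

theorem count_sum [NeZero W] (hW : W.Prime) (hW1 : (M : ℤ) ∣ (W : ℤ) - 1) {y : V2}
    (hy : IsCoprime y.1 y.2) (γ : Gamma0 M) (hγy : sv (γ : SL(2, ℤ)) y = y)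
    [Fintype (Quotient (orbitRel (zpowers γ) (Gamma0 M ⧸ subD M W)))] :
    ∑ q : Quotient (orbitRel (zpowers γ) (Gamma0 M ⧸ subD M W)),
      ((Function.minimalPeriod (γ • ·) q.out : ℕ) : ℤ) *
        (if (W : ℤ) ∣ (sv (((q.out.out : Gamma0 M) : SL(2, ℤ))⁻¹) y).1 then (W : ℤ) ^ 2 else 1) =
      (W : ℤ) ^ 2 + W := by
  classical
  obtain ⟨xA, hxA⟩ := caseA_exists (M := M) hW hW1 y
  let cA : Gamma0 M ⧸ subD M W := (xA : Gamma0 M ⧸ subD M W)
  have huniq : ∀ x : Gamma0 M, (W : ℤ) ∣ (sv ((x : SL(2, ℤ))⁻¹) y).1 →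
      (x : Gamma0 M ⧸ subD M W) = cA := by
    intro x hx
    exact QuotientGroup.eq.mpr (caseA_unique hW hy hx hxA)
  have hfix : γ • cA = cA := by
    show ((γ * xA : Gamma0 M) : Gamma0 M ⧸ subD M W) = cA
    apply huniq
    have e : sv (((γ * xA : Gamma0 M) : SL(2, ℤ))⁻¹) y = sv ((xA : SL(2, ℤ))⁻¹) y := by
      have e1 : ((γ * xA : Gamma0 M) : SL(2, ℤ))⁻¹ = (xA : SL(2, ℤ))⁻¹ * (γ : SL(2, ℤ))⁻¹ := by
        rw [Subgroup.coe_mul, _root_.mul_inv_rev]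
      rw [e1, sv_mul]
      congr 1
      have e2 := sv_inv_sv (γ : SL(2, ℤ)) y
      rwa [hγy] at e2
    rw [e]; exact hxA
  have hAout : (W : ℤ) ∣ (sv (((cA.out : Gamma0 M) : SL(2, ℤ))⁻¹) y).1 := by
    have h1 : xA⁻¹ * cA.out ∈ subD M W := QuotientGroup.eq.mp (QuotientGroup.out_eq' cA).symm
    have h2 := caseA_mul_right (y := y) h1 hxA
    rwa [mul_inv_cancel_left] at h2
  let qA : Quotient (orbitRel (zpowers γ) (Gamma0 M ⧸ subD M W)) := Quotient.mk'' cA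
  have hstab : ∀ g : zpowers γ, g • cA = cA := by
    intro g
    have hle : zpowers γ ≤ MulAction.stabilizer (Gamma0 M) cA := by
      rw [Subgroup.zpowers_le]; exact hfix
    exact hle g.2
  have hout : qA.out = cA := by
    have h1 : (Quotient.mk'' qA.out : Quotient (orbitRel (zpowers γ) (Gamma0 M ⧸ subD M W))) =
        Quotient.mk'' cA := Quotient.out_eq' qA
    have h2 := Quotient.exact' h1
    obtain ⟨g, hg⟩ := (MulAction.orbitRel_apply.mp h2 : qA.out ∈ MulAction.orbit (zpowers γ) cA)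
    rw [← hg]; exact hstab g
  have hiff : ∀ q : Quotient (orbitRel (zpowers γ) (Gamma0 M ⧸ subD M W)),
      (W : ℤ) ∣ (sv (((q.out.out : Gamma0 M) : SL(2, ℤ))⁻¹) y).1 ↔ q = qA := by
    intro q
    constructor
    · intro h
      have h1 := huniq _ h
      rw [QuotientGroup.out_eq'] at h1
      rw [← Quotient.out_eq' q, h1]
    · rintro rfl
      rw [hout]; exact hAout
  have hper : Function.minimalPeriod (γ • ·) qA.out = 1 := by
    rw [Function.minimalPeriod_eq_one_iff_isFixedPt, hout]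
    exact hfix
  have hterm : ∀ q : Quotient (orbitRel (zpowers γ) (Gamma0 M ⧸ subD M W)),
      ((Function.minimalPeriod (γ • ·) q.out : ℕ) : ℤ) *
        (if (W : ℤ) ∣ (sv (((q.out.out : Gamma0 M) : SL(2, ℤ))⁻¹) y).1 then (W : ℤ) ^ 2 else 1) =
      ((Function.minimalPeriod (γ • ·) q.out : ℕ) : ℤ) +
        (if q = qA then (W : ℤ) ^ 2 - 1 else 0) := by
    intro q
    by_cases hq : q = qA
    · rw [if_pos ((hiff q).mpr hq), if_pos hq, hq, hper]; push_cast; ring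
    · rw [if_neg (fun h => hq ((hiff q).mp h)), if_neg hq]; ring
  have hs : ∑ q : Quotient (orbitRel (zpowers γ) (Gamma0 M ⧸ subD M W)),
      (if q = qA then (W : ℤ) ^ 2 - 1 else 0) = (W : ℤ) ^ 2 - 1 := by
    rw [Finset.sum_eq_single qA (fun b _ hb => if_neg hb)
      (fun h => absurd (Finset.mem_univ _) h), if_pos rfl]
  rw [Finset.sum_congr rfl (fun q _ => hterm q), Finset.sum_add_distrib, hs, ← Nat.cast_sum,
    ← Subgroup.index_eq_sum_minimalPeriod (subD M W) γ, index_subD hW hW1]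
  push_cast; ring

theorem heckeHomU_Uel [NeZero W] (hW : W.Prime) (hW1 : (M : ℤ) ∣ (W : ℤ) - 1)
    (Φ : Additive (Gamma0 M) →+ A) {y : V2} (hy : IsCoprime y.1 y.2) (m : Udom M y) :
    heckeHomU M W Φ (Additive.ofMul (Uel M y m)) = (W + 1) • Φ (Additive.ofMul (Uel M y m)) := by
  classical
  have hW0 : (W : ℤ) ≠ 0 := by exact_mod_cast hW.ne_zero
  let := (subD M W).fintypeQuotientOfFiniteIndex
  show coresD M W (res M W Φ) (Additive.ofMul (Uel M y m)) = _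
  rw [coresD_apply, MonoidHom.transfer_eq_prod_quotient_orbitRel_zpowers_quot, toAdd_prod]
  have key := fun q : Quotient (orbitRel (zpowers (Uel M y m)) (Gamma0 M ⧸ subD M W)) =>
    local_term hW hW1 Φ hy m q.out.out (Function.minimalPeriod ((Uel M y m) • ·) q.out)
      (QuotientGroup.out_conj_pow_minimalPeriod_mem (subD M W) (Uel M y m) q.out)
  choose n hn1 hn2 using key
  have e1 : ∀ q : Quotient (orbitRel (zpowers (Uel M y m)) (Gamma0 M ⧸ subD M W)),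
      Multiplicative.toAdd (toSubD M W (res M W Φ)
        ⟨q.out.out⁻¹ * (Uel M y m) ^ Function.minimalPeriod ((Uel M y m) • ·) q.out * q.out.out,
          QuotientGroup.out_conj_pow_minimalPeriod_mem (subD M W) (Uel M y m) q.out⟩) =
      Uhom Φ y (n q) := fun q => hn1 q
  rw [Finset.sum_congr rfl (fun q _ => e1 q), ← map_sum]
  have hsum : ∑ q, n q = (W + 1) • m := by
    apply Subtype.ext
    apply mul_left_cancel₀ hW0
    rw [AddSubgroup.val_finsetSum, Finset.mul_sum, Finset.sum_congr rfl (fun q _ => hn2 q)]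
    have := count_sum hW hW1 hy (Uel M y m) (sv_Umat_self y m)
    simp only [mul_assoc] at this ⊢
    have e2 : ∀ q : Quotient (orbitRel (zpowers (Uel M y m)) (Gamma0 M ⧸ subD M W)),
        ((Function.minimalPeriod ((Uel M y m) • ·) q.out : ℕ) : ℤ) * ((m : ℤ) *
          (if (W : ℤ) ∣ (sv (((q.out.out : Gamma0 M) : SL(2, ℤ))⁻¹) y).1 then (W : ℤ) ^ 2 else 1)) =
        (m : ℤ) * (((Function.minimalPeriod ((Uel M y m) • ·) q.out : ℕ) : ℤ) *
          (if (W : ℤ) ∣ (sv (((q.out.out : Gamma0 M) : SL(2, ℤ))⁻¹) y).1 then (W : ℤ) ^ 2 else 1)) :=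
      fun q => by ring
    rw [Finset.sum_congr rfl (fun q _ => e2 q), ← Finset.mul_sum, this]
    rw [AddSubgroup.coe_nsmul]
    simp only [nsmul_eq_mul]
    push_cast; ring
  rw [hsum, map_nsmul]
  rfl

/-- `-1` as an element of `Γ₀(M)` -/
def negOneG (M : ℕ) : Gamma0 M := ⟨-1, by
  apply mem_Gamma0_of_dvd
  simp⟩

theorem negOneG_conj (x : Gamma0 M) : x⁻¹ * negOneG M * x = negOneG M := by
  apply Subtype.ext
  show (x : SL(2, ℤ))⁻¹ * (-1) * (x : SL(2, ℤ)) = -1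
  simp

theorem conjD_negOneG [NeZero W] : conjD M W (negOneG (M * W)) = negOneG M := by
  apply Subtype.ext; apply Subtype.ext
  rw [conjD_coe]
  show conjDMat W ((-1 : SL(2, ℤ)) : Matrix (Fin 2) (Fin 2) ℤ) =
    ((-1 : SL(2, ℤ)) : Matrix (Fin 2) (Fin 2) ℤ)
  ext i j
  fin_cases i <;> fin_cases j <;> simp [conjDMat]

theorem heckeHomU_negOne [NeZero W] (hW : W.Prime) (hW1 : (M : ℤ) ∣ (W : ℤ) - 1)
    (Φ : Additive (Gamma0 M) →+ A) :
    heckeHomU M W Φ (Additive.ofMul (negOneG M)) = (W + 1) • Φ (Additive.ofMul (negOneG M)) := by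
  have hmem : negOneG M ∈ subD M W := ⟨negOneG (M * W), conjD_negOneG⟩
  have hg : ∀ x : Gamma0 M, x⁻¹ * negOneG M * x ∈ subD M W := fun x => by
    rw [negOneG_conj]; exact hmem
  show coresD M W (res M W Φ) (Additive.ofMul (negOneG M)) = _
  rw [coresD_apply, transfer_eq_pow_of_conj (toSubD M W (res M W Φ)) (negOneG M) hg
    (Multiplicative.ofAdd (Φ (Additive.ofMul (negOneG M)))), index_subD hW hW1]
  · rfl
  · intro x
    rw [toSubD_apply]
    have e : subDEquiv M W ⟨x⁻¹ * negOneG M * x, hg x⟩ = negOneG (M * W) := by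
      apply subDEquiv_eq
      rw [conjD_negOneG]
      exact (negOneG_conj x).symm
    rw [e]
    rfl

/-- **(PAR)** for a prime `W ≡ 1 mod M`, `T_W - (W+1)` maps every homomorphism
`Γ₀(M) → A` to a parabolic one. -/
theorem par_eisU [NeZero W] (hW : W.Prime) (hW1 : W ≡ 1 [MOD M])
    (Φ : Additive (Gamma0 M) →+ A) :
    ModularCurve.Period.IsParabolicHom (Gamma0 M) (heckeHomU M W Φ - (W + 1) • Φ) := by
  have hW1' : (M : ℤ) ∣ (W : ℤ) - 1 := by
    have := (Nat.modEq_iff_dvd.mp hW1.symm)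
    simpa using this
  have h2 : ∀ γ : Gamma0 M, ((γ : SL(2, ℤ)) : Matrix (Fin 2) (Fin 2) ℤ).trace = 2 →
      (heckeHomU M W Φ - (W + 1) • Φ) (Additive.ofMul γ) = 0 := by
    intro γ htr
    obtain ⟨y, n, hy, hγ⟩ := exists_eq_Umat (γ : SL(2, ℤ)) htr
    have hn : n ∈ Udom M y := by
      rw [mem_Udom, ← Umat_mem_Gamma0, ← hγ]; exact γ.2
    have e : γ = Uel M y ⟨n, hn⟩ := Subtype.ext hγ
    rw [AddMonoidHom.sub_apply, AddMonoidHom.nsmul_apply, e, heckeHomU_Uel hW hW1' Φ hy, sub_self]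
  intro γ htr
  have hcases : ((γ : SL(2, ℤ)) : Matrix (Fin 2) (Fin 2) ℤ).trace = 2 ∨
      ((γ : SL(2, ℤ)) : Matrix (Fin 2) (Fin 2) ℤ).trace = -2 := by
    have : (((γ : SL(2, ℤ)) : Matrix (Fin 2) (Fin 2) ℤ).trace - 2) *
        (((γ : SL(2, ℤ)) : Matrix (Fin 2) (Fin 2) ℤ).trace + 2) = 0 := by
      linear_combination htr
    rcases mul_eq_zero.mp this with h | h
    · left; linarith
    · right; linarith
  rcases hcases with h | h
  · exact h2 γ h
  · have e : γ = negOneG M * (negOneG M * γ) := by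
      apply Subtype.ext
      show (γ : SL(2, ℤ)) = (-1) * ((-1) * (γ : SL(2, ℤ)))
      simp
    have htr' : (((negOneG M * γ : Gamma0 M) : SL(2, ℤ)) : Matrix (Fin 2) (Fin 2) ℤ).trace = 2 := by
      have : (((negOneG M * γ : Gamma0 M) : SL(2, ℤ)) : Matrix (Fin 2) (Fin 2) ℤ) =
          -((γ : SL(2, ℤ)) : Matrix (Fin 2) (Fin 2) ℤ) := by
        show (((-1 : SL(2, ℤ)) * (γ : SL(2, ℤ)) : SL(2, ℤ)) : Matrix (Fin 2) (Fin 2) ℤ) = _
        simp
      rw [this, Matrix.trace_neg, h]; norm_num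
    rw [e, ofMul_mul, map_add, h2 _ htr', add_zero, AddMonoidHom.sub_apply,
      AddMonoidHom.nsmul_apply, heckeHomU_negOne hW hW1', sub_self]

end Fermat.Agent.S41Lib
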