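import Fermat.Agent.S41.CoreChain
import Fermat.Agent.S41.Par

/-!
# S41: steps 3, 4, 5 of the level raising chain, unconditional
-/

set_option autoImplicit false

open scoped MatrixGroups
open CongruenceSubgroup Function ModularCurve.Period

namespace Fermat.Agent.S41Lib

/-- **steps 3 + 4 + 5** of the level raising chain, unconditional (`W ≡ 1 mod N r`). -/
theorem core_chain_uncond {N r W p : ℕ} [NeZero N] [NeZero r] [NeZero W] [NeZero (N * r)]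
    [NeZero (N * W)]
    (hr : r.Prime) (hrN : ¬ r ∣ N) (hW : W.Prime)
    (hW1 : W ≡ 1 [MOD N * r]) (hp : p.Prime) (hp2 : p ≠ 2) (hpr : p ≠ r)
    (x0 : Additive (Gamma0 N) →+ ℤ) (hpar : IsParabolicHom (Gamma0 N) x0)
    (hx0 : ¬ ∃ w, x0 = (p : ℤ) • w) (eps : ℤ) (heps : eps * eps = 1)
    (wr : Additive (Gamma0 N) →+ ℤ)
    (hTr : heckeHomU N r x0 = (eps * (r + 1)) • x0 + (p : ℤ) • wr)
    (nW : ℤ) (wW : Additive (Gamma0 N) →+ ℤ)
    (hTW : heckeHomU N W x0 = nW • x0 + (p : ℤ) • wW) (hnW : ¬ (p : ℤ) ∣ nW - (W + 1)) :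
    ∃ x2 : Additive (Gamma0 (N * r)) →+ ℤ, IsParabolicHom (Gamma0 (N * r)) x2 ∧
      (¬ ∃ w, x2 = (p : ℤ) • w) ∧ cores N r x2 = 0 ∧ coresD N r x2 = 0 ∧
      heckeHomU (N * r) r (heckeHomU (N * r) r x2) = x2 ∧
      ∀ (l : ℕ) [NeZero l], l.Prime → ¬ l ∣ N * r → ∀ (n : ℤ) (wl : Additive (Gamma0 N) →+ ℤ),
        heckeHomU N l x0 = n • x0 + (p : ℤ) • wl →
        ∃ w, heckeHomU (N * r) l x2 = n • x2 + (p : ℤ) • w := by
  have hWNr : ¬ W ∣ N * r := not_dvd_of_modEq_one hW hW1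
  have hWr : W ≠ r := by
    rintro rfl
    exact hWNr (Dvd.intro_left N rfl)
  have hW1' : W ≡ 1 [MOD N] := hW1.of_mul_right r
  exact core_chain hr hrN hW hWr hW1' hp hp2 hpr (fun Φ => par_eisU hW hW1 Φ) x0 hpar hx0 eps heps
    wr hTr nW wW hTW hnW

end Fermat.Agent.S41Lib
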