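import Mathlib

/-!
# S41, E-side, leaf [GT]: group theory in `GL₂(𝔽_p)`

`gt_main`: if `ρ : 𝒢 → GL(V)` is irreducible, `#V ≤ p²`, `ℋ` is normal in `𝒢` and every element of
`ℋ` acting with prime order has a nonzero fixed vector, then `ℋ` acts trivially.
-/

set_option autoImplicit false

namespace Fermat.Agent.S41E

open Polynomial Module


/-- In dimension `≤ 2`, an endomorphism of determinant one with a nonzero fixed vector is
unipotent. -/
theorem gt_sub_one_sq {F V : Type*} [Field F] [AddCommGroup V] [Module F V] [FiniteDimensional F V]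
    (hdim : finrank F V ≤ 2) (a : Module.End F V) (hdet : LinearMap.det a = 1)
    {v : V} (hv : v ≠ 0) (hav : a v = v) : (a - 1) * (a - 1) = 0 := by
  have hmon := LinearMap.charpoly_monic a
  have hdeg := LinearMap.charpoly_natDegree a
  have hCH := LinearMap.aeval_self_charpoly a
  have hc0 := LinearMap.det_eq_sign_charpoly_coeff a
  have hroot : a.charpoly.eval 1 = 0 := by
    have hE : a.HasEigenvector 1 v := by
      refine ⟨?_, hv⟩
      rw [Module.End.mem_eigenspace_iff]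
      simpa using hav
    have h1 := Module.End.aeval_apply_of_hasEigenvector (p := a.charpoly) hE
    rw [hCH] at h1
    simp only [LinearMap.zero_apply] at h1
    exact (smul_eq_zero.mp h1.symm).resolve_right hv
  have hpos : 0 < finrank F V := by
    have : Nontrivial V := ⟨⟨v, 0, hv⟩⟩
    exact Module.finrank_pos
  have hcases : finrank F V = 1 ∨ finrank F V = 2 := by omega
  rcases hcases with h1 | h2
  · rw [h1] at hdeg hc0
    have hχ : a.charpoly = X + C (a.charpoly.coeff 0) := by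
      have := hmon.as_sum
      rw [hdeg] at this
      simpa [Finset.sum_range_one] using this
    rw [hχ] at hroot hCH
    simp only [eval_add, eval_X, eval_C] at hroot
    have hc : a.charpoly.coeff 0 = -1 := by linear_combination hroot
    rw [hc] at hCH
    simp only [map_add, aeval_X, map_neg, map_one] at hCH
    have : a - 1 = 0 := by rw [sub_eq_add_neg]; exact hCH
    rw [this, zero_mul]
  · rw [h2] at hdeg hc0
    have hχ : a.charpoly = X ^ 2 + (C (a.charpoly.coeff 0) + C (a.charpoly.coeff 1) * X) := by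
      have := hmon.as_sum
      rw [hdeg] at this
      simpa [Finset.sum_range_succ] using this
    have hc0' : a.charpoly.coeff 0 = 1 := by
      rw [hdet] at hc0
      simpa using hc0.symm
    rw [hc0'] at hχ
    rw [hχ] at hroot hCH
    simp only [eval_add, eval_X, eval_C, eval_pow, eval_mul] at hroot
    have hc : a.charpoly.coeff 1 = -2 := by linear_combination hroot
    rw [hc] at hCH
    simp only [map_add, aeval_X, map_neg, map_one, map_pow, map_mul, map_ofNat] at hCH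
    have : (a - 1) * (a - 1) = a ^ 2 + (1 + -2 * a) := by
      noncomm_ring
    rw [this]
    exact hCH

theorem gt_span_pair {F V : Type*} [Field F] [AddCommGroup V] [Module F V] [FiniteDimensional F V]
    (hdim : finrank F V ≤ 2) {e₁ e₂ : V} (hLI : ∀ s t : F, s • e₁ + t • e₂ = 0 → s = 0 ∧ t = 0)
    (x : V) : ∃ α β : F, x = α • e₁ + β • e₂ := by
  have hli : LinearIndependent F ![e₁, e₂] := LinearIndependent.pair_iff.mpr hLI
  have h2 : 2 ≤ finrank F V := by
    have := hli.fintype_card_le_finrank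
    simpa using this
  have hspan := hli.span_eq_top_of_card_eq_finrank (by simp; omega)
  have hx : x ∈ Submodule.span F (Set.range ![e₁, e₂]) := by rw [hspan]; trivial
  rw [Submodule.mem_span_range_iff_exists_fun] at hx
  obtain ⟨c, hc⟩ := hx
  refine ⟨c 0, c 1, ?_⟩
  rw [← hc, Fin.sum_univ_two]
  rfl

theorem gt_ext_pair {F V : Type*} [Field F] [AddCommGroup V] [Module F V] [FiniteDimensional F V]
    (hdim : finrank F V ≤ 2) {e₁ e₂ : V} (hLI : ∀ s t : F, s • e₁ + t • e₂ = 0 → s = 0 ∧ t = 0)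
    {f g : Module.End F V} (h₁ : f e₁ = g e₁) (h₂ : f e₂ = g e₂) : f = g := by
  ext x
  obtain ⟨α, β, rfl⟩ := gt_span_pair hdim hLI x
  simp [h₁, h₂]

theorem gt_exists_prime_order {G M : Type*} [Group G] [Monoid M] [Finite M] (ρ : G →* M)
    {h₀ : G} (h1 : ρ h₀ ≠ 1) :
    ∃ (m q : ℕ), q.Prime ∧ ρ (h₀ ^ m) ^ q = 1 ∧ ρ (h₀ ^ m) ≠ 1 := by
  set u : Mˣ := ρ.toHomUnits h₀ with hu
  have hcoe : ∀ g, ((ρ.toHomUnits g : Mˣ) : M) = ρ g := fun g => MonoidHom.coe_toHomUnits ρ g
  have hu1 : u ≠ 1 := by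
    intro h
    apply h1
    rw [← hcoe, ← hu, h, Units.val_one]
  have hn0 : orderOf u ≠ 0 := (orderOf_pos u).ne'
  have hn1 : orderOf u ≠ 1 := fun h => hu1 (orderOf_eq_one_iff.mp h)
  have hq := Nat.minFac_prime hn1
  have hdvd := Nat.minFac_dvd (orderOf u)
  have hord := orderOf_pow_orderOf_div hn0 hdvd
  refine ⟨orderOf u / (orderOf u).minFac, (orderOf u).minFac, hq, ?_, ?_⟩
  · have := pow_orderOf_eq_one (u ^ (orderOf u / (orderOf u).minFac))
    rw [hord] at this
    have h2 := congrArg (Units.val) this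
    have hu' : (u : M) = ρ h₀ := hcoe h₀
    rw [map_pow, ← hu']
    simpa using h2
  · intro h
    have : u ^ (orderOf u / (orderOf u).minFac) = 1 := by
      apply Units.ext
      rw [Units.val_pow_eq_pow_val, hu, hcoe, ← map_pow, h, Units.val_one]
    rw [this, orderOf_one] at hord
    exact hq.one_lt.ne hord


section Main

variable {p : ℕ} [Fact p.Prime] {V : Type*} [AddCommGroup V] [Module (ZMod p) V] [Finite V]

theorem gt_finrank_le (hcard : Nat.card V ≤ p ^ 2) : finrank (ZMod p) V ≤ 2 := by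
  have : Fintype V := Fintype.ofFinite V
  have h := Module.card_eq_pow_finrank (K := ZMod p) (V := V)
  rw [ZMod.card, ← Nat.card_eq_fintype_card] at h
  rw [h] at hcard
  exact (Nat.pow_le_pow_iff_right (Fact.out : p.Prime).one_lt).mp hcard

omit [AddCommGroup V] [Module (ZMod p) V] [Finite V] in
theorem gt_two_ne_zero (hp2 : p ≠ 2) : (2 : ZMod p) ≠ 0 := by
  intro h
  have h2 : ((2 : ℕ) : ZMod p) = 0 := by exact_mod_cast h
  rw [ZMod.natCast_eq_zero_iff] at h2
  have := Nat.le_of_dvd (by norm_num) h2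
  have := (Fact.out : p.Prime).two_le
  omega

variable {𝒢 : Type*} [Group 𝒢] (ρ : 𝒢 →* Module.End (ZMod p) V) (ℋ : Subgroup 𝒢) [ℋ.Normal]

omit [Finite V] in
theorem gt_rho_inv_mul (g : 𝒢) : ρ g⁻¹ * ρ g = 1 := by rw [← map_mul, inv_mul_cancel, map_one]

omit [Finite V] in
theorem gt_rho_mul_inv (g : 𝒢) : ρ g * ρ g⁻¹ = 1 := by rw [← map_mul, mul_inv_cancel, map_one]

omit [Finite V] in
theorem gt_det_conj (g k : 𝒢) : LinearMap.det (ρ (g * k * g⁻¹)) = LinearMap.det (ρ k) := by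
  rw [map_mul, map_mul, map_mul, map_mul, mul_comm (LinearMap.det (ρ g)), mul_assoc, ← map_mul,
    gt_rho_mul_inv, map_one, mul_one]

/-- Claim A: an element of `ℋ` of determinant one acts trivially. -/
theorem gt_claimA (hp2 : p ≠ 2) (hcard : Nat.card V ≤ p ^ 2)
    (hirr : ∀ N : Submodule (ZMod p) V, (∀ g : 𝒢, ∀ x ∈ N, ρ g x ∈ N) → N = ⊥ ∨ N = ⊤)
    (hfix : ∀ h ∈ ℋ, (∃ q : ℕ, q.Prime ∧ ρ h ^ q = 1) → ∃ v : V, v ≠ 0 ∧ ρ h v = v)
    {k : 𝒢} (hk : k ∈ ℋ) (hdet : LinearMap.det (ρ k) = 1) : ρ k = 1 := by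
  by_contra hne
  have hdim := gt_finrank_le hcard
  have : Finite (Module.End (ZMod p) V) :=
    Finite.of_injective (fun f => (f : V → V)) DFunLike.coe_injective
  obtain ⟨m, q, hq, hpow, hne1⟩ := gt_exists_prime_order ρ hne
  have hk₁H : k ^ m ∈ ℋ := ℋ.pow_mem hk m
  have hdet1 : LinearMap.det (ρ (k ^ m)) = 1 := by rw [map_pow, map_pow, hdet, one_pow]
  generalize k ^ m = k₁ at hpow hne1 hk₁H hdet1
  obtain ⟨v, hv0, hv⟩ := hfix k₁ hk₁H ⟨q, hq, hpow⟩
  have hn2 := gt_sub_one_sq hdim (ρ k₁) hdet1 hv0 hv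
  set n : Module.End (ZMod p) V := ρ k₁ - 1 with hn
  have hnapp : ∀ x, n x = ρ k₁ x - x := fun x => by simp [hn]
  have hn2' : ∀ x, n (n x) = 0 := fun x => by
    have := LinearMap.congr_fun hn2 x
    simpa using this
  -- the fixed line is not stable
  have hL : ¬ (∀ g : 𝒢, ∀ x ∈ LinearMap.ker n, ρ g x ∈ LinearMap.ker n) := by
    intro hst
    rcases hirr _ hst with h | h
    · have : v ∈ LinearMap.ker n := by rw [LinearMap.mem_ker, hnapp, hv, sub_self]
      rw [h, Submodule.mem_bot] at this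
      exact hv0 this
    · apply hne1
      ext x
      have : x ∈ LinearMap.ker n := by rw [h]; trivial
      rw [LinearMap.mem_ker, hnapp, sub_eq_zero] at this
      simpa using this
  push Not at hL
  obtain ⟨g, e₁, he₁, hge⟩ := hL
  rw [LinearMap.mem_ker] at he₁ hge
  set e₂ := ρ g e₁ with he₂
  have he₁0 : e₁ ≠ 0 := by
    rintro h
    apply hge
    rw [he₂, h, map_zero, map_zero]
  have hLI : ∀ s t : ZMod p, s • e₁ + t • e₂ = 0 → s = 0 ∧ t = 0 := by
    intro s t h
    have h1 := congrArg n h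
    rw [map_add, map_smul, map_smul, he₁, smul_zero, zero_add, map_zero] at h1
    have ht : t = 0 := (smul_eq_zero.mp h1).resolve_right hge
    rw [ht, zero_smul, add_zero] at h
    exact ⟨(smul_eq_zero.mp h).resolve_right he₁0, ht⟩
  -- shape of `u = ρ k₁`
  obtain ⟨a, a', ha⟩ := gt_span_pair hdim hLI (n e₂)
  have ha' : a' = 0 := by
    have h1 := congrArg n ha
    rw [hn2', map_add, map_smul, map_smul, he₁, smul_zero, zero_add] at h1
    exact (smul_eq_zero.mp h1.symm).resolve_right hge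
  rw [ha', zero_smul, add_zero] at ha
  have ha0 : a ≠ 0 := by
    rintro rfl
    rw [zero_smul] at ha
    exact hge ha
  have hu1 : ρ k₁ e₁ = e₁ := by
    have := hnapp e₁
    rw [he₁] at this
    exact (sub_eq_zero.mp this.symm)
  have hu2 : ρ k₁ e₂ = e₂ + a • e₁ := by
    have := hnapp e₂
    rw [ha] at this
    rw [this]; abel
  -- the conjugate
  obtain ⟨k₂, hk₂⟩ : ∃ k₂, k₂ = g * k₁ * g⁻¹ := ⟨_, rfl⟩
  have hk₂H : k₂ ∈ ℋ := hk₂ ▸ Subgroup.Normal.conj_mem inferInstance k₁ hk₁H g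
  have hdet2 : LinearMap.det (ρ k₂) = 1 := by rw [hk₂, gt_det_conj, hdet1]
  have hginv : ρ g⁻¹ e₂ = e₁ := by
    have h1 : (ρ g⁻¹ * ρ g) e₁ = (1 : Module.End (ZMod p) V) e₁ := by rw [gt_rho_inv_mul ρ g]
    rw [Module.End.mul_apply, Module.End.one_apply] at h1
    exact h1
  have hu'2 : ρ k₂ e₂ = e₂ := by
    rw [hk₂, map_mul, map_mul, Module.End.mul_apply, Module.End.mul_apply, hginv, hu1]
  have he₂0 : e₂ ≠ 0 := by
    rintro h
    apply hge
    rw [h, map_zero]
  have hn'2 := gt_sub_one_sq hdim (ρ k₂) hdet2 he₂0 hu'2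
  set n' : Module.End (ZMod p) V := ρ k₂ - 1 with hn'
  have hn'app : ∀ x, n' x = ρ k₂ x - x := fun x => by simp [hn']
  have hn'2' : ∀ x, n' (n' x) = 0 := fun x => by
    have := LinearMap.congr_fun hn'2 x
    simpa using this
  have hn'e₂ : n' e₂ = 0 := by rw [hn'app, hu'2, sub_self]
  have hn'e₁ : n' e₁ ≠ 0 := by
    intro h
    have h1 : ρ k₂ = 1 := by
      apply gt_ext_pair hdim hLI
      · rw [hn'app, sub_eq_zero] at h
        simpa using h
      · simpa using hu'2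
    apply hne1
    have h2 : ρ k₁ = ρ g⁻¹ * ρ k₂ * ρ g := by
      rw [← map_mul, ← map_mul, hk₂]
      congr 1
      group
    rw [h2, h1, mul_one, gt_rho_inv_mul]
  obtain ⟨b', b, hb⟩ := gt_span_pair hdim hLI (n' e₁)
  have hb' : b' = 0 := by
    have h1 := congrArg n' hb
    rw [hn'2', map_add, map_smul, map_smul, hn'e₂, smul_zero, add_zero] at h1
    exact (smul_eq_zero.mp h1.symm).resolve_right hn'e₁
  rw [hb', zero_smul, zero_add] at hb
  have hb0 : b ≠ 0 := by
    rintro rfl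
    rw [zero_smul] at hb
    exact hn'e₁ hb
  have hu'1 : ρ k₂ e₁ = e₁ + b • e₂ := by
    have := hn'app e₁
    rw [hb] at this
    rw [this]; abel
  have hpow2 : ∀ t : ℕ, (ρ k₂ ^ t) e₂ = e₂ := by
    intro t
    induction t with
    | zero => simp
    | succ t ih => rw [pow_succ, Module.End.mul_apply, hu'2, ih]
  have hpow1 : ∀ t : ℕ, (ρ k₂ ^ t) e₁ = e₁ + ((t : ZMod p) * b) • e₂ := by
    intro t
    induction t with
    | zero => simp
    | succ t ih =>
      rw [pow_succ, Module.End.mul_apply, hu'1, map_add, map_smul, ih, hpow2]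
      push_cast
      module
  set t : ℕ := (-(a * b)⁻¹ : ZMod p).val with ht
  have htc : (t : ZMod p) = -(a * b)⁻¹ := by rw [ht, ZMod.natCast_zmod_val]
  have htab : (t : ZMod p) * b * a = -1 := by
    rw [htc]
    field_simp
  set w : Module.End (ZMod p) V := ρ k₁ * ρ k₂ ^ t * ρ k₁ with hw
  have hw1 : w e₁ = ((t : ZMod p) * b) • e₂ := by
    rw [hw, Module.End.mul_apply, Module.End.mul_apply, hu1, hpow1, map_add, map_smul, hu1, hu2]
    have : e₁ + ((t : ZMod p) * b) • (e₂ + a • e₁)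
        = (1 + (t : ZMod p) * b * a) • e₁ + ((t : ZMod p) * b) • e₂ := by module
    rw [this, htab]
    simp
  have hw2 : w e₂ = a • e₁ := by
    rw [hw, Module.End.mul_apply, Module.End.mul_apply, hu2, map_add, map_smul, hpow1, hpow2,
      map_add, map_smul, map_add, map_smul, hu1, hu2]
    have : e₂ + a • e₁ + a • (e₁ + ((t : ZMod p) * b) • (e₂ + a • e₁))
        = (1 + (t : ZMod p) * b * a) • e₂ + (a * (1 + (t : ZMod p) * b * a)) • e₁ + a • e₁ := by
      module
    rw [this, htab]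
    simp
  have hww : w * w = -1 := by
    apply gt_ext_pair hdim hLI
    · rw [Module.End.mul_apply, hw1, map_smul, hw2, smul_smul, htab]
      simp
    · rw [Module.End.mul_apply, hw2, map_smul, hw1, smul_smul, mul_comm a, htab]
      simp
  set h₁ : 𝒢 := (k₁ * k₂ ^ t * k₁) * (k₁ * k₂ ^ t * k₁) with hh₁
  have hh₁H : h₁ ∈ ℋ := by
    have : k₁ * k₂ ^ t * k₁ ∈ ℋ := ℋ.mul_mem (ℋ.mul_mem hk₁H (ℋ.pow_mem hk₂H t)) hk₁H
    exact ℋ.mul_mem this this
  have hρh₁ : ρ h₁ = -1 := by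
    rw [hh₁, map_mul, map_mul, map_mul, map_pow, ← hw, hww]
  obtain ⟨v', hv'0, hv'⟩ := hfix h₁ hh₁H ⟨2, Nat.prime_two, by rw [hρh₁]; simp⟩
  rw [hρh₁] at hv'
  have h2v : (2 : ZMod p) • v' = 0 := by
    have : -v' = v' := by simpa using hv'
    rw [two_smul]
    nth_rewrite 1 [← this]
    abel
  exact hv'0 ((smul_eq_zero.mp h2v).resolve_left (gt_two_ne_zero hp2))

/-- **[GT], prime order version.** -/
theorem gt_main' (hp2 : p ≠ 2) (hcard : Nat.card V ≤ p ^ 2)
    (hirr : ∀ N : Submodule (ZMod p) V, (∀ g : 𝒢, ∀ x ∈ N, ρ g x ∈ N) → N = ⊥ ∨ N = ⊤)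
    (hfix : ∀ h ∈ ℋ, (∃ q : ℕ, q.Prime ∧ ρ h ^ q = 1) → ∃ v : V, v ≠ 0 ∧ ρ h v = v) :
    ∀ h ∈ ℋ, ρ h = 1 := by
  intro h₀ hh₀
  by_contra hne
  have : Finite (Module.End (ZMod p) V) :=
    Finite.of_injective (fun f => (f : V → V)) DFunLike.coe_injective
  obtain ⟨m, q, hq, hpow, hne1⟩ := gt_exists_prime_order ρ hne
  have hH : h₀ ^ m ∈ ℋ := ℋ.pow_mem hh₀ m
  generalize h₀ ^ m = h at hpow hne1 hH
  obtain ⟨v, hv0, hv⟩ := hfix h hH ⟨q, hq, hpow⟩
  -- `ρ h` commutes with everything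
  have hcomm : ∀ g : 𝒢, ρ g * ρ h = ρ h * ρ g := by
    intro g
    have hmem : g * h * g⁻¹ * h⁻¹ ∈ ℋ :=
      ℋ.mul_mem (Subgroup.Normal.conj_mem inferInstance h hH g) (ℋ.inv_mem hH)
    have hdet : LinearMap.det (ρ (g * h * g⁻¹ * h⁻¹)) = 1 := by
      rw [map_mul, map_mul, gt_det_conj, ← map_mul, gt_rho_mul_inv, map_one]
    have h1 := gt_claimA ρ ℋ hp2 hcard hirr hfix hmem hdet
    have h2 : ρ g * ρ h = ρ (g * h * g⁻¹ * h⁻¹) * (ρ h * ρ g) := by
      rw [← map_mul, ← map_mul, ← map_mul]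
      congr 1
      group
    rw [h2, h1, one_mul]
  have hst : ∀ g : 𝒢, ∀ x ∈ LinearMap.ker (ρ h - 1), ρ g x ∈ LinearMap.ker (ρ h - 1) := by
    intro g x hx
    rw [LinearMap.mem_ker] at hx ⊢
    have hx' : ρ h x = x := by
      have : ρ h x - x = 0 := by simpa using hx
      exact sub_eq_zero.mp this
    have h3 := LinearMap.congr_fun (hcomm g) x
    simp only [Module.End.mul_apply] at h3
    rw [hx'] at h3
    simp [← h3]
  rcases hirr _ hst with h' | h'
  · have : v ∈ LinearMap.ker (ρ h - 1) := by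
      rw [LinearMap.mem_ker]; simp [hv]
    rw [h', Submodule.mem_bot] at this
    exact hv0 this
  · apply hne1
    ext x
    have : x ∈ LinearMap.ker (ρ h - 1) := by rw [h']; trivial
    rw [LinearMap.mem_ker] at this
    have h4 : ρ h x - x = 0 := by simpa using this
    simpa using sub_eq_zero.mp h4

end Main

/-- **[GT]** (signature of the E-side skeleton). -/
theorem gt_main {p : ℕ} [Fact p.Prime] (hp2 : p ≠ 2)
    {V : Type*} [AddCommGroup V] [Module (ZMod p) V] [Finite V] [Nontrivial V]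
    (hcard : Nat.card V ≤ p ^ 2)
    {𝒢 : Type*} [Group 𝒢] (ρ : 𝒢 →* Module.End (ZMod p) V) (ℋ : Subgroup 𝒢) [ℋ.Normal]
    (hirr : ∀ N : Submodule (ZMod p) V, (∀ g : 𝒢, ∀ x ∈ N, ρ g x ∈ N) → N = ⊥ ∨ N = ⊤)
    (hfix : ∀ h ∈ ℋ, (∃ q k : ℕ, q.Prime ∧ ρ h ^ (q ^ k) = 1) → ∃ v : V, v ≠ 0 ∧ ρ h v = v) :
    ∀ h ∈ ℋ, ρ h = 1 :=
  gt_main' ρ ℋ hp2 hcard hirr
    (fun h hh ⟨q, hq, hpow⟩ => hfix h hh ⟨q, 1, hq, by rwa [pow_one]⟩)

end Fermat.Agent.S41E
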