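import Fermat.Agent.S41.EFinalA
import Fermat.Agent.S41.EGroup
import Fermat.Prelude.Def_EllipticCurve_FrobeniusTrace
set_option autoImplicit false
set_option linter.unusedSectionVars false
set_option linter.style.haveILetI false

/-!
# S41, E-side: an irreducible `E[p]` is not Eisenstein
-/

namespace Fermat.Agent.S41E

open WeierstrassCurve WeierstrassCurve.Affine WeierstrassCurve.Affine.Point
open Fermat.Agent.S05Lib Fermat.Agent.S13Lib Fermat.Agent.S41Lib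

local notation "Qb" => AlgebraicClosure ℚ
local notation "GQ" => (AlgebraicClosure ℚ ≃ₐ[ℚ] AlgebraicClosure ℚ)

theorem eq_zero_of_add_self {G : Type*} [AddCommGroup G] {p : ℕ} (hodd : Odd p) {P : G}
    (hp : p • P = 0) (h2 : P + P = 0) : P = 0 := by
  obtain ⟨m, rfl⟩ := hodd
  rw [add_nsmul, one_nsmul, mul_nsmul, two_nsmul, h2, nsmul_zero, zero_add] at hp
  exact hp

/-- the subgroup fixing `ζ`. -/
def fixZ (ζ : Qb) : Subgroup GQ where
  carrier := {τ | τ ζ = ζ}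
  one_mem' := rfl
  mul_mem' := by
    intro a b ha hb
    show a (b ζ) = ζ
    rw [show b ζ = ζ from hb, show a ζ = ζ from ha]
  inv_mem' := by
    intro a ha
    show a⁻¹ ζ = ζ
    have : a⁻¹ (a ζ) = ζ := by
      rw [← AlgEquiv.mul_apply, inv_mul_cancel]; rfl
    rwa [show a ζ = ζ from ha] at this

theorem mem_fixZ {ζ : Qb} {τ : GQ} : τ ∈ fixZ ζ ↔ τ ζ = ζ := Iff.rfl

theorem fixZ_normal {ζ : Qb} {M : ℕ} [NeZero M] (hζ : IsPrimitiveRoot ζ M) : (fixZ ζ).Normal := by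
  constructor
  intro τ hτ g
  rw [mem_fixZ] at hτ ⊢
  have h1 : (g⁻¹ ζ) ^ M = 1 := by rw [← map_pow, hζ.pow_eq_one, map_one]
  obtain ⟨i, -, hi⟩ := hζ.eq_pow_of_pow_eq_one h1
  rw [AlgEquiv.mul_apply, AlgEquiv.mul_apply, ← hi, map_pow, hτ, hi, ← AlgEquiv.mul_apply,
    mul_inv_cancel]
  rfl

theorem Δ_ne_zero_of_model (E : WeierstrassCurve ℚ) [E.IsElliptic] {W : WeierstrassCurve ℤ}
    (hW : W.IsIntegralModelOf E) : W.Δ ≠ 0 := by
  obtain ⟨C, hC⟩ := hW
  intro h0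
  have h1 : (C • E).Δ = 0 := by rw [hC, WeierstrassCurve.map_Δ, h0, _root_.map_zero]
  rw [variableChange_Δ] at h1
  rcases mul_eq_zero.mp h1 with h | h
  · exact (pow_ne_zero 12 (Units.ne_zero _)) h
  · exact E.isUnit_Δ.ne_zero h

theorem card_eq_of_apOfModel (W : WeierstrassCurve ℤ) (ℓ : ℕ) :
    (ℓ : ℤ) + 1 - W.apOfModel ℓ = (Nat.card (W.reductionMod ℓ).toAffine.Point : ℤ) := by
  unfold WeierstrassCurve.apOfModel WeierstrassCurve.traceOfFrobenius WeierstrassCurve.card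
  rw [Nat.card_zmod]
  ring

section rep

variable (E : WeierstrassCurve ℚ) (p : ℕ)

theorem coe_nsmul_eq_zero (x : Submodule.torsionBy ℤ (E.toAffine⁄Qb).Point p) : p • (x : (E.toAffine⁄Qb).Point) = 0 := by
  have h1 := x.2
  rw [Submodule.mem_torsionBy_iff, Nat.cast_smul_eq_nsmul ℤ] at h1
  exact h1

theorem mem_V {P : (E.toAffine⁄Qb).Point} (hP : p • P = 0) :
    P ∈ Submodule.torsionBy ℤ (E.toAffine⁄Qb).Point p := by
  rw [Submodule.mem_torsionBy_iff, Nat.cast_smul_eq_nsmul ℤ]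
  exact hP

end rep

/-- **E-side of S41.** -/
theorem eside (E : WeierstrassCurve ℚ) [E.IsElliptic] {W : WeierstrassCurve ℤ}
    (hW : W.IsIntegralModelOf E) {p : ℕ} (hp : p.Prime) (hp2 : p ≠ 2)
    (hirr : Point.GaloisRepIsIrreducible (K := AlgebraicClosure ℚ) ℚ E p) (M : ℕ) (hM : 0 < M) :
    ∃ ℓ : ℕ, ℓ.Prime ∧ W.IsGoodPrimeFor ℓ ∧ ℓ ≡ 1 [MOD M] ∧
      ¬ ((p : ℤ) ∣ (ℓ : ℤ) + 1 - W.apOfModel ℓ) := by
  classical
  by_contra hcon
  push Not at hcon
  haveI : Fact p.Prime := ⟨hp⟩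
  have hodd : Odd p := hp.odd_of_ne_two hp2
  have hp3 : 3 ≤ p := by
    have := hp.two_le
    omega
  have hΔ := Δ_ne_zero_of_model E hW
  set M' := 2 * p * M * W.Δ.natAbs with hM'def
  have hM'pos : 0 < M' := by
    have := Int.natAbs_pos.mpr hΔ
    have := hp.pos
    positivity
  haveI : NeZero M' := ⟨hM'pos.ne'⟩
  have hOK : ModOK W p M' :=
    ⟨hM'pos, ⟨p * M * W.Δ.natAbs, by rw [hM'def]; ring⟩, ⟨2 * M * W.Δ.natAbs, by rw [hM'def]; ring⟩,
      ⟨2 * p * M, by rw [hM'def]; ring⟩⟩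
  have hMM' : M ∣ M' := ⟨2 * p * W.Δ.natAbs, by rw [hM'def]; ring⟩
  have H : ∀ ℓ : ℕ, ℓ.Prime → ℓ ≡ 1 [MOD M'] →
      p ∣ Nat.card (W.reductionMod ℓ).toAffine.Point := by
    intro ℓ hℓ hmod
    have hℓM : ¬ ℓ ∣ M' := by
      intro hd
      have h1 := hmod.gcd_eq
      rw [Nat.gcd_eq_left hd, Nat.gcd_one_left] at h1
      exact hℓ.one_lt.ne' h1
    obtain ⟨-, -, hgood⟩ := hOK.facts hℓ hℓM
    have h1 := hcon ℓ hℓ hgood (hmod.of_dvd hMM')
    rw [card_eq_of_apOfModel] at h1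
    exact_mod_cast h1
  obtain ⟨ζ, hζ⟩ := HasEnoughRootsOfUnity.exists_primitiveRoot Qb M'
  haveI := fixZ_normal hζ
  obtain ⟨hVfin, hVcard⟩ := card_torsion_le E hp hp2
  haveI := hVfin
  haveI := hirr.1
  set ρ := Point.galoisRepModuleEnd (K := Qb) ℚ E.toAffine p with hρ
  have hirr' : ∀ N : Submodule (ZMod p) (Submodule.torsionBy ℤ (E.toAffine⁄Qb).Point p),
      (∀ g : GQ, ∀ x ∈ N, ρ g x ∈ N) → N = ⊥ ∨ N = ⊤ := fun N hN => hirr.2 N hN
  -- Chebotarev + group theory: the subgroup fixing `ζ` acts trivially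
  have htriv : ∀ h ∈ fixZ ζ, ρ h = 1 := by
    apply gt_main' ρ (fixZ ζ) hp2 hVcard hirr'
    rintro h hh ⟨q, hq, hpow⟩
    by_cases h1 : ρ h = 1
    · obtain ⟨v, hv⟩ := exists_ne (0 : Submodule.torsionBy ℤ (E.toAffine⁄Qb).Point p)
      exact ⟨v, hv, by rw [h1]; rfl⟩
    have hhq : ∀ P : (E.toAffine⁄Qb).Point, p • P = 0 → (h ^ q) • P = P := by
      intro P hP
      have h2 : ρ (h ^ q) ⟨P, mem_V E p hP⟩ = ⟨P, mem_V E p hP⟩ := by
        rw [map_pow, hpow]; rfl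
      exact congrArg Subtype.val h2
    have hne : ∃ P : (E.toAffine⁄Qb).Point, p • P = 0 ∧ h • P ≠ P := by
      by_contra hc
      push Not at hc
      apply h1
      apply LinearMap.ext
      intro x
      exact Subtype.ext (hc x.1 (coe_nsmul_eq_zero E p x))
    obtain ⟨P, hP0, hpP, hfix⟩ := cheb_step E hW hp hp2 hOK hζ H h hh hq hhq hne
    refine ⟨⟨P, mem_V E p hpP⟩, fun h0 => hP0 (congrArg Subtype.val h0), Subtype.ext hfix⟩
  -- the abelian case
  obtain ⟨ℓ, -, hℓ, hℓmod⟩ := Nat.forall_exists_prime_gt_and_eq_mod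
    (q := M') (a := -1) (IsUnit.neg isUnit_one) 0
  have hdvd : M' ∣ ℓ + 1 := by
    rw [← ZMod.natCast_eq_zero_iff]
    push_cast
    rw [hℓmod]
    ring
  have hℓM : ¬ ℓ ∣ M' := by
    intro hd
    have h1 : ℓ ∣ 1 := (Nat.dvd_add_right (dvd_refl ℓ)).mp (hd.trans hdvd)
    exact hℓ.one_lt.ne' (Nat.dvd_one.mp h1)
  obtain ⟨hℓ2, hℓp, hgood⟩ := hOK.facts hℓ hℓM
  have hpℓ : p ∣ ℓ + 1 := hOK.hp.trans hdvd
  obtain ⟨A, hA⟩ := Fermat.Agent.Lib.Frobenius.exists_liesOverPrime hℓ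
  obtain ⟨σ, hσ⟩ := Fermat.Agent.Lib.Frobenius.exists_isFrobeniusAt hℓ A hA
  obtain ⟨-, hPM, hMP⟩ := perPrime E hW hp hp3 hℓ hℓ2 hℓp hgood A hA σ hσ
  have hinv : ∀ w : Qb, w ^ M' = 1 → σ w = w⁻¹ := by
    intro w hw
    rw [frobenius_apply_of_pow_eq_one hℓ hℓM A hA σ hσ w hw]
    apply eq_inv_of_mul_eq_one_left
    rw [← pow_succ]
    obtain ⟨c, hc⟩ := hdvd
    rw [hc, pow_mul, hw, one_pow]
  have hσσ : σ * σ ∈ fixZ ζ := by
    rw [mem_fixZ, AlgEquiv.mul_apply, hinv ζ hζ.pow_eq_one, map_inv₀, hinv ζ hζ.pow_eq_one, inv_inv]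
  have hss : ρ σ * ρ σ = 1 := by rw [← map_mul, htriv _ hσσ]
  have hcomm : ∀ g : GQ, ρ σ * ρ g = ρ g * ρ σ := by
    intro g
    have hc : σ * g * σ⁻¹ * g⁻¹ ∈ fixZ ζ := by
      rw [mem_fixZ, AlgEquiv.mul_apply, AlgEquiv.mul_apply, AlgEquiv.mul_apply]
      set w := g⁻¹ ζ with hw
      have hw1 : w ^ M' = 1 := by rw [hw, ← map_pow, hζ.pow_eq_one, map_one]
      have h1 : σ⁻¹ w = w⁻¹ := by
        have h2 : σ (w⁻¹) = w := by
          rw [map_inv₀, hinv w hw1, inv_inv]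
        conv_lhs => rw [← h2]
        rw [← AlgEquiv.mul_apply, inv_mul_cancel]
        rfl
      have h3 : g w = ζ := by
        rw [hw, ← AlgEquiv.mul_apply, mul_inv_cancel]
        rfl
      rw [h1, map_inv₀, h3, map_inv₀, hinv ζ hζ.pow_eq_one, inv_inv]
    have h4 := htriv _ hc
    have h5 : σ * g = (σ * g * σ⁻¹ * g⁻¹) * (g * σ) := by group
    rw [← map_mul, h5, map_mul, h4, one_mul, map_mul]
  have hstab : ∀ (f : Module.End (ZMod p) (Submodule.torsionBy ℤ (E.toAffine⁄Qb).Point p)),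
      (∀ g : GQ, f * ρ g = ρ g * f) → LinearMap.ker f = ⊥ ∨ LinearMap.ker f = ⊤ := by
    intro f hf
    apply hirr'
    intro g x hx
    rw [LinearMap.mem_ker] at hx ⊢
    have := congrArg (fun F => F x) (hf g)
    simp only [Module.End.mul_apply] at this
    rw [this, hx, _root_.map_zero]
  have hplus := hstab (ρ σ - 1) (fun g => by rw [sub_mul, mul_sub, hcomm g, one_mul, mul_one])
  have hminus := hstab (ρ σ + 1) (fun g => by rw [add_mul, mul_add, hcomm g, one_mul, mul_one])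
  obtain ⟨v, hv⟩ := exists_ne (0 : Submodule.torsionBy ℤ (E.toAffine⁄Qb).Point p)
  have hssv : ρ σ (ρ σ v) = v := by
    have := congrArg (fun F => F v) hss
    simpa only [Module.End.mul_apply, Module.End.one_apply] using this
  have hvp : v + ρ σ v ∈ LinearMap.ker (ρ σ - 1) := by
    rw [LinearMap.mem_ker, LinearMap.sub_apply, map_add, hssv, Module.End.one_apply]
    abel
  have hvm : v - ρ σ v ∈ LinearMap.ker (ρ σ + 1) := by
    rw [LinearMap.mem_ker, LinearMap.add_apply, map_sub, hssv, Module.End.one_apply]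
    abel
  have hv0 : (v : (E.toAffine⁄Qb).Point) ≠ 0 := fun h0 => hv (Subtype.ext h0)
  have key : ∀ P : (E.toAffine⁄Qb).Point, P ≠ 0 → p • P = 0 → σ • P = P → σ • P = -P → False := by
    intro P hP hpP h1 h2
    apply hP
    apply eq_zero_of_add_self hodd hpP
    rw [h1] at h2
    nth_rewrite 1 [h2]
    exact neg_add_cancel P
  rcases hplus with hplus | hplus
  · rcases hminus with hminus | hminus
    · rw [hplus, Submodule.mem_bot] at hvp
      rw [hminus, Submodule.mem_bot] at hvm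
      apply hv
      have h2 : v + v = 0 := by
        have : v + v = (v + ρ σ v) + (v - ρ σ v) := by abel
        rw [this, hvp, hvm, add_zero]
      apply eq_zero_of_add_self hodd _ h2
      exact Subtype.ext (coe_nsmul_eq_zero E p v)
    · -- `σ = -1` on `V`
      have hall : ∀ x : Submodule.torsionBy ℤ (E.toAffine⁄Qb).Point p, ρ σ x = -x := by
        intro x
        have : x ∈ LinearMap.ker (ρ σ + 1) := by rw [hminus]; trivial
        rw [LinearMap.mem_ker, LinearMap.add_apply, Module.End.one_apply] at this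
        exact eq_neg_of_add_eq_zero_left this
      have hallP : ∀ P : (E.toAffine⁄Qb).Point, p • P = 0 → σ • P = -P := fun P hP =>
        congrArg Subtype.val (hall ⟨P, mem_V E p hP⟩)
      obtain ⟨P, hP0, hpP, hfix⟩ := hMP hpℓ ⟨v, hv0, coe_nsmul_eq_zero E p v,
        hallP _ (coe_nsmul_eq_zero E p v)⟩
      exact key P hP0 hpP hfix (hallP P hpP)
  · -- `σ = 1` on `V`
    have hall : ∀ x : Submodule.torsionBy ℤ (E.toAffine⁄Qb).Point p, ρ σ x = x := by
      intro x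
      have : x ∈ LinearMap.ker (ρ σ - 1) := by rw [hplus]; trivial
      rw [LinearMap.mem_ker, LinearMap.sub_apply, Module.End.one_apply] at this
      exact sub_eq_zero.mp this
    have hallP : ∀ P : (E.toAffine⁄Qb).Point, p • P = 0 → σ • P = P := fun P hP =>
      congrArg Subtype.val (hall ⟨P, mem_V E p hP⟩)
    obtain ⟨P, hP0, hpP, hfix⟩ := hPM hpℓ ⟨v, hv0, coe_nsmul_eq_zero E p v,
      hallP _ (coe_nsmul_eq_zero E p v)⟩
    exact key P hP0 hpP (hallP P hpP) hfix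

end Fermat.Agent.S41E
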