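import Mathlib

/-!
# S41: `Hom(Γ₀(N), ℤ)` is a finitely generated `ℤ`-module
-/

open MatrixGroups CongruenceSubgroup

namespace Fermat.Agent.S41Lib

theorem finite_hom_of_fg (G : Type*) [Group G] [hG : Group.FG G] :
    Module.Finite ℤ (Additive G →+ ℤ) := by
  obtain ⟨S, hS, hfin⟩ := Group.fg_iff.mp hG
  haveI : Finite S := hfin
  let ev : (Additive G →+ ℤ) →ₗ[ℤ] (S → ℤ) :=
    { toFun := fun Φ s => Φ (Additive.ofMul (s : G))
      map_add' := fun _ _ => rfl
      map_smul' := fun _ _ => rfl }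
  apply Module.Finite.of_injective ev
  intro Φ Ψ h
  have h1 : AddMonoidHom.toMultiplicativeRight Φ = AddMonoidHom.toMultiplicativeRight Ψ := by
    apply MonoidHom.eq_of_eqOn_dense hS
    intro s hs
    have := congrFun h ⟨s, hs⟩
    exact congrArg Multiplicative.ofAdd this
  exact AddMonoidHom.toMultiplicativeRight.injective h1

instance SL2Z_fg : Group.FG SL(2, ℤ) :=
  Group.fg_iff.mpr ⟨{ModularGroup.S, ModularGroup.T}, SpecialLinearGroup.SL2Z_generators,
    by simp⟩

instance finite_hom_Gamma0 (N : ℕ) [NeZero N] :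
    Module.Finite ℤ (Additive (Gamma0 N) →+ ℤ) :=
  finite_hom_of_fg _

end Fermat.Agent.S41Lib
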