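/-
S41 duality, part 1: almost invariant functions on a group and their flux homomorphism.
For `s : G → ℤ` such that `h ↦ s h - s (g * h)` is finitely supported for every `g`, the
flux `aiVal s g = ∑ h, (s h - s (g * h))` is a homomorphism; it only depends on `s` modulo
finitely supported functions, it is compatible with the transfer and with restriction.
-/
import Mathlib

set_option autoImplicit false

namespace Fermat.Agent.S41Lib

open Function

section AI

variable {G : Type*} [Group G]

/-- `s` is almost invariant under left translations. -/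
def AlmostInv (s : G → ℤ) : Prop :=
  ∀ g : G, (support fun h => s h - s (g * h)).Finite

/-- The flux of an almost invariant function. -/
noncomputable def aiVal (s : G → ℤ) (g : G) : ℤ := ∑ᶠ h, (s h - s (g * h))

theorem finsum_mulLeft (f : G → ℤ) (g : G) : ∑ᶠ h, f (g * h) = ∑ᶠ h, f h :=
  finsum_comp_equiv (Equiv.mulLeft g)

theorem finsum_mulRight (f : G → ℤ) (g : G) : ∑ᶠ h, f (h * g) = ∑ᶠ h, f h :=
  finsum_comp_equiv (Equiv.mulRight g)

theorem support_mulLeft_finite {f : G → ℤ} (hf : (support f).Finite) (g : G) :
    (support fun h => f (g * h)).Finite :=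
  hf.preimage (mul_right_injective g).injOn

theorem support_mulRight_finite {f : G → ℤ} (hf : (support f).Finite) (g : G) :
    (support fun h => f (h * g)).Finite :=
  hf.preimage (mul_left_injective g).injOn

theorem aiVal_mul {s : G → ℤ} (hs : AlmostInv s) (g₁ g₂ : G) :
    aiVal s (g₁ * g₂) = aiVal s g₁ + aiVal s g₂ := by
  have h2 : (support fun h => s (g₂ * h) - s (g₁ * (g₂ * h))).Finite :=
    support_mulLeft_finite (hs g₁) g₂
  have e : (fun h => s h - s (g₁ * g₂ * h))
      = fun h => (s h - s (g₂ * h)) + (s (g₂ * h) - s (g₁ * (g₂ * h))) := by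
    funext h; rw [mul_assoc]; ring
  unfold aiVal
  rw [e, finsum_add_distrib (hs g₂) h2, finsum_mulLeft (fun h => s h - s (g₁ * h)) g₂, add_comm]

/-- The flux as a homomorphism. -/
noncomputable def aiHom {s : G → ℤ} (hs : AlmostInv s) : G →* Multiplicative ℤ where
  toFun g := Multiplicative.ofAdd (aiVal s g)
  map_one' := by
    have : aiVal s 1 = 0 := by simp [aiVal]
    rw [this]; rfl
  map_mul' g₁ g₂ := by rw [aiVal_mul hs]; rfl

@[simp] theorem aiHom_apply {s : G → ℤ} (hs : AlmostInv s) (g : G) :
    aiHom hs g = Multiplicative.ofAdd (aiVal s g) := rfl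

theorem almostInv_of_finite {f : G → ℤ} (hf : (support f).Finite) : AlmostInv f := by
  intro g
  refine (hf.union (support_mulLeft_finite hf g)).subset ?_
  intro h hh
  by_contra hcon
  simp only [Set.mem_union, mem_support, not_or, not_not] at hcon
  exact hh (by simp [hcon.1, hcon.2])

theorem aiVal_of_finite {f : G → ℤ} (hf : (support f).Finite) (g : G) : aiVal f g = 0 := by
  unfold aiVal
  rw [finsum_sub_distrib hf (support_mulLeft_finite hf g), finsum_mulLeft f g, sub_self]

theorem AlmostInv.add {s t : G → ℤ} (hs : AlmostInv s) (ht : AlmostInv t) :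
    AlmostInv (fun h => s h + t h) := by
  intro g
  refine ((hs g).union (ht g)).subset ?_
  intro h hh
  by_contra hcon
  simp only [Set.mem_union, mem_support, not_or, not_not] at hcon
  apply hh
  show s h + t h - (s (g * h) + t (g * h)) = 0
  linarith [hcon.1, hcon.2]

theorem aiVal_add {s t : G → ℤ} (hs : AlmostInv s) (ht : AlmostInv t) (g : G) :
    aiVal (fun h => s h + t h) g = aiVal s g + aiVal t g := by
  unfold aiVal
  rw [← finsum_add_distrib (hs g) (ht g)]
  congr 1; funext h; ring

theorem AlmostInv.const_mul {s : G → ℤ} (hs : AlmostInv s) (c : ℤ) :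
    AlmostInv (fun h => c * s h) := by
  intro g
  refine (hs g).subset ?_
  intro h hh hcon
  apply hh
  show c * s h - c * s (g * h) = 0
  have hcon' : s h - s (g * h) = 0 := hcon
  rw [← mul_sub, hcon', mul_zero]

theorem aiVal_const_mul (s : G → ℤ) (c : ℤ) (g : G) :
    aiVal (fun h => c * s h) g = c * aiVal s g := by
  unfold aiVal
  rw [← smul_eq_mul, smul_finsum]
  congr 1; funext h; simp only [smul_eq_mul]; ring

theorem AlmostInv.neg {s : G → ℤ} (hs : AlmostInv s) : AlmostInv (fun h => - s h) := by
  simpa using hs.const_mul (-1)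

theorem aiVal_neg (s : G → ℤ) (g : G) : aiVal (fun h => - s h) g = - aiVal s g := by
  simpa using aiVal_const_mul s (-1) g

theorem almostInv_const (c : ℤ) : AlmostInv (fun _ : G => c) := by
  intro g; simp

theorem aiVal_const (c : ℤ) (g : G) : aiVal (fun _ : G => c) g = 0 := by
  simp [aiVal]

/-- Two functions which differ by a finitely supported function. -/
theorem AlmostInv.of_sub_finite {s t : G → ℤ} (hs : AlmostInv s)
    (hf : (support fun h => t h - s h).Finite) : AlmostInv t := by
  have := hs.add (almostInv_of_finite hf)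
  have e : (fun h => s h + (t h - s h)) = t := by funext h; ring
  rwa [e] at this

theorem aiVal_eq_of_sub_finite {s t : G → ℤ} (hs : AlmostInv s)
    (hf : (support fun h => t h - s h).Finite) (g : G) : aiVal t g = aiVal s g := by
  have := aiVal_add hs (almostInv_of_finite hf) g
  have e : (fun h => s h + (t h - s h)) = t := by funext h; ring
  rw [e, aiVal_of_finite hf, add_zero] at this
  exact this

/-- Left translates of an almost invariant function differ from it by a finitely supported
function. -/
theorem AlmostInv.mulLeft {s : G → ℤ} (hs : AlmostInv s) (t : G) :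
    AlmostInv (fun h => s (t * h)) := by
  refine hs.of_sub_finite ?_
  refine (hs t).subset ?_
  intro h hh hcon
  apply hh
  show s (t * h) - s h = 0
  linarith [hcon]

theorem aiVal_mulLeft {s : G → ℤ} (hs : AlmostInv s) (t g : G) :
    aiVal (fun h => s (t * h)) g = aiVal s g := by
  refine aiVal_eq_of_sub_finite hs ?_ g
  refine (hs t).subset ?_
  intro h hh hcon
  apply hh
  show s (t * h) - s h = 0
  linarith [hcon]

theorem AlmostInv.mulRight {s : G → ℤ} (hs : AlmostInv s) (t : G) :
    AlmostInv (fun h => s (h * t)) := by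
  intro g
  have := support_mulRight_finite (hs g) t
  simpa [mul_assoc] using this

theorem aiVal_mulRight (s : G → ℤ) (t g : G) :
    aiVal (fun h => s (h * t)) g = aiVal s g := by
  unfold aiVal
  have := finsum_mulRight (fun h => s h - s (g * h)) t
  simpa [mul_assoc] using this

/-- Transport along a group isomorphism. -/
theorem AlmostInv.comp_equiv {G' : Type*} [Group G'] (e : G' ≃* G) {s : G → ℤ}
    (hs : AlmostInv s) : AlmostInv (fun h => s (e h)) := by
  intro g
  have := (hs (e g)).preimage e.injective.injOn
  refine this.subset ?_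
  intro h hh
  simpa [mem_support, map_mul] using hh

theorem aiVal_comp_equiv {G' : Type*} [Group G'] (e : G' ≃* G) (s : G → ℤ) (g : G') :
    aiVal (fun h => s (e h)) g = aiVal s (e g) := by
  unfold aiVal
  rw [← finsum_comp_equiv e.toEquiv]
  congr 1; funext h
  simp [map_mul]

/-- Restriction to a subgroup. -/
theorem AlmostInv.restrict {s : G → ℤ} (hs : AlmostInv s) (H : Subgroup G) :
    AlmostInv (fun h : H => s h) := by
  intro g
  have := (hs (g : G)).preimage (Subtype.val_injective (p := fun x => x ∈ H)).injOn
  refine this.subset ?_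
  intro h hh
  simpa [mem_support] using hh

omit [Group G] in
/-- Decomposition of a finite sum over `G` along a bijection `ι × H ≃ G`. -/
theorem finsum_eq_sum_finsum {H ι : Type*} [Fintype ι] (e : ι × H → G) (he : Bijective e)
    {F : G → ℤ} (hF : (support F).Finite) :
    ∑ᶠ x, F x = ∑ i, ∑ᶠ h, F (e (i, h)) := by
  have h1 : ∑ᶠ x, F x = ∑ᶠ p, F (e p) := (finsum_comp_equiv (Equiv.ofBijective e he)).symm
  have h2 : (support fun p => F (e p)).Finite := hF.preimage he.injective.injOn
  rw [h1, finsum_curry _ h2, finsum_eq_sum_of_fintype]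

/-- (N3) The restriction of the flux to a subgroup. -/
theorem aiVal_restrict_eq_sum {s : G → ℤ} (hs : AlmostInv s) (H : Subgroup G) {ι : Type*}
    [Fintype ι] (t : ι → G) (ht : Bijective fun p : ι × H => (p.2 : G) * t p.1) (g : H) :
    aiVal s (g : G) = ∑ i, aiVal (fun h : H => s (h * t i)) g := by
  unfold aiVal
  rw [finsum_eq_sum_finsum _ ht (hs g)]
  refine Finset.sum_congr rfl fun i _ => ?_
  congr 1; funext h
  simp [mul_assoc]

/-- (N1), computational form. -/
theorem aiVal_eq_sum_of_transversal {s : G → ℤ} (hs : AlmostInv s) (H : Subgroup G) {ι : Type*}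
    [Fintype ι] (t : ι → G) (ht : Bijective fun p : ι × H => t p.1 * (p.2 : G)) (g : G)
    (π : ι ≃ ι) (k : ι → H) (hk : ∀ i, g * t i = t (π i) * (k i : G)) :
    aiVal s g = ∑ i, aiVal (fun h : H => s h) (k i) := by
  set f : ι → H → ℤ := fun i h => s (t i * h) - s h with hf
  have hfin : ∀ i, (support (f i)).Finite := by
    intro i
    have := (hs (t i)).preimage (Subtype.val_injective (p := fun x => x ∈ H)).injOn
    refine this.subset ?_
    intro h hh hcon
    apply hh
    have hcon' : s (h : G) - s (t i * h) = 0 := hcon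
    show s (t i * h) - s h = 0
    linarith
  have hsH := hs.restrict H
  have key : ∀ i, ∑ᶠ h : H, (s (t i * h) - s (g * (t i * h)))
      = aiVal (fun h : H => s h) (k i) + ∑ᶠ h, f i h - ∑ᶠ h, f (π i) h := by
    intro i
    have e : (fun h : H => s (t i * h) - s (g * (t i * h)))
        = fun h : H => ((s h - s ((k i * h : H) : G)) + f i h) - f (π i) (k i * h) := by
      funext h
      have : g * (t i * h) = t (π i) * ((k i * h : H) : G) := by
        rw [← mul_assoc, hk i, mul_assoc]; rfl
      rw [this, hf]
      ring
    rw [e, finsum_sub_distrib, finsum_add_distrib (hsH (k i)) (hfin i),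
      finsum_mulLeft (f (π i)) (k i)]
    · rfl
    · exact ((hsH (k i)).union (hfin i)).subset (support_add _ _)
    · exact support_mulLeft_finite (hfin (π i)) (k i)
  unfold aiVal at key ⊢
  rw [finsum_eq_sum_finsum _ ht (hs g)]
  rw [Finset.sum_congr rfl fun i _ => key i, Finset.sum_sub_distrib, Finset.sum_add_distrib,
    Equiv.sum_comp π fun i => ∑ᶠ h, f i h]
  ring

/-- Explicit formula for the transfer with respect to a left transversal. -/
theorem transfer_eq_prod {H : Subgroup G} [H.FiniteIndex] {A : Type*} [CommGroup A]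
    (ϕ : H →* A) (T : H.LeftTransversal) (g : G) [Fintype (G ⧸ H)]
    (k : G ⧸ H → H)
    (hk : ∀ q, g * (T.2.leftQuotientEquiv q : G) = (T.2.leftQuotientEquiv (g • q) : G) * k q) :
    MonoidHom.transfer ϕ g = ∏ q, ϕ (k q) := by
  obtain rfl : ‹Fintype (G ⧸ H)› = H.fintypeQuotientOfFiniteIndex := Subsingleton.elim _ _
  let _ := H.fintypeQuotientOfFiniteIndex
  rw [MonoidHom.transfer_def ϕ T g, Subgroup.leftTransversals.diff]
  rw [← Equiv.prod_comp (MulAction.toPerm g)]
  refine Finset.prod_congr (by ext; simp) fun q _ => ?_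
  congr 1
  apply Subtype.ext
  simp only [MulAction.toPerm_apply, Subgroup.smul_apply_eq_smul_apply_inv_smul, inv_smul_smul,
    smul_eq_mul]
  rw [hk q, inv_mul_cancel_left]

/-- (N1) The flux of the restriction, composed with the transfer, is the flux. -/
theorem transfer_aiHom {s : G → ℤ} (hs : AlmostInv s) (H : Subgroup G) [H.FiniteIndex] :
    MonoidHom.transfer (aiHom (hs.restrict H)) = aiHom hs := by
  classical
  ext g
  let T : H.LeftTransversal := default
  let _ := H.fintypeQuotientOfFiniteIndex
  set t : G ⧸ H → G := fun q => (T.2.leftQuotientEquiv q : G) with ht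
  have hmk : ∀ q, ((t q : G) : G ⧸ H) = q := fun q =>
    T.2.quotientGroupMk_leftQuotientEquiv q
  have hmem : ∀ q, (t (g • q))⁻¹ * (g * t q) ∈ H := by
    intro q
    rw [← QuotientGroup.eq, hmk]
    conv_lhs => rw [← hmk q]
    rfl
  set k : G ⧸ H → H := fun q => ⟨(t (g • q))⁻¹ * (g * t q), hmem q⟩ with hkdef
  have hk : ∀ q, g * t q = t (g • q) * (k q : G) := by
    intro q; simp [hkdef]
  rw [transfer_eq_prod _ T g k hk]
  have hbij : Bijective fun p : (G ⧸ H) × H => t p.1 * (p.2 : G) := by
    have h0 := T.2
    unfold Subgroup.IsComplement at h0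
    have := h0.comp (Equiv.prodCongr T.2.leftQuotientEquiv (Equiv.refl H)).bijective
    exact this
  have := aiVal_eq_sum_of_transversal hs H t hbij g (MulAction.toPerm g) k hk
  simp only [aiHom_apply]
  rw [this, ofAdd_sum]

end AI

end Fermat.Agent.S41Lib
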