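/-
S41: transfer with arbitrary families of coset representatives, and explicit formulas for
`cores`, `coresD`.
-/
import Fermat.Agent.S41.IharaDefs2
import Fermat.Agent.S41.IntAI

set_option autoImplicit false

open scoped MatrixGroups
open CongruenceSubgroup Function

namespace Fermat.Agent.S41Lib

section Transfer

variable {G : Type*} [Group G]

/-- The transfer computed with an arbitrary family of representatives of the left cosets. -/
theorem transfer_eq_prod_of_family {H : Subgroup G} [H.FiniteIndex] {A : Type*} [CommGroup A]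
    (ϕ : H →* A) {ι : Type*} [Fintype ι] (t : ι → G)
    (ht : Bijective fun p : ι × H => t p.1 * (p.2 : G)) (g : G) (π : ι ≃ ι) (k : ι → H)
    (hk : ∀ i, g * t i = t (π i) * (k i : G)) :
    MonoidHom.transfer ϕ g = ∏ i, ϕ (k i) := by
  classical
  have hinj : Injective fun i => ((t i : G) : G ⧸ H) := by
    intro i j hij
    have h1 : (t i)⁻¹ * t j ∈ H := QuotientGroup.eq.mp hij
    have h2 : (fun p : ι × H => t p.1 * (p.2 : G)) (i, ⟨_, h1⟩) =
        (fun p : ι × H => t p.1 * (p.2 : G)) (j, 1) := by simp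
    exact congrArg Prod.fst (ht.injective h2)
  have hsurj : Surjective fun i => ((t i : G) : G ⧸ H) := by
    intro q
    obtain ⟨x, rfl⟩ := QuotientGroup.mk_surjective q
    obtain ⟨⟨i, h⟩, hih⟩ := ht.surjective x
    refine ⟨i, ?_⟩
    simp only at hih
    rw [← hih]
    exact (QuotientGroup.mk_mul_of_mem _ h.2).symm
  let e : ι ≃ G ⧸ H := Equiv.ofBijective _ ⟨hinj, hsurj⟩
  have he : ∀ i, e i = ((t i : G) : G ⧸ H) := fun _ => rfl
  let f : G ⧸ H → G := fun q => t (e.symm q)
  have hf : ∀ q, ((f q : G) : G ⧸ H) = q := fun q => by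
    show ((t (e.symm q) : G) : G ⧸ H) = q
    rw [← he, Equiv.apply_symm_apply]
  let T : H.LeftTransversal := ⟨Set.range f, Subgroup.isComplement_range_left hf⟩
  have hT : ∀ q, (T.2.leftQuotientEquiv q : G) = f q :=
    fun q => Subgroup.IsComplement.leftQuotientEquiv_apply hf q
  let _ := H.fintypeQuotientOfFiniteIndex
  have hgq : ∀ i, g • e i = e (π i) := by
    intro i
    rw [he, he]
    show ((g * t i : G) : G ⧸ H) = _
    rw [hk i]
    exact QuotientGroup.mk_mul_of_mem _ (k i).2
  rw [transfer_eq_prod ϕ T g (fun q => k (e.symm q))]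
  · exact (Equiv.prod_comp e fun q => ϕ (k (e.symm q))).symm.trans (by simp)
  · intro q
    obtain ⟨i, rfl⟩ := e.surjective q
    rw [hT, hT, hgq]
    show g * t (e.symm (e i)) = t (e.symm (e (π i))) * _
    simp only [Equiv.symm_apply_apply]
    exact hk i

/-- The transfer computed with an arbitrary family of representatives of the right cosets. -/
theorem transfer_eq_prod_of_right_family {H : Subgroup G} [H.FiniteIndex] {A : Type*}
    [CommGroup A] (ϕ : H →* A) {ι : Type*} [Fintype ι] (ρ : ι → G)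
    (hρ : Bijective fun p : ι × H => (p.2 : G) * ρ p.1) (g : G) (π : ι ≃ ι) (η : ι → H)
    (hη : ∀ i, ρ i * g = (η i : G) * ρ (π i)) :
    MonoidHom.transfer ϕ g = ∏ i, ϕ (η i) := by
  have ht : Bijective fun p : ι × H => (ρ p.1)⁻¹ * (p.2 : G) := by
    have e1 : (fun p : ι × H => (ρ p.1)⁻¹ * (p.2 : G)) =
        (fun x : G => x⁻¹) ∘ (fun p : ι × H => (p.2 : G) * ρ p.1) ∘
          (fun p : ι × H => (p.1, p.2⁻¹)) := by
      funext p; simp
    rw [e1]
    refine (inv_involutive.bijective).comp (hρ.comp ?_)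
    exact (Equiv.prodCongr (Equiv.refl ι) (Equiv.inv H)).bijective
  rw [transfer_eq_prod_of_family ϕ (fun i => (ρ i)⁻¹) ht g π.symm (fun i => η (π.symm i))]
  · exact Equiv.prod_comp π.symm fun i => ϕ (η i)
  · intro i
    have := hη (π.symm i)
    rw [Equiv.apply_symm_apply] at this
    rw [eq_inv_mul_iff_mul_eq, ← mul_assoc, this, mul_assoc, mul_inv_cancel, mul_one]

/-- Additive form, with the subgroup identified with another group. -/
theorem transfer_eq_sum_of_equiv {G' : Type*} [Group G'] {A : Type*} [AddCommGroup A]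
    (H : Subgroup G) [H.FiniteIndex] (e : H ≃* G') (Ψ : Additive G' →+ A) {ι : Type*} [Fintype ι]
    (ρ : ι → G) (hρ : Bijective fun p : ι × G' => ((e.symm p.2 : H) : G) * ρ p.1) (g : G)
    (π : ι ≃ ι) (η : ι → G') (hη : ∀ i, ρ i * g = ((e.symm (η i) : H) : G) * ρ (π i)) :
    Multiplicative.toAdd (MonoidHom.transfer
      ((AddMonoidHom.toMultiplicativeRight Ψ).comp e.toMonoidHom) g)
      = ∑ i, Ψ (Additive.ofMul (η i)) := by
  have hρ' : Bijective fun p : ι × H => (p.2 : G) * ρ p.1 := by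
    have := hρ.comp (Equiv.prodCongr (Equiv.refl ι) e.toEquiv).bijective
    have e1 : ((fun p : ι × G' => ((e.symm p.2 : H) : G) * ρ p.1) ∘
        (Equiv.prodCongr (Equiv.refl ι) e.toEquiv)) = fun p : ι × H => (p.2 : G) * ρ p.1 := by
      funext p; simp
    rwa [e1] at this
  rw [transfer_eq_prod_of_right_family _ ρ hρ' g π (fun i => e.symm (η i)) hη, toAdd_prod]
  refine Finset.sum_congr rfl fun i _ => ?_
  simp only [MonoidHom.comp_apply, MulEquiv.coe_toMonoidHom, MulEquiv.apply_symm_apply]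
  rfl

end Transfer

section CoresD

variable {A : Type*} [AddCommGroup A]

theorem subDEquiv_symm_coe (N t : ℕ) [NeZero t] (γ : Gamma0 (N * t)) :
    (((subDEquiv N t).symm γ : subD N t) : Gamma0 N) = conjD N t γ := rfl

/-- `cores` computed with an arbitrary family of representatives of `Γ₀(Nt) \\ Γ₀(N)`. -/
theorem cores_eq_sum (N t : ℕ) [NeZero (N * t)] (Ψ : Additive (Gamma0 (N * t)) →+ A)
    {ι : Type*} [Fintype ι] (ρ : ι → Gamma0 N)
    (hρ : Bijective fun p : ι × Gamma0 (N * t) => inclG N t p.2 * ρ p.1) (g : Gamma0 N)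
    (π : ι ≃ ι) (η : ι → Gamma0 (N * t)) (hη : ∀ i, ρ i * g = inclG N t (η i) * ρ (π i)) :
    cores N t Ψ (Additive.ofMul g) = ∑ i, Ψ (Additive.ofMul (η i)) :=
  transfer_eq_sum_of_equiv (subG N t) (subGEquiv N t) Ψ ρ hρ g π η hη

/-- `coresD` computed with an arbitrary family of representatives of `conjD Γ₀(Nt) \\ Γ₀(N)`. -/
theorem coresD_eq_sum (N t : ℕ) [NeZero t] (Ψ : Additive (Gamma0 (N * t)) →+ A)
    {ι : Type*} [Fintype ι] (ρ : ι → Gamma0 N)
    (hρ : Bijective fun p : ι × Gamma0 (N * t) => conjD N t p.2 * ρ p.1) (g : Gamma0 N)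
    (π : ι ≃ ι) (η : ι → Gamma0 (N * t)) (hη : ∀ i, ρ i * g = conjD N t (η i) * ρ (π i)) :
    coresD N t Ψ (Additive.ofMul g) = ∑ i, Ψ (Additive.ofMul (η i)) :=
  transfer_eq_sum_of_equiv (subD N t) (subDEquiv N t) Ψ ρ hρ g π η hη

end CoresD

end Fermat.Agent.S41Lib
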