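import Fermat.Agent.S41.InterCore

set_option autoImplicit false

/-!
# Intersection pairing: finiteness lemmas
-/

namespace Fermat.Agent.S41Lib

open Matrix
open scoped MatrixGroups

/-- action of `SL(2,ℤ)` on integer vectors -/
def sv (h : SL(2, ℤ)) (v : V2) : V2 := mv (h : Matrix (Fin 2) (Fin 2) ℤ) v

lemma sv_mul (g h : SL(2, ℤ)) (v : V2) : sv (g * h) v = sv g (sv h v) := by
  rw [sv, sv, sv, ← mv_mul]; rfl

@[simp] lemma sv_one (v : V2) : sv 1 v = v := by simp [sv]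

lemma dt_sv (h : SL(2, ℤ)) (u v : V2) : dt (sv h u) (sv h v) = dt u v := by
  rw [sv, sv, dt_mv, h.2, one_mul]

lemma sv_inv_sv (h : SL(2, ℤ)) (v : V2) : sv h⁻¹ (sv h v) = v := by
  rw [← sv_mul]; simp

lemma sv_sv_inv (h : SL(2, ℤ)) (v : V2) : sv h (sv h⁻¹ v) = v := by
  rw [← sv_mul]; simp

lemma sv_ne_zero (h : SL(2, ℤ)) {v : V2} (hv : v ≠ 0) : sv h v ≠ 0 := by
  intro h0
  apply hv
  have := sv_inv_sv h v
  rw [h0] at this
  rw [← this]
  simp [sv, mv]

lemma sv_smul (h : SL(2, ℤ)) (k : ℤ) (v : V2) :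
    sv h (k * v.1, k * v.2) = (k * (sv h v).1, k * (sv h v).2) := by
  simp only [sv, mv]; ext <;> simp <;> ring

lemma sv_add (h : SL(2, ℤ)) (u v : V2) : sv h (u + v) = sv h u + sv h v := by
  simp only [sv, mv]; ext <;> simp <;> ring

lemma sv_neg (h : SL(2, ℤ)) (u : V2) : sv h (-u) = - sv h u := by
  simp only [sv, mv]; ext <;> simp <;> ring

def nsq (w : V2) : ℤ := w.1 ^ 2 + w.2 ^ 2

lemma one_le_nsq {w : V2} (hw : w ≠ 0) : 1 ≤ nsq w := by
  by_contra h
  push Not at h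
  have h0 : nsq w = 0 := by
    have : 0 ≤ nsq w := by unfold nsq; positivity
    omega
  apply hw
  unfold nsq at h0
  have h1 : w.1 = 0 := by nlinarith [sq_nonneg w.1, sq_nonneg w.2]
  have h2 : w.2 = 0 := by nlinarith [sq_nonneg w.1, sq_nonneg w.2]
  ext <;> simp [h1, h2]

lemma abs_le_of_nsq_le {w : V2} {K : ℤ} (h : nsq w ≤ K) : |w.1| ≤ K ∧ |w.2| ≤ K := by
  unfold nsq at h
  constructor
  · have : |w.1| ≤ w.1 ^ 2 := by
      rw [← sq_abs]
      have := abs_nonneg w.1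
      nlinarith [Int.le_self_sq |w.1|]
    nlinarith [sq_nonneg w.2]
  · have : |w.2| ≤ w.2 ^ 2 := by
      rw [← sq_abs]
      have := abs_nonneg w.2
      nlinarith [Int.le_self_sq |w.2|]
    nlinarith [sq_nonneg w.1]

lemma finite_entries (L : ℤ) :
    {h : SL(2, ℤ) | ∀ i j, |(h : Matrix (Fin 2) (Fin 2) ℤ) i j| ≤ L}.Finite := by
  have h1 : {M : Matrix (Fin 2) (Fin 2) ℤ | ∀ i j, M i j ∈ Set.Icc (-L) L}.Finite :=
    Set.Finite.pi' (fun _ => Set.Finite.pi' (fun _ => Set.finite_Icc (-L) L))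
  refine (h1.preimage (Subtype.val_injective.injOn)).subset ?_
  intro h hh
  show ∀ i j, (h : Matrix (Fin 2) (Fin 2) ℤ) i j ∈ Set.Icc (-L) L
  intro i j
  exact abs_le.mp (hh i j)

lemma fin_bdd (u v : V2) (hD : dt u v ≠ 0) (K : ℤ) :
    {h : SL(2, ℤ) | nsq (sv h u) ≤ K ∧ nsq (sv h v) ≤ K}.Finite := by
  refine (finite_entries (K * (|u.1| + |u.2| + |v.1| + |v.2|))).subset ?_
  rintro h ⟨h1, h2⟩
  obtain ⟨a1, a2⟩ := abs_le_of_nsq_le h1
  obtain ⟨b1, b2⟩ := abs_le_of_nsq_le h2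
  have hK : 0 ≤ K := le_trans (abs_nonneg _) a1
  have hD1 : 1 ≤ |dt u v| := Int.one_le_abs hD
  have key : ∀ (x y z : ℤ), |y| ≤ K → |z| ≤ K → ∀ (c d : ℤ), x * dt u v = y * c - z * d →
      |c| + |d| ≤ |u.1| + |u.2| + |v.1| + |v.2| →
      |x| ≤ K * (|u.1| + |u.2| + |v.1| + |v.2|) := by
    intro x y z hy hz c d hx hcd
    have e1 : |x| * |dt u v| = |y * c - z * d| := by rw [← abs_mul, hx]
    have e2 : |y * c - z * d| ≤ |y| * |c| + |z| * |d| := by
      calc |y * c - z * d| ≤ |y * c| + |z * d| := abs_sub _ _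
        _ = _ := by rw [abs_mul, abs_mul]
    have e3 : |y| * |c| + |z| * |d| ≤ K * (|c| + |d|) := by
      nlinarith [abs_nonneg c, abs_nonneg d, abs_nonneg y, abs_nonneg z]
    have e4 : K * (|c| + |d|) ≤ K * (|u.1| + |u.2| + |v.1| + |v.2|) :=
      mul_le_mul_of_nonneg_left hcd hK
    have e5 : |x| ≤ |x| * |dt u v| := by nlinarith [abs_nonneg x]
    linarith
  have hu1 := abs_nonneg u.1
  have hu2 := abs_nonneg u.2
  have hv1 := abs_nonneg v.1
  have hv2 := abs_nonneg v.2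
  intro i j
  fin_cases i <;> fin_cases j
  · refine key _ _ _ a1 b1 v.2 u.2 ?_ (by linarith)
    simp only [sv, mv, dt]; simp; ring
  · refine key _ _ _ b1 a1 u.1 v.1 ?_ (by linarith)
    simp only [sv, mv, dt]; simp; ring
  · refine key _ _ _ a2 b2 v.2 u.2 ?_ (by linarith)
    simp only [sv, mv, dt]; simp; ring
  · refine key _ _ _ b2 a2 u.1 v.1 ?_ (by linarith)
    simp only [sv, mv, dt]; simp; ring

lemma nsq_cast (w : V2) : ((nsq w : ℤ) : ℚ) = (w.1 : ℚ) ^ 2 + (w.2 : ℚ) ^ 2 := by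
  simp [nsq]

lemma fin_bddQ (u v : V2) (hD : dt u v ≠ 0) (K : ℚ) :
    {h : SL(2, ℤ) | (nsq (sv h u) : ℚ) ≤ K ∧ (nsq (sv h v) : ℚ) ≤ K}.Finite := by
  refine (fin_bdd u v hD ⌈K⌉).subset ?_
  rintro h ⟨h1, h2⟩
  constructor
  · have : (nsq (sv h u) : ℚ) ≤ (⌈K⌉ : ℚ) := le_trans h1 (Int.le_ceil K)
    exact_mod_cast this
  · have : (nsq (sv h v) : ℚ) ≤ (⌈K⌉ : ℚ) := le_trans h2 (Int.le_ceil K)
    exact_mod_cast this

lemma fin_Q (F : PD) (u v : V2) (hD : dt u v ≠ 0) (C : ℚ) :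
    {h : SL(2, ℤ) | F.B (sv h u) (sv h u) ≤ C ∧ F.B (sv h v) (sv h v) ≤ C}.Finite := by
  refine (fin_bddQ u v hD (C / F.lc)).subset ?_
  rintro h ⟨h1, h2⟩
  have hc := F.lc_pos
  constructor
  · rw [le_div_iff₀ hc, nsq_cast, mul_comm]
    exact le_trans (F.lc_le _) h1
  · rw [le_div_iff₀ hc, nsq_cast, mul_comm]
    exact le_trans (F.lc_le _) h2

/-- key bound: if a convex combination of two forms makes `u ⟂ v`, then `u` is small -/
lemma key_bound (F F' : PD) (u v : V2) (hv : v ≠ 0) (t : ℚ) (ht0 : 0 ≤ t) (ht1 : t ≤ 1)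
    (h0 : (1 - t) * F.B u v + t * F'.B u v = 0) :
    (min F.lc F'.lc) ^ 2 * (nsq u : ℚ) ≤ (F.p + F'.p) * (F.r + F'.r) * (dt u v : ℚ) ^ 2 := by
  set c := min F.lc F'.lc with hc
  have hc0 : 0 < c := lt_min F.lc_pos F'.lc_pos
  have hs : 0 ≤ 1 - t := by linarith
  set Qu := (1 - t) * F.B u u + t * F'.B u u with hQu
  set Qv := (1 - t) * F.B v v + t * F'.B v v with hQv
  have low : ∀ w : V2, c * (nsq w : ℚ) ≤ (1 - t) * F.B w w + t * F'.B w w := by
    intro w
    have h1 := F.lc_le w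
    have h2 := F'.lc_le w
    rw [← nsq_cast] at h1 h2
    have hn : (0 : ℚ) ≤ (nsq w : ℚ) := by rw [nsq_cast]; positivity
    have h3 : c * (nsq w : ℚ) ≤ F.B w w :=
      le_trans (mul_le_mul_of_nonneg_right (min_le_left _ _) hn) h1
    have h4 : c * (nsq w : ℚ) ≤ F'.B w w :=
      le_trans (mul_le_mul_of_nonneg_right (min_le_right _ _) hn) h2
    nlinarith
  have id1 : Qu * Qv - ((1 - t) * F.B u v + t * F'.B u v) ^ 2
      = (((1 - t) * F.p + t * F'.p) * ((1 - t) * F.r + t * F'.r)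
          - ((1 - t) * F.q + t * F'.q) ^ 2) * (dt u v : ℚ) ^ 2 := by
    simp only [hQu, hQv, PD.B, dt]; push_cast; ring
  rw [h0] at id1
  have hp := F.hp
  have hp' := F'.hp
  have hr := F.hr
  have hr' := F'.hr
  have b1 : ((1 - t) * F.p + t * F'.p) * ((1 - t) * F.r + t * F'.r) ≤ (F.p + F'.p) * (F.r + F'.r) := by
    apply mul_le_mul
    · nlinarith
    · nlinarith
    · positivity
    · positivity
  have b2 : Qu * Qv ≤ (F.p + F'.p) * (F.r + F'.r) * (dt u v : ℚ) ^ 2 := by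
    have hd2 : (0 : ℚ) ≤ (dt u v : ℚ) ^ 2 := by positivity
    have : Qu * Qv = (((1 - t) * F.p + t * F'.p) * ((1 - t) * F.r + t * F'.r)
          - ((1 - t) * F.q + t * F'.q) ^ 2) * (dt u v : ℚ) ^ 2 := by linarith
    rw [this]
    apply mul_le_mul_of_nonneg_right _ hd2
    nlinarith [sq_nonneg ((1 - t) * F.q + t * F'.q)]
  have l1 := low u
  have l2 := low v
  have hv1 : (1 : ℚ) ≤ (nsq v : ℚ) := by exact_mod_cast one_le_nsq hv
  have hu0 : (0 : ℚ) ≤ (nsq u : ℚ) := by rw [nsq_cast]; positivity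
  have l3 : c ≤ Qv := by nlinarith
  have l4 : c * (nsq u : ℚ) * c ≤ Qu * Qv := by
    apply mul_le_mul l1 l3 hc0.le
    exact le_trans (by positivity) l1
  nlinarith

lemma ne_zero_of_dt_left {u v : V2} (h : dt u v ≠ 0) : u ≠ 0 := by
  rintro rfl; simp [dt] at h

lemma ne_zero_of_dt_right {u v : V2} (h : dt u v ≠ 0) : v ≠ 0 := by
  rintro rfl; simp [dt] at h

/-- only finitely many translates of a geodesic separate two given points -/
lemma side_ne_finite (F F' : PD) (u v : V2) :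
    {h : SL(2, ℤ) | side F (sv h u) (sv h v) ≠ side F' (sv h u) (sv h v)}.Finite := by
  by_cases hD : dt u v = 0
  · convert Set.finite_empty
    ext h
    simp only [Set.mem_setOf_eq, Set.mem_empty_iff_false, iff_false, not_not]
    rw [side_of_dt_eq_zero, side_of_dt_eq_zero] <;> rw [dt_sv] <;> exact hD
  set c := min F.lc F'.lc with hc
  have hc0 : 0 < c := lt_min F.lc_pos F'.lc_pos
  refine (fin_bddQ u v hD ((F.p + F'.p) * (F.r + F'.r) * (dt u v : ℚ) ^ 2 / c ^ 2)).subset ?_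
  intro h hh
  simp only [Set.mem_setOf_eq] at hh
  set x := F.B (sv h u) (sv h v) with hx
  set x' := F'.B (sv h u) (sv h v) with hx'
  have hDh : dt (sv h u) (sv h v) = dt u v := dt_sv h u v
  have hDq : (dt u v : ℚ) ≠ 0 := by exact_mod_cast hD
  have hxx : x * x' ≤ 0 := by
    by_contra hcon
    push Not at hcon
    apply hh
    rw [side, side]
    apply sg_eq_of_mul_pos
    rw [hDh]
    have : (0 : ℚ) < (dt u v : ℚ) ^ 2 := by positivity
    nlinarith
  have hne : x ≠ x' := by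
    intro he
    apply hh
    rw [side, side, ← hx, ← hx', he]
  have hsub : x - x' ≠ 0 := sub_ne_zero.mpr hne
  have hpos : 0 < (x - x') ^ 2 := by positivity
  set t := x / (x - x') with ht
  have ht0 : 0 ≤ t := by
    rw [ht, div_eq_mul_inv]
    have : x * (x - x')⁻¹ = x * (x - x') / (x - x') ^ 2 := by field_simp
    rw [this]
    apply div_nonneg _ hpos.le
    nlinarith [sq_nonneg x]
  have ht1 : t ≤ 1 := by
    have : 1 - t = (- x') * (x - x') / (x - x') ^ 2 := by rw [ht]; field_simp; ring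
    have h2 : 0 ≤ 1 - t := by
      rw [this]
      apply div_nonneg _ hpos.le
      nlinarith [sq_nonneg x']
    linarith
  have h0 : (1 - t) * x + t * x' = 0 := by rw [ht]; field_simp; ring
  have k1 := key_bound F F' (sv h u) (sv h v) (sv_ne_zero h (ne_zero_of_dt_right hD)) t ht0 ht1 h0
  have h0' : (1 - t) * F.B (sv h v) (sv h u) + t * F'.B (sv h v) (sv h u) = 0 := by
    rw [F.B_comm, F'.B_comm]; exact h0
  have k2 := key_bound F F' (sv h v) (sv h u) (sv_ne_zero h (ne_zero_of_dt_left hD)) t ht0 ht1 h0'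
  rw [dt_swap, hDh] at k2
  rw [hDh] at k1
  have hc2 : 0 < c ^ 2 := by positivity
  constructor
  · rw [le_div_iff₀ hc2, mul_comm]; exact k1
  · rw [le_div_iff₀ hc2, mul_comm]
    have : ((-dt u v : ℤ) : ℚ) ^ 2 = (dt u v : ℚ) ^ 2 := by push_cast; ring
    rw [this] at k2; exact k2

end Fermat.Agent.S41Lib
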