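/-
S41 duality, part 2: the intersection homomorphisms `symHom Γ u v : Γ → ℤ`
(`g ↦` signed number of `Γ`-translates of the geodesic `{u,v}` crossed by a path `z₀ → g z₀`,
up to the harmless factor 4).
-/
import Fermat.Agent.S41.InterFin
import Fermat.Agent.S41.IntCores

set_option autoImplicit false

open scoped MatrixGroups
open CongruenceSubgroup Function

namespace Fermat.Agent.S41Lib

/-- the side function of the geodesic `{u,v}` transported to the group -/
def sfun (F : PD) (u v : V2) : SL(2, ℤ) → ℤ := fun h => side F (sv h u) (sv h v)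

theorem SL_det_ne_zero (g : SL(2, ℤ)) : (g : Matrix (Fin 2) (Fin 2) ℤ).det ≠ 0 := by
  rw [g.2]; exact one_ne_zero

theorem sfun_mul_left (F : PD) (u v : V2) (g h : SL(2, ℤ)) :
    sfun F u v (g * h) = sfun (F.comap g (SL_det_ne_zero g)) u v h := by
  unfold sfun
  rw [side_comap, g.2, sv_mul, sv_mul]
  simp [sg_pos, sv]

theorem sfun_mul_right (F : PD) (u v : V2) (h t : SL(2, ℤ)) :
    sfun F u v (h * t) = sfun F (sv t u) (sv t v) h := by
  unfold sfun
  rw [sv_mul, sv_mul]

theorem sfun_sub_finite (F F' : PD) (u v : V2) :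
    (support fun h => sfun F' u v h - sfun F u v h).Finite := by
  refine (side_ne_finite F F' u v).subset ?_
  intro h hh hcon
  apply hh
  show sfun F' u v h - sfun F u v h = 0
  unfold sfun
  rw [hcon, sub_self]

theorem sfun_almostInv (F : PD) (u v : V2) : AlmostInv (sfun F u v) := by
  intro g
  have := sfun_sub_finite (F.comap g (SL_det_ne_zero g)) F u v
  refine this.subset ?_
  intro h hh
  simpa [sfun_mul_left] using hh

/-- the value of the intersection homomorphism -/
noncomputable def symVal (Γ : Subgroup SL(2, ℤ)) (u v : V2) (g : Γ) : ℤ :=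
  aiVal (fun h : Γ => sfun PD.std u v h) g

theorem sfun_restrict_almostInv (Γ : Subgroup SL(2, ℤ)) (F : PD) (u v : V2) :
    AlmostInv (fun h : Γ => sfun F u v h) := (sfun_almostInv F u v).restrict Γ

/-- base point independence -/
theorem symVal_eq (Γ : Subgroup SL(2, ℤ)) (F : PD) (u v : V2) (g : Γ) :
    symVal Γ u v g = aiVal (fun h : Γ => sfun F u v h) g := by
  unfold symVal
  refine aiVal_eq_of_sub_finite (sfun_restrict_almostInv Γ F u v) ?_ g
  have := (sfun_sub_finite F PD.std u v).preimage
    (Subtype.val_injective (p := fun x => x ∈ Γ)).injOn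
  exact this

/-- the intersection homomorphism -/
noncomputable def symHom (Γ : Subgroup SL(2, ℤ)) (u v : V2) : Additive Γ →+ ℤ where
  toFun g := symVal Γ u v (Additive.toMul g)
  map_zero' := by
    show aiVal _ (1 : Γ) = 0
    simp [aiVal]
  map_add' g₁ g₂ := aiVal_mul (sfun_restrict_almostInv Γ PD.std u v) _ _

@[simp] theorem symHom_apply (Γ : Subgroup SL(2, ℤ)) (u v : V2) (g : Γ) :
    symHom Γ u v (Additive.ofMul g) = symVal Γ u v g := rfl

theorem symHom_ext {Γ : Subgroup SL(2, ℤ)} {A : Type*} [AddCommGroup A]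
    {φ ψ : Additive Γ →+ A} (h : ∀ g : Γ, φ (Additive.ofMul g) = ψ (Additive.ofMul g)) : φ = ψ := by
  ext g; exact h (Additive.toMul g)

theorem symHom_swap (Γ : Subgroup SL(2, ℤ)) (u v : V2) : symHom Γ v u = - symHom Γ u v := by
  apply symHom_ext
  intro g
  show symVal Γ v u g = - symVal Γ u v g
  unfold symVal
  rw [← aiVal_neg]
  congr 1; funext h
  exact side_swap _ _ _

theorem symHom_of_dt_eq_zero (Γ : Subgroup SL(2, ℤ)) {u v : V2} (h : dt u v = 0) :
    symHom Γ u v = 0 := by
  apply symHom_ext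
  intro g
  show symVal Γ u v g = 0
  unfold symVal
  have : (fun h : Γ => sfun PD.std u v h) = fun _ => 0 := by
    funext x
    exact side_of_dt_eq_zero _ (by rw [dt_sv]; exact h)
  rw [this, aiVal_const]

theorem symHom_self (Γ : Subgroup SL(2, ℤ)) (u : V2) : symHom Γ u u = 0 :=
  symHom_of_dt_eq_zero Γ (dt_self u)

theorem symHom_smul_left (Γ : Subgroup SL(2, ℤ)) (k : ℤ) (hk : k ≠ 0) (u v : V2) :
    symHom Γ (k * u.1, k * u.2) v = symHom Γ u v := by
  apply symHom_ext
  intro g
  show symVal Γ _ v g = symVal Γ u v g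
  unfold symVal
  congr 1; funext h
  unfold sfun
  rw [sv_smul, side_smul_left _ k hk]

theorem symHom_smul_right (Γ : Subgroup SL(2, ℤ)) (k : ℤ) (hk : k ≠ 0) (u v : V2) :
    symHom Γ u (k * v.1, k * v.2) = symHom Γ u v := by
  rw [symHom_swap, symHom_smul_left Γ k hk, symHom_swap, neg_neg]

/-- `Γ`-invariance of the symbol -/
theorem symHom_sv (Γ : Subgroup SL(2, ℤ)) (γ : Γ) (u v : V2) :
    symHom Γ (sv γ u) (sv γ v) = symHom Γ u v := by
  apply symHom_ext
  intro g
  show symVal Γ _ _ g = symVal Γ u v g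
  unfold symVal
  rw [← aiVal_mulRight (fun h : Γ => sfun PD.std u v h) γ g]
  congr 1; funext h
  exact (sfun_mul_right PD.std u v h γ).symm

end Fermat.Agent.S41Lib
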