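/-
S41 duality, part 3: naturality of the intersection homomorphisms:
`cores`, `coresD`, `res`, `resD`, `heckeHom`, `heckeHomU` applied to `symHom`.
-/
import Fermat.Agent.S41.IntSymb

set_option autoImplicit false

open scoped MatrixGroups
open CongruenceSubgroup Function

namespace Fermat.Agent.S41Lib

section General

variable {G : Type*} [Group G]

theorem transfer_mul_hom {H : Subgroup G} [H.FiniteIndex] {A : Type*} [CommGroup A]
    (ϕ ψ : H →* A) :
    MonoidHom.transfer (ϕ * ψ) = MonoidHom.transfer ϕ * MonoidHom.transfer ψ := by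
  ext g
  rw [MonoidHom.mul_apply, MonoidHom.transfer_def ϕ default, MonoidHom.transfer_def ψ default,
    MonoidHom.transfer_def (ϕ * ψ) default]
  unfold Subgroup.leftTransversals.diff
  simp only [MonoidHom.mul_apply]
  exact Finset.prod_mul_distrib

/-- (N3) for an injective-on-cosets homomorphism `j : G' → G`. -/
theorem aiVal_hom_eq_sum {G' : Type*} [Group G'] (j : G' →* G) {s : G → ℤ} (hs : AlmostInv s)
    {ι : Type*} [Fintype ι] (t : ι → G) (ht : Bijective fun p : ι × G' => j p.2 * t p.1)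
    (g : G') : aiVal s (j g) = ∑ i, aiVal (fun h : G' => s (j h * t i)) g := by
  unfold aiVal
  rw [finsum_eq_sum_finsum _ ht (hs (j g))]
  refine Finset.sum_congr rfl fun i _ => ?_
  congr 1; funext h
  simp [mul_assoc]

/-- the permutation of the cosets induced by right multiplication -/
theorem exists_perm_of_right_family {G' : Type*} [Group G'] (j : G' →* G) {ι : Type*} [Fintype ι]
    (ρ : ι → G) (hρ : Bijective fun p : ι × G' => j p.2 * ρ p.1) (g : G) :
    ∃ (π : ι ≃ ι) (η : ι → G'), ∀ i, ρ i * g = j (η i) * ρ (π i) := by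
  choose f hf using fun i => hρ.surjective (ρ i * g)
  have hinj : Injective fun i => (f i).1 := by
    intro i i' hii
    simp only at hii
    have h1 := hf i
    have h2 := hf i'
    simp only at h1 h2
    rw [hii] at h1
    have h3 : ρ i = j ((f i).2 * ((f i').2)⁻¹) * ρ i' := by
      have : ρ i * g = j ((f i).2 * ((f i').2)⁻¹) * ρ i' * g := by
        rw [mul_assoc, ← h2, ← h1, map_mul, map_inv]
        group
      exact mul_right_cancel this
    have h4 : (fun p : ι × G' => j p.2 * ρ p.1) (i, 1) =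
        (fun p : ι × G' => j p.2 * ρ p.1) (i', (f i).2 * ((f i').2)⁻¹) := by
      simp only [map_one, one_mul]; exact h3
    exact congrArg Prod.fst (hρ.injective h4)
  refine ⟨Equiv.ofBijective _ (Finite.injective_iff_bijective.mp hinj), fun i => (f i).2, ?_⟩
  intro i
  exact (hf i).symm

/-- existence of a family of representatives of the right cosets -/
theorem exists_right_family {G' : Type*} [Group G'] (j : G' →* G) (hj : Injective j)
    [j.range.FiniteIndex] :
    ∃ (ρ : (G ⧸ j.range) → G), Bijective fun p : (G ⧸ j.range) × G' => j p.2 * ρ p.1 := by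
  refine ⟨fun q => (q.out)⁻¹, ?_, ?_⟩
  · rintro ⟨q, h⟩ ⟨q', h'⟩ hh
    simp only at hh
    have h1 : q.out * (j h)⁻¹ = q'.out * (j h')⁻¹ := by
      have := congrArg (fun x => x⁻¹) hh
      simpa using this
    have h2 : q = q' := by
      have e1 : ((q.out * (j h)⁻¹ : G) : G ⧸ j.range) = q := by
        rw [QuotientGroup.mk_mul_of_mem _ (j.range.inv_mem ⟨h, rfl⟩)]; exact q.out_eq'
      have e2 : ((q'.out * (j h')⁻¹ : G) : G ⧸ j.range) = q' := by
        rw [QuotientGroup.mk_mul_of_mem _ (j.range.inv_mem ⟨h', rfl⟩)]; exact q'.out_eq'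
      rw [← e1, ← e2, h1]
    subst h2
    have h3 : j h = j h' := by
      have := mul_left_cancel h1
      exact inv_injective this
    rw [hj h3]
  · intro x
    have hmem : ((x⁻¹ : G) : G ⧸ j.range).out⁻¹ * x⁻¹ ∈ j.range := by
      rw [← QuotientGroup.eq]; exact Quotient.out_eq' _
    obtain ⟨h, hh⟩ := hmem
    refine ⟨(((x⁻¹ : G) : G ⧸ j.range), h⁻¹), ?_⟩
    simp only [map_inv, hh]
    group

end General

section Additivity

variable {A : Type*} [AddCommGroup A]

/-- `cores` as an additive map -/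
noncomputable def coresAdd (N t : ℕ) [NeZero (N * t)] :
    (Additive (Gamma0 (N * t)) →+ A) →+ (Additive (Gamma0 N) →+ A) :=
  AddMonoidHom.mk' (cores N t) (by
    intro Ψ₁ Ψ₂
    apply symHom_ext
    intro g
    have : toSub N t (Ψ₁ + Ψ₂) = toSub N t Ψ₁ * toSub N t Ψ₂ := by
      ext h; rfl
    rw [AddMonoidHom.add_apply, cores_apply, cores_apply, cores_apply, this, transfer_mul_hom]
    rfl)

@[simp] theorem coresAdd_apply (N t : ℕ) [NeZero (N * t)] (Ψ : Additive (Gamma0 (N * t)) →+ A) :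
    coresAdd N t Ψ = cores N t Ψ := rfl

/-- `coresD` as an additive map -/
noncomputable def coresDAdd (N t : ℕ) [NeZero t] :
    (Additive (Gamma0 (N * t)) →+ A) →+ (Additive (Gamma0 N) →+ A) :=
  AddMonoidHom.mk' (coresD N t) (by
    intro Ψ₁ Ψ₂
    apply symHom_ext
    intro g
    have : toSubD N t (Ψ₁ + Ψ₂) = toSubD N t Ψ₁ * toSubD N t Ψ₂ := by
      ext h; rfl
    rw [AddMonoidHom.add_apply, coresD_apply, coresD_apply, coresD_apply, this, transfer_mul_hom]
    rfl)

@[simp] theorem coresDAdd_apply (N t : ℕ) [NeZero t] (Ψ : Additive (Gamma0 (N * t)) →+ A) :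
    coresDAdd N t Ψ = coresD N t Ψ := rfl

end Additivity

/-- `diag(t,1)` -/
def dgL (t : ℕ) : Matrix (Fin 2) (Fin 2) ℤ := !![(t : ℤ), 0; 0, 1]

/-- `diag(1,t)` -/
def dgR (t : ℕ) : Matrix (Fin 2) (Fin 2) ℤ := !![1, 0; 0, (t : ℤ)]

theorem dgL_det (t : ℕ) : (dgL t).det = t := by simp [dgL, Matrix.det_fin_two_of]

theorem dgR_det (t : ℕ) : (dgR t).det = t := by simp [dgR, Matrix.det_fin_two_of]

theorem dgL_det_ne_zero (t : ℕ) [NeZero t] : (dgL t).det ≠ 0 := by
  rw [dgL_det]; exact_mod_cast NeZero.ne t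

theorem mv_dgL (t : ℕ) (u : V2) : mv (dgL t) u = (t * u.1, u.2) := by
  simp [mv, dgL]

theorem mv_dgR (t : ℕ) (u : V2) : mv (dgR t) u = (u.1, t * u.2) := by
  simp [mv, dgR]

theorem mv_dgL_dgR (t : ℕ) (u : V2) : mv (dgL t) (mv (dgR t) u) = ((t : ℤ) * u.1, (t : ℤ) * u.2) := by
  simp [mv_dgL, mv_dgR]

/-- `diag(t,1) γ = (conjD γ) diag(t,1)` on vectors -/
theorem mv_dgL_sv (N t : ℕ) [NeZero t] (γ : Gamma0 (N * t)) (u : V2) :
    mv (dgL t) (sv (γ : SL(2, ℤ)) u) = sv ((conjD N t γ : Gamma0 N) : SL(2, ℤ)) (mv (dgL t) u) := by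
  have ht' : (t : ℤ) ≠ 0 := by exact_mod_cast NeZero.ne t
  obtain ⟨c, hc⟩ := dvd_of_Gamma0_mul γ
  rw [mv_dgL, mv_dgL, sv, sv, conjD_coe]
  simp only [mv, conjDMat, Matrix.of_apply, Matrix.cons_val_zero, Matrix.cons_val_one,
    Matrix.cons_val_fin_one]
  rw [hc, Int.mul_ediv_cancel_left _ ht']
  ext <;> simp <;> ring

theorem side_comap_dgL (F : PD) (t : ℕ) [NeZero t] (u v : V2) :
    side (F.comap (dgL t) (dgL_det_ne_zero t)) u v = side F (mv (dgL t) u) (mv (dgL t) v) := by
  rw [side_comap, dgL_det]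
  have : (0 : ℚ) < ((t : ℤ) : ℚ) := by
    have := Nat.pos_of_ne_zero (NeZero.ne t)
    exact_mod_cast this
  rw [sg_pos this, one_mul]

/-- the key computation: the side function along `conjD`. -/
theorem sfun_conjD (F : PD) (N t : ℕ) [NeZero t] (u v : V2) (γ : Gamma0 (N * t)) :
    sfun F (mv (dgL t) u) (mv (dgL t) v) ((conjD N t γ : Gamma0 N) : SL(2, ℤ))
      = sfun (F.comap (dgL t) (dgL_det_ne_zero t)) u v (γ : SL(2, ℤ)) := by
  unfold sfun
  rw [side_comap_dgL, mv_dgL_sv, mv_dgL_sv]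

/-- (N1) -/
theorem cores_symHom (N t : ℕ) [NeZero (N * t)] (u v : V2) :
    cores N t (symHom (Gamma0 (N * t)) u v) = symHom (Gamma0 N) u v := by
  apply symHom_ext
  intro g
  rw [cores_apply]
  have key : toSub N t (symHom (Gamma0 (N * t)) u v) =
      aiHom ((sfun_restrict_almostInv (Gamma0 N) PD.std u v).restrict (subG N t)) := by
    ext h
    rw [toSub_apply, aiHom_apply, symHom_apply]
    congr 1
    unfold symVal
    rw [← aiVal_comp_equiv (subGEquiv N t)]
    rfl
  rw [key, transfer_aiHom (sfun_restrict_almostInv (Gamma0 N) PD.std u v) (subG N t)]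
  rfl

/-- (N1) + (N2) -/
theorem coresD_symHom (N t : ℕ) [NeZero t] (u v : V2) :
    coresD N t (symHom (Gamma0 (N * t)) u v) =
      symHom (Gamma0 N) (mv (dgL t) u) (mv (dgL t) v) := by
  apply symHom_ext
  intro g
  rw [coresD_apply]
  have key : toSubD N t (symHom (Gamma0 (N * t)) u v) =
      aiHom ((sfun_restrict_almostInv (Gamma0 N) PD.std (mv (dgL t) u) (mv (dgL t) v)).restrict
        (subD N t)) := by
    ext h
    rw [toSubD_apply, aiHom_apply, symHom_apply]
    congr 1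
    rw [symVal_eq _ (PD.std.comap (dgL t) (dgL_det_ne_zero t)),
      ← aiVal_comp_equiv (subDEquiv N t)]
    have e : (fun h' : subD N t => sfun (PD.std.comap (dgL t) (dgL_det_ne_zero t)) u v
        ((subDEquiv N t h' : Gamma0 (N * t)) : SL(2, ℤ))) =
        fun h' : subD N t => sfun PD.std (mv (dgL t) u) (mv (dgL t) v)
          ((h' : Gamma0 N) : SL(2, ℤ)) := by
      funext h'
      rw [← sfun_conjD, conjD_subDEquiv]
    rw [e]
  rw [key, transfer_aiHom
    (sfun_restrict_almostInv (Gamma0 N) PD.std (mv (dgL t) u) (mv (dgL t) v)) (subD N t)]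
  rfl

/-- (N3) -/
theorem res_symHom (N t : ℕ) {ι : Type*} [Fintype ι] (ρ : ι → Gamma0 N)
    (hρ : Bijective fun p : ι × Gamma0 (N * t) => inclG N t p.2 * ρ p.1) (u v : V2) :
    res N t (symHom (Gamma0 N) u v) =
      ∑ i, symHom (Gamma0 (N * t)) (sv (ρ i : SL(2, ℤ)) u) (sv (ρ i : SL(2, ℤ)) v) := by
  apply symHom_ext
  intro γ
  rw [res_apply, symHom_apply, symVal,
    aiVal_hom_eq_sum (inclG N t) (sfun_restrict_almostInv (Gamma0 N) PD.std u v) ρ hρ γ]
  rw [AddMonoidHom.finsetSum_apply]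
  refine Finset.sum_congr rfl fun i _ => ?_
  rw [symHom_apply, symVal]
  congr 1; funext h
  exact sfun_mul_right PD.std u v _ _

/-- (N3) + (N2) -/
theorem resD_symHom (N t : ℕ) [NeZero t] {ι : Type*} [Fintype ι] (ρ : ι → Gamma0 N)
    (hρ : Bijective fun p : ι × Gamma0 (N * t) => conjD N t p.2 * ρ p.1) (u v : V2) :
    resD N t (symHom (Gamma0 N) u v) =
      ∑ i, symHom (Gamma0 (N * t)) (mv (dgR t) (sv (ρ i : SL(2, ℤ)) u))
        (mv (dgR t) (sv (ρ i : SL(2, ℤ)) v)) := by
  have ht' : (t : ℤ) ≠ 0 := by exact_mod_cast NeZero.ne t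
  apply symHom_ext
  intro γ
  rw [resD_apply, symHom_apply, symVal,
    aiVal_hom_eq_sum (conjD N t) (sfun_restrict_almostInv (Gamma0 N) PD.std u v) ρ hρ γ]
  rw [AddMonoidHom.finsetSum_apply]
  refine Finset.sum_congr rfl fun i _ => ?_
  rw [symHom_apply, symVal_eq _ (PD.std.comap (dgL t) (dgL_det_ne_zero t))]
  congr 1; funext h
  rw [← sfun_conjD, mv_dgL_dgR, mv_dgL_dgR]
  show sfun PD.std u v (((conjD N t h : Gamma0 N) : SL(2, ℤ)) * (ρ i : SL(2, ℤ))) = _
  rw [sfun_mul_right]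
  unfold sfun
  rw [sv_smul, sv_smul, side_smul_left _ _ ht', side_smul_right _ _ ht']

/-- the Hecke operator `heckeHom` on intersection homomorphisms -/
theorem heckeHom_symHom (N W : ℕ) [NeZero W] [NeZero (N * W)] {ι : Type*} [Fintype ι]
    (ρ : ι → Gamma0 N)
    (hρ : Bijective fun p : ι × Gamma0 (N * W) => conjD N W p.2 * ρ p.1) (u v : V2) :
    heckeHom N W (symHom (Gamma0 N) u v) =
      ∑ i, symHom (Gamma0 N) (mv (dgR W) (sv (ρ i : SL(2, ℤ)) u))
        (mv (dgR W) (sv (ρ i : SL(2, ℤ)) v)) := by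
  unfold heckeHom
  rw [resD_symHom N W ρ hρ, ← coresAdd_apply, map_sum]
  refine Finset.sum_congr rfl fun i _ => ?_
  rw [coresAdd_apply, cores_symHom]

/-- the Hecke operator `heckeHomU` on intersection homomorphisms -/
theorem heckeHomU_symHom (N W : ℕ) [NeZero W] {ι : Type*} [Fintype ι]
    (ρ : ι → Gamma0 N)
    (hρ : Bijective fun p : ι × Gamma0 (N * W) => inclG N W p.2 * ρ p.1) (u v : V2) :
    heckeHomU N W (symHom (Gamma0 N) u v) =
      ∑ i, symHom (Gamma0 N) (mv (dgL W) (sv (ρ i : SL(2, ℤ)) u))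
        (mv (dgL W) (sv (ρ i : SL(2, ℤ)) v)) := by
  unfold heckeHomU
  rw [res_symHom N W ρ hρ, ← coresDAdd_apply, map_sum]
  refine Finset.sum_congr rfl fun i _ => ?_
  rw [coresDAdd_apply, coresD_symHom]

end Fermat.Agent.S41Lib
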