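import Fermat.Agent.S41.InterFin

/-!
# S41 geometric core: the triangle lemma (G3)

For three nonzero integer vectors `u v w` (three cusps) and a point `F`, the sum of the three
sides of `F` w.r.t. the translated ideal triangle `h u, h v, h w` is equal to the constant
`- sign (dt u v * dt v w * dt w u)` for all but finitely many `h ∈ SL(2,ℤ)`
(namely those for which `F` lies in the closed translated triangle).
-/

open Matrix MatrixGroups

namespace Fermat.Agent.S41Lib

lemma PD.B_add_left (F : PD) (u v w : V2) : F.B (u + v) w = F.B u w + F.B v w := by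
  simp only [PD.B, Prod.fst_add, Prod.snd_add]; push_cast; ring

lemma PD.B_neg_left (F : PD) (u w : V2) : F.B (-u) w = - F.B u w := by
  simp only [PD.B, Prod.fst_neg, Prod.snd_neg]; push_cast; ring

lemma PD.lc_le_self (F : PD) {w : V2} (hw : w ≠ 0) : F.lc ≤ F.B w w := by
  have h1 := F.lc_le w
  have h2 : (1 : ℚ) ≤ (w.1 : ℚ) ^ 2 + (w.2 : ℚ) ^ 2 := by
    rw [← nsq_cast]; exact_mod_cast one_le_nsq hw
  have h3 := F.lc_pos
  nlinarith

/-- sum of the three sides -/
def tri (F : PD) (u v w : V2) : ℤ := side F u v + side F v w + side F w u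

lemma tri_rot (F : PD) (u v w : V2) : tri F v w u = tri F u v w := by
  simp only [tri]; ring

/-- pointwise alternative for a triple of sum zero -/
lemma tri_alt (F : PD) (u v w : V2) (hs : u + v + w = 0) (hD : dt u v ≠ 0) :
    tri F u v w = - sg (dt u v : ℚ) ∨
      (F.B u u ≤ 2 * ((F.p * F.r - F.q ^ 2) * (dt u v : ℚ) ^ 2) / F.lc ∧
       F.B v v ≤ 2 * ((F.p * F.r - F.q ^ 2) * (dt u v : ℚ) ^ 2) / F.lc) := by
  have hw : w = -(u + v) := by
    have : w = (u + v + w) - (u + v) := by abel
    rw [this, hs, zero_sub]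
  have hu0 : u ≠ 0 := ne_zero_of_dt_left hD
  have hv0 : v ≠ 0 := ne_zero_of_dt_right hD
  have d1 : dt v w = dt u v := by rw [hw]; simp only [dt, Prod.fst_neg, Prod.snd_neg, Prod.fst_add, Prod.snd_add]; ring
  have d2 : dt w u = dt u v := by rw [hw]; simp only [dt, Prod.fst_neg, Prod.snd_neg, Prod.fst_add, Prod.snd_add]; ring
  have hw0 : w ≠ 0 := ne_zero_of_dt_right (by rw [d1]; exact hD)
  set y3 := - F.B u v with hy3
  set y1 := - F.B v w with hy1
  set y2 := - F.B w u with hy2
  have q1 : F.B u u = y2 + y3 := by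
    rw [hy2, hy3, hw, PD.B_neg_left, PD.B_add_left, F.B_comm v u]; ring
  have q2 : F.B v v = y1 + y3 := by
    rw [hy1, hy3, hw, F.B_comm v (-(u + v)), PD.B_neg_left, PD.B_add_left]; ring
  have q3 : F.B w w = y1 + y2 := by
    have e1 : F.B w w = - (F.B u w + F.B v w) := by
      conv_lhs => rw [hw]
      rw [PD.B_neg_left, PD.B_add_left, ← hw]
    rw [e1, hy1, hy2, F.B_comm u w]; ring
  have p1 := F.B_self_pos hu0
  have p2 := F.B_self_pos hv0
  have p3 := F.B_self_pos hw0
  have l1 := F.lc_le_self hu0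
  have l2 := F.lc_le_self hv0
  have l3 := F.lc_le_self hw0
  have hlc := F.lc_pos
  have hG := F.gram u v
  set G := (F.p * F.r - F.q ^ 2) * (dt u v : ℚ) ^ 2 with hGdef
  have hG' : y1 * y2 + y1 * y3 + y2 * y3 = G := by
    rw [← hG, q1, q2]
    have : F.B u v = - y3 := by rw [hy3]; ring
    rw [this]; ring
  have htri : tri F u v w = - sg (dt u v : ℚ) * (sg y1 + sg y2 + sg y3) := by
    simp only [tri, side]
    rw [d1, d2, sg_mul, sg_mul, sg_mul]
    have a1 : sg (F.B u v) = - sg y3 := by rw [hy3, sg_neg']; ring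
    have a2 : sg (F.B v w) = - sg y1 := by rw [hy1, sg_neg']; ring
    have a3 : sg (F.B w u) = - sg y2 := by rw [hy2, sg_neg']; ring
    rw [a1, a2, a3]; ring
  by_cases hall : 0 ≤ y1 ∧ 0 ≤ y2 ∧ 0 ≤ y3
  · right
    obtain ⟨n1, n2, n3⟩ := hall
    have b1 : y1 * F.lc ≤ G := by
      have : y1 * F.lc ≤ y1 * F.B u u := mul_le_mul_of_nonneg_left l1 n1
      rw [q1] at this
      nlinarith [mul_nonneg n2 n3]
    have b2 : y2 * F.lc ≤ G := by
      have : y2 * F.lc ≤ y2 * F.B v v := mul_le_mul_of_nonneg_left l2 n2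
      rw [q2] at this
      nlinarith [mul_nonneg n1 n3]
    have b3 : y3 * F.lc ≤ G := by
      have : y3 * F.lc ≤ y3 * F.B w w := mul_le_mul_of_nonneg_left l3 n3
      rw [q3] at this
      nlinarith [mul_nonneg n1 n2]
    constructor
    · rw [le_div_iff₀ hlc, q1]; nlinarith
    · rw [le_div_iff₀ hlc, q2]; nlinarith
  · left
    rw [htri]
    have : sg y1 + sg y2 + sg y3 = 1 := by
      rw [q1] at p1; rw [q2] at p2; rw [q3] at p3
      by_cases n1 : 0 ≤ y1
      · by_cases n2 : 0 ≤ y2
        · have n3 : y3 < 0 := by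
            by_contra hcon; push Not at hcon; exact hall ⟨n1, n2, hcon⟩
          rw [sg_neg n3, sg_pos (by linarith : 0 < y1), sg_pos (by linarith : 0 < y2)]; norm_num
        · push Not at n2
          rw [sg_neg n2, sg_pos (by linarith : 0 < y1), sg_pos (by linarith : 0 < y3)]; norm_num
      · push Not at n1
        rw [sg_neg n1, sg_pos (by linarith : 0 < y2), sg_pos (by linarith : 0 < y3)]; norm_num
    rw [this, mul_one]

lemma tri_sum0_finite (F : PD) (u v w : V2) (hs : u + v + w = 0) (hD : dt u v ≠ 0) :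
    {h : SL(2, ℤ) | tri F (sv h u) (sv h v) (sv h w) ≠ - sg (dt u v : ℚ)}.Finite := by
  refine (fin_Q F u v hD (2 * ((F.p * F.r - F.q ^ 2) * (dt u v : ℚ) ^ 2) / F.lc)).subset ?_
  intro h hh
  have hs' : sv h u + sv h v + sv h w = 0 := by
    rw [← sv_add, ← sv_add, hs]; simp [sv, mv]
  have hD' : dt (sv h u) (sv h v) ≠ 0 := by rw [dt_sv]; exact hD
  rcases tri_alt F _ _ _ hs' hD' with h1 | h1
  · rw [dt_sv] at h1; exact absurd h1 hh
  · rw [dt_sv] at h1; exact h1

/-- proportional nonzero vectors define the same cusp -/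
lemma side_congr_left (F : PD) {u v : V2} (hu : u ≠ 0) (hv : v ≠ 0) (h : dt u v = 0) (w : V2) :
    side F u w = side F v w := by
  obtain ⟨u1, u2⟩ := u
  obtain ⟨v1, v2⟩ := v
  simp only [dt] at h
  by_cases h1 : u1 = 0
  · subst h1
    have hu2 : u2 ≠ 0 := by
      rintro rfl; exact hu rfl
    have hv1 : v1 = 0 := by
      have : u2 * v1 = 0 := by linarith
      rcases mul_eq_zero.mp this with h | h
      · exact absurd h hu2
      · exact h
    subst hv1
    have hv2 : v2 ≠ 0 := by
      rintro rfl; exact hv rfl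
    rw [← side_smul_left F v2 hv2 (0, u2) w, ← side_smul_left F u2 hu2 (0, v2) w]
    simp [mul_comm]
  · have hv1 : v1 ≠ 0 := by
      rintro rfl
      have : u1 * v2 = 0 := by linarith
      rcases mul_eq_zero.mp this with h | h
      · exact h1 h
      · subst h; exact hv rfl
    rw [← side_smul_left F v1 hv1 (u1, u2) w, ← side_smul_left F u1 h1 (v1, v2) w]
    have : v1 * u2 = u1 * v2 := by linarith
    simp only [this, mul_comm v1 u1]

lemma tri_degenerate (F : PD) {u v : V2} (hu : u ≠ 0) (hv : v ≠ 0) (h : dt u v = 0) (w : V2) :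
    tri F u v w = 0 := by
  rw [tri, side_of_dt_eq_zero F h, side_swap F u w, side_congr_left F hu hv h w]; ring

lemma side_sv_smul (F : PD) (h : SL(2, ℤ)) (k m : ℤ) (hk : k ≠ 0) (hm : m ≠ 0) (u v : V2) :
    side F (sv h (k * u.1, k * u.2)) (sv h (m * v.1, m * v.2)) = side F (sv h u) (sv h v) := by
  rw [sv_smul, sv_smul, side_smul_left F k hk, side_smul_right F m hm]

/-- **(G3)** the triangle lemma. -/
theorem side_tri_finite (F : PD) (u v w : V2) (hu : u ≠ 0) (hv : v ≠ 0) (hw : w ≠ 0) :
    {h : SL(2, ℤ) | side F (sv h u) (sv h v) + side F (sv h v) (sv h w) + side F (sv h w) (sv h u)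
      ≠ - sg ((dt u v * dt v w * dt w u : ℤ) : ℚ)}.Finite := by
  by_cases h1 : dt u v = 0
  · convert Set.finite_empty
    ext h
    simp only [Set.mem_ofPred_eq, Set.mem_empty_iff_false, iff_false, not_not]
    have := tri_degenerate F (sv_ne_zero h hu) (sv_ne_zero h hv) (by rw [dt_sv]; exact h1) (sv h w)
    rw [tri] at this
    rw [this, h1]; simp
  by_cases h2 : dt v w = 0
  · convert Set.finite_empty
    ext h
    simp only [Set.mem_ofPred_eq, Set.mem_empty_iff_false, iff_false, not_not]
    have := tri_degenerate F (sv_ne_zero h hv) (sv_ne_zero h hw) (by rw [dt_sv]; exact h2) (sv h u)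
    rw [tri_rot, tri] at this
    rw [this, h2]; simp
  by_cases h3 : dt w u = 0
  · convert Set.finite_empty
    ext h
    simp only [Set.mem_ofPred_eq, Set.mem_empty_iff_false, iff_false, not_not]
    have := tri_degenerate F (sv_ne_zero h hw) (sv_ne_zero h hu) (by rw [dt_sv]; exact h3) (sv h v)
    rw [← tri_rot, tri] at this
    rw [this, h3]; simp
  set u' : V2 := (dt v w * u.1, dt v w * u.2) with hu'
  set v' : V2 := (dt w u * v.1, dt w u * v.2) with hv'
  set w' : V2 := (dt u v * w.1, dt u v * w.2) with hw'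
  have hs : u' + v' + w' = 0 := by
    ext
    · simp only [hu', hv', hw', dt, Prod.fst_add, Prod.fst_zero]; ring
    · simp only [hu', hv', hw', dt, Prod.snd_add, Prod.snd_zero]; ring
  have hD : dt u' v' = dt u v * dt v w * dt w u := by
    simp only [hu', hv', dt]; ring
  have hD0 : dt u' v' ≠ 0 := by
    rw [hD]; exact mul_ne_zero (mul_ne_zero h1 h2) h3
  have key := tri_sum0_finite F u' v' w' hs hD0
  convert key using 3 with h
  rw [tri, hu', hv', hw', side_sv_smul F h _ _ h2 h3, side_sv_smul F h _ _ h3 h1,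
    side_sv_smul F h _ _ h1 h2, ← hu', ← hv', hD]

end Fermat.Agent.S41Lib
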