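/-
S41 duality, part 4: modular symbols on integer vectors, the homomorphism attached to an
invariant symbol, Hecke operators on symbols, and "symbol Ihara".
-/
import Fermat.Agent.S41.IntNat
import Fermat.Agent.S41.InterTri

set_option autoImplicit false

open scoped MatrixGroups
open CongruenceSubgroup Function ModularCurve.Period

namespace Fermat.Agent.S41Lib

variable {A : Type*} [AddCommGroup A]

/-- modular symbols with values in `A`, as functions on pairs of integer vectors -/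
structure IsSymbol (ξ : V2 → V2 → A) : Prop where
  tri : ∀ u v w, u ≠ 0 → v ≠ 0 → w ≠ 0 → ξ u v + ξ v w + ξ w u = 0
  swap : ∀ u v, ξ v u = - ξ u v
  smul_left : ∀ (k : ℤ), k ≠ 0 → ∀ u v, ξ (k * u.1, k * u.2) v = ξ u v

namespace IsSymbol

variable {ξ : V2 → V2 → A}

theorem self (h : IsSymbol ξ) {u : V2} (hu : u ≠ 0) : ξ u u = 0 := by
  have h1 := h.tri u u u hu hu hu
  have h2 := h.swap u u
  have h3 : ξ u u + ξ u u = 0 := by
    nth_rewrite 1 [h2]; exact neg_add_cancel _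
  rw [h3, zero_add] at h1
  exact h1

theorem trans (h : IsSymbol ξ) {u v w : V2} (hu : u ≠ 0) (hv : v ≠ 0) (hw : w ≠ 0) :
    ξ u w = ξ u v + ξ v w := by
  have h1 := h.tri u v w hu hv hw
  rw [h.swap u w] at h1
  exact (add_neg_eq_zero.mp h1).symm

theorem smul_right (h : IsSymbol ξ) (k : ℤ) (hk : k ≠ 0) (u v : V2) :
    ξ u (k * v.1, k * v.2) = ξ u v := by
  rw [h.swap, h.smul_left k hk, h.swap, neg_neg]

theorem sum {ι : Type*} (s : Finset ι) (ζ : ι → V2 → V2 → A) (h : ∀ i ∈ s, IsSymbol (ζ i)) :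
    IsSymbol (fun u v => ∑ i ∈ s, ζ i u v) where
  tri u v w hu hv hw := by
    rw [← Finset.sum_add_distrib, ← Finset.sum_add_distrib]
    exact Finset.sum_eq_zero fun i hi => (h i hi).tri u v w hu hv hw
  swap u v := by
    rw [← Finset.sum_neg_distrib]
    exact Finset.sum_congr rfl fun i hi => (h i hi).swap u v
  smul_left k hk u v := Finset.sum_congr rfl fun i hi => (h i hi).smul_left k hk u v

theorem sub {ζ : V2 → V2 → A} (h : IsSymbol ξ) (h' : IsSymbol ζ) :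
    IsSymbol (fun u v => ξ u v - ζ u v) where
  tri u v w hu hv hw := by
    have h1 := h.tri u v w hu hv hw
    have h2 := h'.tri u v w hu hv hw
    have : ξ u v - ζ u v + (ξ v w - ζ v w) + (ξ w u - ζ w u) =
        (ξ u v + ξ v w + ξ w u) - (ζ u v + ζ v w + ζ w u) := by abel
    rw [this, h1, h2, sub_zero]
  swap u v := by rw [h.swap, h'.swap]; abel
  smul_left k hk u v := by rw [h.smul_left k hk, h'.smul_left k hk]

theorem nsmul (h : IsSymbol ξ) (n : ℕ) : IsSymbol (fun u v => n • ξ u v) where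
  tri u v w hu hv hw := by
    rw [← nsmul_add, ← nsmul_add, h.tri u v w hu hv hw, nsmul_zero]
  swap u v := by rw [h.swap, smul_neg]
  smul_left k hk u v := by rw [h.smul_left k hk]

theorem neg (h : IsSymbol ξ) : IsSymbol (fun u v => - ξ u v) where
  tri u v w hu hv hw := by
    rw [← neg_add, ← neg_add, h.tri u v w hu hv hw, neg_zero]
  swap u v := by rw [h.swap]
  smul_left k hk u v := by rw [h.smul_left k hk]

end IsSymbol

theorem mv_ne_zero {B : Matrix (Fin 2) (Fin 2) ℤ} (hB : B.det ≠ 0) {u : V2} (hu : u ≠ 0) :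
    mv B u ≠ 0 := by
  intro h
  apply hu
  have h1 : B 0 0 * u.1 + B 0 1 * u.2 = 0 := congrArg Prod.fst h
  have h2 : B 1 0 * u.1 + B 1 1 * u.2 = 0 := congrArg Prod.snd h
  rw [Matrix.det_fin_two] at hB
  have e1 : (B 0 0 * B 1 1 - B 0 1 * B 1 0) * u.1 = 0 := by linear_combination B 1 1 * h1 - B 0 1 * h2
  have e2 : (B 0 0 * B 1 1 - B 0 1 * B 1 0) * u.2 = 0 := by linear_combination B 0 0 * h2 - B 1 0 * h1
  ext
  · exact (mul_eq_zero.mp e1).resolve_left hB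
  · exact (mul_eq_zero.mp e2).resolve_left hB

theorem mv_smul (B : Matrix (Fin 2) (Fin 2) ℤ) (k : ℤ) (u : V2) :
    mv B (k * u.1, k * u.2) = (k * (mv B u).1, k * (mv B u).2) := by
  simp only [mv]; ext <;> simp <;> ring

theorem IsSymbol.comp_mv {ξ : V2 → V2 → A} (h : IsSymbol ξ) {B : Matrix (Fin 2) (Fin 2) ℤ}
    (hB : B.det ≠ 0) : IsSymbol (fun u v => ξ (mv B u) (mv B v)) where
  tri u v w hu hv hw := h.tri _ _ _ (mv_ne_zero hB hu) (mv_ne_zero hB hv) (mv_ne_zero hB hw)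
  swap u v := h.swap _ _
  smul_left k hk u v := by rw [mv_smul, h.smul_left k hk]

/-- invariance under `Γ₀(N)` -/
def InvUnder (N : ℕ) (ξ : V2 → V2 → A) : Prop :=
  ∀ (γ : Gamma0 N) (u v : V2), ξ (sv (γ : SL(2, ℤ)) u) (sv (γ : SL(2, ℤ)) v) = ξ u v

theorem e1_ne_zero : ((1, 0) : V2) ≠ 0 := by
  intro h; have := congrArg Prod.fst h; simp at this

/-- the homomorphism `g ↦ ξ(x, g x)` attached to an invariant symbol -/
def symbPhi (N : ℕ) (ξ : V2 → V2 → A) (hξ : IsSymbol ξ) (hinv : InvUnder N ξ) :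
    Additive (Gamma0 N) →+ A where
  toFun g := ξ (1, 0) (sv ((Additive.toMul g : Gamma0 N) : SL(2, ℤ)) (1, 0))
  map_zero' := by
    show ξ (1, 0) (sv ((1 : Gamma0 N) : SL(2, ℤ)) (1, 0)) = 0
    simp [hξ.self e1_ne_zero]
  map_add' g₁ g₂ := by
    show ξ (1, 0) (sv (((Additive.toMul g₁ * Additive.toMul g₂ : Gamma0 N)) : SL(2, ℤ)) (1, 0)) = _
    set a := Additive.toMul g₁
    set b := Additive.toMul g₂
    have h1 : sv ((a * b : Gamma0 N) : SL(2, ℤ)) (1, 0) =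
        sv (a : SL(2, ℤ)) (sv (b : SL(2, ℤ)) (1, 0)) := by
      rw [← sv_mul]; rfl
    rw [h1, hξ.trans e1_ne_zero (sv_ne_zero (a : SL(2, ℤ)) e1_ne_zero)
      (sv_ne_zero _ (sv_ne_zero _ e1_ne_zero)), hinv a]

theorem symbPhi_apply (N : ℕ) (ξ : V2 → V2 → A) (hξ : IsSymbol ξ) (hinv : InvUnder N ξ)
    (g : Gamma0 N) {x : V2} (hx : x ≠ 0) :
    symbPhi N ξ hξ hinv (Additive.ofMul g) = ξ x (sv (g : SL(2, ℤ)) x) := by
  show ξ (1, 0) (sv (g : SL(2, ℤ)) (1, 0)) = _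
  have hg1 := sv_ne_zero (g : SL(2, ℤ)) e1_ne_zero
  have hgx := sv_ne_zero (g : SL(2, ℤ)) hx
  rw [hξ.trans hx e1_ne_zero hgx, hξ.trans e1_ne_zero hg1 hgx, hinv g, hξ.swap (1, 0) x]
  abel

/-- an element of trace `±2` fixes a nonzero vector up to sign -/
theorem exists_fixed_of_trace (g : SL(2, ℤ))
    (hg : (g : Matrix (Fin 2) (Fin 2) ℤ).trace ^ 2 = 4) :
    ∃ (x : V2) (ε : ℤ), x ≠ 0 ∧ ε ≠ 0 ∧ sv g x = (ε * x.1, ε * x.2) := by
  set M := (g : Matrix (Fin 2) (Fin 2) ℤ) with hM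
  have hdet : M 0 0 * M 1 1 - M 0 1 * M 1 0 = 1 := by
    have := g.2; rwa [Matrix.det_fin_two] at this
  rw [Matrix.trace_fin_two] at hg
  have hε : ∃ ε : ℤ, ε * ε = 1 ∧ M 0 0 + M 1 1 = 2 * ε := by
    have h0 : (M 0 0 + M 1 1 - 2) * (M 0 0 + M 1 1 + 2) = 0 := by linear_combination hg
    rcases mul_eq_zero.mp h0 with h | h
    · exact ⟨1, by norm_num, by linarith⟩
    · exact ⟨-1, by norm_num, by linarith⟩
  obtain ⟨ε, hε1, hε2⟩ := hε
  have hε0 : ε ≠ 0 := by rintro rfl; simp at hε1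
  by_cases hx : ((M 0 1, ε - M 0 0) : V2) = 0
  · have hb : M 0 1 = 0 := congrArg Prod.fst hx
    have ha : ε - M 0 0 = 0 := congrArg Prod.snd hx
    refine ⟨(0, 1), ε, ?_, hε0, ?_⟩
    · intro h; have := congrArg Prod.snd h; simp at this
    · simp only [sv, mv, ← hM]
      ext
      · simp [hb]
      · simp; linarith
  · refine ⟨(M 0 1, ε - M 0 0), ε, hx, hε0, ?_⟩
    simp only [sv, mv, ← hM]
    ext
    · simp; ring
    · simp
      have h3 : M 1 1 = 2 * ε - M 0 0 := by linarith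
      rw [h3] at hdet ⊢
      linear_combination (-1 : ℤ) * hdet + hε1

theorem symbPhi_parabolic (N : ℕ) (ξ : V2 → V2 → A) (hξ : IsSymbol ξ) (hinv : InvUnder N ξ) :
    IsParabolicHom (Gamma0 N) (symbPhi N ξ hξ hinv) := by
  intro γ hγ
  obtain ⟨x, ε, hx, hε, h⟩ := exists_fixed_of_trace (γ : SL(2, ℤ)) hγ
  rw [symbPhi_apply N ξ hξ hinv γ hx, h, hξ.smul_right ε hε, hξ.self hx]

/-- the Hecke operator on symbols dual to `heckeHomU` on `symHom`'s -/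
def heckeSym (N W : ℕ) {ι : Type*} [Fintype ι] (ρ : ι → Gamma0 N) (ξ : V2 → V2 → A) :
    V2 → V2 → A :=
  fun u v => ∑ i, ξ (mv (dgL W) (sv (ρ i : SL(2, ℤ)) u)) (mv (dgL W) (sv (ρ i : SL(2, ℤ)) v))

/-- `T_W - (W+1)` on symbols -/
def eisSym (N W : ℕ) {ι : Type*} [Fintype ι] (ρ : ι → Gamma0 N) (ξ : V2 → V2 → A) :
    V2 → V2 → A :=
  fun u v => heckeSym N W ρ ξ u v - (W + 1) • ξ u v

theorem IsSymbol.heckeSym {ξ : V2 → V2 → A} (h : IsSymbol ξ) (N W : ℕ) [NeZero W] {ι : Type*}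
    [Fintype ι] (ρ : ι → Gamma0 N) : IsSymbol (heckeSym N W ρ ξ) := by
  unfold Fermat.Agent.S41Lib.heckeSym
  refine IsSymbol.sum _ _ fun i _ => ?_
  have h1 := (h.comp_mv (dgL_det_ne_zero W)).comp_mv (SL_det_ne_zero (ρ i : SL(2, ℤ)))
  exact h1

theorem IsSymbol.eisSym {ξ : V2 → V2 → A} (h : IsSymbol ξ) (N W : ℕ) [NeZero W] {ι : Type*}
    [Fintype ι] (ρ : ι → Gamma0 N) : IsSymbol (eisSym N W ρ ξ) :=
  (h.heckeSym N W ρ).sub (h.nsmul (W + 1))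

/-- the homomorphism attached to `T_W ξ` is `heckeHom` of the homomorphism attached to `ξ`. -/
theorem heckeSym_phi (N W : ℕ) [NeZero W] [NeZero (N * W)] {ι : Type*} [Fintype ι]
    (ρ : ι → Gamma0 N) (hρ : Bijective fun p : ι × Gamma0 (N * W) => inclG N W p.2 * ρ p.1)
    {ξ : V2 → V2 → A} (hξ : IsSymbol ξ) (hinv : InvUnder N ξ) {x : V2} (hx : x ≠ 0)
    (g : Gamma0 N) :
    heckeSym N W ρ ξ x (sv (g : SL(2, ℤ)) x) =
      heckeHom N W (symbPhi N ξ hξ hinv) (Additive.ofMul g) := by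
  obtain ⟨π, η, hη⟩ := exists_perm_of_right_family (inclG N W) ρ hρ g
  unfold heckeHom heckeSym
  rw [cores_eq_sum N W _ ρ hρ g π η hη]
  set z : ι → V2 := fun i => mv (dgL W) (sv (ρ i : SL(2, ℤ)) x) with hzdef
  have hz : ∀ i, z i ≠ 0 := fun i => mv_ne_zero (dgL_det_ne_zero W) (sv_ne_zero _ hx)
  have h1 : ∀ i, mv (dgL W) (sv (ρ i : SL(2, ℤ)) (sv (g : SL(2, ℤ)) x)) =
      sv ((conjD N W (η i) : Gamma0 N) : SL(2, ℤ)) (z (π i)) := by
    intro i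
    have e : (ρ i : SL(2, ℤ)) * (g : SL(2, ℤ)) = ((η i : Gamma0 (N * W)) : SL(2, ℤ)) *
        (ρ (π i) : SL(2, ℤ)) := congrArg Subtype.val (hη i)
    rw [← sv_mul, e, sv_mul, mv_dgL_sv]
  have h2 : ∀ i, ξ (z i) (mv (dgL W) (sv (ρ i : SL(2, ℤ)) (sv (g : SL(2, ℤ)) x))) =
      (ξ (z i) (1, 0) + ξ (1, 0) (z (π i))) +
        resD N W (symbPhi N ξ hξ hinv) (Additive.ofMul (η i)) := by
    intro i
    rw [h1, resD_apply, symbPhi_apply N ξ hξ hinv _ (hz (π i)),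
      hξ.trans (hz i) (hz (π i)) (sv_ne_zero _ (hz (π i))),
      hξ.trans (hz i) e1_ne_zero (hz (π i))]
  rw [Finset.sum_congr rfl fun i _ => h2 i, Finset.sum_add_distrib, Finset.sum_add_distrib,
    Equiv.sum_comp π fun i => ξ (1, 0) (z i), ← Finset.sum_add_distrib]
  have h3 : ∑ i, (ξ (z i) (1, 0) + ξ (1, 0) (z i)) = 0 :=
    Finset.sum_eq_zero fun i _ => by rw [hξ.swap (z i) (1, 0)]; exact add_neg_cancel _
  rw [h3, zero_add]

/-- the cusp equivalence hypothesis (CE) -/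
def CuspEquiv (N W : ℕ) : Prop :=
  ∀ (ρ : Gamma0 N) (y : V2), y ≠ 0 → ∃ (γ : Gamma0 N) (k k' : ℤ), k ≠ 0 ∧ k' ≠ 0 ∧
    (k' * (mv (dgL W) (sv (ρ : SL(2, ℤ)) y)).1, k' * (mv (dgL W) (sv (ρ : SL(2, ℤ)) y)).2) =
      (k * (sv (γ : SL(2, ℤ)) y).1, k * (sv (γ : SL(2, ℤ)) y).2)

/-- boundary symbols are Eisenstein -/
theorem heckeSym_boundary (N W : ℕ) [NeZero W] (hCE : CuspEquiv N W) {ι : Type*} [Fintype ι]
    (ρ : ι → Gamma0 N) {η : V2 → V2 → A} (hη : IsSymbol η)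
    (h0 : ∀ (x : V2), x ≠ 0 → ∀ g : Gamma0 N, η x (sv (g : SL(2, ℤ)) x) = 0)
    {u v : V2} (hu : u ≠ 0) (hv : v ≠ 0) :
    heckeSym N W ρ η u v = Fintype.card ι • η u v := by
  have key : ∀ (i : ι) (y : V2), y ≠ 0 → η y (mv (dgL W) (sv (ρ i : SL(2, ℤ)) y)) = 0 := by
    intro i y hy
    obtain ⟨γ, k, k', hk, hk', h⟩ := hCE (ρ i) y hy
    rw [← hη.smul_right k' hk', h, hη.smul_right k hk, h0 y hy]
  unfold heckeSym
  rw [Finset.sum_congr rfl (g := fun _ => η u v), Finset.sum_const, Finset.card_univ]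
  intro i _
  have hBu := mv_ne_zero (dgL_det_ne_zero W) (sv_ne_zero (ρ i : SL(2, ℤ)) hu)
  have hBv := mv_ne_zero (dgL_det_ne_zero W) (sv_ne_zero (ρ i : SL(2, ℤ)) hv)
  rw [hη.trans hBu hu hBv, hη.trans hu hv hBv, key i v hv, hη.swap u, key i u hu]
  simp

/-- the conclusion of Ihara's lemma (helper7), as a hypothesis -/
def IharaProp (N r W : ℕ) [NeZero r] [NeZero W] [NeZero (N * W)] (A : Type*) [AddCommGroup A] :
    Prop :=
  ∀ (Φ₁ Φ₂ : Additive (Gamma0 N) →+ A), IsParabolicHom (Gamma0 N) Φ₁ →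
    IsParabolicHom (Gamma0 N) Φ₂ → res N r Φ₁ = resD N r Φ₂ →
    heckeHom N W Φ₁ = (W + 1) • Φ₁ ∧ heckeHom N W Φ₂ = (W + 1) • Φ₂

/-- **Symbol Ihara.** -/
theorem symbol_ihara (N r W : ℕ) [NeZero r] [NeZero W] [NeZero (N * W)]
    (hI : IharaProp N r W A) (hCE : CuspEquiv N W) {ι : Type*} [Fintype ι]
    (ρ : ι → Gamma0 N) (hρ : Bijective fun p : ι × Gamma0 (N * W) => inclG N W p.2 * ρ p.1)
    (hcard : Fintype.card ι = W + 1)
    {ξ₁ ξ₂ : V2 → V2 → A} (h₁ : IsSymbol ξ₁) (h₂ : IsSymbol ξ₂) (i₁ : InvUnder N ξ₁)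
    (i₂ : InvUnder N ξ₂) (hglue : ∀ u v, ξ₁ u v = ξ₂ (mv (dgL r) u) (mv (dgL r) v))
    {u v : V2} (hu : u ≠ 0) (hv : v ≠ 0) :
    eisSym N W ρ (eisSym N W ρ ξ₁) u v = 0 ∧ eisSym N W ρ (eisSym N W ρ ξ₂) u v = 0 := by
  have hres : res N r (symbPhi N ξ₁ h₁ i₁) = resD N r (symbPhi N ξ₂ h₂ i₂) := by
    apply symHom_ext
    intro γ
    have hx : mv (dgL r) (1, 0) ≠ 0 := mv_ne_zero (dgL_det_ne_zero r) e1_ne_zero
    rw [res_apply, resD_apply, symbPhi_apply N ξ₁ h₁ i₁ _ e1_ne_zero,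
      symbPhi_apply N ξ₂ h₂ i₂ _ hx, hglue, inclG_coe, mv_dgL_sv]
  obtain ⟨e₁, e₂⟩ := hI _ _ (symbPhi_parabolic N ξ₁ h₁ i₁) (symbPhi_parabolic N ξ₂ h₂ i₂) hres
  have main : ∀ (ξ : V2 → V2 → A) (hξ : IsSymbol ξ) (hinv : InvUnder N ξ),
      heckeHom N W (symbPhi N ξ hξ hinv) = (W + 1) • symbPhi N ξ hξ hinv →
      eisSym N W ρ (eisSym N W ρ ξ) u v = 0 := by
    intro ξ hξ hinv he
    have h0 : ∀ (x : V2), x ≠ 0 → ∀ g : Gamma0 N, eisSym N W ρ ξ x (sv (g : SL(2, ℤ)) x) = 0 := by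
      intro x hx g
      unfold eisSym
      rw [heckeSym_phi N W ρ hρ hξ hinv hx g, he, ← symbPhi_apply N ξ hξ hinv g hx]
      simp
    show heckeSym N W ρ (eisSym N W ρ ξ) u v - (W + 1) • eisSym N W ρ ξ u v = 0
    rw [heckeSym_boundary N W hCE ρ (hξ.eisSym N W ρ) h0 hu hv, hcard, sub_self]
  exact ⟨main ξ₁ h₁ i₁ e₁, main ξ₂ h₂ i₂ e₂⟩

end Fermat.Agent.S41Lib
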