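/-
S41 duality, part 5: (F3) `β = (cores, coresD)` is surjective modulo `p` up to the Eisenstein
operator `(T_W - (W+1))^2`.
-/
import Fermat.Agent.S41.IntSI

set_option autoImplicit false

open scoped MatrixGroups
open CongruenceSubgroup Function ModularCurve.Period

namespace Fermat.Agent.S41Lib

/-- the three term relation for the intersection homomorphisms -/
theorem symHom_tri (Γ : Subgroup SL(2, ℤ)) (u v w : V2) (hu : u ≠ 0) (hv : v ≠ 0) (hw : w ≠ 0) :
    symHom Γ u v + symHom Γ v w + symHom Γ w u = 0 := by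
  apply symHom_ext
  intro g
  show symVal Γ u v g + symVal Γ v w g + symVal Γ w u g = 0
  unfold symVal
  have a1 := sfun_restrict_almostInv Γ PD.std u v
  have a2 := sfun_restrict_almostInv Γ PD.std v w
  have a3 := sfun_restrict_almostInv Γ PD.std w u
  rw [← aiVal_add a1 a2, ← aiVal_add (a1.add a2) a3]
  set o : ℤ := - sg ((dt u v * dt v w * dt w u : ℤ) : ℚ) with ho
  rw [aiVal_eq_of_sub_finite (almostInv_const o) _ g, aiVal_const]
  have := (side_tri_finite PD.std u v w hu hv hw).preimage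
    (Subtype.val_injective (p := fun x => x ∈ Γ)).injOn
  refine this.subset ?_
  intro h hh hcon
  apply hh
  show sfun PD.std u v h + sfun PD.std v w h + sfun PD.std w u h - o = 0
  unfold sfun
  rw [hcon, ho, sub_self]

section Functional

theorem dual_sep {K V : Type*} [Field K] [AddCommGroup V] [Module K V] (v : V)
    (h : ∀ φ : V →ₗ[K] K, φ v = 0) : v = 0 :=
  (Module.forall_dual_apply_eq_zero_iff K v).mp h

/-- separation by functionals with values in `ZMod p` -/
theorem exists_of_functionals {M : Type*} [AddCommGroup M] (S : AddSubgroup M) (p : ℕ)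
    [Fact p.Prime] (x : M)
    (hx : ∀ l : M →+ ZMod p, (∀ s ∈ S, l s = 0) → l x = 0) :
    ∃ s ∈ S, ∃ y : M, x = s + p • y := by
  set R : AddSubgroup M := (nsmulAddMonoidHom (α := M) p).range with hR
  set S' : AddSubgroup M := S ⊔ R with hS'
  have hp : ∀ q : M ⧸ S', p • q = 0 := by
    intro q
    obtain ⟨m, rfl⟩ := QuotientAddGroup.mk_surjective q
    rw [← QuotientAddGroup.mk_nsmul, QuotientAddGroup.eq_zero_iff]
    exact (le_sup_right : R ≤ S') ⟨m, rfl⟩
  let _ : Module (ZMod p) (M ⧸ S') := AddCommGroup.zmodModule hp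
  have h0 : ((x : M) : M ⧸ S') = 0 := by
    refine dual_sep (K := ZMod p) (QuotientAddGroup.mk x : M ⧸ S') ?_
    intro φ
    have := hx (φ.toAddMonoidHom.comp (QuotientAddGroup.mk' S')) (by
      intro s hs
      have : ((s : M) : M ⧸ S') = 0 :=
        (QuotientAddGroup.eq_zero_iff s).mpr ((le_sup_left : S ≤ S') hs)
      simp [this])
    simpa using this
  rw [QuotientAddGroup.eq_zero_iff, hS', AddSubgroup.mem_sup] at h0
  obtain ⟨s, hs, t, ⟨y, rfl⟩, hst⟩ := h0
  exact ⟨s, hs, y, hst.symm⟩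

end Functional

section Eis

variable {A : Type*} [AddCommGroup A]

/-- `e_W = T_W - (W+1)` with `T_W = heckeHomU N W` -/
noncomputable def eisU (N W : ℕ) [NeZero W] (Φ : Additive (Gamma0 N) →+ A) :
    Additive (Gamma0 N) →+ A := heckeHomU N W Φ - (W + 1) • Φ

/-- `eisU` as an additive map -/
noncomputable def eisUAdd (N W : ℕ) [NeZero W] :
    (Additive (Gamma0 N) →+ A) →+ (Additive (Gamma0 N) →+ A) :=
  (coresDAdd N W).comp (res N W) - (W + 1) • AddMonoidHom.id _

@[simp] theorem eisUAdd_apply (N W : ℕ) [NeZero W] (Φ : Additive (Gamma0 N) →+ A) :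
    eisUAdd N W Φ = eisU N W Φ := rfl

end Eis

/-- the symbol attached to a functional on `Hom(Γ₀(N), ℤ)` -/
theorem isSymbol_of_hom {A : Type*} [AddCommGroup A] (N : ℕ)
    (l : (Additive (Gamma0 N) →+ ℤ) →+ A) :
    IsSymbol (fun u v => l (symHom (Gamma0 N) u v)) where
  tri u v w hu hv hw := by
    rw [← map_add, ← map_add, symHom_tri _ u v w hu hv hw, map_zero]
  swap u v := by rw [symHom_swap, map_neg]
  smul_left k hk u v := by rw [symHom_smul_left _ k hk]

theorem invUnder_of_hom {A : Type*} [AddCommGroup A] (N : ℕ)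
    (l : (Additive (Gamma0 N) →+ ℤ) →+ A) :
    InvUnder N (fun u v => l (symHom (Gamma0 N) u v)) := by
  intro γ u v
  show l _ = l _
  rw [symHom_sv]

theorem eisSym_of_hom {A : Type*} [AddCommGroup A] (N W : ℕ) [NeZero W] {ι : Type*} [Fintype ι]
    (ρ : ι → Gamma0 N) (hρ : Bijective fun p : ι × Gamma0 (N * W) => inclG N W p.2 * ρ p.1)
    (l : (Additive (Gamma0 N) →+ ℤ) →+ A) :
    eisSym N W ρ (fun u v => l (symHom (Gamma0 N) u v)) =
      fun u v => (l.comp (eisUAdd N W)) (symHom (Gamma0 N) u v) := by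
  funext u v
  show _ = l (eisU N W (symHom (Gamma0 N) u v))
  unfold eisU eisSym heckeSym
  rw [heckeHomU_symHom N W ρ hρ, map_sub, map_sum, map_nsmul]

/-- Poincaré duality (surjectivity form), as a hypothesis -/
def PDProp (N : ℕ) : Prop :=
  ∀ φ : Additive (Gamma0 N) →+ ℤ, ∃ (s : Finset (V2 × V2)) (n : V2 × V2 → ℤ),
    (∀ x ∈ s, x.1 ≠ 0 ∧ x.2 ≠ 0) ∧
      (8 : ℤ) • φ = ∑ x ∈ s, n x • symHom (Gamma0 N) x.1 x.2

theorem eq_zero_of_eight_smul {p : ℕ} [Fact p.Prime] (hp2 : p ≠ 2) {a : ZMod p}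
    (h : (8 : ℤ) • a = 0) : a = 0 := by
  have h8 : ((8 : ℤ) : ZMod p) ≠ 0 := by
    intro h0
    rw [ZMod.intCast_zmod_eq_zero_iff_dvd] at h0
    have h1 : p ∣ 2 ^ 3 := by
      have : (p : ℤ) ∣ ((2 ^ 3 : ℕ) : ℤ) := by simpa using h0
      exact_mod_cast this
    have h2 := (Nat.prime_dvd_prime_iff_eq (Fact.out : p.Prime) Nat.prime_two).mp
      ((Fact.out : p.Prime).dvd_of_dvd_pow h1)
    exact hp2 h2
  rw [zsmul_eq_mul] at h
  exact (mul_eq_zero.mp h).resolve_left h8

/-- (F3), conditional form. -/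
theorem beta_surj_of {N r W p : ℕ} [NeZero r] [NeZero W] [NeZero (N * r)] [NeZero (N * W)]
    [Fact p.Prime] (hp2 : p ≠ 2)
    (hI : IharaProp N r W (ZMod p)) (hCE : CuspEquiv N W) (hPD : PDProp N)
    (hidx : (inclG N W).range.index = W + 1)
    (u₁ u₂ : Additive (Gamma0 N) →+ ℤ) :
    ∃ (z : Additive (Gamma0 (N * r)) →+ ℤ) (w₁ w₂ : Additive (Gamma0 N) →+ ℤ),
      eisU N W (eisU N W u₁) = cores N r z + p • w₁ ∧
      eisU N W (eisU N W u₂) = coresD N r z + p • w₂ := by
  classical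
  have hfi : (inclG N W).range.FiniteIndex := ⟨by rw [hidx]; exact Nat.succ_ne_zero W⟩
  obtain ⟨ρ, hρ⟩ := exists_right_family (inclG N W) (inclG_injective N W)
  let _ : Fintype (Gamma0 N ⧸ (inclG N W).range) := Subgroup.fintypeQuotientOfFiniteIndex
  have hcard : Fintype.card (Gamma0 N ⧸ (inclG N W).range) = W + 1 := by
    rw [← hidx, Subgroup.index, Nat.card_eq_fintype_card]
  set β : (Additive (Gamma0 (N * r)) →+ ℤ) →+
      (Additive (Gamma0 N) →+ ℤ) × (Additive (Gamma0 N) →+ ℤ) :=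
    (coresAdd N r).prod (coresDAdd N r) with hβ
  have key := exists_of_functionals β.range p
    (eisU N W (eisU N W u₁), eisU N W (eisU N W u₂)) (by
    intro l hl
    set l₁ := l.comp (AddMonoidHom.inl (Additive (Gamma0 N) →+ ℤ) (Additive (Gamma0 N) →+ ℤ))
      with hl₁
    set l₂ := l.comp (AddMonoidHom.inr (Additive (Gamma0 N) →+ ℤ) (Additive (Gamma0 N) →+ ℤ))
      with hl₂
    have hsplit : ∀ a b, l (a, b) = l₁ a + l₂ b := by
      intro a b
      rw [hl₁, hl₂, AddMonoidHom.comp_apply, AddMonoidHom.comp_apply, ← map_add]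
      simp
    have hglue : ∀ u v, l₁ (symHom (Gamma0 N) u v) =
        (-l₂) (symHom (Gamma0 N) (mv (dgL r) u) (mv (dgL r) v)) := by
      intro u v
      have h1 := hl (β (symHom (Gamma0 (N * r)) u v)) ⟨_, rfl⟩
      rw [hβ, AddMonoidHom.prod_apply, coresAdd_apply, coresDAdd_apply, cores_symHom,
        coresD_symHom, hsplit] at h1
      rw [AddMonoidHom.neg_apply]
      exact eq_neg_of_add_eq_zero_left h1
    have hSI := fun (u v : V2) (hu : u ≠ 0) (hv : v ≠ 0) =>
      symbol_ihara N r W hI hCE ρ hρ hcard (isSymbol_of_hom N l₁) (isSymbol_of_hom N (-l₂))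
        (invUnder_of_hom N l₁) (invUnder_of_hom N (-l₂)) hglue hu hv
    have main : ∀ (m : (Additive (Gamma0 N) →+ ℤ) →+ ZMod p),
        (∀ u v : V2, u ≠ 0 → v ≠ 0 →
          eisSym N W ρ (eisSym N W ρ fun u v => m (symHom (Gamma0 N) u v)) u v = 0) →
        ∀ φ, m (eisU N W (eisU N W φ)) = 0 := by
      intro m hm φ
      obtain ⟨s, n, hs, hφ⟩ := hPD φ
      apply eq_zero_of_eight_smul hp2
      rw [← eisUAdd_apply, ← eisUAdd_apply, ← map_zsmul, ← map_zsmul, ← map_zsmul, hφ, map_sum,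
        map_sum, map_sum]
      refine Finset.sum_eq_zero fun x hx => ?_
      rw [map_zsmul, map_zsmul, map_zsmul]
      have h2 := hm x.1 x.2 (hs x hx).1 (hs x hx).2
      rw [eisSym_of_hom N W ρ hρ m, eisSym_of_hom N W ρ hρ (m.comp (eisUAdd N W))] at h2
      have h3 : m (eisUAdd N W (eisUAdd N W (symHom (Gamma0 N) x.1 x.2))) = 0 := h2
      rw [h3, smul_zero]
    rw [hsplit, main l₁ (fun u v hu hv => (hSI u v hu hv).1) u₁]
    have h4 := main (-l₂) (fun u v hu hv => (hSI u v hu hv).2) u₂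
    rw [AddMonoidHom.neg_apply, neg_eq_zero] at h4
    rw [h4, add_zero])
  obtain ⟨s, ⟨z, rfl⟩, y, hy⟩ := key
  refine ⟨z, y.1, y.2, ?_, ?_⟩
  · have := congrArg Prod.fst hy
    simpa [hβ] using this
  · have := congrArg Prod.snd hy
    simpa [hβ] using this

end Fermat.Agent.S41Lib
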