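/-
S41, step 2 (RED): reduction modulo `𝔪` of a complex Hecke eigenclass to an integral class
which is an eigenclass modulo `p`.
-/
import Fermat.Agent.S41.Bridge5
import Fermat.Agent.S41.CoreFin
import Fermat.Agent.S41.IntF3

set_option autoImplicit false

open scoped MatrixGroups
open CongruenceSubgroup Function ModularCurve.Period

namespace Fermat.Agent.S41Lib

/-- a homomorphism to `ℤ` all of whose values are divisible by `p` is `p` times a homomorphism -/
theorem exists_eq_nsmul_of_forall_dvd' {G : Type*} [Group G] {p : ℕ} (hp : p ≠ 0)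
    (ψ : Additive G →+ ℤ) (h : ∀ g, (p : ℤ) ∣ ψ g) : ∃ w : Additive G →+ ℤ, ψ = p • w := by
  have hp' : (p : ℤ) ≠ 0 := by exact_mod_cast hp
  refine ⟨AddMonoidHom.mk' (fun g => ψ g / p) ?_, ?_⟩
  · intro a b
    rw [map_add, Int.add_ediv_of_dvd_left (h a)]
  · refine DFunLike.ext _ _ fun g => ?_
    show ψ g = p • (ψ g / p)
    rw [nsmul_eq_mul, Int.mul_ediv_cancel' (h g)]

theorem red {N p : ℕ} [NeZero N] (hp : p.Prime) (φ : Additive (Gamma0 N) →+ ℂ) (hφ : φ ≠ 0)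
    (hpar : IsParabolicHom (Gamma0 N) φ) (𝔪 : Ideal (integralClosure ℤ ℂ)) (hmax : 𝔪.IsMaximal)
    (hpm : (p : integralClosure ℤ ℂ) ∈ 𝔪) :
    ∃ x0 : Additive (Gamma0 N) →+ ℤ, IsParabolicHom (Gamma0 N) x0 ∧ (¬ ∃ w, x0 = p • w) ∧
      ∀ (l : ℕ) [NeZero l] (a : integralClosure ℤ ℂ) (n : ℤ),
        heckeHomU N l φ = (a : ℂ) • φ → a - (n : integralClosure ℤ ℂ) ∈ 𝔪 →
        ∃ w, heckeHomU N l x0 = n • x0 + p • w := by
  classical
  have : Fact p.Prime := ⟨hp⟩
  set X : AddSubgroup ℂ := φ.range with hX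
  have hfgX : AddGroup.FG X := AddGroup.fg_range φ
  have hfinX : Module.Finite ℤ X := Module.Finite.iff_addGroup_fg.mpr hfgX
  have hfreeX : Module.Free ℤ X := Module.free_of_finite_type_torsion_free'
  set Λ : Submodule (integralClosure ℤ ℂ) ℂ := Submodule.span (integralClosure ℤ ℂ) (X : Set ℂ) with hΛ
  have hXΛ : ∀ x ∈ X, x ∈ Λ := fun x hx => Submodule.subset_span hx
  have hΛfg : Λ.FG := by
    obtain ⟨T, hT⟩ := (AddGroup.fg_iff_addSubgroup_fg X).mp hfgX
    refine ⟨T, le_antisymm (Submodule.span_mono ?_) (Submodule.span_le.mpr ?_)⟩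
    · rw [← hT]; exact AddSubgroup.subset_closure
    · intro x hx
      have hx' : x ∈ AddSubgroup.closure (T : Set ℂ) := by rw [hT]; exact hx
      have hle : AddSubgroup.closure (T : Set ℂ) ≤ (Submodule.span (integralClosure ℤ ℂ) (T : Set ℂ)).toAddSubgroup :=
        (AddSubgroup.closure_le _).mpr Submodule.subset_span
      exact hle hx'
  -- Nakayama
  have h1 : ¬ Λ ≤ 𝔪 • Λ := by
    intro hle
    obtain ⟨r, hr1, hr0⟩ :=
      Submodule.exists_sub_one_mem_and_smul_eq_zero_of_fg_of_le_smul 𝔪 Λ hΛfg hle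
    have hg : ∃ g, φ g ≠ 0 := by
      by_contra hcon
      push Not at hcon
      exact hφ (by ext g; exact hcon g)
    obtain ⟨g, hg⟩ := hg
    have h2 := hr0 (φ g) (hXΛ _ ⟨g, rfl⟩)
    have h3 : (r : ℂ) * φ g = 0 := h2
    have h4 : (r : ℂ) = 0 := (mul_eq_zero.mp h3).resolve_right hg
    have h5 : r = 0 := Subtype.ext h4
    rw [h5, zero_sub] at hr1
    exact hmax.ne_top ((Ideal.eq_top_iff_one _).mpr (by simpa using 𝔪.neg_mem hr1))
  have h2 : ∃ g0, φ g0 ∉ 𝔪 • Λ := by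
    by_contra hcon
    push Not at hcon
    apply h1
    refine Submodule.span_le.mpr ?_
    rintro _ ⟨g, rfl⟩
    exact hcon g
  obtain ⟨g0, hg0⟩ := h2
  -- the functional
  set S : AddSubgroup Λ := ((𝔪 • Λ).comap Λ.subtype).toAddSubgroup with hS
  have hmemS : ∀ s : Λ, s ∈ S ↔ (s : ℂ) ∈ 𝔪 • Λ := fun s => Iff.rfl
  have h3 : ∃ l : Λ →+ ZMod p, (∀ s ∈ S, l s = 0) ∧ l ⟨φ g0, hXΛ _ ⟨g0, rfl⟩⟩ ≠ 0 := by
    by_contra hcon
    push Not at hcon
    obtain ⟨s, hs, y, hy⟩ := exists_of_functionals S p ⟨φ g0, hXΛ _ ⟨g0, rfl⟩⟩ hcon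
    apply hg0
    have h4 : φ g0 = (s : ℂ) + p • (y : ℂ) := by
      have := congrArg Subtype.val hy
      simpa using this
    rw [h4]
    refine (𝔪 • Λ).add_mem ((hmemS s).mp hs) ?_
    have h5 : p • (y : ℂ) = (p : integralClosure ℤ ℂ) • (y : ℂ) := by
      rw [nsmul_eq_mul]; rfl
    rw [h5]
    exact Submodule.smul_mem_smul hpm y.2
  obtain ⟨l, hl, hlx⟩ := h3
  set φX : Additive (Gamma0 N) →+ X := φ.rangeRestrict with hφX
  let jX : X →+ Λ :=
    { toFun := fun x => ⟨x, hXΛ _ x.2⟩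
      map_zero' := rfl
      map_add' := fun _ _ => rfl }
  obtain ⟨ξ, hξ⟩ := Module.projective_lifting_property
    (Int.castAddHom (ZMod p)).toIntLinearMap (l.comp jX).toIntLinearMap
    (by intro z; exact ⟨(ZMod.cast z : ℤ), by simp⟩)
  have hξ' : ∀ x : X, ((ξ x : ℤ) : ZMod p) = l (jX x) := fun x => LinearMap.congr_fun hξ x
  refine ⟨ξ.toAddMonoidHom.comp φX, ?_, ?_, ?_⟩
  · intro γ hγ
    have h4 : φX (Additive.ofMul γ) = 0 := Subtype.ext (hpar γ hγ)
    show ξ (φX (Additive.ofMul γ)) = 0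
    rw [h4, map_zero]
  · rintro ⟨w, hw⟩
    apply hlx
    have h4 : ξ (φX g0) = p • w g0 := by
      have := DFunLike.congr_fun hw g0
      simpa using this
    have h5 := hξ' (φX g0)
    rw [h4] at h5
    have h6 : jX (φX g0) = ⟨φ g0, hXΛ _ ⟨g0, rfl⟩⟩ := rfl
    rw [← h6, ← h5]
    simp
  · intro q _ a n ha han
    have e1 : heckeHomU N q (ξ.toAddMonoidHom.comp φX) =
        ξ.toAddMonoidHom.comp (heckeHomU N q φX) := heckeHomU_comp N q _ _
    have e2 : X.subtype.comp (heckeHomU N q φX) = (a : ℂ) • φ := by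
      rw [← heckeHomU_comp, ← ha]
      rfl
    have e3 : ∀ g, ((heckeHomU N q φX g : X) : ℂ) = (a : ℂ) * φ g := fun g =>
      DFunLike.congr_fun e2 g
    obtain ⟨w, hw⟩ := exists_eq_nsmul_of_forall_dvd' hp.ne_zero
      (heckeHomU N q (ξ.toAddMonoidHom.comp φX) - n • (ξ.toAddMonoidHom.comp φX)) (by
      intro g
      rw [← ZMod.intCast_zmod_eq_zero_iff_dvd, e1]
      show (((ξ (heckeHomU N q φX g) - n • ξ (φX g) : ℤ)) : ZMod p) = 0
      rw [Int.cast_sub, smul_eq_mul, Int.cast_mul, hξ', hξ', ← zsmul_eq_mul, ← map_zsmul,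
        ← map_sub]
      apply hl
      rw [hmemS]
      have e4 : ((jX (heckeHomU N q φX g) - n • jX (φX g) : Λ) : ℂ) =
          (a - (n : integralClosure ℤ ℂ)) • φ g := by
        have : ((jX (heckeHomU N q φX g) - n • jX (φX g) : Λ) : ℂ) =
            ((heckeHomU N q φX g : X) : ℂ) - n • φ g := rfl
        rw [this, e3, sub_smul]
        congr 1
        simp [zsmul_eq_mul]
        rfl
      rw [e4]
      exact Submodule.smul_mem_smul han (hXΛ _ ⟨g, rfl⟩))
    exact ⟨w, by rw [← hw]; abel⟩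

end Fermat.Agent.S41Lib
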