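import Mathlib

/-!
# S41: the abstract algebra of the level raising argument (step 4 of the chain)

`β : M' → M` with `M` finitely generated over `ℤ`, endomorphisms `E'`, `E` intertwined by `β`,
`E M ⊆ β M' + p M`.  If `β y ∈ p M` and `E' y ≡ c y mod p` then there is `x₁ ∈ ker β` with
`x₁ ≡ c ^ m y mod p`.
-/

open Polynomial

namespace Fermat.Agent.S41Lib

lemma pow_semiconj {M₁ M₂ : Type*} [AddCommGroup M₁] [AddCommGroup M₂]
    (π : M₁ →ₗ[ℤ] M₂) (f₁ : Module.End ℤ M₁) (f₂ : Module.End ℤ M₂)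
    (h : ∀ x, π (f₁ x) = f₂ (π x)) (n : ℕ) (x : M₁) : π ((f₁ ^ n) x) = (f₂ ^ n) (π x) := by
  induction n generalizing x with
  | zero => simp
  | succ n ih => rw [pow_succ, pow_succ, Module.End.mul_apply, Module.End.mul_apply, ih, h]

lemma aeval_semiconj {M₁ M₂ : Type*} [AddCommGroup M₁] [AddCommGroup M₂]
    (π : M₁ →ₗ[ℤ] M₂) (f₁ : Module.End ℤ M₁) (f₂ : Module.End ℤ M₂)
    (h : ∀ x, π (f₁ x) = f₂ (π x)) (P : ℤ[X]) (x : M₁) :
    π (aeval f₁ P x) = aeval f₂ P (π x) := by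
  induction P using Polynomial.induction_on' with
  | add P Q hP hQ => simp only [map_add, LinearMap.add_apply, hP, hQ]
  | monomial n a =>
    simp only [aeval_monomial, Module.End.mul_apply, Module.algebraMap_end_apply, map_smul,
      pow_semiconj π f₁ f₂ h]

lemma pow_congr_mod {M' : Type*} [AddCommGroup M'] (E' : Module.End ℤ M') (p : ℤ) (y w0 : M')
    (c : ℤ) (hc : E' y = c • y + p • w0) (n : ℕ) :
    ∃ w, (E' ^ n) y = (c ^ n) • y + p • w := by
  induction n with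
  | zero => exact ⟨0, by simp⟩
  | succ n ih =>
    obtain ⟨w, hw⟩ := ih
    refine ⟨c ^ n • w0 + E' w, ?_⟩
    rw [pow_succ', Module.End.mul_apply, hw, map_add, map_smul, map_smul, hc]
    simp only [smul_add, smul_smul, pow_succ]
    rw [mul_comm p (c ^ n)]
    abel

lemma aeval_congr_mod {M' : Type*} [AddCommGroup M'] (E' : Module.End ℤ M') (p : ℤ) (y w0 : M')
    (c : ℤ) (hc : E' y = c • y + p • w0) (P : ℤ[X]) :
    ∃ w, aeval E' P y = (P.eval c) • y + p • w := by
  induction P using Polynomial.induction_on' with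
  | add P Q hP hQ =>
    obtain ⟨w1, h1⟩ := hP
    obtain ⟨w2, h2⟩ := hQ
    refine ⟨w1 + w2, ?_⟩
    simp only [map_add, LinearMap.add_apply, h1, h2, eval_add, add_smul, smul_add]
    abel
  | monomial n a =>
    obtain ⟨w, hw⟩ := pow_congr_mod E' p y w0 c hc n
    refine ⟨a • w, ?_⟩
    simp only [aeval_monomial, Module.End.mul_apply, Module.algebraMap_end_apply, hw, eval_monomial,
      smul_add, smul_smul]
    rw [mul_comm a p]

lemma eval_monic_mod (P : ℤ[X]) (hP : P.Monic) (p : ℤ)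
    (hcoeff : ∀ k, P.coeff k ∈ (Ideal.span {p}) ^ (P.natDegree - k)) (c : ℤ) :
    ∃ t, P.eval c = c ^ P.natDegree + p * t := by
  rw [eval_eq_sum_range, Finset.sum_range_succ, hP.coeff_natDegree, one_mul]
  have : p ∣ ∑ i ∈ Finset.range P.natDegree, P.coeff i * c ^ i := by
    apply Finset.dvd_sum
    intro i hi
    have hi' : P.natDegree - i ≠ 0 := by
      have := Finset.mem_range.mp hi; omega
    have := Ideal.pow_le_self hi' (hcoeff i)
    exact Dvd.dvd.mul_right (Ideal.mem_span_singleton.mp this) _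
  obtain ⟨t, ht⟩ := this
  exact ⟨t, by rw [ht, add_comm]⟩

theorem abstract_core {M M' : Type*} [AddCommGroup M] [AddCommGroup M'] [Module.Finite ℤ M]
    (β : M' →ₗ[ℤ] M) (E : Module.End ℤ M) (E' : Module.End ℤ M')
    (hcomm : ∀ z, β (E' z) = E (β z)) (p : ℤ) (hF3 : ∀ u, ∃ z w, E u = β z + p • w)
    (y : M') (u : M) (hy : β y = p • u) (c : ℤ) (w0 : M') (hc : E' y = c • y + p • w0) :
    ∃ (x₁ : M') (m : ℕ) (w : M'), β x₁ = 0 ∧ x₁ = (c ^ m) • y + p • w := by
  set R : Submodule ℤ M := LinearMap.range β with hR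
  have hRE : R ≤ R.comap E := by
    rintro _ ⟨z, rfl⟩
    exact ⟨E' z, hcomm z⟩
  set Eb : Module.End ℤ (M ⧸ R) := R.mapQ R E hRE with hEb
  have hrange : LinearMap.range Eb ≤ (Ideal.span {p}) • (⊤ : Submodule ℤ (M ⧸ R)) := by
    rintro _ ⟨q, rfl⟩
    obtain ⟨v, rfl⟩ := R.mkQ_surjective q
    obtain ⟨z, w, hzw⟩ := hF3 v
    have : Eb (R.mkQ v) = p • R.mkQ w := by
      rw [hEb, Submodule.mkQ_apply, Submodule.mapQ_apply, hzw, Submodule.Quotient.mk_add,
        Submodule.Quotient.mk_smul, (Submodule.Quotient.mk_eq_zero R).mpr ⟨z, rfl⟩, zero_add]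
      rfl
    rw [this]
    exact Submodule.smul_mem_smul (Ideal.mem_span_singleton_self p) trivial
  obtain ⟨P, hmonic, -, hcoeff, haeval⟩ :=
    LinearMap.exists_monic_and_natDegree_eq_and_coeff_mem_pow_and_aeval_eq_zero ℤ Eb _ hrange
  have h1 : R.mkQ (aeval E P u) = 0 := by
    rw [aeval_semiconj R.mkQ E Eb (fun x => by rw [hEb]; rfl) P u, haeval]; rfl
  obtain ⟨z, hz⟩ : aeval E P u ∈ R := by
    rwa [Submodule.mkQ_apply, Submodule.Quotient.mk_eq_zero] at h1
  obtain ⟨w, hw⟩ := aeval_congr_mod E' p y w0 c hc P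
  obtain ⟨t, ht⟩ := eval_monic_mod P hmonic p hcoeff c
  refine ⟨aeval E' P y - p • z, P.natDegree, t • y + w - z, ?_, ?_⟩
  · rw [map_sub, aeval_semiconj β E' E hcomm, hy, map_smul, map_smul, hz, sub_self]
  · rw [hw, ht, add_smul, mul_smul, smul_sub, smul_add]
    abel

end Fermat.Agent.S41Lib
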