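/-
S41, Hecke calculus part 0: abstract calculus of the transfer along an injective homomorphism.
-/
import Fermat.Agent.S41.IntCores

set_option autoImplicit false

open Function

namespace Fermat.Agent.S41Lib

section Abstract

variable {G G' : Type*} [Group G] [Group G'] {A : Type*} [AddCommGroup A]

theorem addHom_ext {Φ Φ' : Additive G →+ A}
    (h : ∀ g : G, Φ (Additive.ofMul g) = Φ' (Additive.ofMul g)) : Φ = Φ' :=
  AddMonoidHom.ext fun g => h (Additive.toMul g)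

/-- the index of the coset of `ρ i * g` -/
noncomputable def repIdx (j : G' →* G) {ι : Type*} (ρ : ι → G)
    (hρ : Bijective fun p : ι × G' => j p.2 * ρ p.1) (g : G) (i : ι) : ι :=
  ((Equiv.ofBijective _ hρ).symm (ρ i * g)).1

/-- the cocycle of a system of representatives -/
noncomputable def repCoc (j : G' →* G) {ι : Type*} (ρ : ι → G)
    (hρ : Bijective fun p : ι × G' => j p.2 * ρ p.1) (g : G) (i : ι) : G' :=
  ((Equiv.ofBijective _ hρ).symm (ρ i * g)).2

theorem rep_spec (j : G' →* G) {ι : Type*} (ρ : ι → G)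
    (hρ : Bijective fun p : ι × G' => j p.2 * ρ p.1) (g : G) (i : ι) :
    ρ i * g = j (repCoc j ρ hρ g i) * ρ (repIdx j ρ hρ g i) :=
  ((Equiv.ofBijective _ hρ).apply_symm_apply (ρ i * g)).symm

theorem rep_unique (j : G' →* G) {ι : Type*} (ρ : ι → G)
    (hρ : Bijective fun p : ι × G' => j p.2 * ρ p.1) {i i' : ι} {γ γ' : G'}
    (h : j γ * ρ i = j γ' * ρ i') : i = i' ∧ γ = γ' := by
  have := hρ.injective (a₁ := (i, γ)) (a₂ := (i', γ')) h
  exact ⟨congrArg Prod.fst this, congrArg Prod.snd this⟩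

theorem rep_idx_injective (j : G' →* G) {ι : Type*} (ρ : ι → G)
    (hρ : Bijective fun p : ι × G' => j p.2 * ρ p.1) (g : G) (π : ι → ι) (η : ι → G')
    (hη : ∀ i, ρ i * g = j (η i) * ρ (π i)) : Injective π := by
  intro i i' h
  have h1 := hη i
  have h2 := hη i'
  rw [h] at h1
  have h3 : j 1 * ρ i = j (η i * (η i')⁻¹) * ρ i' := by
    have e1 : ρ i = j (η i) * ρ (π i') * g⁻¹ := by rw [← h1]; group
    have e2 : ρ (π i') = (j (η i'))⁻¹ * (ρ i' * g) := by rw [h2]; group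
    rw [map_one, one_mul, map_mul, map_inv, e1, e2]; group
  exact (rep_unique j ρ hρ h3).1

/-- the transfer along an injective homomorphism with image of finite index -/
noncomputable def trHom (j : G' →* G) (hj : Injective j) [j.range.FiniteIndex]
    (Ψ : Additive G' →+ A) : Additive G →+ A :=
  MonoidHom.toAdditiveLeft (MonoidHom.transfer
    ((AddMonoidHom.toMultiplicativeRight Ψ).comp (MonoidHom.ofInjective hj).symm.toMonoidHom))

/-- general formula for the transfer of `Ψ ∘ e`, `e : H ≃* G'`. -/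
theorem transfer_equiv_eq_sum (j : G' →* G) (H : Subgroup G) [H.FiniteIndex] (e : H ≃* G')
    (he : ∀ γ, ((e.symm γ : H) : G) = j γ) (Ψ : Additive G' →+ A) {ι : Type*} [Fintype ι]
    (ρ : ι → G) (hρ : Bijective fun p : ι × G' => j p.2 * ρ p.1) (g : G) (π : ι → ι)
    (η : ι → G') (hη : ∀ i, ρ i * g = j (η i) * ρ (π i)) :
    Multiplicative.toAdd (MonoidHom.transfer
      ((AddMonoidHom.toMultiplicativeRight Ψ).comp e.toMonoidHom) g)
      = ∑ i, Ψ (Additive.ofMul (η i)) := by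
  have hπ : Bijective π :=
    Finite.injective_iff_bijective.mp (rep_idx_injective j ρ hρ g π η hη)
  refine transfer_eq_sum_of_equiv H e Ψ ρ ?_ g (Equiv.ofBijective π hπ) η ?_
  · simpa only [he] using hρ
  · intro i
    rw [he]
    exact hη i

theorem trHom_eq_sum (j : G' →* G) (hj : Injective j) [j.range.FiniteIndex]
    (Ψ : Additive G' →+ A) {ι : Type*} [Fintype ι]
    (ρ : ι → G) (hρ : Bijective fun p : ι × G' => j p.2 * ρ p.1) (g : G) (π : ι → ι)
    (η : ι → G') (hη : ∀ i, ρ i * g = j (η i) * ρ (π i)) :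
    trHom j hj Ψ (Additive.ofMul g) = ∑ i, Ψ (Additive.ofMul (η i)) :=
  transfer_equiv_eq_sum j j.range (MonoidHom.ofInjective hj).symm (fun _ => rfl) Ψ ρ hρ g π η hη

theorem trHom_eq_sum_rep (j : G' →* G) (hj : Injective j) [j.range.FiniteIndex]
    (Ψ : Additive G' →+ A) {ι : Type*} [Fintype ι]
    (ρ : ι → G) (hρ : Bijective fun p : ι × G' => j p.2 * ρ p.1) (g : G) :
    trHom j hj Ψ (Additive.ofMul g) = ∑ i, Ψ (Additive.ofMul (repCoc j ρ hρ g i)) :=
  trHom_eq_sum j hj Ψ ρ hρ g _ _ (rep_spec j ρ hρ g)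

/-- existence of a system of representatives -/
theorem exists_reps (j : G' →* G) (hj : Injective j) [j.range.FiniteIndex] :
    ∃ ρ : G ⧸ j.range → G, Bijective fun p : (G ⧸ j.range) × G' => j p.2 * ρ p.1 := by
  refine ⟨fun q => (Quotient.out q)⁻¹, ?_, ?_⟩
  · rintro ⟨q, γ⟩ ⟨q₁, γ₁⟩ h
    simp only at h
    have h1 : (Quotient.out q)⁻¹ * Quotient.out q₁ ∈ j.range := by
      refine ⟨γ⁻¹ * γ₁, ?_⟩
      rw [map_mul, map_inv]
      have : (Quotient.out q)⁻¹ = (j γ)⁻¹ * (j γ₁ * (Quotient.out q₁)⁻¹) := by rw [← h]; group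
      rw [this]; group
    have h2 : ((Quotient.out q : G) : G ⧸ j.range) = (Quotient.out q₁ : G) :=
      QuotientGroup.eq.mpr h1
    rw [QuotientGroup.out_eq', QuotientGroup.out_eq'] at h2
    subst h2
    have h3 : j γ = j γ₁ := mul_right_cancel h
    rw [hj h3]
  · intro g
    have h1 : (Quotient.out ((g⁻¹ : G) : G ⧸ j.range))⁻¹ * g⁻¹ ∈ j.range :=
      QuotientGroup.eq.mp (QuotientGroup.out_eq' _)
    obtain ⟨γ, hγ⟩ := h1
    refine ⟨(((g⁻¹ : G) : G ⧸ j.range), γ⁻¹), ?_⟩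
    simp only
    rw [map_inv, hγ]; group

theorem transfer_equiv_eq_trHom (j : G' →* G) (hj : Injective j) [j.range.FiniteIndex]
    (H : Subgroup G) [H.FiniteIndex] (e : H ≃* G')
    (he : ∀ γ, ((e.symm γ : H) : G) = j γ) (Ψ : Additive G' →+ A) (g : G) :
    Multiplicative.toAdd (MonoidHom.transfer
      ((AddMonoidHom.toMultiplicativeRight Ψ).comp e.toMonoidHom) g)
      = trHom j hj Ψ (Additive.ofMul g) := by
  classical
  obtain ⟨ρ, hρ⟩ := exists_reps j hj
  let _ := j.range.fintypeQuotientOfFiniteIndex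
  rw [trHom_eq_sum_rep j hj Ψ ρ hρ g]
  exact transfer_equiv_eq_sum j H e he Ψ ρ hρ g _ _ (rep_spec j ρ hρ g)

theorem trHom_add (j : G' →* G) (hj : Injective j) [j.range.FiniteIndex]
    (Ψ Ψ' : Additive G' →+ A) : trHom j hj (Ψ + Ψ') = trHom j hj Ψ + trHom j hj Ψ' := by
  classical
  obtain ⟨ρ, hρ⟩ := exists_reps j hj
  let _ := j.range.fintypeQuotientOfFiniteIndex
  refine addHom_ext fun g => ?_
  rw [AddMonoidHom.add_apply, trHom_eq_sum_rep j hj _ ρ hρ g, trHom_eq_sum_rep j hj _ ρ hρ g,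
    trHom_eq_sum_rep j hj _ ρ hρ g, ← Finset.sum_add_distrib]
  rfl

theorem trHom_zero (j : G' →* G) (hj : Injective j) [j.range.FiniteIndex] :
    trHom j hj (0 : Additive G' →+ A) = 0 := by
  have := trHom_add j hj (0 : Additive G' →+ A) 0
  rw [add_zero] at this
  exact left_eq_add.mp this

theorem trHom_neg (j : G' →* G) (hj : Injective j) [j.range.FiniteIndex]
    (Ψ : Additive G' →+ A) : trHom j hj (-Ψ) = -trHom j hj Ψ := by
  have := trHom_add j hj Ψ (-Ψ)
  rw [add_neg_cancel, trHom_zero] at this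
  exact (neg_eq_of_add_eq_zero_right this.symm).symm

/-- congruence in the homomorphism -/
theorem trHom_congr {j j' : G' →* G} (h : j = j') (hj : Injective j) [j.range.FiniteIndex]
    (hj' : Injective j') [j'.range.FiniteIndex] (Ψ : Additive G' →+ A) :
    trHom j hj Ψ = trHom j' hj' Ψ := by
  subst h; rfl

/-- (T5) `tr ∘ pull = index`. -/
theorem trHom_comp_self (j : G' →* G) (hj : Injective j) [j.range.FiniteIndex]
    (Φ : Additive G →+ A) {ι : Type*} [Fintype ι]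
    (ρ : ι → G) (hρ : Bijective fun p : ι × G' => j p.2 * ρ p.1) :
    trHom j hj (Φ.comp (MonoidHom.toAdditive j)) = Fintype.card ι • Φ := by
  refine addHom_ext fun g => ?_
  rw [trHom_eq_sum_rep j hj _ ρ hρ g]
  have hπ : Bijective (repIdx j ρ hρ g) :=
    Finite.injective_iff_bijective.mp (rep_idx_injective j ρ hρ g _ _ (rep_spec j ρ hρ g))
  have h1 : ∀ i, (Φ.comp (MonoidHom.toAdditive j)) (Additive.ofMul (repCoc j ρ hρ g i)) =
      Φ (Additive.ofMul (ρ i)) + Φ (Additive.ofMul g) -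
        Φ (Additive.ofMul (ρ (repIdx j ρ hρ g i))) := by
    intro i
    have h2 := congrArg (fun x => Φ (Additive.ofMul x)) (rep_spec j ρ hρ g i)
    simp only [ofMul_mul, map_add] at h2
    rw [h2]
    show Φ (Additive.ofMul (j (repCoc j ρ hρ g i))) = _
    abel
  have h3 : ∑ i, Φ (Additive.ofMul (ρ (repIdx j ρ hρ g i))) = ∑ i, Φ (Additive.ofMul (ρ i)) :=
    (Equiv.ofBijective _ hπ).sum_comp fun i => Φ (Additive.ofMul (ρ i))
  rw [Finset.sum_congr rfl fun i _ => h1 i, Finset.sum_sub_distrib, Finset.sum_add_distrib, h3]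
  simp

/-- conjugation by `g₀` as an endomorphism -/
def conjHom (g₀ : G) : G →* G := (MulAut.conj g₀).toMonoidHom

@[simp] theorem conjHom_apply (g₀ g : G) : conjHom g₀ g = g₀ * g * g₀⁻¹ := rfl

theorem conjHom_injective (g₀ : G) : Injective (conjHom g₀) := (MulAut.conj g₀).injective

/-- a homomorphism to an abelian group is invariant under conjugation -/
theorem comp_conjHom (Φ : Additive G →+ A) (g₀ : G) :
    Φ.comp (MonoidHom.toAdditive (conjHom g₀)) = Φ := by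
  refine addHom_ext fun g => ?_
  show Φ (Additive.ofMul (g₀ * g * g₀⁻¹)) = _
  simp only [ofMul_mul, ofMul_inv, map_add, map_neg]
  abel

/-- (T3) the transfer is invariant under conjugating the embedding. -/
theorem trHom_conj (j : G' →* G) (hj : Injective j) [j.range.FiniteIndex] (g₀ : G)
    (hj' : Injective ((conjHom g₀).comp j)) [((conjHom g₀).comp j).range.FiniteIndex]
    (Ψ : Additive G' →+ A) : trHom ((conjHom g₀).comp j) hj' Ψ = trHom j hj Ψ := by
  classical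
  obtain ⟨ρ, hρ⟩ := exists_reps j hj
  let _ := j.range.fintypeQuotientOfFiniteIndex
  refine addHom_ext fun g => ?_
  rw [trHom_eq_sum_rep j hj Ψ ρ hρ g]
  refine trHom_eq_sum _ hj' Ψ (fun i => g₀ * ρ i) ?_ g (repIdx j ρ hρ g) _ ?_
  · have e1 : (fun p : (G ⧸ j.range) × G' => ((conjHom g₀).comp j) p.2 * (g₀ * ρ p.1)) =
        (fun x => g₀ * x) ∘ (fun p : (G ⧸ j.range) × G' => j p.2 * ρ p.1) := by
      funext p
      simp [mul_assoc]
    rw [e1]
    exact (Group.mulLeft_bijective g₀).comp hρ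
  · intro i
    rw [mul_assoc, rep_spec j ρ hρ g i]
    simp [mul_assoc]

/-- (T4) reparametrisation of the source by a bijective homomorphism. -/
theorem trHom_comp_bij {G'' : Type*} [Group G''] (j : G' →* G) (hj : Injective j)
    [j.range.FiniteIndex] (a : G'' →* G') (ha : Bijective a)
    (hj' : Injective (j.comp a)) [(j.comp a).range.FiniteIndex] (Ψ : Additive G' →+ A) :
    trHom (j.comp a) hj' (Ψ.comp (MonoidHom.toAdditive a)) = trHom j hj Ψ := by
  classical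
  obtain ⟨ρ, hρ⟩ := exists_reps j hj
  let _ := j.range.fintypeQuotientOfFiniteIndex
  let e : G'' ≃ G' := Equiv.ofBijective a ha
  refine addHom_ext fun g => ?_
  rw [trHom_eq_sum_rep j hj Ψ ρ hρ g]
  rw [trHom_eq_sum _ hj' _ ρ ?_ g (repIdx j ρ hρ g) (fun i => e.symm (repCoc j ρ hρ g i)) ?_]
  · refine Finset.sum_congr rfl fun i _ => ?_
    show Ψ (Additive.ofMul (a (e.symm (repCoc j ρ hρ g i)))) = _
    have : a (e.symm (repCoc j ρ hρ g i)) = repCoc j ρ hρ g i := e.apply_symm_apply _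
    rw [this]
  · have e1 : (fun p : (G ⧸ j.range) × G'' => (j.comp a) p.2 * ρ p.1) =
        (fun p : (G ⧸ j.range) × G' => j p.2 * ρ p.1) ∘ (Equiv.prodCongr (Equiv.refl _) e) := by
      funext p
      rfl
    rw [e1]
    exact hρ.comp (Equiv.bijective _)
  · intro i
    have : a (e.symm (repCoc j ρ hρ g i)) = repCoc j ρ hρ g i := e.apply_symm_apply _
    rw [MonoidHom.comp_apply, this]
    exact rep_spec j ρ hρ g i

/-- (T2) base change. -/
theorem trHom_base_change {K K' : Type*} [Group K] [Group K'] (j : G' →* G) (hj : Injective j)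
    [j.range.FiniteIndex] (j' : K' →* K) (hj' : Injective j') [j'.range.FiniteIndex]
    (k : K →* G) (k' : K' →* G') (hcomm : ∀ x, k (j' x) = j (k' x))
    (hcart : ∀ x : K, k x ∈ j.range → x ∈ j'.range)
    (hsurj : ∀ g : G, ∃ (γ : G') (x : K), g = j γ * k x) (Ψ : Additive G' →+ A) :
    (trHom j hj Ψ).comp (MonoidHom.toAdditive k) =
      trHom j' hj' (Ψ.comp (MonoidHom.toAdditive k')) := by
  classical
  obtain ⟨ρ, hρ⟩ := exists_reps j' hj'
  let _ := j'.range.fintypeQuotientOfFiniteIndex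
  refine addHom_ext fun x => ?_
  rw [trHom_eq_sum_rep j' hj' _ ρ hρ x]
  show trHom j hj Ψ (Additive.ofMul (k x)) = _
  refine trHom_eq_sum j hj Ψ (fun i => k (ρ i)) ⟨?_, ?_⟩ (k x) (repIdx j' ρ hρ x)
    (fun i => k' (repCoc j' ρ hρ x i)) ?_
  · rintro ⟨i, γ⟩ ⟨i₁, γ₁⟩ h
    simp only at h
    have h1 : k (ρ i * (ρ i₁)⁻¹) ∈ j.range := by
      refine ⟨γ⁻¹ * γ₁, ?_⟩
      have : k (ρ i) = (j γ)⁻¹ * (j γ₁ * k (ρ i₁)) := by rw [← h]; group
      rw [map_mul, map_inv, map_mul, map_inv, this]; group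
    obtain ⟨y, hy⟩ := hcart _ h1
    have h2 : j' 1 * ρ i = j' y * ρ i₁ := by rw [hy, map_one]; group
    obtain ⟨rfl, -⟩ := rep_unique j' ρ hρ h2
    have h3 : j γ = j γ₁ := mul_right_cancel h
    rw [hj h3]
  · intro g
    obtain ⟨γ, x₀, rfl⟩ := hsurj g
    obtain ⟨⟨i, y⟩, hy⟩ := hρ.surjective x₀
    simp only at hy
    refine ⟨(i, γ * k' y), ?_⟩
    simp only
    rw [← hy, map_mul, map_mul, hcomm, mul_assoc]
  · intro i
    rw [← map_mul, rep_spec j' ρ hρ x i, map_mul, hcomm]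

/-- (T1) transitivity. -/
theorem trHom_trHom {G'' : Type*} [Group G''] (j₁ : G' →* G) (hj₁ : Injective j₁)
    [j₁.range.FiniteIndex] (j₂ : G'' →* G') (hj₂ : Injective j₂) [j₂.range.FiniteIndex]
    (hj : Injective (j₁.comp j₂)) [(j₁.comp j₂).range.FiniteIndex] (Ψ : Additive G'' →+ A) :
    trHom j₁ hj₁ (trHom j₂ hj₂ Ψ) = trHom (j₁.comp j₂) hj Ψ := by
  classical
  obtain ⟨ρ₁, hρ₁⟩ := exists_reps j₁ hj₁
  obtain ⟨ρ₂, hρ₂⟩ := exists_reps j₂ hj₂
  let _ := j₁.range.fintypeQuotientOfFiniteIndex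
  let _ := j₂.range.fintypeQuotientOfFiniteIndex
  refine addHom_ext fun g => ?_
  rw [trHom_eq_sum_rep j₁ hj₁ _ ρ₁ hρ₁ g]
  simp_rw [trHom_eq_sum_rep j₂ hj₂ _ ρ₂ hρ₂]
  rw [← Finset.sum_product']
  symm
  refine trHom_eq_sum _ hj Ψ (fun i : (G ⧸ j₁.range) × (G' ⧸ j₂.range) => j₁ (ρ₂ i.2) * ρ₁ i.1)
    ⟨?_, ?_⟩ g
    (fun i => (repIdx j₁ ρ₁ hρ₁ g i.1, repIdx j₂ ρ₂ hρ₂ (repCoc j₁ ρ₁ hρ₁ g i.1) i.2)) _ ?_
  · rintro ⟨⟨i₁, i₂⟩, γ⟩ ⟨⟨k₁, k₂⟩, δ⟩ h
    simp only [MonoidHom.comp_apply] at h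
    rw [← mul_assoc, ← mul_assoc, ← map_mul, ← map_mul] at h
    obtain ⟨rfl, h2⟩ := rep_unique j₁ ρ₁ hρ₁ h
    obtain ⟨rfl, rfl⟩ := rep_unique j₂ ρ₂ hρ₂ h2
    rfl
  · intro g
    obtain ⟨⟨i₁, γ'⟩, h1⟩ := hρ₁.surjective g
    obtain ⟨⟨i₂, γ''⟩, h2⟩ := hρ₂.surjective γ'
    simp only at h1 h2
    refine ⟨((i₁, i₂), γ''), ?_⟩
    simp only [MonoidHom.comp_apply]
    rw [← mul_assoc, ← map_mul, h2, h1]
  · rintro ⟨i₁, i₂⟩
    simp only [MonoidHom.comp_apply]
    rw [mul_assoc, rep_spec j₁ ρ₁ hρ₁ g i₁, ← mul_assoc, ← map_mul,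
      rep_spec j₂ ρ₂ hρ₂ (repCoc j₁ ρ₁ hρ₁ g i₁) i₂, map_mul, mul_assoc]

/-- finite index of the range of a composition -/
theorem finiteIndex_range_comp {G'' : Type*} [Group G''] (j₁ : G' →* G) (hj₁ : Injective j₁)
    [j₁.range.FiniteIndex] (j₂ : G'' →* G') [j₂.range.FiniteIndex] :
    (j₁.comp j₂).range.FiniteIndex := by
  rw [MonoidHom.range_comp]
  constructor
  rw [Subgroup.index_map_of_injective _ hj₁]
  exact mul_ne_zero Subgroup.FiniteIndex.index_ne_zero Subgroup.FiniteIndex.index_ne_zero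

end Abstract

end Fermat.Agent.S41Lib
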