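/-
S41, Hecke calculus part 1: matrices of elements of `Γ₀(M)`, ranges of `inclG`, `conjD`.
-/
import Fermat.Agent.S41.HC0

set_option autoImplicit false

open scoped MatrixGroups
open CongruenceSubgroup Function

namespace Fermat.Agent.S41Lib

/-- the integer matrix of an element of `Γ₀(M)` -/
def mat {M : ℕ} (γ : Gamma0 M) : Matrix (Fin 2) (Fin 2) ℤ :=
  ((γ : SL(2, ℤ)) : Matrix (Fin 2) (Fin 2) ℤ)

theorem mat_injective {M : ℕ} : Injective (mat (M := M)) := fun _ _ h =>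
  Subtype.ext (Subtype.ext h)

theorem mat_ext {M : ℕ} {γ δ : Gamma0 M} (h00 : mat γ 0 0 = mat δ 0 0)
    (h01 : mat γ 0 1 = mat δ 0 1) (h10 : mat γ 1 0 = mat δ 1 0) (h11 : mat γ 1 1 = mat δ 1 1) :
    γ = δ := by
  apply mat_injective
  ext i j
  fin_cases i <;> fin_cases j
  exacts [h00, h01, h10, h11]

@[simp] theorem mat_one {M : ℕ} : mat (1 : Gamma0 M) = 1 := rfl

@[simp] theorem mat_mul {M : ℕ} (γ δ : Gamma0 M) : mat (γ * δ) = mat γ * mat δ := rfl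

theorem mat_det {M : ℕ} (γ : Gamma0 M) :
    mat γ 0 0 * mat γ 1 1 - mat γ 0 1 * mat γ 1 0 = 1 := by
  have := (γ : SL(2, ℤ)).2
  rwa [Matrix.det_fin_two] at this

theorem mat_dvd {M : ℕ} (γ : Gamma0 M) : (M : ℤ) ∣ mat γ 1 0 := Gamma0_dvd γ

theorem mat_inv {M : ℕ} (γ : Gamma0 M) :
    mat γ⁻¹ = !![mat γ 1 1, -mat γ 0 1; -mat γ 1 0, mat γ 0 0] := by
  show (((γ : SL(2, ℤ))⁻¹ : SL(2, ℤ)) : Matrix (Fin 2) (Fin 2) ℤ) = _
  rw [Matrix.SpecialLinearGroup.SL2_inv_expl]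
  rfl

theorem mat_mul_apply {M : ℕ} (γ δ : Gamma0 M) (i j : Fin 2) :
    mat (γ * δ) i j = mat γ i 0 * mat δ 0 j + mat γ i 1 * mat δ 1 j := by
  rw [mat_mul, Matrix.mul_apply, Fin.sum_univ_two]

theorem mat_mul_inv_01 {M : ℕ} (g h : Gamma0 M) :
    mat (g * h⁻¹) 0 1 = mat g 0 1 * mat h 0 0 - mat g 0 0 * mat h 0 1 := by
  rw [mat_mul_apply, mat_inv]
  simp
  ring

theorem mat_mul_inv_10 {M : ℕ} (g h : Gamma0 M) :
    mat (g * h⁻¹) 1 0 = mat g 1 0 * mat h 1 1 - mat g 1 1 * mat h 1 0 := by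
  rw [mat_mul_apply, mat_inv]
  simp
  ring

/-- constructor for elements of `Γ₀(M)` -/
def mkG (M : ℕ) (a b c d : ℤ) (hdet : a * d - b * c = 1) (hc : (M : ℤ) ∣ c) : Gamma0 M :=
  ⟨⟨!![a, b; c, d], by rw [Matrix.det_fin_two_of]; exact hdet⟩, mem_Gamma0_of_dvd hc⟩

@[simp] theorem mat_mkG (M : ℕ) (a b c d : ℤ) (hdet : a * d - b * c = 1) (hc : (M : ℤ) ∣ c) :
    mat (mkG M a b c d hdet hc) = !![a, b; c, d] := rfl

@[simp] theorem mat_inclG (N t : ℕ) (γ : Gamma0 (N * t)) : mat (inclG N t γ) = mat γ := rfl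

theorem mat_conjD (N t : ℕ) [NeZero t] (γ : Gamma0 (N * t)) :
    mat (conjD N t γ) = conjDMat t (mat γ) := rfl

@[simp] theorem mat_conjD_00 (N t : ℕ) [NeZero t] (γ : Gamma0 (N * t)) :
    mat (conjD N t γ) 0 0 = mat γ 0 0 := rfl

@[simp] theorem mat_conjD_01 (N t : ℕ) [NeZero t] (γ : Gamma0 (N * t)) :
    mat (conjD N t γ) 0 1 = t * mat γ 0 1 := rfl

@[simp] theorem mat_conjD_11 (N t : ℕ) [NeZero t] (γ : Gamma0 (N * t)) :
    mat (conjD N t γ) 1 1 = mat γ 1 1 := rfl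

theorem mat_conjD_10 (N t : ℕ) [NeZero t] (γ : Gamma0 (N * t)) :
    t * mat (conjD N t γ) 1 0 = mat γ 1 0 := by
  obtain ⟨c, hc⟩ := dvd_of_Gamma0_mul γ
  have ht' : (t : ℤ) ≠ 0 := by exact_mod_cast NeZero.ne t
  show (t : ℤ) * (mat γ 1 0 / t) = mat γ 1 0
  have hc' : mat γ 1 0 = t * (N * c) := hc
  rw [hc', Int.mul_ediv_cancel_left _ ht']

theorem mem_subD_iff' (N t : ℕ) [NeZero t] (g : Gamma0 N) :
    g ∈ (conjD N t).range ↔ (t : ℤ) ∣ mat g 0 1 := mem_subD_iff N t g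

theorem mem_range_inclG_iff (N t : ℕ) (g : Gamma0 N) :
    g ∈ (inclG N t).range ↔ ((N * t : ℕ) : ℤ) ∣ mat g 1 0 := by
  constructor
  · rintro ⟨γ, rfl⟩
    exact mat_dvd γ
  · intro h
    exact ⟨⟨(g : SL(2, ℤ)), mem_Gamma0_of_dvd h⟩, rfl⟩

instance inclG_range_finiteIndex (N t : ℕ) [NeZero (N * t)] : (inclG N t).range.FiniteIndex := by
  have : (inclG N t).range = subG N t := by
    ext g
    rw [mem_range_inclG_iff, Subgroup.mem_subgroupOf]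
    constructor
    · intro h; exact mem_Gamma0_of_dvd h
    · intro h; exact Gamma0_dvd (⟨_, h⟩ : Gamma0 (N * t))
  rw [this]
  infer_instance

section Homs

variable {A : Type*} [AddCommGroup A]

theorem coresD_eq_trHom (N t : ℕ) [NeZero t] (Ψ : Additive (Gamma0 (N * t)) →+ A) :
    coresD N t Ψ = trHom (conjD N t) (conjD_injective N t) Ψ := rfl

theorem cores_eq_trHom (N t : ℕ) [NeZero (N * t)] (Ψ : Additive (Gamma0 (N * t)) →+ A) :
    cores N t Ψ = trHom (inclG N t) (inclG_injective N t) Ψ :=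
  addHom_ext fun g =>
    transfer_equiv_eq_trHom (inclG N t) (inclG_injective N t) (subG N t) (subGEquiv N t)
      (fun _ => rfl) Ψ g

theorem res_eq_comp (N t : ℕ) (Φ : Additive (Gamma0 N) →+ A) :
    res N t Φ = Φ.comp (MonoidHom.toAdditive (inclG N t)) := rfl

theorem resD_eq_comp (N t : ℕ) [NeZero t] (Φ : Additive (Gamma0 N) →+ A) :
    resD N t Φ = Φ.comp (MonoidHom.toAdditive (conjD N t)) := rfl

end Homs

/-- arithmetic: solving a linear congruence -/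
theorem exists_dvd_sub_mul {q : ℕ} (hq : q.Prime) {a : ℤ} (ha : ¬ (q : ℤ) ∣ a) (b : ℤ) :
    ∃ t : ℤ, (q : ℤ) ∣ b - a * t := by
  have hcop : IsCoprime (q : ℤ) a :=
    ((Nat.prime_iff_prime_int.mp hq).coprime_iff_not_dvd).mpr ha
  obtain ⟨u, v, huv⟩ := hcop
  exact ⟨b * v, ⟨b * u, by linear_combination (-b) * huv⟩⟩

theorem exists_bezout {q M : ℕ} (hq : q.Prime) (hM : ¬ q ∣ M) :
    ∃ b d : ℤ, (q : ℤ) * d - b * M = 1 := by
  have hcop : IsCoprime (q : ℤ) (M : ℤ) :=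
    ((Nat.prime_iff_prime_int.mp hq).coprime_iff_not_dvd).mpr (by exact_mod_cast hM)
  obtain ⟨u, v, huv⟩ := hcop
  exact ⟨-v, u, by linear_combination huv⟩

theorem surj_of_mem {G G' K : Type*} [Group G] [Group G'] [Group K] {j : G' →* G} {k : K →* G}
    (h : ∀ g, ∃ x, g * (k x)⁻¹ ∈ j.range) : ∀ g : G, ∃ (γ : G') (x : K), g = j γ * k x := by
  intro g
  obtain ⟨x, γ, hγ⟩ := h g
  exact ⟨γ, x, by rw [hγ]; group⟩

end Fermat.Agent.S41Lib
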