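/-
S41, Hecke calculus part 2: `T_l` commutes with `res`, `resD`, `cores`, `coresD` (HC1-HC4).
-/
import Fermat.Agent.S41.HC1

set_option autoImplicit false

open scoped MatrixGroups
open CongruenceSubgroup Function

namespace Fermat.Agent.S41Lib

/-- the identification `Γ₀(N r l) = Γ₀(N l r)` -/
def kap (N r l : ℕ) : Gamma0 (N * r * l) →* Gamma0 (N * l * r) :=
  Subgroup.inclusion (le_of_eq (by rw [mul_right_comm]))

@[simp] theorem mat_kap (N r l : ℕ) (x : Gamma0 (N * r * l)) : mat (kap N r l x) = mat x := rfl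

theorem kap_bijective (N r l : ℕ) : Bijective (kap N r l) := by
  refine ⟨Subgroup.inclusion_injective _, fun y => ?_⟩
  have h : Gamma0 (N * l * r) ≤ Gamma0 (N * r * l) := le_of_eq (by rw [mul_right_comm])
  exact ⟨⟨(y : SL(2, ℤ)), h y.2⟩, rfl⟩

instance kap_range_finiteIndex (N r l : ℕ) : (kap N r l).range.FiniteIndex := by
  rw [MonoidHom.range_eq_top.mpr (kap_bijective N r l).surjective]
  infer_instance

/-- the inclusion `Γ₀(N r l) → Γ₀(N l)` -/
def iA (N r l : ℕ) : Gamma0 (N * r * l) →* Gamma0 (N * l) := (inclG (N * l) r).comp (kap N r l)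

/-- conjugation by `diag(r,1)`, `Γ₀(N r l) → Γ₀(N l)` -/
def cA (N r l : ℕ) [NeZero r] : Gamma0 (N * r * l) →* Gamma0 (N * l) :=
  (conjD (N * l) r).comp (kap N r l)

theorem iA_injective (N r l : ℕ) : Injective (iA N r l) :=
  (inclG_injective _ _).comp (kap_bijective N r l).injective

theorem cA_injective (N r l : ℕ) [NeZero r] : Injective (cA N r l) :=
  (conjD_injective _ _).comp (kap_bijective N r l).injective

instance iA_range_finiteIndex (N r l : ℕ) [NeZero (N * l * r)] : (iA N r l).range.FiniteIndex :=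
  finiteIndex_range_comp _ (inclG_injective _ _) _

instance cA_range_finiteIndex (N r l : ℕ) [NeZero r] : (cA N r l).range.FiniteIndex :=
  finiteIndex_range_comp _ (conjD_injective _ _) _

@[simp] theorem mat_iA (N r l : ℕ) (x : Gamma0 (N * r * l)) : mat (iA N r l x) = mat x := rfl

@[simp] theorem mat_cA_00 (N r l : ℕ) [NeZero r] (x : Gamma0 (N * r * l)) :
    mat (cA N r l x) 0 0 = mat x 0 0 := rfl

@[simp] theorem mat_cA_01 (N r l : ℕ) [NeZero r] (x : Gamma0 (N * r * l)) :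
    mat (cA N r l x) 0 1 = r * mat x 0 1 := rfl

@[simp] theorem mat_cA_11 (N r l : ℕ) [NeZero r] (x : Gamma0 (N * r * l)) :
    mat (cA N r l x) 1 1 = mat x 1 1 := rfl

theorem mat_cA_10 (N r l : ℕ) [NeZero r] (x : Gamma0 (N * r * l)) :
    r * mat (cA N r l x) 1 0 = mat x 1 0 := mat_conjD_10 (N * l) r (kap N r l x)

theorem mem_range_iA_iff (N r l : ℕ) (g : Gamma0 (N * l)) :
    g ∈ (iA N r l).range ↔ ((N * l * r : ℕ) : ℤ) ∣ mat g 1 0 := by
  rw [← mem_range_inclG_iff, iA, MonoidHom.range_comp,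
    MonoidHom.range_eq_top.mpr (kap_bijective N r l).surjective, ← MonoidHom.range_eq_map]

theorem mem_range_cA_iff (N r l : ℕ) [NeZero r] (g : Gamma0 (N * l)) :
    g ∈ (cA N r l).range ↔ (r : ℤ) ∣ mat g 0 1 := by
  rw [← mem_subD_iff', cA, MonoidHom.range_comp,
    MonoidHom.range_eq_top.mpr (kap_bijective N r l).surjective, ← MonoidHom.range_eq_map]

/-- commutation of the two conjugations -/
theorem conjD_conjD (N r l : ℕ) [NeZero r] [NeZero l] (x : Gamma0 (N * r * l)) :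
    conjD N r (conjD (N * r) l x) = conjD N l (cA N r l x) := by
  have hr' : (r : ℤ) ≠ 0 := by exact_mod_cast NeZero.ne r
  have hl' : (l : ℤ) ≠ 0 := by exact_mod_cast NeZero.ne l
  refine mat_ext rfl ?_ ?_ rfl
  · simp only [mat_conjD_01, mat_cA_01]; ring
  · have h1 := mat_conjD_10 N r (conjD (N * r) l x)
    have h2 := mat_conjD_10 (N * r) l x
    have h3 := mat_conjD_10 N l (cA N r l x)
    have h4 := mat_cA_10 N r l x
    apply mul_left_cancel₀ (mul_ne_zero hl' hr')
    calc (l : ℤ) * r * mat (conjD N r (conjD (N * r) l x)) 1 0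
        = l * (r * mat (conjD N r (conjD (N * r) l x)) 1 0) := by ring
      _ = mat x 1 0 := by rw [h1, h2]
      _ = r * (l * mat (conjD N l (cA N r l x)) 1 0) := by rw [h3, h4]
      _ = _ := by ring

theorem inclG_cA (N r l : ℕ) [NeZero r] (x : Gamma0 (N * r * l)) :
    inclG N l (cA N r l x) = conjD N r (inclG (N * r) l x) := rfl

theorem inclG_conjD (N r l : ℕ) [NeZero l] (x : Gamma0 (N * r * l)) :
    inclG N r (conjD (N * r) l x) = conjD N l (iA N r l x) := rfl

/-- prescribing the top row modulo `l` -/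
theorem surj_top {N M l : ℕ} (hl : l.Prime) (hlM : ¬ l ∣ M) {u : ℤ} (hu : ¬ (l : ℤ) ∣ u)
    (g : Gamma0 N) :
    ∃ x : Gamma0 M, (l : ℤ) ∣ mat g 0 1 * mat x 0 0 - mat g 0 0 * (u * mat x 0 1) := by
  have hlp := Nat.prime_iff_prime_int.mp hl
  by_cases ha : (l : ℤ) ∣ mat g 0 0
  · obtain ⟨b, d, hbd⟩ := exists_bezout hl hlM
    refine ⟨mkG M l b M d hbd dvd_rfl, ?_⟩
    simp only [mat_mkG, Matrix.of_apply, Matrix.cons_val_zero, Matrix.cons_val_one,
      Matrix.cons_val_fin_one]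
    exact dvd_sub (Dvd.intro_left _ rfl) (Dvd.dvd.mul_right ha _)
  · have hau : ¬ (l : ℤ) ∣ mat g 0 0 * u := fun h => (hlp.dvd_or_dvd h).elim ha hu
    obtain ⟨t, ht⟩ := exists_dvd_sub_mul hl hau (mat g 0 1)
    refine ⟨mkG M 1 t 0 1 (by ring) (dvd_zero _), ?_⟩
    simp only [mat_mkG, Matrix.of_apply, Matrix.cons_val_zero, Matrix.cons_val_one,
      Matrix.cons_val_fin_one]
    convert ht using 1
    ring

/-- prescribing the bottom row modulo `r` -/
theorem surj_bot {N l r : ℕ} (hr : r.Prime) (hrN : ¬ r ∣ N * l) (g : Gamma0 N) :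
    ∃ x : Gamma0 (N * l),
      ((N * r : ℕ) : ℤ) ∣ mat g 1 0 * mat x 1 1 - mat g 1 1 * mat x 1 0 := by
  have hrp := Nat.prime_iff_prime_int.mp hr
  obtain ⟨c₀, hc₀⟩ := mat_dvd g
  have hrl : ¬ (r : ℤ) ∣ (l : ℤ) := by
    intro h
    exact hrN (Dvd.dvd.mul_left (by exact_mod_cast h) N)
  by_cases hd : (r : ℤ) ∣ mat g 1 1
  · obtain ⟨b, d, hbd⟩ := exists_bezout hr hrN
    obtain ⟨d₁, hd₁⟩ := hd
    refine ⟨mkG (N * l) d b ((N * l : ℕ) : ℤ) r (by linear_combination hbd) dvd_rfl, ?_⟩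
    simp only [mat_mkG, Matrix.of_apply, Matrix.cons_val_zero, Matrix.cons_val_one,
      Matrix.cons_val_fin_one]
    refine ⟨c₀ - d₁ * l, ?_⟩
    rw [hc₀, hd₁]; push_cast; ring
  · have hdl : ¬ (r : ℤ) ∣ mat g 1 1 * l := fun h => (hrp.dvd_or_dvd h).elim hd hrl
    obtain ⟨s, e, hs⟩ := exists_dvd_sub_mul hr hdl c₀
    refine ⟨mkG (N * l) 1 0 ((N * l : ℕ) * s) 1 (by ring) (Dvd.intro _ rfl), ?_⟩
    simp only [mat_mkG, Matrix.of_apply, Matrix.cons_val_zero, Matrix.cons_val_one,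
      Matrix.cons_val_fin_one]
    refine ⟨e, ?_⟩
    rw [hc₀]; push_cast
    linear_combination (N : ℤ) * hs

section Homs

variable {A : Type*} [AddCommGroup A]

/-- (HC1) -/
theorem heckeHomU_res {N r l : ℕ} [NeZero l] (hl : l.Prime) (hlN : ¬ l ∣ N * r)
    (Φ : Additive (Gamma0 N) →+ A) :
    heckeHomU (N * r) l (res N r Φ) = res N r (heckeHomU N l Φ) := by
  unfold heckeHomU
  rw [coresD_eq_trHom, coresD_eq_trHom, res_eq_comp N r (trHom _ _ _)]
  rw [trHom_base_change (conjD N l) _ (conjD (N * r) l) (conjD_injective _ _) (inclG N r)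
    (iA N r l) (inclG_conjD N r l) ?_ ?_]
  · rfl
  · intro x hx
    rw [mem_subD_iff'] at hx ⊢
    exact hx
  · refine surj_of_mem fun g => ?_
    obtain ⟨x, hx⟩ := surj_top (N := N) hl hlN (u := 1)
      (fun h => (Nat.prime_iff_prime_int.mp hl).not_isUnit (isUnit_of_dvd_one h)) g
    refine ⟨x, ?_⟩
    rw [mem_subD_iff', mat_mul_inv_01, mat_inclG]
    simpa using hx

/-- (HC2) -/
theorem heckeHomU_resD {N r l : ℕ} [NeZero l] [NeZero r] (hl : l.Prime) (hlN : ¬ l ∣ N * r)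
    (Φ : Additive (Gamma0 N) →+ A) :
    heckeHomU (N * r) l (resD N r Φ) = resD N r (heckeHomU N l Φ) := by
  have hlr : ¬ (l : ℤ) ∣ (r : ℤ) := by
    intro h
    exact hlN (Dvd.dvd.mul_left (by exact_mod_cast h) N)
  unfold heckeHomU
  rw [coresD_eq_trHom, coresD_eq_trHom, resD_eq_comp N r (trHom _ _ _)]
  rw [trHom_base_change (conjD N l) _ (conjD (N * r) l) (conjD_injective _ _) (conjD N r)
    (cA N r l) (conjD_conjD N r l) ?_ ?_]
  · rfl
  · intro x hx
    rw [mem_subD_iff'] at hx ⊢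
    rw [mat_conjD_01] at hx
    exact ((Nat.prime_iff_prime_int.mp hl).dvd_or_dvd hx).resolve_left hlr
  · refine surj_of_mem fun g => ?_
    obtain ⟨x, hx⟩ := surj_top (N := N) hl hlN hlr g
    refine ⟨x, ?_⟩
    rw [mem_subD_iff', mat_mul_inv_01, mat_conjD_00, mat_conjD_01]
    exact hx

/-- (HC3) -/
theorem heckeHomU_cores {N r l : ℕ} [NeZero N] [NeZero l] [NeZero r] (hr : r.Prime)
    (hrN : ¬ r ∣ N * l) (Ψ : Additive (Gamma0 (N * r)) →+ A) :
    heckeHomU N l (cores N r Ψ) = cores N r (heckeHomU (N * r) l Ψ) := by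
  have hrl : IsCoprime (r : ℤ) (l : ℤ) := by
    refine ((Nat.prime_iff_prime_int.mp hr).coprime_iff_not_dvd).mpr fun h => ?_
    exact hrN (Dvd.dvd.mul_left (by exact_mod_cast h) N)
  unfold heckeHomU
  rw [coresD_eq_trHom, coresD_eq_trHom, cores_eq_trHom, cores_eq_trHom,
    res_eq_comp N l (trHom _ _ _)]
  rw [trHom_base_change (inclG N r) _ (iA N r l) (iA_injective _ _ _) (inclG N l)
    (inclG (N * r) l) (fun _ => rfl) ?_ ?_]
  · have : ((conjD N l).comp (iA N r l)).range.FiniteIndex :=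
      finiteIndex_range_comp _ (conjD_injective _ _) _
    have : ((inclG N r).comp (conjD (N * r) l)).range.FiniteIndex :=
      finiteIndex_range_comp _ (inclG_injective _ _) _
    rw [trHom_trHom _ _ _ _ ((conjD_injective _ _).comp (iA_injective _ _ _)),
      trHom_trHom _ _ _ _ ((inclG_injective _ _).comp (conjD_injective _ _))]
    rfl
  · intro x hx
    rw [mem_range_inclG_iff, mat_inclG] at hx
    rw [mem_range_iA_iff]
    obtain ⟨c₁, hc₁⟩ := mat_dvd x
    obtain ⟨c₂, hc₂⟩ := hx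
    have hN0 : (N : ℤ) ≠ 0 := by exact_mod_cast NeZero.ne N
    have h1 : (l : ℤ) * c₁ = r * c₂ := by
      apply mul_left_cancel₀ hN0
      have := hc₁.symm.trans hc₂
      push_cast at this
      linear_combination this
    have h2 : (r : ℤ) ∣ c₁ := hrl.dvd_of_dvd_mul_left ⟨c₂, h1⟩
    obtain ⟨c₃, rfl⟩ := h2
    exact ⟨c₃, by rw [hc₁]; push_cast; ring⟩
  · refine surj_of_mem fun g => ?_
    obtain ⟨x, hx⟩ := surj_bot hr hrN g
    refine ⟨x, ?_⟩
    rw [mem_range_inclG_iff, mat_mul_inv_10, mat_inclG]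
    exact hx

/-- (HC4) -/
theorem heckeHomU_coresD {N r l : ℕ} [NeZero l] [NeZero r] (hr : r.Prime)
    (hrN : ¬ r ∣ N * l) (Ψ : Additive (Gamma0 (N * r)) →+ A) :
    heckeHomU N l (coresD N r Ψ) = coresD N r (heckeHomU (N * r) l Ψ) := by
  unfold heckeHomU
  rw [coresD_eq_trHom, coresD_eq_trHom, coresD_eq_trHom, coresD_eq_trHom,
    res_eq_comp N l (trHom _ _ _)]
  rw [trHom_base_change (conjD N r) _ (cA N r l) (cA_injective _ _ _) (inclG N l)
    (inclG (N * r) l) (inclG_cA N r l) ?_ ?_]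
  · have : ((conjD N l).comp (cA N r l)).range.FiniteIndex :=
      finiteIndex_range_comp _ (conjD_injective _ _) _
    have : ((conjD N r).comp (conjD (N * r) l)).range.FiniteIndex :=
      finiteIndex_range_comp _ (conjD_injective _ _) _
    rw [trHom_trHom _ _ _ _ ((conjD_injective _ _).comp (cA_injective _ _ _)),
      trHom_trHom _ _ _ _ ((conjD_injective _ _).comp (conjD_injective _ _))]
    refine trHom_congr ?_ _ _ _
    ext x
    exact congrArg (fun y : Gamma0 N => ((y : SL(2, ℤ)) : Matrix (Fin 2) (Fin 2) ℤ) _ _)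
      (conjD_conjD N r l x).symm
  · intro x hx
    rw [mem_subD_iff', mat_inclG] at hx
    rw [mem_range_cA_iff]
    exact hx
  · refine surj_of_mem fun g => ?_
    obtain ⟨x, hx⟩ := surj_top (N := N) hr hrN (u := 1)
      (fun h => (Nat.prime_iff_prime_int.mp hr).not_isUnit (isUnit_of_dvd_one h)) g
    refine ⟨x, ?_⟩
    rw [mem_subD_iff', mat_mul_inv_01, mat_inclG]
    simpa using hx

end Homs

end Fermat.Agent.S41Lib
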