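import Fermat.Agent.S41.IharaInst
import Fermat.Agent.S20.CombCard

/-!
# S41 library (Ihara): indices, and `T_W Φ = (W+1) Φ` for `Φ` killing the unipotents of `Γ₀(N)[1/r]`
-/

set_option autoImplicit false

open scoped MatrixGroups
open CongruenceSubgroup ModularCurve.Period
namespace Fermat.Agent.S41Lib

theorem subG_index {N W : ℕ} [NeZero N] (hW : W.Prime) (hWN : ¬ W ∣ N) :
    (subG N W).index = W + 1 := by
  have : NeZero W := ⟨hW.ne_zero⟩
  have hcop : Nat.Coprime N W := ((Nat.Prime.coprime_iff_not_dvd hW).mpr hWN).symm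
  have h1 : (Gamma0 (N * W)).index = (Gamma0 N).index * (Gamma0 W).index :=
    S20Lib.card_X0_mul hcop
  have h2 : (Gamma0 W).index = W + 1 := by
    have := S20Lib.card_X0_prime_pow hW 0
    exact (by simpa using this : Nat.card (S20Lib.X0 W) = W + 1)
  have h3 := Subgroup.relIndex_mul_index (Gamma0_mul_le N W)
  have h4 : (Gamma0 N).index ≠ 0 := Subgroup.FiniteIndex.index_ne_zero
  have h5 : (subG N W).index = (Gamma0 (N * W)).relIndex (Gamma0 N) := rfl
  rw [h5]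
  rw [h1, h2, mul_comm] at h3
  exact Nat.eq_of_mul_eq_mul_left (Nat.pos_of_ne_zero h4) h3

theorem subD_index {N W : ℕ} [NeZero N] [NeZero W] (hW : W.Prime) (hWN : ¬ W ∣ N) :
    (subD N W).index = W + 1 := by
  rw [← subG_index hW hWN]
  have hcop : IsCoprime ((W : ℤ) ^ 2) (N : ℤ) :=
    IsCoprime.pow_left (Nat.isCoprime_iff_coprime.mpr ((Nat.Prime.coprime_iff_not_dvd hW).mpr hWN))
  obtain ⟨α, β, hαβ⟩ := hcop
  let w0 : SL(2, ℤ) := ⟨!![W * α, -β; N, W], by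
    rw [Matrix.det_fin_two_of]; linear_combination hαβ⟩
  let v0 : SL(2, ℤ) := ⟨!![W, β; -N, W * α], by
    rw [Matrix.det_fin_two_of]; linear_combination hαβ⟩
  have hw0 : w0 ∈ Gamma0 N := by
    apply mem_Gamma0_of_dvd
    show (N : ℤ) ∣ N
    exact dvd_rfl
  have hv0 : v0 ∈ Gamma0 N := by
    apply mem_Gamma0_of_dvd
    show (N : ℤ) ∣ -N
    exact (dvd_neg).mpr dvd_rfl
  let w : Gamma0 N := ⟨w0, hw0⟩
  let v : Gamma0 N := ⟨v0, hv0⟩
  have hvw : v⁻¹ = w := by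
    rw [inv_eq_iff_mul_eq_one]
    apply Subtype.ext; apply Subtype.ext
    show (!![(W : ℤ), β; -N, W * α] * !![W * α, -β; N, W] : Matrix (Fin 2) (Fin 2) ℤ) = 1
    ext i j
    fin_cases i <;> fin_cases j
    · simp [Matrix.mul_apply, Fin.sum_univ_two]; linear_combination hαβ
    · simp [Matrix.mul_apply, Fin.sum_univ_two]; ring
    · simp [Matrix.mul_apply, Fin.sum_univ_two]; ring
    · simp [Matrix.mul_apply, Fin.sum_univ_two]; linear_combination hαβ
  have hWp : Prime (W : ℤ) := Nat.prime_iff_prime_int.mp hW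
  have hWN' : ¬ (W : ℤ) ∣ N := by exact_mod_cast hWN
  have key : subD N W = (subG N W).comap (MulAut.conj v).toMonoidHom := by
    ext g
    rw [mem_subD_iff, Subgroup.mem_comap]
    show _ ↔ ((v * g * v⁻¹ : Gamma0 N) : SL(2, ℤ)) ∈ Gamma0 (N * W)
    rw [hvw]
    have e10 : (((v * g * w : Gamma0 N) : SL(2, ℤ)) : Matrix (Fin 2) (Fin 2) ℤ) 1 0 =
        -N * ((g : SL(2, ℤ)) 0 0 * (W * α) + (g : SL(2, ℤ)) 0 1 * N) +
          W * α * ((g : SL(2, ℤ)) 1 0 * (W * α) + (g : SL(2, ℤ)) 1 1 * N) := by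
      show (!![(W : ℤ), β; -N, W * α] * ((g : SL(2, ℤ)) : Matrix (Fin 2) (Fin 2) ℤ) *
        !![W * α, -β; N, W] : Matrix (Fin 2) (Fin 2) ℤ) 1 0 = _
      simp only [Matrix.mul_apply, Fin.sum_univ_two, Fin.isValue, Matrix.of_apply,
        Matrix.cons_val_zero, Matrix.cons_val_one, Matrix.cons_val_fin_one]
      ring
    have hG : ((v * g * w : Gamma0 N) : SL(2, ℤ)) ∈ Gamma0 (N * W) ↔
        (W : ℤ) ∣ (((v * g * w : Gamma0 N) : SL(2, ℤ)) : Matrix (Fin 2) (Fin 2) ℤ) 1 0 := by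
      constructor
      · intro hh
        have := Gamma0_dvd (⟨_, hh⟩ : Gamma0 (N * W))
        exact (Dvd.intro_left (N : ℤ) (by push_cast; rfl)).trans this
      · intro hh
        apply mem_Gamma0_of_dvd
        push_cast
        exact IsCoprime.mul_dvd (Nat.isCoprime_iff_coprime.mpr
          ((Nat.Prime.coprime_iff_not_dvd hW).mpr hWN).symm) (Gamma0_dvd (v * g * w)) hh
    rw [hG, e10]
    constructor
    · rintro ⟨b, hb⟩
      rw [hb]
      exact ⟨-N * ((g : SL(2, ℤ)) 0 0 * α + b * N) +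
          α * ((g : SL(2, ℤ)) 1 0 * (W * α) + (g : SL(2, ℤ)) 1 1 * N), by ring⟩
    · rintro ⟨b, hb⟩
      have : (W : ℤ) ∣ (N * N) * (g : SL(2, ℤ)) 0 1 :=
        ⟨-b - N * (g : SL(2, ℤ)) 0 0 * α +
          α * ((g : SL(2, ℤ)) 1 0 * (W * α) + (g : SL(2, ℤ)) 1 1 * N), by linear_combination -hb⟩
      rcases hWp.dvd_or_dvd this with h | h
      · rcases hWp.dvd_or_dvd h with h | h <;> exact absurd h hWN'
      · exact h
  rw [key]
  exact Subgroup.index_comap_of_surjective _ (MulAut.conj v).surjective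

theorem EZ_le_Gamma (W : ℕ) : EZ W ≤ Gamma W := by
  rw [EZ, Subgroup.closure_le]
  rintro g (⟨a, rfl⟩ | ⟨a, rfl⟩)
  · show xz (W * a) ∈ Gamma W
    rw [Gamma_mem]; simp [xz_coe]
  · show yz (W * a) ∈ Gamma W
    rw [Gamma_mem]; simp [yz_coe]

theorem QZ_dvd01 {r n : ℕ} (h : Nat.Coprime n r) {g : SL(2, ℤ)} (hg : g ∈ QZ r n) :
    (n : ℤ) ∣ (g : Matrix (Fin 2) (Fin 2) ℤ) 0 1 := by
  obtain ⟨M, hM, hgM⟩ := Qn_cong (mem_QZ.mp hg)
  obtain ⟨k, a, hka⟩ := mem_MatR.mp hM 0 1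
  have h1 : (((g : Matrix (Fin 2) (Fin 2) ℤ) 0 1 : ℤ) : ℚ) = n * M 0 1 := by
    rw [← toQ_apply, hgM]; simp
  have h2 : (g : Matrix (Fin 2) (Fin 2) ℤ) 0 1 * (r : ℤ) ^ k = n * a := by
    have : (((g : Matrix (Fin 2) (Fin 2) ℤ) 0 1 : ℤ) : ℚ) * (r : ℚ) ^ k = n * a := by
      rw [h1, ← hka]; ring
    exact_mod_cast this
  have hcop : IsCoprime (n : ℤ) ((r : ℤ) ^ k) :=
    IsCoprime.pow_right (Nat.isCoprime_iff_coprime.mpr h)
  exact hcop.dvd_of_dvd_mul_right ⟨a, h2⟩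

section Final

variable {N W r : ℕ} [NeZero N] [NeZero W] {A : Type*} [AddCommGroup A]

theorem not_dvd_of_modEq_one (hW : W.Prime) (hW1 : W ≡ 1 [MOD N]) : ¬ W ∣ N := by
  intro h
  have h1 : (N : ℤ) ∣ (W : ℤ) - 1 := by
    have := (Nat.modEq_iff_dvd).mp hW1.symm
    simpa using this
  have h2 : (W : ℤ) ∣ (W : ℤ) - 1 := (Int.natCast_dvd_natCast.mpr h).trans h1
  have h3 : (W : ℤ) ∣ 1 := by
    have := dvd_sub (dvd_refl (W : ℤ)) h2
    simpa using this
  have h4 : W ∣ 1 := by exact_mod_cast h3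
  exact hW.one_lt.ne' (Nat.dvd_one.mp h4)

/-- the map `subD N W → Γ₀(N)`, conjugation by `diag(W,1)⁻¹` -/
noncomputable def cU (N W : ℕ) [NeZero W] : subD N W →* Gamma0 N :=
  (inclG N W).comp (subDEquiv N W).toMonoidHom

/-- the map `subG N W → Γ₀(N)`, conjugation by `diag(W,1)` -/
noncomputable def cT (N W : ℕ) [NeZero W] : subG N W →* Gamma0 N :=
  (conjD N W).comp (subGEquiv N W).toMonoidHom

theorem hWW : (W : ℚ) * (W : ℚ)⁻¹ = 1 := mul_inv_cancel₀ (by exact_mod_cast NeZero.ne W)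
theorem hWW' : (W : ℚ)⁻¹ * (W : ℚ) = 1 := inv_mul_cancel₀ (by exact_mod_cast NeZero.ne W)

theorem toQ_cT (h : subG N W) : toQ ((cT N W h : Gamma0 N) : SL(2, ℤ)) =
    conjQ (W : ℚ) (W : ℚ)⁻¹ hWW (toQ ((h : Gamma0 N) : SL(2, ℤ))) :=
  toQ_conjD N W (subGEquiv N W h)

theorem toQ_cU (h : subD N W) : toQ ((cU N W h : Gamma0 N) : SL(2, ℤ)) =
    conjQ (W : ℚ)⁻¹ (W : ℚ) hWW' (toQ ((h : Gamma0 N) : SL(2, ℤ))) := by
  have h1 := toQ_conjD N W (subDEquiv N W h)
  rw [conjD_subDEquiv] at h1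
  rw [h1, conjQ_conjQ]
  rfl

theorem heckeHomU_eq_of_killsU (hW : W.Prime) (hr : r.Prime) (hrN : ¬ r ∣ N) (hrW : W ≠ r)
    (hW1 : W ≡ 1 [MOD N]) (Φ : Additive (Gamma0 N) →+ A) (hΦ : IsParabolicHom (Gamma0 N) Φ)
    (hK : KillsU r N Φ) : heckeHomU N W Φ = (W + 1) • Φ := by
  have hWN := not_dvd_of_modEq_one hW hW1
  have hW0 : (W : ℚ) ≠ 0 := by exact_mod_cast NeZero.ne W
  obtain ⟨m, hm⟩ : (N : ℤ) ∣ (W : ℤ) - 1 := by
    have := (Nat.modEq_iff_dvd).mp hW1.symm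
    simpa using this
  have hm' : (W : ℚ) - 1 = N * m := by exact_mod_cast hm
  have hc : Nat.Coprime (N * W) r := by
    apply Nat.Coprime.mul_left
    · exact ((Nat.Prime.coprime_iff_not_dvd hr).mpr hrN).symm
    · exact (Nat.coprime_primes hW hr).mpr hrW
  have htW : (W : ℚ)⁻¹ * W ∈ Rr r := by rw [hWW']; exact (Rr r).one_mem
  have hsW : (W : ℚ) * W ∈ Rr r := (Rr r).mul_mem (natCast_mem_Rr r W) (natCast_mem_Rr r W)
  have key := ihara_generic (H := subD N W) (c := cU N W) (NeZero.ne N) hW hWN hr hrN hrW hΦ hK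
    (by
      intro g hg
      have hmem : g ∈ subD N W := by
        rw [mem_subD_iff]
        exact (Dvd.intro_left (N : ℤ) (by push_cast; rfl)).trans (QZ_dvd01 hc hg)
      refine ⟨hmem, ?_⟩
      rw [toQ_cU]
      exact conjQ_mem_UGc hWW' htW hsW hg)
    (by
      intro g hg
      have hmem : g ∈ subD N W := by
        rw [mem_subD_iff]
        have := EZ_le_Gamma W hg
        rw [Gamma_mem] at this
        exact (ZMod.intCast_zmod_eq_zero_iff_dvd _ _).mp this.2.1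
      refine ⟨hmem, ?_⟩
      rw [toQ_cU]
      refine Qn_le_UGc dvd_rfl (conjQ_EZ hWW' ⟨-m, (Rr r).neg_mem (intCast_mem_Rr r m), ?_⟩
        ⟨m * W, (Rr r).mul_mem (intCast_mem_Rr r m) (natCast_mem_Rr r W), ?_⟩ hg)
      · rw [sub_mul, hWW']; linear_combination -hm'
      · linear_combination (W : ℚ) * hm')
    (by
      intro h
      have h1 : (((conjD N W (subDEquiv N W h) : Gamma0 N) : SL(2, ℤ)) :
          Matrix (Fin 2) (Fin 2) ℤ).trace =
          (((subDEquiv N W h : Gamma0 (N * W)) : SL(2, ℤ)) : Matrix (Fin 2) (Fin 2) ℤ).trace := by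
        rw [conjD_coe, conjDMat, Matrix.trace_fin_two_of, Matrix.trace_fin_two]
      rw [conjD_subDEquiv] at h1
      exact h1.symm)
  ext γ
  have := key (Additive.toMul γ)
  rw [subD_index hW hWN] at this
  exact congrArg Multiplicative.toAdd this

theorem heckeHom_eq_of_killsU [NeZero (N * W)] (hW : W.Prime) (hr : r.Prime) (hrN : ¬ r ∣ N)
    (hrW : W ≠ r)
    (hW1 : W ≡ 1 [MOD N]) (Φ : Additive (Gamma0 N) →+ A) (hΦ : IsParabolicHom (Gamma0 N) Φ)
    (hK : KillsU r N Φ) : heckeHom N W Φ = (W + 1) • Φ := by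
  have hWN := not_dvd_of_modEq_one hW hW1
  have hW0 : (W : ℚ) ≠ 0 := by exact_mod_cast NeZero.ne W
  obtain ⟨m, hm⟩ : (N : ℤ) ∣ (W : ℤ) - 1 := by
    have := (Nat.modEq_iff_dvd).mp hW1.symm
    simpa using this
  have hm' : (W : ℚ) - 1 = N * m := by exact_mod_cast hm
  have hc : Nat.Coprime (N * W) r := by
    apply Nat.Coprime.mul_left
    · exact ((Nat.Prime.coprime_iff_not_dvd hr).mpr hrN).symm
    · exact (Nat.coprime_primes hW hr).mpr hrW
  have htW : (W : ℚ)⁻¹ * W ∈ Rr r := by rw [hWW']; exact (Rr r).one_mem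
  have hsW : (W : ℚ) * W ∈ Rr r := (Rr r).mul_mem (natCast_mem_Rr r W) (natCast_mem_Rr r W)
  have key := ihara_generic (H := subG N W) (c := cT N W) (NeZero.ne N) hW hWN hr hrN hrW hΦ hK
    (by
      intro g hg
      have hmem : g ∈ subG N W := QZ_le_Gamma0 hc hg
      refine ⟨hmem, ?_⟩
      rw [toQ_cT]
      exact conjQ_mem_UGc hWW hsW htW hg)
    (by
      intro g hg
      have hmem : g ∈ subG N W := by
        show (g : SL(2, ℤ)) ∈ Gamma0 (N * W)
        apply mem_Gamma0_of_dvd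
        push_cast
        exact IsCoprime.mul_dvd (Nat.isCoprime_iff_coprime.mpr
          ((Nat.Prime.coprime_iff_not_dvd hW).mpr hWN).symm) (Gamma0_dvd g)
          (Gamma0_dvd (⟨_, EZ_le_Gamma0 W hg⟩ : Gamma0 W))
      refine ⟨hmem, ?_⟩
      rw [toQ_cT]
      refine Qn_le_UGc dvd_rfl (conjQ_EZ hWW
        ⟨m * W, (Rr r).mul_mem (intCast_mem_Rr r m) (natCast_mem_Rr r W), ?_⟩
        ⟨-m, (Rr r).neg_mem (intCast_mem_Rr r m), ?_⟩ hg)
      · linear_combination (W : ℚ) * hm'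
      · rw [sub_mul, hWW']; linear_combination -hm')
    (by
      intro h
      show (((conjD N W (subGEquiv N W h) : Gamma0 N) : SL(2, ℤ)) :
          Matrix (Fin 2) (Fin 2) ℤ).trace = _
      rw [conjD_coe, conjDMat, Matrix.trace_fin_two_of, Matrix.trace_fin_two]
      rfl)
  ext γ
  have := key (Additive.toMul γ)
  rw [subG_index hW hWN] at this
  exact congrArg Multiplicative.toAdd this

end Final

end Fermat.Agent.S41Lib
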