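import Fermat.Agent.S41.InterFin

/-!
# S41: the cusp lemma (CE)

Primitive integer vectors which are congruent mod `N` are `Γ(N)`-equivalent.  Consequence: for a
prime `W ≡ 1 mod N` the Hecke correspondence `T_W` fixes every cusp of `Γ₀(N)`.
-/

open Matrix MatrixGroups CongruenceSubgroup

namespace Fermat.Agent.S41Lib

lemma isCoprime_sv (h : SL(2, ℤ)) {v : V2} (hv : IsCoprime v.1 v.2) :
    IsCoprime (sv h v).1 (sv h v).2 := by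
  obtain ⟨α, β, hab⟩ := hv
  have hdet : h 0 0 * h 1 1 - h 0 1 * h 1 0 = 1 := by
    have := h.2; rwa [Matrix.det_fin_two] at this
  refine ⟨α * h 1 1 - β * h 1 0, β * h 0 0 - α * h 0 1, ?_⟩
  simp only [sv, mv]
  linear_combination (α * v.1 + β * v.2) * hdet + hab

lemma exists_sl_of_primitive {z : V2} (hz : IsCoprime z.1 z.2) :
    ∃ g : SL(2, ℤ), sv g (1, 0) = z := by
  obtain ⟨a, b, hab⟩ := hz
  refine ⟨⟨!![z.1, -b; z.2, a], ?_⟩, ?_⟩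
  · rw [Matrix.det_fin_two_of]; linarith
  · ext <;> simp [sv, mv]

lemma exists_Gamma_e1 (N : ℕ) {a c : ℤ} (hac : IsCoprime a c) (ha : (N : ℤ) ∣ a - 1)
    (hc : (N : ℤ) ∣ c) : ∃ τ : SL(2, ℤ), τ ∈ Gamma N ∧ sv τ (1, 0) = (a, c) := by
  obtain ⟨d0, b0', hab⟩ := hac
  -- d0 * a + b0' * c = 1 ; b0 = - b0'
  refine ⟨⟨!![a, -b0' + b0' * a; c, d0 + b0' * c], ?_⟩, ?_, ?_⟩
  · rw [Matrix.det_fin_two_of]; linear_combination hab
  · rw [Gamma_mem]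
    have e1 : ((a : ℤ) : ZMod N) = 1 := by
      have := (ZMod.intCast_zmod_eq_zero_iff_dvd (a - 1) N).mpr ha
      push_cast at this
      exact sub_eq_zero.mp this
    have e2 : ((c : ℤ) : ZMod N) = 0 := (ZMod.intCast_zmod_eq_zero_iff_dvd c N).mpr hc
    have e3 : ((d0 : ℤ) : ZMod N) = 1 := by
      have := congrArg (fun x : ℤ => (x : ZMod N)) hab
      push_cast at this
      rw [e1, e2] at this
      simpa using this
    refine ⟨?_, ?_, ?_, ?_⟩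
    · simpa using e1
    · simp [e1]
    · simpa using e2
    · simp [e2, e3]
  · ext <;> simp [sv, mv]

/-- primitive vectors congruent mod `N` are `Γ(N)`-equivalent -/
theorem primitive_congr (N : ℕ) {z y : V2} (hz : IsCoprime z.1 z.2) (hy : IsCoprime y.1 y.2)
    (h1 : (N : ℤ) ∣ y.1 - z.1) (h2 : (N : ℤ) ∣ y.2 - z.2) :
    ∃ σ : SL(2, ℤ), σ ∈ Gamma N ∧ sv σ z = y := by
  obtain ⟨g, hg⟩ := exists_sl_of_primitive hz
  have hcop := isCoprime_sv g⁻¹ hy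
  have hsub : sv g⁻¹ y = (1, 0) + sv g⁻¹ (y - z) := by
    have : sv g⁻¹ z = (1, 0) := by rw [← hg, sv_inv_sv]
    rw [← this, ← sv_add]; congr 1; abel
  have ha : (N : ℤ) ∣ (sv g⁻¹ y).1 - 1 := by
    rw [hsub]
    simp only [sv, mv, Prod.fst_add, Prod.fst_sub, Prod.snd_sub, add_sub_cancel_left]
    exact dvd_add (Dvd.dvd.mul_left h1 _) (Dvd.dvd.mul_left h2 _)
  have hc : (N : ℤ) ∣ (sv g⁻¹ y).2 := by
    rw [hsub]
    simp only [sv, mv, Prod.snd_add, Prod.fst_sub, Prod.snd_sub, zero_add]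
    exact dvd_add (Dvd.dvd.mul_left h1 _) (Dvd.dvd.mul_left h2 _)
  obtain ⟨τ, hτ, hτ1⟩ := exists_Gamma_e1 N hcop ha hc
  refine ⟨g * τ * g⁻¹, (Gamma_normal N).conj_mem τ hτ g, ?_⟩
  rw [sv_mul, sv_mul, ← hg, sv_inv_sv, hτ1]
  exact sv_sv_inv g y

lemma Gamma_le_Gamma0' (N : ℕ) : Gamma N ≤ Gamma0 N := by
  intro γ hγ
  rw [Gamma_mem] at hγ
  rw [Gamma0_mem]
  exact hγ.2.2.1

lemma isCoprime_of_prime_not_dvd {W : ℕ} (hW : W.Prime) {a : ℤ} (h : ¬ (W : ℤ) ∣ a) :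
    IsCoprime a (W : ℤ) :=
  ((Nat.prime_iff_prime_int.mp hW).irreducible.coprime_iff_not_dvd.mpr h).symm

/-- primitive version, `diag(1,W)` -/
lemma cusp_prim_1W {N W : ℕ} (hW : W.Prime) (hW1 : (N : ℤ) ∣ (W : ℤ) - 1) {z : V2}
    (hz : IsCoprime z.1 z.2) :
    ∃ (σ : SL(2, ℤ)) (c : ℤ), σ ∈ Gamma N ∧ c ≠ 0 ∧
      (z.1, (W : ℤ) * z.2) = (c * (sv σ z).1, c * (sv σ z).2) := by
  have hW0 : (W : ℤ) ≠ 0 := by exact_mod_cast hW.ne_zero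
  by_cases hd : (W : ℤ) ∣ z.1
  · obtain ⟨t, ht⟩ := hd
    have hy : IsCoprime (t, z.2).1 (t, z.2).2 := by
      rw [ht] at hz; exact hz.of_mul_left_right
    obtain ⟨σ, hσ, hσz⟩ := primitive_congr N hz hy
      (by
        show (N : ℤ) ∣ t - z.1
        rw [ht]
        have : t - (W : ℤ) * t = ((W : ℤ) - 1) * (-t) := by ring
        rw [this]; exact Dvd.dvd.mul_right hW1 _)
      (by simp)
    refine ⟨σ, W, hσ, hW0, ?_⟩
    rw [hσz, ht]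
  · have hy : IsCoprime (z.1, (W : ℤ) * z.2).1 (z.1, (W : ℤ) * z.2).2 :=
      IsCoprime.mul_right (isCoprime_of_prime_not_dvd hW hd) hz
    obtain ⟨σ, hσ, hσz⟩ := primitive_congr N hz hy (by simp)
      (by
        show (N : ℤ) ∣ (W : ℤ) * z.2 - z.2
        have : (W : ℤ) * z.2 - z.2 = ((W : ℤ) - 1) * z.2 := by ring
        rw [this]; exact Dvd.dvd.mul_right hW1 _)
    refine ⟨σ, 1, hσ, one_ne_zero, ?_⟩
    rw [hσz]; simp

/-- primitive version, `diag(W,1)` -/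
lemma cusp_prim_W1 {N W : ℕ} (hW : W.Prime) (hW1 : (N : ℤ) ∣ (W : ℤ) - 1) {z : V2}
    (hz : IsCoprime z.1 z.2) :
    ∃ (σ : SL(2, ℤ)) (c : ℤ), σ ∈ Gamma N ∧ c ≠ 0 ∧
      ((W : ℤ) * z.1, z.2) = (c * (sv σ z).1, c * (sv σ z).2) := by
  have hW0 : (W : ℤ) ≠ 0 := by exact_mod_cast hW.ne_zero
  by_cases hd : (W : ℤ) ∣ z.2
  · obtain ⟨t, ht⟩ := hd
    have hy : IsCoprime (z.1, t).1 (z.1, t).2 := by
      rw [ht] at hz; exact hz.of_mul_right_right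
    obtain ⟨σ, hσ, hσz⟩ := primitive_congr N hz hy (by simp)
      (by
        show (N : ℤ) ∣ t - z.2
        rw [ht]
        have : t - (W : ℤ) * t = ((W : ℤ) - 1) * (-t) := by ring
        rw [this]; exact Dvd.dvd.mul_right hW1 _)
    refine ⟨σ, W, hσ, hW0, ?_⟩
    rw [hσz, ht]
  · have hy : IsCoprime ((W : ℤ) * z.1, z.2).1 ((W : ℤ) * z.1, z.2).2 :=
      IsCoprime.mul_left (isCoprime_of_prime_not_dvd hW hd).symm hz
    obtain ⟨σ, hσ, hσz⟩ := primitive_congr N hz hy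
      (by
        show (N : ℤ) ∣ (W : ℤ) * z.1 - z.1
        have : (W : ℤ) * z.1 - z.1 = ((W : ℤ) - 1) * z.1 := by ring
        rw [this]; exact Dvd.dvd.mul_right hW1 _)
      (by simp)
    refine ⟨σ, 1, hσ, one_ne_zero, ?_⟩
    rw [hσz]; simp

lemma exists_primitive {y : V2} (hy : y ≠ 0) :
    ∃ (c : ℤ) (y0 : V2), c ≠ 0 ∧ IsCoprime y0.1 y0.2 ∧ y = (c * y0.1, c * y0.2) := by
  have hg : 0 < Int.gcd y.1 y.2 := by
    rw [Nat.pos_iff_ne_zero, Ne, Int.gcd_eq_zero_iff]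
    rintro ⟨h1, h2⟩
    exact hy (Prod.ext h1 h2)
  obtain ⟨m', n', h1, h2, h3⟩ := Int.exists_gcd_one hg
  refine ⟨Int.gcd y.1 y.2, (m', n'), by exact_mod_cast hg.ne', Int.isCoprime_iff_gcd_eq_one.mpr h1, ?_⟩
  ext
  · simp only; rw [mul_comm]; exact h2
  · simp only; rw [mul_comm]; exact h3

/-- **(CE)** for `diag(1,W)`. -/
theorem cusp_equiv_1W {N W : ℕ} (hW : W.Prime) (hW1 : (N : ℤ) ∣ (W : ℤ) - 1)
    (ρ : Gamma0 N) (y : V2) (hy : y ≠ 0) :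
    ∃ (γ : Gamma0 N) (k k' : ℤ), k ≠ 0 ∧ k' ≠ 0 ∧
      (k' * (mv !![1, 0; 0, (W : ℤ)] (sv ρ y)).1, k' * (mv !![1, 0; 0, (W : ℤ)] (sv ρ y)).2)
        = (k * (sv γ y).1, k * (sv γ y).2) := by
  obtain ⟨c0, y0, hc0, hy0, rfl⟩ := exists_primitive hy
  obtain ⟨σ, c, hσ, hc, he⟩ := cusp_prim_1W hW hW1 (isCoprime_sv (ρ : SL(2, ℤ)) hy0)
  refine ⟨⟨σ, Gamma_le_Gamma0' N hσ⟩ * ρ, c, 1, hc, one_ne_zero, ?_⟩
  have e1 := congrArg Prod.fst he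
  have e2 := congrArg Prod.snd he
  simp only at e1 e2
  rw [Subgroup.coe_mul, sv_mul, sv_smul, sv_smul]
  ext
  · simp only [mv]; simp; rw [e1]; ring
  · simp only [mv]; simp
    have : (W : ℤ) * (c0 * (sv (ρ : SL(2, ℤ)) y0).2) = c0 * ((W : ℤ) * (sv (ρ : SL(2, ℤ)) y0).2) := by
      ring
    rw [this, e2]; ring

/-- **(CE)** for `diag(W,1)`. -/
theorem cusp_equiv_W1 {N W : ℕ} (hW : W.Prime) (hW1 : (N : ℤ) ∣ (W : ℤ) - 1)
    (ρ : Gamma0 N) (y : V2) (hy : y ≠ 0) :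
    ∃ (γ : Gamma0 N) (k k' : ℤ), k ≠ 0 ∧ k' ≠ 0 ∧
      (k' * (mv !![(W : ℤ), 0; 0, 1] (sv ρ y)).1, k' * (mv !![(W : ℤ), 0; 0, 1] (sv ρ y)).2)
        = (k * (sv γ y).1, k * (sv γ y).2) := by
  obtain ⟨c0, y0, hc0, hy0, rfl⟩ := exists_primitive hy
  obtain ⟨σ, c, hσ, hc, he⟩ := cusp_prim_W1 hW hW1 (isCoprime_sv (ρ : SL(2, ℤ)) hy0)
  refine ⟨⟨σ, Gamma_le_Gamma0' N hσ⟩ * ρ, c, 1, hc, one_ne_zero, ?_⟩
  have e1 := congrArg Prod.fst he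
  have e2 := congrArg Prod.snd he
  simp only at e1 e2
  rw [Subgroup.coe_mul, sv_mul, sv_smul, sv_smul]
  ext
  · simp only [mv]; simp
    have : (W : ℤ) * (c0 * (sv (ρ : SL(2, ℤ)) y0).1) = c0 * ((W : ℤ) * (sv (ρ : SL(2, ℤ)) y0).1) := by
      ring
    rw [this, e1]; ring
  · simp only [mv]; simp; rw [e2]; ring

end Fermat.Agent.S41Lib
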