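import Fermat.Agent.S41.InterLoc
import Fermat.Agent.S41.IntNat

/-!
# S41: Poincaré duality surjectivity (PD)

Every homomorphism `φ : G → ℤ` on a finite index subgroup `G ≤ SL(2,ℤ)` satisfies
`8 φ = ∑ n(t) · symHom G (t e₁) (t e₂)`, a `ℤ`-combination of intersection homomorphisms with
Farey edges.
-/

open Matrix MatrixGroups Function

namespace Fermat.Agent.S41Lib

section potential

variable {Γ : Type*} [Group Γ]

lemma hom_eq_zero_of_finOrder {G : Subgroup Γ} (φ : Additive G →+ ℤ) (g : G)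
    (hg : IsOfFinOrder (g : Γ)) : φ (Additive.ofMul g) = 0 := by
  obtain ⟨n, hn, hgn⟩ := hg.exists_pow_eq_one
  have h1 : g ^ n = 1 := Subtype.ext (by simpa using hgn)
  have h2 : n • φ (Additive.ofMul g) = 0 := by
    rw [← map_nsmul, ← ofMul_pow, h1]; simp
  rcases smul_eq_zero.mp h2 with h | h
  · exact absurd h hn.ne'
  · exact h

/-- a potential for `φ`, right invariant under a torsion subgroup `H` -/
theorem exists_potential (G H : Subgroup Γ) (hH : ∀ h ∈ H, IsOfFinOrder h)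
    (φ : Additive G →+ ℤ) :
    ∃ f : Γ → ℤ, ∀ (g : G) (x h : Γ), h ∈ H →
      f (g * x * h) = φ (Additive.ofMul g) + f x := by
  classical
  let r : Setoid Γ := DoubleCoset.setoid (G : Set Γ) (H : Set Γ)
  let t : Γ → Γ := fun x => (Quotient.mk r x).out
  have ht : ∀ x, ∃ a : G, ∃ b ∈ H, x = a * t x * b := by
    intro x
    have : r (t x) x := Quotient.exact (Quotient.out_eq _)
    obtain ⟨a, ha, b, hb, e⟩ := DoubleCoset.rel_iff.mp this
    exact ⟨⟨a, ha⟩, b, hb, e⟩
  choose a b hb hab using ht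
  have uniq : ∀ (y : Γ) (a1 a2 : G) (b1 b2 : Γ), b1 ∈ H → b2 ∈ H →
      (a1 : Γ) * y * b1 = a2 * y * b2 → φ (Additive.ofMul a1) = φ (Additive.ofMul a2) := by
    intro y a1 a2 b1 b2 h1 h2 e
    have hc : ((a2⁻¹ * a1 : G) : Γ) = MulAut.conj y (b2 * b1⁻¹) := by
      rw [MulAut.conj_apply]
      have : (a1 : Γ) = a2 * y * b2 * b1⁻¹ * y⁻¹ := by
        rw [← e]; group
      push_cast
      rw [this]; group
    have hfin : IsOfFinOrder ((a2⁻¹ * a1 : G) : Γ) := by
      rw [hc]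
      exact (MulAut.conj y).toMonoidHom.isOfFinOrder (hH _ (H.mul_mem h2 (H.inv_mem h1)))
    have h0 := hom_eq_zero_of_finOrder φ _ hfin
    rw [ofMul_mul, map_add, ofMul_inv, map_neg] at h0
    linarith
  refine ⟨fun x => φ (Additive.ofMul (a x)), ?_⟩
  intro g x h hh
  have hcls : t (g * x * h) = t x := by
    show (Quotient.mk r _).out = (Quotient.mk r _).out
    congr 1
    apply Quotient.sound
    exact Setoid.symm (DoubleCoset.rel_iff.mpr ⟨g, g.2, h, hh, rfl⟩)
  have e1 := hab (g * x * h)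
  rw [hcls] at e1
  have e2 : (g : Γ) * x * h = ((g * a x : G) : Γ) * t x * (b x * h) := by
    conv_lhs => rw [hab x]
    simp [mul_assoc]
  have := uniq (t x) (a (g * x * h)) (g * a x) (b (g * x * h)) (b x * h) (hb _)
    (H.mul_mem (hb _) hh) (e1.symm.trans e2)
  show φ (Additive.ofMul (a (g * x * h))) = _
  rw [this, ofMul_mul, map_add]

end potential

open ModularGroup

/-- `U = S T`, of order 6 -/
def Ust : SL(2, ℤ) := S * T

lemma Ust_pow_three : Ust ^ 3 = -1 := by
  ext i j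
  fin_cases i <;> fin_cases j <;>
    simp [Ust, S, T, pow_succ, Matrix.mul_apply, Fin.sum_univ_two]

lemma S_mul_S : (S * S : SL(2, ℤ)) = -1 := by
  ext i j
  fin_cases i <;> fin_cases j <;> simp [S, Matrix.mul_apply, Fin.sum_univ_two]

lemma Ust_pow_six : Ust ^ 6 = 1 := by
  have : Ust ^ 6 = (Ust ^ 3) ^ 2 := by rw [← pow_mul]
  rw [this, Ust_pow_three]; simp

lemma isOfFinOrder_zpowers_Ust : ∀ h ∈ Subgroup.zpowers Ust, IsOfFinOrder h := by
  intro h hh
  obtain ⟨k, rfl⟩ := Subgroup.mem_zpowers_iff.mp hh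
  exact (isOfFinOrder_iff_pow_eq_one.mpr ⟨6, by norm_num, Ust_pow_six⟩).zpow

lemma negOne_mem_zpowers_Ust : (-1 : SL(2, ℤ)) ∈ Subgroup.zpowers Ust := by
  rw [← Ust_pow_three]; exact Subgroup.pow_mem _ (Subgroup.mem_zpowers _) _

/-- the side function of the basic Farey edge with respect to the hexagonal point -/
def sHex : SL(2, ℤ) → ℤ := sfun PD.hexP (1, 0) (0, 1)

lemma sHex_almostInv : AlmostInv sHex := sfun_almostInv _ _ _

lemma sHex_U (x : SL(2, ℤ)) : sHex (Ust * x) = sHex x := side_hexP_U x _ _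

lemma sHex_S (x : SL(2, ℤ)) (hx : ¬ (x = 1 ∨ x = -1 ∨ x = S ∨ x = -S)) :
    sHex x = sHex (S * x) := side_hexP_S x hx

lemma sHex_one : sHex 1 = 1 := side_hexP_sv_one
lemma sHex_negOne : sHex (-1) = 1 := side_hexP_sv_negOne
lemma sHex_S' : sHex S = -1 := side_hexP_sv_S
lemma sHex_negS : sHex (-S) = -1 := side_hexP_sv_negS

lemma SL_one_ne_negOne : (1 : SL(2, ℤ)) ≠ -1 := by
  intro h; have := congrArg (fun g : SL(2, ℤ) => g 0 0) h; simp at this

lemma SL_one_ne_S : (1 : SL(2, ℤ)) ≠ S := by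
  intro h; have := congrArg (fun g : SL(2, ℤ) => g 0 0) h; simp [S] at this

lemma SL_one_ne_negS : (1 : SL(2, ℤ)) ≠ -S := by
  intro h; have := congrArg (fun g : SL(2, ℤ) => g 0 0) h; simp [S] at this

lemma SL_negOne_ne_S : (-1 : SL(2, ℤ)) ≠ S := by
  intro h; have := congrArg (fun g : SL(2, ℤ) => g 0 0) h; simp [S] at this

lemma SL_negOne_ne_negS : (-1 : SL(2, ℤ)) ≠ -S := by
  intro h; have := congrArg (fun g : SL(2, ℤ) => g 0 0) h; simp [S] at this

lemma SL_S_ne_negS : (S : SL(2, ℤ)) ≠ -S := by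
  intro h; have := congrArg (fun g : SL(2, ℤ) => g 1 0) h; simp [S] at this

/-- the local computation at `S` -/
lemma finsum_DS (m : SL(2, ℤ) → ℤ) :
    ∑ᶠ x, m x * (sHex x - sHex (S * x)) = 2 * m 1 + 2 * m (-1) - 2 * m S - 2 * m (-S) := by
  classical
  have hsub : support (fun x => m x * (sHex x - sHex (S * x)))
      ⊆ ((({1, -1, S, -S} : Finset SL(2, ℤ))) : Set SL(2, ℤ)) := by
    intro x hx
    by_contra hcon
    apply hx
    have : ¬ (x = 1 ∨ x = -1 ∨ x = S ∨ x = -S) := by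
      simpa using hcon
    show m x * (sHex x - sHex (S * x)) = 0
    rw [sHex_S x this, sub_self, mul_zero]
  rw [finsum_eq_sum_of_support_subset _ hsub]
  rw [Finset.sum_insert (by simp [SL_one_ne_negOne, SL_one_ne_S, SL_one_ne_negS]),
    Finset.sum_insert (by simp [SL_negOne_ne_S, SL_one_ne_S]),
    Finset.sum_insert (by simp [SL_S_ne_negS]), Finset.sum_singleton]
  have e1 : S * (1 : SL(2, ℤ)) = S := mul_one _
  have e2 : S * (-1 : SL(2, ℤ)) = -S := by simp
  have e3 : S * (-S : SL(2, ℤ)) = 1 := by rw [mul_neg, S_mul_S, neg_neg]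
  rw [e1, e2, e3, S_mul_S, sHex_one, sHex_negOne, sHex_S', sHex_negS]
  ring

/-- the weighted flux -/
noncomputable def wFlux (n : SL(2, ℤ) → ℤ) (g : SL(2, ℤ)) : ℤ :=
  ∑ᶠ x, n x * (sHex x - sHex (g * x))

lemma wFlux_support (n : SL(2, ℤ) → ℤ) (g : SL(2, ℤ)) :
    (support fun x => n x * (sHex x - sHex (g * x))).Finite :=
  (sHex_almostInv g).subset (support_mul_subset_right _ _)

lemma wFlux_mul (n : SL(2, ℤ) → ℤ) (g₁ g₂ : SL(2, ℤ)) :
    wFlux n (g₁ * g₂) = wFlux n g₂ + ∑ᶠ x, n (g₂⁻¹ * x) * (sHex x - sHex (g₁ * x)) := by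
  have e : (fun x => n x * (sHex x - sHex (g₁ * g₂ * x)))
      = fun x => n x * (sHex x - sHex (g₂ * x))
        + (fun y => n (g₂⁻¹ * y) * (sHex y - sHex (g₁ * y))) (g₂ * x) := by
    funext x
    simp only [inv_mul_cancel_left, mul_assoc]; ring
  unfold wFlux
  rw [e, finsum_add_distrib (wFlux_support n g₂)
    (support_mulLeft_finite (wFlux_support (fun y => n (g₂⁻¹ * y)) g₁) g₂),
    finsum_mulLeft (fun y => n (g₂⁻¹ * y) * (sHex y - sHex (g₁ * y))) g₂]

/-- the global computation: the weighted flux of `n(x) = f(xS) - f(x)` -/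
theorem wFlux_eq (f : SL(2, ℤ) → ℤ) (hf : ∀ x h, h ∈ Subgroup.zpowers Ust → f (x * h) = f x)
    (g : SL(2, ℤ)) :
    wFlux (fun x => f (x * S) - f x) g = 8 * (f g⁻¹ - f 1) := by
  set n : SL(2, ℤ) → ℤ := fun x => f (x * S) - f x with hn
  have fneg : ∀ x, f (-x) = f x := by
    intro x
    have := hf x (-1) negOne_mem_zpowers_Ust
    simpa using this
  have nneg : ∀ x, n (-x) = n x := by
    intro x
    simp only [hn, neg_mul, fneg]
  have nS : ∀ x, n (x * S) = - n x := by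
    intro x
    simp only [hn, mul_assoc, S_mul_S, mul_neg, mul_one, fneg]; ring
  have stepU : ∀ z, wFlux n (Ust * z) = wFlux n z := by
    intro z
    rw [wFlux_mul]
    simp [sHex_U]
  have stepS : ∀ z, wFlux n (S * z) = wFlux n z + 8 * n z⁻¹ := by
    intro z
    rw [wFlux_mul, finsum_DS (fun x => n (z⁻¹ * x))]
    simp only [mul_one, mul_neg, nneg, nS]; ring
  have fU : ∀ z : SL(2, ℤ), f (Ust * z)⁻¹ = f z⁻¹ := by
    intro z
    rw [_root_.mul_inv_rev]
    exact hf _ _ (Subgroup.inv_mem _ (Subgroup.mem_zpowers _))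
  have Sinv : (S : SL(2, ℤ))⁻¹ = -S := by
    rw [inv_eq_iff_mul_eq_one, mul_neg, S_mul_S, neg_neg]
  have fS : ∀ z : SL(2, ℤ), f (S * z)⁻¹ = f z⁻¹ + n z⁻¹ := by
    intro z
    rw [_root_.mul_inv_rev, Sinv, mul_neg, fneg]
    simp only [hn]; ring
  have PU : ∀ z, wFlux n (Ust * z) = 8 * (f (Ust * z)⁻¹ - f 1) ↔
      wFlux n z = 8 * (f z⁻¹ - f 1) := by
    intro z; rw [stepU, fU]
  have PS : ∀ z, wFlux n (S * z) = 8 * (f (S * z)⁻¹ - f 1) ↔
      wFlux n z = 8 * (f z⁻¹ - f 1) := by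
    intro z; rw [stepS, fS]
    constructor <;> intro h <;> linarith
  have PT : ∀ z, wFlux n (T * z) = 8 * (f (T * z)⁻¹ - f 1) ↔
      wFlux n z = 8 * (f z⁻¹ - f 1) := by
    intro z
    rw [← PS (T * z), ← mul_assoc]
    exact PU z
  have hg : g ∈ Subgroup.closure ({S, T} : Set SL(2, ℤ)) := by
    rw [SpecialLinearGroup.SL2Z_generators]; trivial
  induction hg using Subgroup.closure_induction_left with
  | one => simp [wFlux]
  | mul_left x hx y _ ih =>
    rcases hx with rfl | rfl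
    · exact (PS y).mpr ih
    · exact (PT y).mpr ih
  | inv_mul_cancel x hx y _ ih =>
    rcases hx with rfl | rfl
    · apply (PS _).mp; rwa [mul_inv_cancel_left]
    · apply (PT _).mp; rwa [mul_inv_cancel_left]

/-- reindexing the weighted flux of a left `G`-invariant weight along `G \ SL(2,ℤ)` -/
theorem wFlux_eq_sum (G : Subgroup SL(2, ℤ)) (n : SL(2, ℤ) → ℤ)
    (hn : ∀ (g : G) x, n (g * x) = n x) {ι : Type*} [Fintype ι] (ρ : ι → SL(2, ℤ))
    (hρ : Bijective fun p : ι × G => (p.2 : SL(2, ℤ)) * ρ p.1) (g : G) :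
    wFlux n g = ∑ i, n (ρ i) * symVal G (sv (ρ i) (1, 0)) (sv (ρ i) (0, 1)) g := by
  unfold wFlux
  rw [finsum_eq_sum_finsum _ hρ (wFlux_support n g)]
  refine Finset.sum_congr rfl fun i _ => ?_
  rw [symVal_eq G PD.hexP, aiVal, mul_finsum]
  congr 1; funext h
  simp only [hn]
  rw [← sfun_mul_right, ← sfun_mul_right]
  simp only [sHex, Subgroup.coe_mul, mul_assoc]

/-- **(PD)** every homomorphism `G → ℤ` is, up to the factor `8`, an integral combination of
intersection homomorphisms with Farey edges. -/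
theorem pd_surj (G : Subgroup SL(2, ℤ)) [G.FiniteIndex] (φ : Additive G →+ ℤ) :
    ∃ (s : Finset SL(2, ℤ)) (n : SL(2, ℤ) → ℤ),
      (8 : ℤ) • φ = ∑ t ∈ s, n t • symHom G (sv t (1, 0)) (sv t (0, 1)) := by
  classical
  obtain ⟨f, hf⟩ := exists_potential G (Subgroup.zpowers Ust) isOfFinOrder_zpowers_Ust φ
  have fH : ∀ x h, h ∈ Subgroup.zpowers Ust → f (x * h) = f x := by
    intro x h hh
    have := hf 1 x h hh
    simpa using this
  have fG : ∀ (g : G) x, f (g * x) = φ (Additive.ofMul g) + f x := by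
    intro g x
    have := hf g x 1 (Subgroup.one_mem _)
    simpa using this
  set n : SL(2, ℤ) → ℤ := fun x => f (x * S) - f x with hn
  have nG : ∀ (g : G) x, n (g * x) = n x := by
    intro g x
    simp only [hn, mul_assoc, fG]; ring
  haveI : G.subtype.range.FiniteIndex := by rw [Subgroup.range_subtype]; infer_instance
  obtain ⟨ρ, hρ⟩ := exists_right_family G.subtype Subtype.val_injective
  letI := G.subtype.range.fintypeQuotientOfFiniteIndex
  have hρ' : Bijective fun p : (SL(2, ℤ) ⧸ G.subtype.range) × G => (p.2 : SL(2, ℤ)) * ρ p.1 := hρ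
  have hinj : Injective ρ := by
    intro q q' h
    have := hρ'.injective (a₁ := (q, 1)) (a₂ := (q', 1)) (by simp [h])
    exact congrArg Prod.fst this
  refine ⟨Finset.univ.image ρ, fun t => - n t, ?_⟩
  apply symHom_ext
  intro g
  rw [Finset.sum_image (fun a _ b _ h => hinj h)]
  have h1 := wFlux_eq f fH (g : SL(2, ℤ))
  rw [wFlux_eq_sum G n nG ρ hρ' g] at h1
  have h2 : f ((g : SL(2, ℤ))⁻¹) = - φ (Additive.ofMul g) + f 1 := by
    have := fG g⁻¹ 1
    rw [mul_one, ofMul_inv, map_neg] at this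
    simpa using this
  rw [h2] at h1
  simp only [AddMonoidHom.smul_apply, AddMonoidHom.finsetSum_apply, symHom_apply, smul_eq_mul,
    neg_mul, Finset.sum_neg_distrib]
  rw [h1]; ring

end Fermat.Agent.S41Lib
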