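/-
S41 duality, part 6: (F3) with (CE), (PD) and the index discharged; only Ihara's lemma remains
as a hypothesis (`IharaProp`).
-/
import Fermat.Agent.S41.IntF3
import Fermat.Agent.S41.InterPD
import Fermat.Agent.S41.InterCusp
import Fermat.Agent.S41.IharaInst2

set_option autoImplicit false

open scoped MatrixGroups
open CongruenceSubgroup Function ModularCurve.Period

namespace Fermat.Agent.S41Lib

theorem cuspEquiv_of_modEq {N W : ℕ} (hW : W.Prime) (hW1 : W ≡ 1 [MOD N]) : CuspEquiv N W := by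
  intro ρ y hy
  have h : (N : ℤ) ∣ (W : ℤ) - 1 := by
    have := (Nat.modEq_iff_dvd).mp hW1.symm
    simpa using this
  exact cusp_equiv_W1 hW h ρ y hy

theorem farey_emb_injective :
    Injective fun t : SL(2, ℤ) => ((sv t (1, 0), sv t (0, 1)) : V2 × V2) := by
  intro t t' h
  have h1 : sv t (1, 0) = sv t' (1, 0) := congrArg Prod.fst h
  have h2 : sv t (0, 1) = sv t' (0, 1) := congrArg Prod.snd h
  simp only [sv, mv, mul_one, mul_zero, add_zero, zero_add, Prod.mk.injEq] at h1 h2
  apply Subtype.ext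
  ext i j
  fin_cases i <;> fin_cases j
  · exact h1.1
  · exact h2.1
  · exact h1.2
  · exact h2.2

theorem e2_ne_zero : ((0, 1) : V2) ≠ 0 := by
  intro h; have := congrArg Prod.snd h; simp at this

theorem pdProp (N : ℕ) [NeZero N] : PDProp N := by
  intro φ
  obtain ⟨s, n, h⟩ := pd_surj (Gamma0 N) φ
  refine ⟨s.map ⟨_, farey_emb_injective⟩,
    fun x => n (Function.invFun (fun t : SL(2, ℤ) => ((sv t (1, 0), sv t (0, 1)) : V2 × V2)) x),
    ?_, ?_⟩
  · intro x hx
    obtain ⟨t, _, rfl⟩ := Finset.mem_map.mp hx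
    exact ⟨sv_ne_zero t e1_ne_zero, sv_ne_zero t e2_ne_zero⟩
  · rw [h, Finset.sum_map]
    refine Finset.sum_congr rfl fun t _ => ?_
    simp only [Function.Embedding.coeFn_mk]
    rw [Function.leftInverse_invFun farey_emb_injective t]

theorem range_inclG_index {N W : ℕ} [NeZero N] (hW : W.Prime) (hWN : ¬ W ∣ N) :
    (inclG N W).range.index = W + 1 := by
  have : (inclG N W).range = subG N W := Subgroup.inclusion_range _
  rw [this, subG_index hW hWN]

/-- (F3), with Ihara's lemma as the only hypothesis. -/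
theorem beta_surj_of_ihara {N r W p : ℕ} [NeZero N] [NeZero r] [NeZero W] [NeZero (N * r)]
    [NeZero (N * W)] (hW : W.Prime) (hWN : ¬ W ∣ N) (hW1 : W ≡ 1 [MOD N]) (hp : p.Prime)
    (hp2 : p ≠ 2) (hI : IharaProp N r W (ZMod p)) (u₁ u₂ : Additive (Gamma0 N) →+ ℤ) :
    ∃ (z : Additive (Gamma0 (N * r)) →+ ℤ) (w₁ w₂ : Additive (Gamma0 N) →+ ℤ),
      eisU N W (eisU N W u₁) = cores N r z + p • w₁ ∧
      eisU N W (eisU N W u₂) = coresD N r z + p • w₂ := by
  have : Fact p.Prime := ⟨hp⟩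
  exact beta_surj_of hp2 hI (cuspEquiv_of_modEq hW hW1) (pdProp N) (range_inclG_index hW hWN) u₁ u₂

end Fermat.Agent.S41Lib
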