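import Fermat.Agent.S41.CoreAbs
import Fermat.Agent.S41.CoreFin
import Fermat.Agent.S41.HC2
import Fermat.Agent.S41.IntF3b
import Fermat.Agent.S41.Bridge5

/-!
# S41: steps 3 and 4 of the level raising chain (pure algebra on `Hom(Γ₀(M), ℤ)`)

From a class `x₀ ∈ Hom(Γ₀(N),ℤ)`, nonzero mod `p`, parabolic, with `T_r x₀ ≡ ε (r+1) x₀`,
`T_W x₀ ≡ n_W x₀`, `n_W ≢ W+1 mod p`, we produce `x₁ ∈ Hom(Γ₀(Nr),ℤ)`, nonzero mod `p`, killed by
both degeneracy (corestriction) maps, and congruent mod `p` to a unit multiple of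
`res x₀ - ε resD x₀`.
-/

set_option autoImplicit false

open scoped MatrixGroups
open CongruenceSubgroup Function ModularCurve.Period

namespace Fermat.Agent.S41Lib

section Eis

variable {A : Type*} [AddCommGroup A]

theorem eisU_res {N r W : ℕ} [NeZero W] (hW : W.Prime) (hWN : ¬ W ∣ N * r)
    (Φ : Additive (Gamma0 N) →+ A) :
    eisU (N * r) W (res N r Φ) = res N r (eisU N W Φ) := by
  unfold eisU
  rw [heckeHomU_res hW hWN, map_sub, map_nsmul]

theorem eisU_resD {N r W : ℕ} [NeZero W] [NeZero r] (hW : W.Prime) (hWN : ¬ W ∣ N * r)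
    (Φ : Additive (Gamma0 N) →+ A) :
    eisU (N * r) W (resD N r Φ) = resD N r (eisU N W Φ) := by
  unfold eisU
  rw [heckeHomU_resD hW hWN, map_sub, map_nsmul]

theorem eisU_cores {N r W : ℕ} [NeZero N] [NeZero W] [NeZero r] [NeZero (N * r)] (hr : r.Prime)
    (hrN : ¬ r ∣ N * W) (Ψ : Additive (Gamma0 (N * r)) →+ A) :
    eisU N W (cores N r Ψ) = cores N r (eisU (N * r) W Ψ) := by
  unfold eisU
  rw [heckeHomU_cores hr hrN, ← coresAdd_apply, ← coresAdd_apply, ← coresAdd_apply, map_sub,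
    map_nsmul]

theorem eisU_coresD {N r W : ℕ} [NeZero W] [NeZero r] (hr : r.Prime)
    (hrN : ¬ r ∣ N * W) (Ψ : Additive (Gamma0 (N * r)) →+ A) :
    eisU N W (coresD N r Ψ) = coresD N r (eisU (N * r) W Ψ) := by
  unfold eisU
  rw [heckeHomU_coresD hr hrN, ← coresDAdd_apply, ← coresDAdd_apply, ← coresDAdd_apply, map_sub,
    map_nsmul]

end Eis

/-- Ihara's lemma for `heckeHomU`, as a hypothesis -/
def IharaPropU (N r W : ℕ) [NeZero r] [NeZero W] (A : Type*) [AddCommGroup A] : Prop :=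
  ∀ (Φ₁ Φ₂ : Additive (Gamma0 N) →+ A), IsParabolicHom (Gamma0 N) Φ₁ →
    IsParabolicHom (Gamma0 N) Φ₂ → res N r Φ₁ = resD N r Φ₂ →
    heckeHomU N W Φ₁ = (W + 1) • Φ₁ ∧ heckeHomU N W Φ₂ = (W + 1) • Φ₂

/-- a homomorphism to `ℤ` with all values divisible by `p` is divisible by `p` -/
theorem exists_smul_of_forall_dvd {G : Type*} [AddGroup G] (p : ℤ) (Φ : G →+ ℤ)
    (h : ∀ g, p ∣ Φ g) : ∃ w : G →+ ℤ, Φ = p • w := by
  refine ⟨AddMonoidHom.mk' (fun g => Φ g / p) ?_, ?_⟩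
  · intro a b
    rw [map_add, Int.add_ediv_of_dvd_left (h a)]
  · ext g
    simp only [AddMonoidHom.smul_apply, AddMonoidHom.mk'_apply, smul_eq_mul]
    rw [Int.mul_ediv_cancel' (h g)]

theorem exists_smul_of_comp_eq_zero {G : Type*} [AddGroup G] (p : ℕ) (Φ : G →+ ℤ)
    (h : (Int.castAddHom (ZMod p)).comp Φ = 0) : ∃ w : G →+ ℤ, Φ = (p : ℤ) • w := by
  apply exists_smul_of_forall_dvd (p : ℤ)
  intro g
  have := DFunLike.congr_fun h g
  simpa [ZMod.intCast_zmod_eq_zero_iff_dvd] using this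

/-- step 3: `y = res x₀ - ε resD x₀` is nonzero mod `p` (Ihara) -/
theorem y_not_dvd {N r W p : ℕ} [NeZero r] [NeZero W] (hp : p.Prime)
    (hIU : IharaPropU N r W (ZMod p)) (x0 : Additive (Gamma0 N) →+ ℤ)
    (hpar : IsParabolicHom (Gamma0 N) x0) (hx0 : ¬ ∃ w, x0 = (p : ℤ) • w) (eps nW : ℤ)
    (wW : Additive (Gamma0 N) →+ ℤ) (hTW : heckeHomU N W x0 = nW • x0 + (p : ℤ) • wW)
    (hnW : ¬ (p : ℤ) ∣ nW - (W + 1)) :
    ¬ ∃ w', res N r x0 - eps • resD N r x0 = (p : ℤ) • w' := by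
  rintro ⟨w', hw'⟩
  apply hx0
  set ξ := Int.castAddHom (ZMod p) with hξ
  have hglue : res N r (ξ.comp x0) = resD N r (ξ.comp (eps • x0)) := by
    rw [res_comp, resD_comp, map_zsmul]
    have h1 : res N r x0 = eps • resD N r x0 + (p : ℤ) • w' := by rw [← hw']; abel
    rw [h1]
    ext g
    simp [hξ]
  have hp1 : IsParabolicHom (Gamma0 N) (ξ.comp x0) := by
    intro γ hγ
    rw [AddMonoidHom.comp_apply, hpar γ hγ, map_zero]
  have hp2 : IsParabolicHom (Gamma0 N) (ξ.comp (eps • x0)) := by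
    intro γ hγ
    rw [AddMonoidHom.comp_apply, AddMonoidHom.smul_apply, hpar γ hγ, smul_zero, map_zero]
  obtain ⟨h1, -⟩ := hIU _ _ hp1 hp2 hglue
  rw [heckeHomU_comp, hTW] at h1
  apply exists_smul_of_forall_dvd
  intro g
  have h2 := DFunLike.congr_fun h1 g
  simp only [AddMonoidHom.comp_apply, AddMonoidHom.add_apply, AddMonoidHom.smul_apply, hξ,
    Int.coe_castAddHom, smul_eq_mul, nsmul_eq_mul] at h2
  have h3 : (((nW - (W + 1)) * x0 g : ℤ) : ZMod p) = 0 := by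
    push_cast at h2 ⊢
    have h4 : ((p : ℕ) : ZMod p) = 0 := ZMod.natCast_self p
    rw [h4, zero_mul, add_zero] at h2
    linear_combination h2
  rw [ZMod.intCast_zmod_eq_zero_iff_dvd] at h3
  exact ((Nat.prime_iff_prime_int.mp hp).dvd_or_dvd h3).resolve_left hnW

/-- **steps 3 + 4** of the level raising chain. -/
theorem core_alg {N r W p : ℕ} [NeZero N] [NeZero r] [NeZero W] [NeZero (N * r)] [NeZero (N * W)]
    (hr : r.Prime) (hrN : ¬ r ∣ N) (hW : W.Prime) (hWr : W ≠ r) (hWN : ¬ W ∣ N)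
    (hW1 : W ≡ 1 [MOD N]) (hp : p.Prime) (hp2 : p ≠ 2)
    (hI : IharaProp N r W (ZMod p)) (hIU : IharaPropU N r W (ZMod p))
    (hc5 : ∀ Φ : Additive (Gamma0 N) →+ ℤ, cores N r (res N r Φ) = (r + 1) • Φ)
    (hc5' : ∀ Φ : Additive (Gamma0 N) →+ ℤ, coresD N r (resD N r Φ) = (r + 1) • Φ)
    (hc6 : ∀ Φ : Additive (Gamma0 N) →+ ℤ, cores N r (resD N r Φ) = heckeHomU N r Φ)
    (x0 : Additive (Gamma0 N) →+ ℤ) (hpar : IsParabolicHom (Gamma0 N) x0)
    (hx0 : ¬ ∃ w, x0 = (p : ℤ) • w) (eps : ℤ) (heps : eps * eps = 1)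
    (wr : Additive (Gamma0 N) →+ ℤ)
    (hTr : heckeHomU N r x0 = (eps * (r + 1)) • x0 + (p : ℤ) • wr)
    (nW : ℤ) (wW : Additive (Gamma0 N) →+ ℤ)
    (hTW : heckeHomU N W x0 = nW • x0 + (p : ℤ) • wW) (hnW : ¬ (p : ℤ) ∣ nW - (W + 1)) :
    ∃ (x1 : Additive (Gamma0 (N * r)) →+ ℤ) (c : ℤ) (w : Additive (Gamma0 (N * r)) →+ ℤ),
      cores N r x1 = 0 ∧ coresD N r x1 = 0 ∧ ¬ (p : ℤ) ∣ c ∧
      x1 = c • (res N r x0 - eps • resD N r x0) + (p : ℤ) • w ∧ ¬ ∃ w', x1 = (p : ℤ) • w' := by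
  have hpZ := Nat.prime_iff_prime_int.mp hp
  have hWNr : ¬ W ∣ N * r := by
    intro h
    rcases (Nat.Prime.dvd_mul hW).mp h with h | h
    · exact hWN h
    · exact hWr ((Nat.prime_dvd_prime_iff_eq hW hr).mp h)
  have hrNW : ¬ r ∣ N * W := by
    intro h
    rcases (Nat.Prime.dvd_mul hr).mp h with h | h
    · exact hrN h
    · exact hWr ((Nat.prime_dvd_prime_iff_eq hr hW).mp h).symm
  set y := res N r x0 - eps • resD N r x0 with hy
  have hynd := y_not_dvd hp hIU x0 hpar hx0 eps nW wW hTW hnW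
  rw [← hy] at hynd
  -- the maps
  let β : (Additive (Gamma0 (N * r)) →+ ℤ) →ₗ[ℤ]
      (Additive (Gamma0 N) →+ ℤ) × (Additive (Gamma0 N) →+ ℤ) :=
    ((coresAdd N r).prod (coresDAdd N r)).toIntLinearMap
  let e2 : (Additive (Gamma0 N) →+ ℤ) →+ (Additive (Gamma0 N) →+ ℤ) :=
    (eisUAdd N W).comp (eisUAdd N W)
  let E : Module.End ℤ ((Additive (Gamma0 N) →+ ℤ) × (Additive (Gamma0 N) →+ ℤ)) :=
    (e2.prodMap e2).toIntLinearMap
  let E' : Module.End ℤ (Additive (Gamma0 (N * r)) →+ ℤ) :=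
    ((eisUAdd (N * r) W).comp (eisUAdd (N * r) W)).toIntLinearMap
  have hβ : ∀ z, β z = (cores N r z, coresD N r z) := fun z => rfl
  have hE : ∀ u, E u = (eisU N W (eisU N W u.1), eisU N W (eisU N W u.2)) := fun u => rfl
  have hE' : ∀ z, E' z = eisU (N * r) W (eisU (N * r) W z) := fun z => rfl
  have hcomm : ∀ z, β (E' z) = E (β z) := by
    intro z
    rw [hβ, hE, hE', hβ]
    simp only [eisU_cores hr hrNW, eisU_coresD hr hrNW]
  have hF3 : ∀ u, ∃ z w, E u = β z + (p : ℤ) • w := by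
    intro u
    obtain ⟨z, w₁, w₂, h₁, h₂⟩ := beta_surj_of_ihara hW hWN hW1 hp hp2 hI u.1 u.2
    refine ⟨z, (w₁, w₂), ?_⟩
    rw [hE, hβ, h₁, h₂]
    ext1 <;> simp
  -- `β y ∈ p M`
  have hy1 : cores N r y = (p : ℤ) • (-(eps • wr)) := by
    rw [hy, ← coresAdd_apply, map_sub, map_zsmul, coresAdd_apply, coresAdd_apply, hc5, hc6, hTr]
    have : eps • ((eps * ((r : ℤ) + 1)) • x0 + (p : ℤ) • wr)
        = (eps * eps) • (((r : ℤ) + 1) • x0) + (p : ℤ) • (eps • wr) := by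
      module
    rw [this, heps]
    have h2 : (r + 1) • x0 = ((r : ℤ) + 1) • x0 := by
      rw [← natCast_zsmul]; push_cast; rfl
    rw [h2]
    module
  have hy2 : coresD N r y = (p : ℤ) • wr := by
    rw [hy, ← coresDAdd_apply, map_sub, map_zsmul, coresDAdd_apply, coresDAdd_apply, hc5']
    have h1 : coresD N r (res N r x0) = heckeHomU N r x0 := rfl
    rw [h1, hTr]
    have h2 : (r + 1) • x0 = ((r : ℤ) + 1) • x0 := by
      rw [← natCast_zsmul]; push_cast; rfl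
    rw [h2]
    module
  have hβy : β y = (p : ℤ) • ((-(eps • wr), wr) :
      (Additive (Gamma0 N) →+ ℤ) × (Additive (Gamma0 N) →+ ℤ)) := by
    rw [hβ, hy1, hy2]; rfl
  -- `e' y ≡ c₀ y`
  set c0 : ℤ := nW - (W + 1) with hc0
  have he0 : eisU N W x0 = c0 • x0 + (p : ℤ) • wW := by
    unfold eisU
    rw [hTW]
    have h2 : (W + 1) • x0 = ((W : ℤ) + 1) • x0 := by
      rw [← natCast_zsmul]; push_cast; rfl
    rw [h2, hc0]
    module
  set v := res N r wW - eps • resD N r wW with hv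
  have he1 : eisU (N * r) W y = c0 • y + (p : ℤ) • v := by
    rw [hy, ← eisUAdd_apply, map_sub, map_zsmul, eisUAdd_apply, eisUAdd_apply, eisU_res hW hWNr,
      eisU_resD hW hWNr, he0, map_add, map_add, map_zsmul, map_zsmul, map_zsmul, map_zsmul, hv]
    module
  have he2 : E' y = (c0 * c0) • y + (p : ℤ) • (c0 • v + eisU (N * r) W v) := by
    rw [hE', he1, ← eisUAdd_apply, map_add, map_zsmul, map_zsmul, eisUAdd_apply, eisUAdd_apply, he1]
    module
  obtain ⟨x1, m, w, hx1, hx1'⟩ := abstract_core β E E' hcomm (p : ℤ) hF3 y _ hβy _ _ he2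
  have hcm : ¬ (p : ℤ) ∣ (c0 * c0) ^ m := by
    intro h
    have h1 := hpZ.dvd_of_dvd_pow h
    rcases hpZ.dvd_or_dvd h1 with h | h <;> exact hnW h
  rw [hβ] at hx1
  refine ⟨x1, (c0 * c0) ^ m, w, congrArg Prod.fst hx1, congrArg Prod.snd hx1, hcm, hx1', ?_⟩
  rintro ⟨w', hw'⟩
  apply hynd
  have hcop : IsCoprime ((c0 * c0) ^ m) (p : ℤ) :=
    ((hpZ.irreducible.coprime_iff_not_dvd).mpr hcm).symm
  obtain ⟨a, b, hab⟩ := hcop
  refine ⟨a • (w' - w) + b • y, ?_⟩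
  have h1 : ((c0 * c0) ^ m) • y = (p : ℤ) • (w' - w) := by
    have : ((c0 * c0) ^ m) • y = x1 - (p : ℤ) • w := by rw [hx1']; abel
    rw [this, hw']; module
  calc y = (a * (c0 * c0) ^ m + b * (p : ℤ)) • y := by rw [hab, one_smul]
    _ = a • (((c0 * c0) ^ m) • y) + (p : ℤ) • (b • y) := by module
    _ = (p : ℤ) • (a • (w' - w) + b • y) := by rw [h1]; module

end Fermat.Agent.S41Lib
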