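/-
S41, Hecke calculus part 3: explicit representatives, the Atkin-Lehner automorphism,
HC5, HC6, HC7.
-/
import Fermat.Agent.S41.HC2

set_option autoImplicit false
set_option linter.unusedSectionVars false
set_option linter.unnecessarySeqFocus false

open scoped MatrixGroups
open CongruenceSubgroup Function

namespace Fermat.Agent.S41Lib

theorem bijective_of_reps {G G' : Type*} [Group G] [Group G'] (j : G' →* G) (hj : Injective j)
    {ι : Type*} (ρ : ι → G) (h1 : ∀ g, ∃ i, g * (ρ i)⁻¹ ∈ j.range)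
    (h2 : ∀ i i', ρ i * (ρ i')⁻¹ ∈ j.range → i = i') :
    Bijective fun p : ι × G' => j p.2 * ρ p.1 := by
  constructor
  · rintro ⟨i, γ⟩ ⟨i₁, γ₁⟩ h
    simp only at h
    have h3 : ρ i * (ρ i₁)⁻¹ ∈ j.range := by
      refine ⟨γ⁻¹ * γ₁, ?_⟩
      have : ρ i = (j γ)⁻¹ * (j γ₁ * ρ i₁) := by rw [← h]; group
      rw [map_mul, map_inv, this]; group
    obtain rfl := h2 _ _ h3
    have h4 : j γ = j γ₁ := mul_right_cancel h
    rw [hj h4]
  · intro g
    obtain ⟨i, γ, hγ⟩ := h1 g
    exact ⟨(i, γ), by simp only; rw [hγ]; group⟩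

/-- the upper unipotent representatives -/
def uT (M q : ℕ) (t : ZMod q) : Gamma0 M := mkG M 1 (t.cast : ℤ) 0 1 (by ring) (dvd_zero _)

theorem mat_uT (M q : ℕ) (t : ZMod q) : mat (uT M q t) = !![1, (t.cast : ℤ); 0, 1] := rfl

theorem uT_case {M q : ℕ} [NeZero q] (hq : q.Prime) (g : Gamma0 M)
    (ha : ¬ (q : ℤ) ∣ mat g 0 0) : ∃ t : ZMod q, g * (uT M q t)⁻¹ ∈ (conjD M q).range := by
  obtain ⟨t₀, ht₀⟩ := exists_dvd_sub_mul hq ha (mat g 0 1)
  refine ⟨(t₀ : ZMod q), ?_⟩
  rw [mem_subD_iff', mat_mul_inv_01, mat_uT]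
  simp only [Matrix.of_apply, Matrix.cons_val_zero, Matrix.cons_val_one, Matrix.cons_val_fin_one]
  rw [ZMod.coe_intCast]
  have h1 : t₀ % q = t₀ - q * (t₀ / q) := by
    have := Int.emod_add_mul_ediv t₀ q
    linarith
  rw [h1]
  obtain ⟨e, he⟩ := ht₀
  exact ⟨e + mat g 0 0 * (t₀ / q), by linear_combination he⟩

theorem uT_sep {M q : ℕ} [NeZero q] (t t' : ZMod q)
    (h : uT M q t * (uT M q t')⁻¹ ∈ (conjD M q).range) : t = t' := by
  rw [mem_subD_iff', mat_mul_inv_01, mat_uT, mat_uT] at h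
  simp only [Matrix.of_apply, Matrix.cons_val_zero, Matrix.cons_val_one,
    Matrix.cons_val_fin_one] at h
  have h2 : ((t'.cast : ℤ) : ZMod q) = ((t.cast : ℤ) : ZMod q) := by
    rw [ZMod.intCast_eq_intCast_iff_dvd_sub]
    convert h using 1
    ring
  rw [ZMod.intCast_zmod_cast, ZMod.intCast_zmod_cast] at h2
  exact h2.symm

/-- representatives in the case `q ∣ M` -/
theorem uT_bijective {M q : ℕ} [NeZero q] (hq : q.Prime) (hqM : q ∣ M) :
    Bijective fun p : ZMod q × Gamma0 (M * q) => conjD M q p.2 * uT M q p.1 := by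
  refine bijective_of_reps _ (conjD_injective M q) _ (fun g => uT_case hq g ?_) uT_sep
  intro ha
  have h1 : (q : ℤ) ∣ mat g 1 0 := (Int.natCast_dvd_natCast.mpr hqM).trans (mat_dvd g)
  have h2 := mat_det g
  have h3 : (q : ℤ) ∣ 1 := by
    rw [← h2]
    exact dvd_sub (Dvd.dvd.mul_right ha _) (Dvd.dvd.mul_left h1 _)
  exact (Nat.prime_iff_prime_int.mp hq).not_isUnit (isUnit_of_dvd_one h3)

theorem not_dvd_b {N r : ℕ} {b d : ℤ} (h : (r : ℤ) * d - b * N = 1) (hr : r.Prime) :
    ¬ (r : ℤ) ∣ b := by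
  intro hb
  have h3 : (r : ℤ) ∣ 1 := by
    rw [← h]
    exact dvd_sub (Dvd.intro _ rfl) (Dvd.dvd.mul_right hb _)
  exact (Nat.prime_iff_prime_int.mp hr).not_isUnit (isUnit_of_dvd_one h3)

namespace HC3

section AL

variable (N r : ℕ) [NeZero r] (b d : ℤ) (h : (r : ℤ) * d - b * N = 1)

/-- the element `[[r,b],[N,d]]` of `Γ₀(N)` -/
def g0 : Gamma0 N := mkG N r b N d h dvd_rfl

theorem mat_g0 : mat (g0 N r b d h) = !![(r : ℤ), b; (N : ℤ), d] := rfl

/-- representatives in the case `r ∤ N` -/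
def repA : Option (ZMod r) → Gamma0 N
  | none => g0 N r b d h
  | some t => uT N r t

theorem repA_bijective (hr : r.Prime) :
    Bijective fun p : Option (ZMod r) × Gamma0 (N * r) => conjD N r p.2 * repA N r b d h p.1 := by
  have hb := not_dvd_b h hr
  have hrp := Nat.prime_iff_prime_int.mp hr
  refine bijective_of_reps _ (conjD_injective N r) _ (fun g => ?_) ?_
  · by_cases ha : (r : ℤ) ∣ mat g 0 0
    · refine ⟨none, ?_⟩
      rw [mem_subD_iff']
      show (r : ℤ) ∣ mat (g * (g0 N r b d h)⁻¹) 0 1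
      rw [mat_mul_inv_01, mat_g0]
      simp only [Matrix.of_apply, Matrix.cons_val_zero, Matrix.cons_val_one,
        Matrix.cons_val_fin_one]
      exact dvd_sub (Dvd.intro_left _ rfl) (Dvd.dvd.mul_right ha _)
    · obtain ⟨t, ht⟩ := uT_case hr g ha
      exact ⟨some t, ht⟩
  · rintro (_ | t) (_ | t') hh
    · rfl
    · exfalso
      rw [mem_subD_iff'] at hh
      change (r : ℤ) ∣ mat (g0 N r b d h * (uT N r t')⁻¹) 0 1 at hh
      rw [mat_mul_inv_01, mat_g0, mat_uT] at hh
      simp only [Matrix.of_apply, Matrix.cons_val_zero, Matrix.cons_val_one,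
        Matrix.cons_val_fin_one] at hh
      apply hb
      have := dvd_add hh (Dvd.intro (t'.cast : ℤ) rfl : (r : ℤ) ∣ r * (t'.cast : ℤ))
      simpa using this
    · exfalso
      rw [mem_subD_iff'] at hh
      change (r : ℤ) ∣ mat (uT N r t * (g0 N r b d h)⁻¹) 0 1 at hh
      rw [mat_mul_inv_01, mat_g0, mat_uT] at hh
      simp only [Matrix.of_apply, Matrix.cons_val_zero, Matrix.cons_val_one,
        Matrix.cons_val_fin_one] at hh
      apply hb
      have := dvd_sub (Dvd.intro_left (t.cast : ℤ) rfl : (r : ℤ) ∣ (t.cast : ℤ) * r) hh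
      simpa using this
    · rw [uT_sep t t' hh]

theorem al_mem (γ : Gamma0 (N * r)) :
    ((conjHom (g0 N r b d h)).comp (inclG N r)) γ ∈ subD N r := by
  rw [mem_subD_iff']
  show (r : ℤ) ∣ mat (g0 N r b d h * inclG N r γ * (g0 N r b d h)⁻¹) 0 1
  rw [mat_mul_inv_01, mat_mul_apply, mat_mul_apply, mat_g0, mat_inclG]
  simp only [Matrix.of_apply, Matrix.cons_val_zero, Matrix.cons_val_one, Matrix.cons_val_fin_one]
  obtain ⟨c, hc⟩ := mat_dvd γ
  refine ⟨r * mat γ 0 1 + b * mat γ 1 1 - mat γ 0 0 * b - b * b * N * c, ?_⟩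
  rw [hc]; push_cast; ring

/-- the Atkin-Lehner automorphism of `Γ₀(Nr)` -/
noncomputable def alHom : Gamma0 (N * r) →* Gamma0 (N * r) :=
  (subDEquiv N r).toMonoidHom.comp
    (((conjHom (g0 N r b d h)).comp (inclG N r)).codRestrict (subD N r) (al_mem N r b d h))

theorem conjD_alHom (γ : Gamma0 (N * r)) :
    conjD N r (alHom N r b d h γ) = g0 N r b d h * inclG N r γ * (g0 N r b d h)⁻¹ :=
  conjD_subDEquiv N r _

theorem conjD_comp_alHom :
    (conjD N r).comp (alHom N r b d h) = (conjHom (g0 N r b d h)).comp (inclG N r) :=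
  MonoidHom.ext (conjD_alHom N r b d h)

/-- `diag(r,1)` -/
def dM : Matrix (Fin 2) (Fin 2) ℤ := !![(r : ℤ), 0; 0, 1]

theorem dM_mul_mat (γ : Gamma0 (N * r)) : dM r * mat γ = mat (conjD N r γ) * dM r := by
  have h10 := mat_conjD_10 N r γ
  ext i j
  fin_cases i <;> fin_cases j
  · simp [dM, Matrix.mul_apply, Fin.sum_univ_two]; ring
  · simp [dM, Matrix.mul_apply, Fin.sum_univ_two]
  · simp [dM, Matrix.mul_apply, Fin.sum_univ_two]; linarith
  · simp [dM, Matrix.mul_apply, Fin.sum_univ_two]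

/-- the Atkin-Lehner matrix -/
def wM : Matrix (Fin 2) (Fin 2) ℤ := !![(r : ℤ) * d, -b; -(N * r : ℤ), r]

theorem wM_eq : wM N r b d = mat (g0 N r b d h)⁻¹ * dM r := by
  rw [mat_inv, mat_g0]
  ext i j
  fin_cases i <;> fin_cases j <;> simp [wM, dM, Matrix.mul_apply, Fin.sum_univ_two] <;> ring

theorem mat_mul_wM (γ : Gamma0 (N * r)) :
    mat γ * wM N r b d = wM N r b d * mat (alHom N r b d h γ) := by
  rw [wM_eq N r b d h, Matrix.mul_assoc (mat (g0 N r b d h)⁻¹), dM_mul_mat, conjD_alHom,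
    ← Matrix.mul_assoc, ← Matrix.mul_assoc, ← mat_mul, ← mat_inclG N r γ, ← mat_mul]
  congr 2
  group

/-- `w² = r h₀` -/
def h0 : Gamma0 (N * r) :=
  mkG (N * r) (r * d ^ 2 + N * b) (-(b * (d + 1))) (-((N * r : ℕ) * (d + 1))) (N * b + r)
    (by push_cast; linear_combination ((r : ℤ) * d - b * N + 1) * h) ⟨-(d + 1), by ring⟩

theorem wM_sq : wM N r b d * wM N r b d = (r : ℤ) • mat (h0 N r b d h) := by
  rw [h0, mat_mkG]
  ext i j
  fin_cases i <;> fin_cases j <;>
    simp [wM, Matrix.mul_apply, Fin.sum_univ_two] <;> ring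

theorem alHom_alHom (γ : Gamma0 (N * r)) :
    alHom N r b d h (alHom N r b d h γ) = conjHom (h0 N r b d h)⁻¹ γ := by
  have hr' : (r : ℤ) ≠ 0 := by exact_mod_cast NeZero.ne r
  have h1 : mat γ * (wM N r b d * wM N r b d) =
      (wM N r b d * wM N r b d) * mat (alHom N r b d h (alHom N r b d h γ)) := by
    rw [← Matrix.mul_assoc, mat_mul_wM N r b d h, Matrix.mul_assoc, mat_mul_wM N r b d h,
      Matrix.mul_assoc]
  rw [wM_sq N r b d h, Matrix.mul_smul, Matrix.smul_mul] at h1
  have h2 := smul_right_injective _ hr' h1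
  rw [← mat_mul, ← mat_mul] at h2
  have h3 := mat_injective h2
  rw [conjHom_apply, inv_inv, mul_assoc, h3]
  group

theorem alHom_bijective : Bijective (alHom N r b d h) := by
  constructor
  · intro x y hxy
    have := congrArg (alHom N r b d h) hxy
    rw [alHom_alHom, alHom_alHom] at this
    exact conjHom_injective _ this
  · intro y
    refine ⟨alHom N r b d h (conjHom (h0 N r b d h) y), ?_⟩
    rw [alHom_alHom]
    simp only [conjHom_apply]
    group

variable {A : Type*} [AddCommGroup A]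

/-- pull-back along the Atkin-Lehner automorphism -/
noncomputable def alPull (Ψ : Additive (Gamma0 (N * r)) →+ A) : Additive (Gamma0 (N * r)) →+ A :=
  Ψ.comp (MonoidHom.toAdditive (alHom N r b d h))

theorem alPull_alPull (Ψ : Additive (Gamma0 (N * r)) →+ A) :
    alPull N r b d h (alPull N r b d h Ψ) = Ψ := by
  conv_rhs => rw [← comp_conjHom Ψ (h0 N r b d h)⁻¹]
  refine addHom_ext fun γ => ?_
  show Ψ (Additive.ofMul (alHom N r b d h (alHom N r b d h γ))) = _
  rw [alHom_alHom]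
  rfl

/-- (E1) -/
theorem cores_alPull [NeZero (N * r)] (Ψ : Additive (Gamma0 (N * r)) →+ A) :
    cores N r (alPull N r b d h Ψ) = coresD N r Ψ := by
  rw [cores_eq_trHom, coresD_eq_trHom]
  have hinj : Injective ((conjD N r).comp (alHom N r b d h)) :=
    (conjD_injective N r).comp (alHom_bijective N r b d h).injective
  have hinj' : Injective ((conjHom (g0 N r b d h)).comp (inclG N r)) :=
    (conjHom_injective _).comp (inclG_injective N r)
  have : (alHom N r b d h).range.FiniteIndex := by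
    rw [MonoidHom.range_eq_top.mpr (alHom_bijective N r b d h).surjective]
    infer_instance
  have : ((conjD N r).comp (alHom N r b d h)).range.FiniteIndex :=
    finiteIndex_range_comp _ (conjD_injective _ _) _
  have : ((conjHom (g0 N r b d h)).comp (inclG N r)).range.FiniteIndex := by
    rw [← conjD_comp_alHom]; infer_instance
  rw [← trHom_comp_bij (conjD N r) _ (alHom N r b d h) (alHom_bijective N r b d h) hinj Ψ,
    ← trHom_conj (inclG N r) _ (g0 N r b d h) hinj']
  exact trHom_congr (conjD_comp_alHom N r b d h).symm _ _ _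

/-- (E2) -/
theorem coresD_alPull [NeZero (N * r)] (Ψ : Additive (Gamma0 (N * r)) →+ A) :
    coresD N r (alPull N r b d h Ψ) = cores N r Ψ := by
  rw [← cores_alPull N r b d h, alPull_alPull]

/-- (F1) -/
theorem alPull_resD (Φ : Additive (Gamma0 N) →+ A) :
    alPull N r b d h (resD N r Φ) = res N r Φ := by
  refine addHom_ext fun γ => ?_
  show Φ (Additive.ofMul (conjD N r (alHom N r b d h γ))) = Φ (Additive.ofMul (inclG N r γ))
  rw [conjD_alHom]
  exact congrFun (congrArg DFunLike.coe (comp_conjHom Φ (g0 N r b d h)))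
    (Additive.ofMul (inclG N r γ))

/-- (F2) -/
theorem alPull_res (Φ : Additive (Gamma0 N) →+ A) :
    alPull N r b d h (res N r Φ) = resD N r Φ := by
  rw [← alPull_resD N r b d h, alPull_alPull]

/-- (R1) -/
theorem res_coresD (hr : r.Prime) (Ψ : Additive (Gamma0 (N * r)) →+ A) :
    res N r (coresD N r Ψ) = heckeHomU (N * r) r Ψ + alPull N r b d h Ψ := by
  classical
  refine addHom_ext fun γ => ?_
  have hB := uT_bijective (M := N * r) hr (Dvd.intro_left N rfl)
  rw [AddMonoidHom.add_apply]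
  unfold heckeHomU
  rw [coresD_eq_trHom (N * r) r, trHom_eq_sum_rep _ _ _ _ hB γ]
  show trHom (conjD N r) (conjD_injective N r) Ψ (Additive.ofMul (inclG N r γ)) = _
  rw [trHom_eq_sum (conjD N r) _ Ψ (repA N r b d h) (repA_bijective N r b d h hr) (inclG N r γ)
    (fun o => o.map (repIdx _ _ hB γ))
    (fun o => match o with
      | none => alHom N r b d h γ
      | some t => inclG (N * r) r (repCoc _ _ hB γ t)) ?_]
  · rw [Fintype.sum_option, add_comm]
    rfl
  · rintro (_ | t)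
    · show g0 N r b d h * inclG N r γ = conjD N r (alHom N r b d h γ) * g0 N r b d h
      rw [conjD_alHom]; group
    · have := congrArg (inclG N r) (rep_spec _ _ hB γ t)
      rw [map_mul, map_mul] at this
      exact this

end AL

end HC3

open HC3

section Final

variable {A : Type*} [AddCommGroup A]

theorem heckeHomU_neg (M q : ℕ) [NeZero q] (Φ : Additive (Gamma0 M) →+ A) :
    heckeHomU M q (-Φ) = -heckeHomU M q Φ := by
  unfold heckeHomU
  rw [map_neg, coresD_eq_trHom, coresD_eq_trHom, trHom_neg]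

/-- (HC5), second half -/
theorem coresD_resD {N r : ℕ} [NeZero r] (hr : r.Prime) (hrN : ¬ r ∣ N)
    (Φ : Additive (Gamma0 N) →+ A) : coresD N r (resD N r Φ) = (r + 1) • Φ := by
  obtain ⟨b, d, h⟩ := exists_bezout hr hrN
  rw [coresD_eq_trHom, resD_eq_comp,
    trHom_comp_self _ _ Φ (repA N r b d h) (repA_bijective N r b d h hr)]
  rw [Fintype.card_option, ZMod.card]

/-- (HC5), first half -/
theorem cores_res {N r : ℕ} [NeZero N] [NeZero r] (hr : r.Prime) (hrN : ¬ r ∣ N)
    (Φ : Additive (Gamma0 N) →+ A) : cores N r (res N r Φ) = (r + 1) • Φ := by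
  obtain ⟨b, d, h⟩ := exists_bezout hr hrN
  rw [← coresD_alPull N r b d h, alPull_res, coresD_resD hr hrN]

/-- (HC6) -/
theorem hc6_heckeHom_eq_heckeHomU {N r : ℕ} [NeZero N] [NeZero r] (hr : r.Prime) (hrN : ¬ r ∣ N)
    (Φ : Additive (Gamma0 N) →+ A) : heckeHom N r Φ = heckeHomU N r Φ := by
  obtain ⟨b, d, h⟩ := exists_bezout hr hrN
  unfold heckeHom heckeHomU
  rw [← coresD_alPull N r b d h, alPull_resD]

/-- (HC7) -/
theorem heckeHomU_sq_of_cores_eq_zero {N r : ℕ} [NeZero N] [NeZero r] (hr : r.Prime)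
    (hrN : ¬ r ∣ N) (Ψ : Additive (Gamma0 (N * r)) →+ A) (h1 : cores N r Ψ = 0)
    (h2 : coresD N r Ψ = 0) : heckeHomU (N * r) r (heckeHomU (N * r) r Ψ) = Ψ := by
  obtain ⟨b, d, h⟩ := exists_bezout hr hrN
  have e1 := res_coresD N r b d h hr Ψ
  rw [h2, map_zero] at e1
  have e2 := res_coresD N r b d h hr (alPull N r b d h Ψ)
  rw [coresD_alPull, h1, map_zero, alPull_alPull] at e2
  have e3 : heckeHomU (N * r) r Ψ = -alPull N r b d h Ψ := eq_neg_of_add_eq_zero_left e1.symm
  have e4 : heckeHomU (N * r) r (alPull N r b d h Ψ) = -Ψ := eq_neg_of_add_eq_zero_left e2.symm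
  rw [e3, heckeHomU_neg, e4, neg_neg]

end Final

end Fermat.Agent.S41Lib
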