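import Fermat.Agent.S41.IharaGen

/-!
# S41 library (Ihara), leaf G1, first half: the potential attached to a glued pair

For parabolic `Φ₁ Φ₂ : Γ₀(N) → A` with `res Φ₁ = resD Φ₂` we construct a (partial) function `L` on
`ℚ²` which is a common potential for `Φ₁` on `Γ₀(N)` and for `Φ₂` on `δ⁻¹ Γ₀(N) δ`.
-/

set_option autoImplicit false

open scoped MatrixGroups Matrix
open CongruenceSubgroup ModularCurve.Period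

namespace Fermat.Agent.S41Lib

local notation "Mat2" => Matrix (Fin 2) (Fin 2)

theorem G0_mul_apply {N : ℕ} (g h : Gamma0 N) (i j : Fin 2) :
    (((g * h : Gamma0 N) : SL(2, ℤ)) : Mat2 ℤ) i j =
      ((g : SL(2, ℤ)) : Mat2 ℤ) i 0 * ((h : SL(2, ℤ)) : Mat2 ℤ) 0 j +
      ((g : SL(2, ℤ)) : Mat2 ℤ) i 1 * ((h : SL(2, ℤ)) : Mat2 ℤ) 1 j := by
  rw [Subgroup.coe_mul, Matrix.SpecialLinearGroup.coe_mul, Matrix.mul_apply, Fin.sum_univ_two]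

theorem G0_inv_00 {N : ℕ} (g : Gamma0 N) :
    (((g⁻¹ : Gamma0 N) : SL(2, ℤ)) : Mat2 ℤ) 0 0 = ((g : SL(2, ℤ)) : Mat2 ℤ) 1 1 := by
  rw [Subgroup.coe_inv, Matrix.SpecialLinearGroup.SL2_inv_expl]; rfl
theorem G0_inv_01 {N : ℕ} (g : Gamma0 N) :
    (((g⁻¹ : Gamma0 N) : SL(2, ℤ)) : Mat2 ℤ) 0 1 = -((g : SL(2, ℤ)) : Mat2 ℤ) 0 1 := by
  rw [Subgroup.coe_inv, Matrix.SpecialLinearGroup.SL2_inv_expl]; rfl
theorem G0_inv_10 {N : ℕ} (g : Gamma0 N) :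
    (((g⁻¹ : Gamma0 N) : SL(2, ℤ)) : Mat2 ℤ) 1 0 = -((g : SL(2, ℤ)) : Mat2 ℤ) 1 0 := by
  rw [Subgroup.coe_inv, Matrix.SpecialLinearGroup.SL2_inv_expl]; rfl
theorem G0_inv_11 {N : ℕ} (g : Gamma0 N) :
    (((g⁻¹ : Gamma0 N) : SL(2, ℤ)) : Mat2 ℤ) 1 1 = ((g : SL(2, ℤ)) : Mat2 ℤ) 0 0 := by
  rw [Subgroup.coe_inv, Matrix.SpecialLinearGroup.SL2_inv_expl]; rfl

theorem G0_isCoprime_col {N : ℕ} (M : Gamma0 N) :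
    IsCoprime (((M : SL(2, ℤ)) : Mat2 ℤ) 0 0) (((M : SL(2, ℤ)) : Mat2 ℤ) 1 0) :=
  ⟨((M : SL(2, ℤ)) : Mat2 ℤ) 1 1, -((M : SL(2, ℤ)) : Mat2 ℤ) 0 1, by
    have := SLZ_det (M : SL(2, ℤ)); linarith⟩

section Pot

variable {N r : ℕ} {A : Type*} [AddCommGroup A]

/-- a parabolic homomorphism only depends on the first column -/
theorem hom_eq_of_col (Φ : Additive (Gamma0 N) →+ A) (hΦ : IsParabolicHom _ Φ) (M M' : Gamma0 N)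
    (h0 : ((M : SL(2, ℤ)) : Mat2 ℤ) 0 0 = ((M' : SL(2, ℤ)) : Mat2 ℤ) 0 0)
    (h1 : ((M : SL(2, ℤ)) : Mat2 ℤ) 1 0 = ((M' : SL(2, ℤ)) : Mat2 ℤ) 1 0) :
    Φ (Additive.ofMul M) = Φ (Additive.ofMul M') := by
  have htr : (((M⁻¹ * M' : Gamma0 N) : SL(2, ℤ)) : Mat2 ℤ).trace = 2 := by
    rw [Matrix.trace_fin_two, G0_mul_apply, G0_mul_apply, G0_inv_00, G0_inv_01, G0_inv_10,
      G0_inv_11]
    have d1 := SLZ_det (M : SL(2, ℤ))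
    have d2 := SLZ_det (M' : SL(2, ℤ))
    rw [← h0, ← h1] at d2 ⊢
    linarith
  have h := hΦ (M⁻¹ * M') (by rw [htr]; norm_num)
  have h2 : M' = M * (M⁻¹ * M') := by group
  rw [h2, ofMul_mul, map_add, h, add_zero]

/-- the graph of the potential -/
def Lam (r : ℕ) (Φ : Additive (Gamma0 N) →+ A) (d : A) (v0 v1 : ℚ) (x : A) : Prop :=
  ∃ (M : Gamma0 N) (k : ℤ), v0 = (r : ℚ) ^ k * ((((M : SL(2, ℤ)) : Mat2 ℤ) 0 0 : ℤ) : ℚ) ∧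
    v1 = (r : ℚ) ^ k * ((((M : SL(2, ℤ)) : Mat2 ℤ) 1 0 : ℤ) : ℚ) ∧
    x = Φ (Additive.ofMul M) + k • d

theorem col_lt_false (hr : r.Prime) (M M' : Gamma0 N) (k k' : ℤ) (hk : k < k')
    (h0 : (r : ℚ) ^ k * ((((M : SL(2, ℤ)) : Mat2 ℤ) 0 0 : ℤ) : ℚ) =
      (r : ℚ) ^ k' * ((((M' : SL(2, ℤ)) : Mat2 ℤ) 0 0 : ℤ) : ℚ))
    (h1 : (r : ℚ) ^ k * ((((M : SL(2, ℤ)) : Mat2 ℤ) 1 0 : ℤ) : ℚ) =
      (r : ℚ) ^ k' * ((((M' : SL(2, ℤ)) : Mat2 ℤ) 1 0 : ℤ) : ℚ)) : False := by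
  have hr0 : (r : ℚ) ≠ 0 := by exact_mod_cast hr.ne_zero
  obtain ⟨n, rfl⟩ : ∃ n : ℕ, k' = k + (n + 1 : ℕ) := by
    refine ⟨(k' - k - 1).toNat, ?_⟩
    have : ((k' - k - 1).toNat : ℤ) = k' - k - 1 := Int.toNat_of_nonneg (by omega)
    push_cast
    omega
  rw [zpow_add₀ hr0, zpow_natCast, mul_assoc] at h0 h1
  have hk0 : (r : ℚ) ^ k ≠ 0 := zpow_ne_zero _ hr0
  have h0' := mul_left_cancel₀ hk0 h0
  have h1' := mul_left_cancel₀ hk0 h1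
  have h0'' : ((M : SL(2, ℤ)) : Mat2 ℤ) 0 0 = (r : ℤ) ^ (n + 1) * ((M' : SL(2, ℤ)) : Mat2 ℤ) 0 0 := by
    exact_mod_cast h0'
  have h1'' : ((M : SL(2, ℤ)) : Mat2 ℤ) 1 0 = (r : ℤ) ^ (n + 1) * ((M' : SL(2, ℤ)) : Mat2 ℤ) 1 0 := by
    exact_mod_cast h1'
  have d1 := SLZ_det (M : SL(2, ℤ))
  rw [h0'', h1'', pow_succ'] at d1
  have : (r : ℤ) ∣ 1 := ⟨(r : ℤ) ^ n * ((M' : SL(2, ℤ)) : Mat2 ℤ) 0 0 * ((M : SL(2, ℤ)) : Mat2 ℤ) 1 1 -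
    ((M : SL(2, ℤ)) : Mat2 ℤ) 0 1 * ((r : ℤ) ^ n * ((M' : SL(2, ℤ)) : Mat2 ℤ) 1 0), by
      linear_combination -d1⟩
  have h2 : r ∣ 1 := by exact_mod_cast this
  exact hr.one_lt.ne' (Nat.dvd_one.mp h2)

theorem Lam_unique (hr : r.Prime) (Φ : Additive (Gamma0 N) →+ A) (hΦ : IsParabolicHom _ Φ) (d : A)
    {v0 v1 : ℚ} {x x' : A} (h : Lam r Φ d v0 v1 x) (h' : Lam r Φ d v0 v1 x') : x = x' := by
  obtain ⟨M, k, h0, h1, rfl⟩ := h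
  obtain ⟨M', k', h0', h1', rfl⟩ := h'
  have hr0 : (r : ℚ) ≠ 0 := by exact_mod_cast hr.ne_zero
  rw [h0] at h0'
  rw [h1] at h1'
  rcases lt_trichotomy k k' with hk | rfl | hk
  · exact (col_lt_false hr M M' k k' hk h0' h1').elim
  · have hk0 : (r : ℚ) ^ k ≠ 0 := zpow_ne_zero _ hr0
    have e0 := mul_left_cancel₀ hk0 h0'
    have e1 := mul_left_cancel₀ hk0 h1'
    rw [hom_eq_of_col Φ hΦ M M' (by exact_mod_cast e0) (by exact_mod_cast e1)]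
  · exact (col_lt_false hr M' M k' k hk h0'.symm h1'.symm).elim

theorem Lam_one (Φ : Additive (Gamma0 N) →+ A) (d : A) : Lam r Φ d 1 0 0 :=
  ⟨1, 0, by simp, by simp, by simp⟩

theorem Lam_smul (Φ : Additive (Gamma0 N) →+ A) (d : A) (γ : Gamma0 N) {v0 v1 : ℚ} {x : A}
    (h : Lam r Φ d v0 v1 x) :
    Lam r Φ d ((((γ : SL(2, ℤ)) : Mat2 ℤ) 0 0 : ℤ) * v0 + (((γ : SL(2, ℤ)) : Mat2 ℤ) 0 1 : ℤ) * v1)
      ((((γ : SL(2, ℤ)) : Mat2 ℤ) 1 0 : ℤ) * v0 + (((γ : SL(2, ℤ)) : Mat2 ℤ) 1 1 : ℤ) * v1)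
      (x + Φ (Additive.ofMul γ)) := by
  obtain ⟨M, k, rfl, rfl, rfl⟩ := h
  refine ⟨γ * M, k, ?_, ?_, ?_⟩
  · rw [G0_mul_apply]; push_cast; ring
  · rw [G0_mul_apply]; push_cast; ring
  · rw [ofMul_mul, map_add]; abel


/-- `xz j` as an element of `Γ₀(N)` -/
def xG (N : ℕ) (j : ℤ) : Gamma0 N := ⟨xz j, mem_Gamma0_of_dvd (by simp [xz_coe])⟩

/-- `yz (N * j)` as an element of `Γ₀(N)` -/
def yG (N : ℕ) (j : ℤ) : Gamma0 N := ⟨yz (N * j), mem_Gamma0_of_dvd (by simp [yz_coe])⟩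

theorem xG_coe (N : ℕ) (j : ℤ) : (((xG N j : Gamma0 N) : SL(2, ℤ)) : Mat2 ℤ) = !![1, j; 0, 1] := rfl
theorem yG_coe (N : ℕ) (j : ℤ) :
    (((yG N j : Gamma0 N) : SL(2, ℤ)) : Mat2 ℤ) = !![1, 0; N * j, 1] := rfl

theorem hom_xG (Φ : Additive (Gamma0 N) →+ A) (hΦ : IsParabolicHom _ Φ) (j : ℤ) :
    Φ (Additive.ofMul (xG N j)) = 0 :=
  hΦ _ (by rw [xG_coe, Matrix.trace_fin_two_of]; norm_num)

theorem hom_yG (Φ : Additive (Gamma0 N) →+ A) (hΦ : IsParabolicHom _ Φ) (j : ℤ) :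
    Φ (Additive.ofMul (yG N j)) = 0 :=
  hΦ _ (by rw [yG_coe, Matrix.trace_fin_two_of]; norm_num)

/-- (3) passing from the `Φ₁`-potential at `v` to the `Φ₂`-potential at `δ v`. -/
theorem Lam_delta [NeZero r] (hr : r.Prime) (hrN : ¬ r ∣ N) (Φ₁ Φ₂ : Additive (Gamma0 N) →+ A)
    (h₁ : IsParabolicHom _ Φ₁) (hglue : res N r Φ₁ = resD N r Φ₂) (γ2 : Gamma0 N)
    (hγ0 : ((γ2 : SL(2, ℤ)) : Mat2 ℤ) 0 0 = r) (hγ1 : ((γ2 : SL(2, ℤ)) : Mat2 ℤ) 1 0 = N)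
    {v0 v1 : ℚ} {x : A} (h : Lam r Φ₁ (Φ₂ (Additive.ofMul γ2)) v0 v1 x) :
    Lam r Φ₂ (Φ₂ (Additive.ofMul γ2)) (r * v0) v1 (x + Φ₂ (Additive.ofMul γ2)) := by
  obtain ⟨M, k, rfl, rfl, rfl⟩ := h
  have hr0 : (r : ℚ) ≠ 0 := by exact_mod_cast hr.ne_zero
  have hrZ0 : (r : ℤ) ≠ 0 := by exact_mod_cast hr.ne_zero
  have hrp : Prime (r : ℤ) := Nat.prime_iff_prime_int.mp hr
  have hrN' : ¬ (r : ℤ) ∣ (N : ℤ) := by exact_mod_cast hrN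
  have hcop : IsCoprime (N : ℤ) (r : ℤ) := (hrp.irreducible.coprime_iff_not_dvd.mpr hrN').symm
  have hgl : ∀ g : Gamma0 (N * r), Φ₁ (Additive.ofMul (inclG N r g)) =
      Φ₂ (Additive.ofMul (conjD N r g)) := fun g => by
    have := DFunLike.congr_fun hglue (Additive.ofMul g)
    simpa only [res_apply, resD_apply] using this
  by_cases hc : (r : ℤ) ∣ ((M : SL(2, ℤ)) : Mat2 ℤ) 1 0
  · -- `M ∈ Γ₀(N r)`
    have hNr : ((N * r : ℕ) : ℤ) ∣ ((M : SL(2, ℤ)) : Mat2 ℤ) 1 0 := by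
      push_cast
      exact hcop.mul_dvd (Gamma0_dvd M) hc
    let g : Gamma0 (N * r) := ⟨(M : SL(2, ℤ)), mem_Gamma0_of_dvd hNr⟩
    have hg : inclG N r g = M := Subtype.ext rfl
    obtain ⟨c, hc⟩ := hc
    refine ⟨conjD N r g, k + 1, ?_, ?_, ?_⟩
    · rw [conjD_coe]
      show _ = (r : ℚ) ^ (k + 1) * ((((M : SL(2, ℤ)) : Mat2 ℤ) 0 0 : ℤ) : ℚ)
      rw [zpow_add_one₀ hr0]; ring
    · rw [conjD_coe]
      show _ = (r : ℚ) ^ (k + 1) * (((((M : SL(2, ℤ)) : Mat2 ℤ) 1 0 / (r : ℤ) : ℤ)) : ℚ)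
      rw [hc, Int.mul_ediv_cancel_left _ hrZ0, zpow_add_one₀ hr0]; push_cast; ring
    · rw [← hgl g, hg, add_smul, one_smul]; abel
  · -- `r ∤ c`
    have hcop2 : IsCoprime (r : ℤ) ((N : ℤ) * ((M : SL(2, ℤ)) : Mat2 ℤ) 1 0) := by
      rw [hrp.irreducible.coprime_iff_not_dvd, hrp.dvd_mul]
      tauto
    obtain ⟨u, w, huw⟩ := hcop2
    set j : ℤ := w * (((M : SL(2, ℤ)) : Mat2 ℤ) 1 0 - N * ((M : SL(2, ℤ)) : Mat2 ℤ) 1 1) with hj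
    set g0 : Gamma0 N := M * xG N j * yG N (-1) with hg0
    have e00 : ((g0 : SL(2, ℤ)) : Mat2 ℤ) 0 0 = ((M : SL(2, ℤ)) : Mat2 ℤ) 0 0 -
        N * (((M : SL(2, ℤ)) : Mat2 ℤ) 0 0 * j + ((M : SL(2, ℤ)) : Mat2 ℤ) 0 1) := by
      rw [hg0, G0_mul_apply, G0_mul_apply, G0_mul_apply, xG_coe, yG_coe]
      simp; ring
    have e01 : ((g0 : SL(2, ℤ)) : Mat2 ℤ) 0 1 =
        (((M : SL(2, ℤ)) : Mat2 ℤ) 0 0 * j + ((M : SL(2, ℤ)) : Mat2 ℤ) 0 1) := by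
      rw [hg0, G0_mul_apply, G0_mul_apply, G0_mul_apply, xG_coe, yG_coe]
      simp
    have e10 : ((g0 : SL(2, ℤ)) : Mat2 ℤ) 1 0 = ((M : SL(2, ℤ)) : Mat2 ℤ) 1 0 -
        N * (((M : SL(2, ℤ)) : Mat2 ℤ) 1 0 * j + ((M : SL(2, ℤ)) : Mat2 ℤ) 1 1) := by
      rw [hg0, G0_mul_apply, G0_mul_apply, G0_mul_apply, xG_coe, yG_coe]
      simp; ring
    have e11 : ((g0 : SL(2, ℤ)) : Mat2 ℤ) 1 1 =
        (((M : SL(2, ℤ)) : Mat2 ℤ) 1 0 * j + ((M : SL(2, ℤ)) : Mat2 ℤ) 1 1) := by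
      rw [hg0, G0_mul_apply, G0_mul_apply, G0_mul_apply, xG_coe, yG_coe]
      simp
    have hrg : (r : ℤ) ∣ ((g0 : SL(2, ℤ)) : Mat2 ℤ) 1 0 := by
      refine ⟨u * (((M : SL(2, ℤ)) : Mat2 ℤ) 1 0 - N * ((M : SL(2, ℤ)) : Mat2 ℤ) 1 1), ?_⟩
      rw [e10, hj]
      linear_combination (-(((M : SL(2, ℤ)) : Mat2 ℤ) 1 0 - N * ((M : SL(2, ℤ)) : Mat2 ℤ) 1 1)) * huw
    have hNr : ((N * r : ℕ) : ℤ) ∣ ((g0 : SL(2, ℤ)) : Mat2 ℤ) 1 0 := by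
      push_cast
      exact hcop.mul_dvd (Gamma0_dvd g0) hrg
    let g : Gamma0 (N * r) := ⟨(g0 : SL(2, ℤ)), mem_Gamma0_of_dvd hNr⟩
    have hg : inclG N r g = g0 := Subtype.ext rfl
    have hΦg : Φ₁ (Additive.ofMul g0) = Φ₁ (Additive.ofMul M) := by
      rw [hg0, ofMul_mul, ofMul_mul, map_add, map_add, hom_xG Φ₁ h₁, hom_yG Φ₁ h₁]; simp
    have c00 : (((conjD N r g : Gamma0 N) : SL(2, ℤ)) : Mat2 ℤ) 0 0 = ((g0 : SL(2, ℤ)) : Mat2 ℤ) 0 0 :=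
      rfl
    have c01 : (((conjD N r g : Gamma0 N) : SL(2, ℤ)) : Mat2 ℤ) 0 1 =
      r * ((g0 : SL(2, ℤ)) : Mat2 ℤ) 0 1 := rfl
    have c10 : (((conjD N r g : Gamma0 N) : SL(2, ℤ)) : Mat2 ℤ) 1 0 =
      ((g0 : SL(2, ℤ)) : Mat2 ℤ) 1 0 / r := rfl
    have c11 : (((conjD N r g : Gamma0 N) : SL(2, ℤ)) : Mat2 ℤ) 1 1 = ((g0 : SL(2, ℤ)) : Mat2 ℤ) 1 1 :=
      rfl
    refine ⟨conjD N r g * γ2, k, ?_, ?_, ?_⟩
    · rw [G0_mul_apply, c00, c01, hγ0, hγ1, e00, e01]; push_cast; ring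
    · rw [G0_mul_apply, c10, c11, hγ0, hγ1, Int.ediv_mul_cancel hrg, e10, e11]; push_cast; ring
    · rw [ofMul_mul, map_add, ← hgl g, hg, hΦg]; abel

/-- (4) totality -/
theorem Lam_total (hr : r.Prime) (Φ₁ Φ₂ : Additive (Gamma0 N) →+ A) (d : A)
    {v0 v1 : ℚ} {y : A} (h : Lam r Φ₂ d (r * v0) v1 y) : ∃ x, Lam r Φ₁ d v0 v1 x := by
  obtain ⟨M, k, h0, h1, -⟩ := h
  have hr0 : (r : ℚ) ≠ 0 := by exact_mod_cast hr.ne_zero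
  have hrp : Prime (r : ℤ) := Nat.prime_iff_prime_int.mp hr
  have hcol := G0_isCoprime_col M
  by_cases ha : (r : ℤ) ∣ ((M : SL(2, ℤ)) : Mat2 ℤ) 0 0
  · obtain ⟨a, ha⟩ := ha
    rw [ha] at hcol
    obtain ⟨M', hM0, hM1⟩ := exists_col (N := N) hcol.of_mul_left_right (Gamma0_dvd M)
    refine ⟨_, M', k, ?_, ?_, rfl⟩
    · rw [hM0]
      rw [ha] at h0
      apply mul_left_cancel₀ hr0
      rw [h0]; push_cast; ring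
    · rw [hM1, h1]
  · have hcop : IsCoprime (((M : SL(2, ℤ)) : Mat2 ℤ) 0 0) ((r : ℤ) * ((M : SL(2, ℤ)) : Mat2 ℤ) 1 0) :=
      IsCoprime.mul_right (hrp.irreducible.coprime_iff_not_dvd.mpr ha).symm hcol
    obtain ⟨M', hM0, hM1⟩ := exists_col (N := N) hcop (Dvd.dvd.mul_left (Gamma0_dvd M) _)
    refine ⟨_, M', k - 1, ?_, ?_, rfl⟩
    · rw [hM0, zpow_sub_one₀ hr0]
      apply mul_left_cancel₀ hr0
      rw [h0]; field_simp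
    · rw [hM1, h1, zpow_sub_one₀ hr0]; push_cast; field_simp

/-- (3) + (4): the converse of `Lam_delta`. -/
theorem Lam_delta_inv [NeZero r] (hr : r.Prime) (hrN : ¬ r ∣ N) (Φ₁ Φ₂ : Additive (Gamma0 N) →+ A)
    (h₁ : IsParabolicHom _ Φ₁) (h₂ : IsParabolicHom _ Φ₂)
    (hglue : res N r Φ₁ = resD N r Φ₂) (γ2 : Gamma0 N)
    (hγ0 : ((γ2 : SL(2, ℤ)) : Mat2 ℤ) 0 0 = r) (hγ1 : ((γ2 : SL(2, ℤ)) : Mat2 ℤ) 1 0 = N)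
    {v0 v1 : ℚ} {x : A}
    (h : Lam r Φ₂ (Φ₂ (Additive.ofMul γ2)) (r * v0) v1 (x + Φ₂ (Additive.ofMul γ2))) :
    Lam r Φ₁ (Φ₂ (Additive.ofMul γ2)) v0 v1 x := by
  obtain ⟨x', hx'⟩ := Lam_total hr Φ₁ Φ₂ _ h
  have h3 := Lam_delta hr hrN Φ₁ Φ₂ h₁ hglue γ2 hγ0 hγ1 hx'
  have := Lam_unique hr Φ₂ h₂ _ h h3
  rw [add_right_cancel this]
  exact hx'

/-- **The potential of a glued pair** (steps (1)-(4) of leaf G1). -/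
theorem exists_glue_potential [NeZero r] (hr : r.Prime) (hrN : ¬ r ∣ N)
    (hrr : (r : ℚ)⁻¹ * r = 1) (Φ₁ Φ₂ : Additive (Gamma0 N) →+ A)
    (h₁ : IsParabolicHom _ Φ₁) (h₂ : IsParabolicHom _ Φ₂)
    (hglue : res N r Φ₁ = resD N r Φ₂) :
    ∃ L : (Fin 2 → ℚ) → A → Prop,
      (∀ v x x', L v x → L v x' → x = x') ∧ L ![1, 0] 0 ∧
      (∀ (γ : Gamma0 N) v x, L v x →
        L ((toQ (γ : SL(2, ℤ))).1 *ᵥ v) (x + Φ₁ (Additive.ofMul γ))) ∧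
      (∀ (γ : Gamma0 N) v x, L v x →
        L ((conjQ (r : ℚ)⁻¹ r hrr (toQ (γ : SL(2, ℤ)))).1 *ᵥ v) (x + Φ₂ (Additive.ofMul γ))) := by
  have hr0 : (r : ℚ) ≠ 0 := by exact_mod_cast hr.ne_zero
  have hrp : Prime (r : ℤ) := Nat.prime_iff_prime_int.mp hr
  have hrN' : ¬ (r : ℤ) ∣ (N : ℤ) := by exact_mod_cast hrN
  obtain ⟨γ2, hγ0, hγ1⟩ := exists_col (N := N) (hrp.irreducible.coprime_iff_not_dvd.mpr hrN')
    (dvd_refl _)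
  refine ⟨fun v x => Lam r Φ₁ (Φ₂ (Additive.ofMul γ2)) (v 0) (v 1) x, ?_, ?_, ?_, ?_⟩
  · intro v x x' h h'
    exact Lam_unique hr Φ₁ h₁ _ h h'
  · exact Lam_one Φ₁ _
  · intro γ v x h
    have := Lam_smul Φ₁ _ γ h
    simpa only [Matrix.mulVec, dotProduct, Fin.sum_univ_two, toQ_apply] using this
  · intro γ v x h
    have h3 := Lam_delta hr hrN Φ₁ Φ₂ h₁ hglue γ2 hγ0 hγ1 h
    have h4 := Lam_smul Φ₂ _ γ h3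
    apply Lam_delta_inv hr hrN Φ₁ Φ₂ h₁ h₂ hglue γ2 hγ0 hγ1
    have e0 : (r : ℚ) * (((conjQ (r : ℚ)⁻¹ r hrr (toQ (γ : SL(2, ℤ)))).1 *ᵥ v) 0) =
        (((γ : SL(2, ℤ)) : Mat2 ℤ) 0 0 : ℤ) * (r * v 0) + (((γ : SL(2, ℤ)) : Mat2 ℤ) 0 1 : ℤ) * v 1 := by
      have : (conjQ (r : ℚ)⁻¹ r hrr (toQ (γ : SL(2, ℤ)))).1 = _ := conjQ_coe _ _ hrr _
      rw [this]
      simp only [Matrix.mulVec, dotProduct, Fin.sum_univ_two, toQ_apply, Matrix.of_apply,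
        Matrix.cons_val_zero, Matrix.cons_val_one, Matrix.cons_val_fin_one]
      field_simp
    have e1 : (((conjQ (r : ℚ)⁻¹ r hrr (toQ (γ : SL(2, ℤ)))).1 *ᵥ v) 1) =
        (((γ : SL(2, ℤ)) : Mat2 ℤ) 1 0 : ℤ) * (r * v 0) + (((γ : SL(2, ℤ)) : Mat2 ℤ) 1 1 : ℤ) * v 1 := by
      have : (conjQ (r : ℚ)⁻¹ r hrr (toQ (γ : SL(2, ℤ)))).1 = _ := conjQ_coe _ _ hrr _
      rw [this]
      simp only [Matrix.mulVec, dotProduct, Fin.sum_univ_two, toQ_apply, Matrix.of_apply,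
        Matrix.cons_val_zero, Matrix.cons_val_one, Matrix.cons_val_fin_one]
      ring
    rw [e0, e1]
    have e2 : x + Φ₂ (Additive.ofMul γ) + Φ₂ (Additive.ofMul γ2) =
        x + Φ₂ (Additive.ofMul γ2) + Φ₂ (Additive.ofMul γ) := by abel
    rw [e2]
    exact h4

/-- alias of `exists_glue_potential` -/
theorem exists_iharaPot [NeZero r] (hr : r.Prime) (hrN : ¬ r ∣ N)
    (hrr : (r : ℚ)⁻¹ * r = 1) (Φ₁ Φ₂ : Additive (Gamma0 N) →+ A)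
    (h₁ : IsParabolicHom _ Φ₁) (h₂ : IsParabolicHom _ Φ₂)
    (hglue : res N r Φ₁ = resD N r Φ₂) :
    ∃ L : (Fin 2 → ℚ) → A → Prop,
      (∀ v x x', L v x → L v x' → x = x') ∧ L ![1, 0] 0 ∧
      (∀ (γ : Gamma0 N) v x, L v x →
        L ((toQ (γ : SL(2, ℤ))).1 *ᵥ v) (x + Φ₁ (Additive.ofMul γ))) ∧
      (∀ (γ : Gamma0 N) v x, L v x →
        L ((conjQ (r : ℚ)⁻¹ r hrr (toQ (γ : SL(2, ℤ)))).1 *ᵥ v) (x + Φ₂ (Additive.ofMul γ))) :=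
  exists_glue_potential hr hrN hrr Φ₁ Φ₂ h₁ h₂ hglue

end Pot

end Fermat.Agent.S41Lib
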