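import Fermat.Agent.S41.IharaKill
import Fermat.Agent.S41.IharaPot
import Fermat.Agent.S41.IharaInst2

/-!
# S41 library: Ihara's lemma (Eisenstein form)
-/

set_option autoImplicit false

open scoped MatrixGroups
open CongruenceSubgroup ModularCurve.Period Matrix

namespace Fermat.Agent.S41Lib

theorem killsU_of_glue {N r : ℕ} [NeZero N] [NeZero r] (hr : r.Prime) (hrN : ¬ r ∣ N)
    {A : Type*} [AddCommGroup A] (hA : ∀ a : A, r • a = 0 → a = 0)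
    (Φ₁ Φ₂ : Additive (Gamma0 N) →+ A) (h₁ : IsParabolicHom (Gamma0 N) Φ₁)
    (h₂ : IsParabolicHom (Gamma0 N) Φ₂) (hglue : res N r Φ₁ = resD N r Φ₂) :
    KillsU r N Φ₁ ∧ KillsU r N Φ₂ := by
  have hrr : (r : ℚ)⁻¹ * r = 1 := inv_mul_cancel₀ (by exact_mod_cast hr.ne_zero)
  obtain ⟨L, hu, he, ha, hb⟩ := exists_iharaPot hr hrN hrr Φ₁ Φ₂ h₁ h₂ hglue
  exact killsU_of_potential hr hrN hrr hA Φ₁ Φ₂ h₁ L hu he ha hb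

/-- **Ihara's lemma, Eisenstein form.**  If `(Φ₁, -Φ₂)` is in the kernel of
`α = res + resD : Hom(Γ₀(N),A)² → Hom(Γ₀(Nr),A)` (parabolic classes, `A` without `r`-torsion), then
`T_W Φᵢ = (W+1) Φᵢ` for all primes `W ≡ 1 mod N`, `W ≠ r`. -/
theorem ihara {N r W : ℕ} [NeZero N] [NeZero r] [NeZero W] [NeZero (N * W)]
    (hr : r.Prime) (hrN : ¬ r ∣ N) (hW : W.Prime) (hWr : W ≠ r) (hW1 : W ≡ 1 [MOD N])
    {A : Type*} [AddCommGroup A] (hA : ∀ a : A, r • a = 0 → a = 0)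
    (Φ₁ Φ₂ : Additive (Gamma0 N) →+ A) (h₁ : IsParabolicHom (Gamma0 N) Φ₁)
    (h₂ : IsParabolicHom (Gamma0 N) Φ₂) (hglue : res N r Φ₁ = resD N r Φ₂) :
    (heckeHom N W Φ₁ = (W + 1) • Φ₁ ∧ heckeHom N W Φ₂ = (W + 1) • Φ₂) ∧
    (heckeHomU N W Φ₁ = (W + 1) • Φ₁ ∧ heckeHomU N W Φ₂ = (W + 1) • Φ₂) := by
  obtain ⟨k₁, k₂⟩ := killsU_of_glue hr hrN hA Φ₁ Φ₂ h₁ h₂ hglue
  exact ⟨⟨heckeHom_eq_of_killsU hW hr hrN hWr hW1 Φ₁ h₁ k₁,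
    heckeHom_eq_of_killsU hW hr hrN hWr hW1 Φ₂ h₂ k₂⟩,
    ⟨heckeHomU_eq_of_killsU hW hr hrN hWr hW1 Φ₁ h₁ k₁,
    heckeHomU_eq_of_killsU hW hr hrN hWr hW1 Φ₂ h₂ k₂⟩⟩

end Fermat.Agent.S41Lib
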