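import Fermat.Agent.S41.CoreAlg
import Fermat.Agent.S41.HC3
import Fermat.Agent.S41.Ihara

/-!
# S41: steps 3, 4, 5 of the level raising chain, with Ihara's lemma and the Hecke calculus plugged in
-/

set_option autoImplicit false

open scoped MatrixGroups
open CongruenceSubgroup Function ModularCurve.Period

namespace Fermat.Agent.S41Lib

theorem zmod_smul_cancel {p r : ℕ} (hp : p.Prime) (hr : r.Prime) (hpr : p ≠ r) :
    ∀ a : ZMod p, r • a = 0 → a = 0 := by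
  intro a ha
  haveI : Fact p.Prime := ⟨hp⟩
  rw [nsmul_eq_mul] at ha
  rcases mul_eq_zero.mp ha with h | h
  · exfalso
    rw [ZMod.natCast_eq_zero_iff] at h
    exact hpr ((Nat.prime_dvd_prime_iff_eq hp hr).mp h)
  · exact h

theorem iharaProp_holds {N r W p : ℕ} [NeZero N] [NeZero r] [NeZero W] [NeZero (N * W)]
    (hr : r.Prime) (hrN : ¬ r ∣ N) (hW : W.Prime) (hWr : W ≠ r) (hW1 : W ≡ 1 [MOD N])
    (hp : p.Prime) (hpr : p ≠ r) : IharaProp N r W (ZMod p) :=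
  fun Φ₁ Φ₂ h₁ h₂ hg =>
    (ihara hr hrN hW hWr hW1 (zmod_smul_cancel hp hr hpr) Φ₁ Φ₂ h₁ h₂ hg).1

theorem iharaPropU_holds {N r W p : ℕ} [NeZero N] [NeZero r] [NeZero W] [NeZero (N * W)]
    (hr : r.Prime) (hrN : ¬ r ∣ N) (hW : W.Prime) (hWr : W ≠ r) (hW1 : W ≡ 1 [MOD N])
    (hp : p.Prime) (hpr : p ≠ r) : IharaPropU N r W (ZMod p) :=
  fun Φ₁ Φ₂ h₁ h₂ hg =>
    (ihara hr hrN hW hWr hW1 (zmod_smul_cancel hp hr hpr) Φ₁ Φ₂ h₁ h₂ hg).2

/-- **steps 3 + 4 + 5** of the level raising chain. -/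
theorem core_chain {N r W p : ℕ} [NeZero N] [NeZero r] [NeZero W] [NeZero (N * r)]
    [NeZero (N * W)]
    (hr : r.Prime) (hrN : ¬ r ∣ N) (hW : W.Prime) (hWr : W ≠ r)
    (hW1 : W ≡ 1 [MOD N]) (hp : p.Prime) (hp2 : p ≠ 2) (hpr : p ≠ r)
    (hPar : ∀ Φ : Additive (Gamma0 (N * r)) →+ ℤ,
      IsParabolicHom (Gamma0 (N * r)) (eisU (N * r) W Φ))
    (x0 : Additive (Gamma0 N) →+ ℤ) (hpar : IsParabolicHom (Gamma0 N) x0)
    (hx0 : ¬ ∃ w, x0 = (p : ℤ) • w) (eps : ℤ) (heps : eps * eps = 1)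
    (wr : Additive (Gamma0 N) →+ ℤ)
    (hTr : heckeHomU N r x0 = (eps * (r + 1)) • x0 + (p : ℤ) • wr)
    (nW : ℤ) (wW : Additive (Gamma0 N) →+ ℤ)
    (hTW : heckeHomU N W x0 = nW • x0 + (p : ℤ) • wW) (hnW : ¬ (p : ℤ) ∣ nW - (W + 1)) :
    ∃ x2 : Additive (Gamma0 (N * r)) →+ ℤ, IsParabolicHom (Gamma0 (N * r)) x2 ∧
      (¬ ∃ w, x2 = (p : ℤ) • w) ∧ cores N r x2 = 0 ∧ coresD N r x2 = 0 ∧
      heckeHomU (N * r) r (heckeHomU (N * r) r x2) = x2 ∧
      ∀ (l : ℕ) [NeZero l], l.Prime → ¬ l ∣ N * r → ∀ (n : ℤ) (wl : Additive (Gamma0 N) →+ ℤ),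
        heckeHomU N l x0 = n • x0 + (p : ℤ) • wl →
        ∃ w, heckeHomU (N * r) l x2 = n • x2 + (p : ℤ) • w := by
  have hpZ := Nat.prime_iff_prime_int.mp hp
  have hWN : ¬ W ∣ N := not_dvd_of_modEq_one hW hW1
  have hWNr : ¬ W ∣ N * r := by
    intro h
    rcases (Nat.Prime.dvd_mul hW).mp h with h | h
    · exact hWN h
    · exact hWr ((Nat.prime_dvd_prime_iff_eq hW hr).mp h)
  have hrNW : ¬ r ∣ N * W := by
    intro h
    rcases (Nat.Prime.dvd_mul hr).mp h with h | h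
    · exact hrN h
    · exact hWr ((Nat.prime_dvd_prime_iff_eq hr hW).mp h).symm
  obtain ⟨x1, c, w, hk1, hk2, hc, hx1, -⟩ := core_alg hr hrN hW hWr hWN hW1 hp hp2
    (iharaProp_holds hr hrN hW hWr hW1 hp hpr) (iharaPropU_holds hr hrN hW hWr hW1 hp hpr)
    (cores_res hr hrN) (coresD_resD hr hrN) (hc6_heckeHom_eq_heckeHomU hr hrN)
    x0 hpar hx0 eps heps wr hTr nW wW hTW hnW
  set y := res N r x0 - eps • resD N r x0 with hy
  have hynd := y_not_dvd hp (iharaPropU_holds hr hrN hW hWr hW1 hp hpr) x0 hpar hx0 eps nW wW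
    hTW hnW
  rw [← hy] at hynd
  set c0 : ℤ := nW - (W + 1) with hc0
  -- the action of the Hecke operators on `y`
  have hTy : ∀ (l : ℕ) [NeZero l], l.Prime → ¬ l ∣ N * r → ∀ (n : ℤ)
      (wl : Additive (Gamma0 N) →+ ℤ), heckeHomU N l x0 = n • x0 + (p : ℤ) • wl →
      heckeHomU (N * r) l y = n • y + (p : ℤ) • (res N r wl - eps • resD N r wl) := by
    intro l _ hl hlN n wl h
    rw [hy, ← TU_apply, map_sub, map_zsmul, TU_apply, TU_apply, heckeHomU_res hl hlN,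
      heckeHomU_resD hl hlN, h, map_add, map_add, map_zsmul, map_zsmul, map_zsmul, map_zsmul]
    module
  have hey : eisU (N * r) W y = c0 • y + (p : ℤ) • (res N r wW - eps • resD N r wW) := by
    unfold eisU
    rw [hTy W hW hWNr nW wW hTW]
    have h2 : (W + 1) • y = ((W : ℤ) + 1) • y := by
      rw [← natCast_zsmul]; push_cast; rfl
    rw [h2, hc0]
    module
  set v := res N r wW - eps • resD N r wW with hv
  -- `x2 = e x1`
  have hx2 : eisU (N * r) W x1 = (c * c0) • y + (p : ℤ) • (c • v + eisU (N * r) W w) := by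
    rw [hx1, ← eisUAdd_apply, map_add, map_zsmul, map_zsmul, eisUAdd_apply, eisUAdd_apply, hey]
    module
  have hcc : ¬ (p : ℤ) ∣ c * c0 := by
    intro h
    rcases hpZ.dvd_or_dvd h with h | h
    · exact hc h
    · exact hnW h
  have hz1 : cores N r (eisU (N * r) W x1) = 0 := by
    rw [← eisU_cores hr hrNW, hk1, ← eisUAdd_apply, map_zero]
  have hz2 : coresD N r (eisU (N * r) W x1) = 0 := by
    rw [← eisU_coresD hr hrNW, hk2, ← eisUAdd_apply, map_zero]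
  refine ⟨eisU (N * r) W x1, hPar x1, ?_, hz1, hz2,
    heckeHomU_sq_of_cores_eq_zero hr hrN _ hz1 hz2, ?_⟩
  · rintro ⟨w', hw'⟩
    apply hynd
    have hcop : IsCoprime (c * c0) (p : ℤ) :=
      ((hpZ.irreducible.coprime_iff_not_dvd).mpr hcc).symm
    obtain ⟨a, b, hab⟩ := hcop
    set t := c • v + eisU (N * r) W w with ht
    refine ⟨a • (w' - t) + b • y, ?_⟩
    have h1 : (c * c0) • y = (p : ℤ) • (w' - t) := by
      have : (c * c0) • y = eisU (N * r) W x1 - (p : ℤ) • t := by rw [hx2]; abel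
      rw [this, hw']; module
    calc y = (a * (c * c0) + b * (p : ℤ)) • y := by rw [hab, one_smul]
      _ = a • ((c * c0) • y) + (p : ℤ) • (b • y) := by module
      _ = (p : ℤ) • (a • (w' - t) + b • y) := by rw [h1]; module
  · intro l _ hl hlN n wl h
    set t := c • v + eisU (N * r) W w with ht
    refine ⟨(c * c0) • (res N r wl - eps • resD N r wl) + heckeHomU (N * r) l t - n • t, ?_⟩
    rw [hx2, ← TU_apply, map_add, map_zsmul, map_zsmul, TU_apply, TU_apply, hTy l hl hlN n wl h]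
    module

end Fermat.Agent.S41Lib
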