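import Mathlib
import Fermat.Agent.S49.CommAlg

/-!
# S41 library: abstract Deligne–Serre step for a commuting family preserving a lattice
-/

set_option autoImplicit false

namespace Fermat.Agent.S41Lib

open Module

theorem adjoin_stab_lattice {V : Type*} [AddCommGroup V] [Module ℂ V]
    (G : Set (Module.End ℂ V)) (Λ : Submodule ℤ V)
    (hstab : ∀ T ∈ G, ∀ l ∈ Λ, T l ∈ Λ) :
    ∀ t ∈ Algebra.adjoin ℤ G, ∀ l ∈ Λ, t l ∈ Λ := by
  intro t ht
  induction ht using Algebra.adjoin_induction with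
  | mem x hx => exact hstab x hx
  | algebraMap r =>
    intro l hl
    have : (algebraMap ℤ (Module.End ℂ V) r) l = r • l := by
      simp
    rw [this]
    exact Λ.smul_mem r hl
  | add x y _ _ hx hy =>
    intro l hl
    rw [LinearMap.add_apply]
    exact Λ.add_mem (hx l hl) (hy l hl)
  | mul x y _ _ hx hy =>
    intro l hl
    rw [Module.End.mul_apply]
    exact hx _ (hy l hl)

/-- a `ℤ`-algebra of operators on a complex vector space which stabilises a finitely generated
subgroup spanning the space is a finite `ℤ`-module. -/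
theorem finite_adjoin_of_lattice {V : Type*} [AddCommGroup V] [Module ℂ V]
    (G : Set (Module.End ℂ V)) (Λ : Submodule ℤ V) (hfg : Λ.FG)
    (hstab : ∀ T ∈ G, ∀ l ∈ Λ, T l ∈ Λ)
    (hspan : Submodule.span ℂ (Λ : Set V) = ⊤) :
    Module.Finite ℤ (Algebra.adjoin ℤ G) := by
  classical
  have hA := adjoin_stab_lattice G Λ hstab
  have : IsNoetherian ℤ Λ := isNoetherian_of_fg_of_noetherian Λ hfg
  obtain ⟨s, hs⟩ := hfg
  let Φ : (Algebra.adjoin ℤ G) →ₗ[ℤ] (s → Λ) :=
    { toFun := fun t l => ⟨(t : Module.End ℂ V) (l : V),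
        hA t t.2 l (hs ▸ Submodule.subset_span l.2)⟩
      map_add' := by
        intro a b
        funext l
        apply Subtype.ext
        simp
      map_smul' := by
        intro r a
        funext l
        apply Subtype.ext
        simp }
  refine Module.Finite.of_injective Φ ?_
  rw [← LinearMap.ker_eq_bot, LinearMap.ker_eq_bot']
  intro t ht
  apply Subtype.ext
  have hs' : Submodule.span ℂ (s : Set V) = ⊤ := by
    rw [← hspan, ← hs, Submodule.span_span_of_tower]
  apply LinearMap.ext_on hs'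
  intro x hx
  have := congrArg (fun F => ((F ⟨x, hx⟩ : Λ) : V)) ht
  simpa [Φ] using this

/-- **Abstract Deligne–Serre step.** -/
theorem abstract_ds {H : Type*} [AddCommGroup H] [Module ℂ H] (K : Submodule ℤ H) (hK : K.FG)
    {ι : Type*} (T : ι → Module.End ℂ H) (hTK : ∀ i, ∀ x ∈ K, T i x ∈ K)
    (hcomm : ∀ i j, ∀ x ∈ K, T i (T j x) = T j (T i x)) (p : ℕ) (x1 : H) (hx1K : x1 ∈ K)
    (hx1 : ¬ ∃ w ∈ K, x1 = (p : ℤ) • w) (n : ι → ℤ) (I : Set ι)
    (hn : ∀ i ∈ I, ∃ w ∈ K, T i x1 = n i • x1 + (p : ℤ) • w) :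
    ∃ (v : H) (c : ι → integralClosure ℤ ℂ) (𝔪' : Ideal (integralClosure ℤ ℂ)),
      v ∈ Submodule.span ℂ (K : Set H) ∧ v ≠ 0 ∧ 𝔪'.IsMaximal ∧ (p : integralClosure ℤ ℂ) ∈ 𝔪' ∧
      (∀ i, T i v = ((c i : integralClosure ℤ ℂ) : ℂ) • v) ∧
      ∀ i ∈ I, c i - (n i : integralClosure ℤ ℂ) ∈ 𝔪' := by
  classical
  set V : Submodule ℂ H := Submodule.span ℂ (K : Set H) with hV
  have hKV : ∀ x ∈ K, x ∈ V := fun x hx => Submodule.subset_span hx
  have : FiniteDimensional ℂ V := by
    obtain ⟨s, hs⟩ := hK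
    have : V = Submodule.span ℂ (s : Set H) := by
      rw [hV, ← hs, Submodule.span_span_of_tower]
    rw [this]; exact FiniteDimensional.span_finset ℂ s
  have hTV : ∀ i, ∀ x ∈ V, T i x ∈ V := by
    intro i x hx
    induction hx using Submodule.span_induction with
    | mem x hx => exact hKV _ (hTK i x hx)
    | zero => simp
    | add x y _ _ hx hy => rw [map_add]; exact V.add_mem hx hy
    | smul a x _ hx => rw [map_smul]; exact V.smul_mem a hx
  let Tv : ι → Module.End ℂ V := fun i => (T i).restrict (hTV i)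
  have hTv : ∀ i (x : V), ((Tv i x : V) : H) = T i (x : H) := fun i x => rfl
  have hcommV : ∀ i j, Tv i * Tv j = Tv j * Tv i := by
    intro i j
    ext ⟨x, hx⟩
    show T i (T j x) = T j (T i x)
    induction hx using Submodule.span_induction with
    | mem x hx => exact hcomm i j x hx
    | zero => simp
    | add x y _ _ hx hy => simp only [map_add, hx, hy]
    | smul a x _ hx => simp only [map_smul, hx]
  let G : Set (Module.End ℂ V) := Set.range Tv
  let Λ : Submodule ℤ V := K.comap (V.subtype.restrictScalars ℤ)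
  have hΛ : ∀ x : V, x ∈ Λ ↔ (x : H) ∈ K := fun x => Iff.rfl
  have hΛfg : Λ.FG := by
    have : IsNoetherian ℤ K := isNoetherian_of_fg_of_noetherian K hK
    let e : Λ →ₗ[ℤ] K :=
      { toFun := fun x => ⟨((x : V) : H), x.2⟩
        map_add' := fun _ _ => rfl
        map_smul' := fun _ _ => rfl }
    have he : Function.Injective e := by
      intro x y hxy
      apply Subtype.ext; apply Subtype.ext
      exact congrArg (fun z : K => (z : H)) hxy
    have : Module.Finite ℤ Λ := Module.Finite.of_injective e he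
    exact Module.Finite.iff_fg.mp this
  have hstab : ∀ t ∈ G, ∀ l ∈ Λ, t l ∈ Λ := by
    rintro _ ⟨i, rfl⟩ l hl
    exact hTK i _ hl
  have hspan : Submodule.span ℂ (Λ : Set V) = ⊤ := by
    rw [eq_top_iff]
    rintro ⟨x, hx⟩ -
    induction hx using Submodule.span_induction with
    | mem x hx => exact Submodule.subset_span (show (⟨x, hKV x hx⟩ : V) ∈ Λ from hx)
    | zero => exact Submodule.zero_mem _
    | add x y hx' hy' hx hy => exact Submodule.add_mem _ hx hy
    | smul a x hx' hx => exact Submodule.smul_mem _ a hx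
  have hA := adjoin_stab_lattice G Λ hstab
  let _ : CommRing (Algebra.adjoin ℤ G) := Algebra.adjoinCommRingOfComm ℤ (by
    rintro _ ⟨i, rfl⟩ _ ⟨j, rfl⟩; exact hcommV i j)
  have : Module.Finite ℤ (Algebra.adjoin ℤ G) := finite_adjoin_of_lattice G Λ hΛfg hstab hspan
  let j : Algebra.adjoin ℤ G →+* Module.End ℂ V := (Algebra.adjoin ℤ G).val.toRingHom
  have hj : Function.Injective j := Subtype.val_injective
  let tA : ι → Algebra.adjoin ℤ G := fun i => ⟨Tv i, Algebra.subset_adjoin ⟨i, rfl⟩⟩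
  let J : Ideal (Algebra.adjoin ℤ G) :=
    Ideal.span ({(p : Algebra.adjoin ℤ G)} ∪ (fun i => tA i - (n i : Algebra.adjoin ℤ G)) '' I)
  let x1' : V := ⟨x1, hKV x1 hx1K⟩
  have hJmem : ∀ a ∈ J, ∃ w ∈ Λ, j a x1' = (p : ℤ) • w := by
    intro a ha
    induction ha using Submodule.span_induction with
    | mem a ha =>
      rcases ha with rfl | ⟨i, hi, rfl⟩
      · refine ⟨x1', hx1K, ?_⟩
        rw [map_natCast]
        simp
      · obtain ⟨w, hw, hTw⟩ := hn i hi
        refine ⟨⟨w, hKV w hw⟩, hw, ?_⟩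
        rw [map_sub, map_intCast]
        apply Subtype.ext
        have : ((j (tA i) x1' : V) : H) = T i x1 := rfl
        simp only [LinearMap.sub_apply, Submodule.coe_sub, this, hTw]
        simp [x1']
    | zero => exact ⟨0, Λ.zero_mem, by simp⟩
    | add a b _ _ ha hb =>
      obtain ⟨w, hw, h1⟩ := ha
      obtain ⟨w', hw', h2⟩ := hb
      exact ⟨w + w', Λ.add_mem hw hw', by rw [map_add, LinearMap.add_apply, h1, h2, smul_add]⟩
    | smul b a _ ha =>
      obtain ⟨w, hw, h1⟩ := ha
      refine ⟨j b w, hA _ b.2 w hw, ?_⟩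
      rw [smul_eq_mul, map_mul, Module.End.mul_apply, h1, map_zsmul]
  have hJ : J ≠ ⊤ := by
    intro htop
    obtain ⟨w, hw, h1⟩ := hJmem 1 (htop ▸ Submodule.mem_top)
    rw [map_one, Module.End.one_apply] at h1
    exact hx1 ⟨w, hw, congrArg (fun z : V => (z : H)) h1⟩
  obtain ⟨v, χ, 𝔪', hv0, hv, h𝔪', hχJ⟩ := Fermat.Agent.S49Lib.deligneSerre_lift j hj J hJ
  refine ⟨v, fun i => χ (tA i), 𝔪', v.2, fun h => hv0 (Subtype.ext h), h𝔪', ?_, ?_, ?_⟩
  · have := hχJ (p : Algebra.adjoin ℤ G) (Ideal.subset_span (Or.inl rfl))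
    rwa [map_natCast] at this
  · intro i
    exact congrArg (fun z : V => (z : H)) (hv (tA i))
  · intro i hi
    have := hχJ _ (Ideal.subset_span (Or.inr ⟨i, hi, rfl⟩))
    rwa [map_sub, map_intCast] at this

end Fermat.Agent.S41Lib
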