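import Fermat.Agent.S14.Density

/-!
# S41, leaf ECheb, part 1: the analytic density lemma for primes of degree one

Variant of `S14Lib.zeta_core_ideal` where the hypothesis is only required for the primes of `X`
whose absolute norm is a prime number.
-/

set_option autoImplicit false
set_option linter.style.haveILetI false
set_option linter.unusedSectionVars false

namespace Fermat.Agent.S41Lib

open Filter Topology NumberField Fermat.Agent.S14Lib

theorem prod_Icc_inv_one_sub_sq (n : ℕ) :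
    ∏ k ∈ Finset.Icc 2 (n + 1), (1 - ((k : ℝ) ^ 2)⁻¹)⁻¹ = 2 * ((n : ℝ) + 1) / ((n : ℝ) + 2) := by
  induction n with
  | zero => simp
  | succ n ih =>
    rw [Finset.prod_Icc_succ_top (by omega), ih]
    have h1 : ((n : ℝ) + 1) ≠ 0 := by positivity
    have h2 : ((n : ℝ) + 2) ≠ 0 := by positivity
    have h3 : ((n : ℝ) + 3) ≠ 0 := by positivity
    have h4 : (1 - ((((n + 1 + 1 : ℕ) : ℝ)) ^ 2)⁻¹) = ((n : ℝ) + 1) * ((n : ℝ) + 3) / ((n : ℝ) + 2) ^ 2 := by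
      push_cast
      field_simp
      ring
    rw [h4]
    push_cast
    field_simp
    ring

theorem one_le_inv_one_sub_sq {k : ℕ} (hk : 2 ≤ k) : 1 ≤ (1 - ((k : ℝ) ^ 2)⁻¹)⁻¹ := by
  have h2 : (2 : ℝ) ≤ k := by exact_mod_cast hk
  have h3 : ((k : ℝ) ^ 2)⁻¹ < 1 := by
    apply inv_lt_one_of_one_lt₀
    nlinarith
  have h4 : 0 ≤ ((k : ℝ) ^ 2)⁻¹ := by positivity
  rw [one_le_inv₀ (by linarith)]
  linarith

/-- finite products of `(1 - 1/k^2)^{-1}` over integers `≥ 2` are at most `2`. -/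
theorem prod_inv_one_sub_sq_le (S : Finset ℕ) (hS : ∀ k ∈ S, 2 ≤ k) :
    ∏ k ∈ S, (1 - ((k : ℝ) ^ 2)⁻¹)⁻¹ ≤ 2 := by
  have hsub : S ⊆ Finset.Icc 2 (S.sup id + 1) := by
    intro k hk
    rw [Finset.mem_Icc]
    exact ⟨hS k hk, (Finset.le_sup (f := id) hk).trans (Nat.le_succ _)⟩
  calc ∏ k ∈ S, (1 - ((k : ℝ) ^ 2)⁻¹)⁻¹
      ≤ ∏ k ∈ Finset.Icc 2 (S.sup id + 1), (1 - ((k : ℝ) ^ 2)⁻¹)⁻¹ := by
        rw [← Finset.prod_sdiff hsub]
        have h1 : 1 ≤ ∏ k ∈ Finset.Icc 2 (S.sup id + 1) \ S, (1 - ((k : ℝ) ^ 2)⁻¹)⁻¹ := by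
          apply Finset.one_le_prod
          intro k hk
          exact one_le_inv_one_sub_sq (Finset.mem_Icc.mp (Finset.mem_sdiff.mp hk).1).1
        have h0 : 0 ≤ ∏ k ∈ S, (1 - ((k : ℝ) ^ 2)⁻¹)⁻¹ := by
          apply Finset.prod_nonneg
          intro k hk
          have := one_le_inv_one_sub_sq (hS k hk)
          positivity
        nlinarith
    _ = 2 * (((S.sup id : ℕ) : ℝ) + 1) / (((S.sup id : ℕ) : ℝ) + 2) := prod_Icc_inv_one_sub_sq _
    _ ≤ 2 := by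
        rw [div_le_iff₀ (by positivity)]
        linarith

section

variable (X : Type*) [Field X] [NumberField X]

/-- the rational prime below a prime of `X`. -/
noncomputable def below (Q : Ideal (𝓞 X)) : ℕ := Ideal.absNorm (Ideal.under ℤ Q)

theorem below_prime {Q : Ideal (𝓞 X)} (hQ : Q.IsPrime) (hQ0 : Q ≠ ⊥) : (below X Q).Prime := by
  haveI := hQ
  haveI : NeZero Q := ⟨hQ0⟩
  exact Nat.absNorm_under_prime Q

theorem absNorm_eq_below_pow {Q : Ideal (𝓞 X)} (hQ : Q.IsPrime) (hQ0 : Q ≠ ⊥) :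
    ∃ f : ℕ, Ideal.absNorm Q = below X Q ^ f := by
  haveI := hQ
  have hp := below_prime X hQ hQ0
  haveI : Q.LiesOver (Ideal.span {((below X Q : ℕ) : ℤ)}) := Int.liesOver_span_absNorm Q
  exact ⟨_, Ideal.absNorm_eq_pow_inertiaDeg' Q hp⟩

theorem below_sq_le {Q : Ideal (𝓞 X)} (hQ : Q.IsPrime) (hQ0 : Q ≠ ⊥)
    (hnp : ¬ (Ideal.absNorm Q).Prime) : below X Q ^ 2 ≤ Ideal.absNorm Q := by
  obtain ⟨f, hf⟩ := absNorm_eq_below_pow X hQ hQ0
  have hp := below_prime X hQ hQ0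
  have h2 := two_le_absNorm X hQ hQ0
  rw [hf]
  apply Nat.pow_le_pow_right hp.pos
  by_contra hlt
  have : f = 0 ∨ f = 1 := by omega
  rcases this with rfl | rfl
  · rw [hf] at h2; simp at h2
  · rw [hf, pow_one] at hnp; exact hnp hp

theorem card_filter_below_le (T : Finset (Ideal (𝓞 X))) (hT : ∀ Q ∈ T, Q.IsPrime ∧ Q ≠ ⊥) (k : ℕ) :
    (T.filter (fun Q => below X Q = k)).card ≤ Module.finrank ℚ X := by
  classical
  by_cases hk : ∃ Q ∈ T, below X Q = k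
  · obtain ⟨Q₀, hQ₀, rfl⟩ := hk
    have hp := below_prime X (hT Q₀ hQ₀).1 (hT Q₀ hQ₀).2
    haveI : Fact (below X Q₀).Prime := ⟨hp⟩
    have hp0 : Ideal.span {((below X Q₀ : ℕ) : ℤ)} ≠ ⊥ := by
      rw [Ne, Ideal.span_singleton_eq_bot]
      exact_mod_cast hp.ne_zero
    haveI : (Ideal.span {((below X Q₀ : ℕ) : ℤ)}).IsMaximal := Int.ideal_span_isMaximal_of_prime _
    refine le_trans (Finset.card_le_card ?_)
      (Ideal.card_primesOverFinset_le_finrank (R := ℤ) (S := 𝓞 X) (K := ℚ) (L := X) hp0)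
    intro Q hQ
    rw [Finset.mem_filter] at hQ
    rw [IsDedekindDomain.mem_primesOverFinset_iff hp0]
    refine ⟨(hT Q hQ.1).1, ?_⟩
    rw [← hQ.2]
    exact Int.liesOver_span_absNorm Q
  · have : T.filter (fun Q => below X Q = k) = ∅ := by
      rw [Finset.filter_eq_empty_iff]
      intro Q hQ h
      exact hk ⟨Q, hQ, h⟩
    rw [this]
    simp

/-- the primes of degree `≥ 2` contribute a bounded factor to the Euler product. -/
theorem prod_nonprime_le {s : ℝ} (hs : 1 < s) (T : Finset (Ideal (𝓞 X)))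
    (hT : ∀ Q ∈ T, Q.IsPrime ∧ Q ≠ ⊥) (hT2 : ∀ Q ∈ T, ¬ (Ideal.absNorm Q).Prime) :
    ∏ Q ∈ T, (1 - wt X s Q)⁻¹ ≤ 2 ^ Module.finrank ℚ X := by
  classical
  have h1 : ∀ Q ∈ T, (1 - wt X s Q)⁻¹ ≤ (1 - (((below X Q : ℕ) : ℝ) ^ 2)⁻¹)⁻¹ := by
    intro Q hQ
    have hp := below_prime X (hT Q hQ).1 (hT Q hQ).2
    have hle := below_sq_le X (hT Q hQ).1 (hT Q hQ).2 (hT2 Q hQ)
    have hle' : ((below X Q : ℕ) : ℝ) ^ 2 ≤ (Ideal.absNorm Q : ℝ) := by exact_mod_cast hle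
    have hpos : (0 : ℝ) < ((below X Q : ℕ) : ℝ) ^ 2 := by
      have : (0 : ℝ) < ((below X Q : ℕ) : ℝ) := by exact_mod_cast hp.pos
      positivity
    have hN1 : (1 : ℝ) ≤ (Ideal.absNorm Q : ℝ) := by
      have := two_le_absNorm X (hT Q hQ).1 (hT Q hQ).2
      exact_mod_cast (by omega : 1 ≤ Ideal.absNorm Q)
    have hw : wt X s Q ≤ (((below X Q : ℕ) : ℝ) ^ 2)⁻¹ := by
      unfold wt
      calc (Ideal.absNorm Q : ℝ) ^ (-s) ≤ (Ideal.absNorm Q : ℝ) ^ (-1 : ℝ) :=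
            Real.rpow_le_rpow_of_exponent_le hN1 (by linarith)
        _ = (Ideal.absNorm Q : ℝ)⁻¹ := Real.rpow_neg_one _
        _ ≤ (((below X Q : ℕ) : ℝ) ^ 2)⁻¹ := inv_anti₀ hpos hle'
    have hlt : (((below X Q : ℕ) : ℝ) ^ 2)⁻¹ < 1 := by
      apply inv_lt_one_of_one_lt₀
      have : (2 : ℝ) ≤ ((below X Q : ℕ) : ℝ) := by exact_mod_cast hp.two_le
      nlinarith
    apply inv_anti₀ (by linarith)
    linarith
  have h0 : ∀ Q ∈ T, 0 ≤ (1 - wt X s Q)⁻¹ := by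
    intro Q hQ
    have := wt_le_half X hs (hT Q hQ).1 (hT Q hQ).2
    apply inv_nonneg.mpr
    linarith
  calc ∏ Q ∈ T, (1 - wt X s Q)⁻¹
      ≤ ∏ Q ∈ T, (1 - (((below X Q : ℕ) : ℝ) ^ 2)⁻¹)⁻¹ := Finset.prod_le_prod h0 h1
    _ = ∏ k ∈ T.image (below X), (1 - ((k : ℝ) ^ 2)⁻¹)⁻¹ ^ (T.filter (fun Q => below X Q = k)).card :=
        Finset.prod_comp (fun k : ℕ => (1 - ((k : ℝ) ^ 2)⁻¹)⁻¹) (below X)
    _ ≤ ∏ k ∈ T.image (below X), (1 - ((k : ℝ) ^ 2)⁻¹)⁻¹ ^ Module.finrank ℚ X := by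
        apply Finset.prod_le_prod
        · intro k hk
          obtain ⟨Q, hQ, rfl⟩ := Finset.mem_image.mp hk
          have := one_le_inv_one_sub_sq (below_prime X (hT Q hQ).1 (hT Q hQ).2).two_le
          positivity
        · intro k hk
          obtain ⟨Q, hQ, rfl⟩ := Finset.mem_image.mp hk
          exact pow_le_pow_right₀ (one_le_inv_one_sub_sq (below_prime X (hT Q hQ).1 (hT Q hQ).2).two_le)
            (card_filter_below_le X T hT _)
    _ = (∏ k ∈ T.image (below X), (1 - ((k : ℝ) ^ 2)⁻¹)⁻¹) ^ Module.finrank ℚ X :=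
        Finset.prod_pow _ _ _
    _ ≤ 2 ^ Module.finrank ℚ X := by
        apply pow_le_pow_left₀
        · apply Finset.prod_nonneg
          intro k hk
          obtain ⟨Q, hQ, rfl⟩ := Finset.mem_image.mp hk
          have := one_le_inv_one_sub_sq (below_prime X (hT Q hQ).1 (hT Q hQ).2).two_le
          positivity
        · apply prod_inv_one_sub_sq_le
          intro k hk
          obtain ⟨Q, hQ, rfl⟩ := Finset.mem_image.mp hk
          exact (below_prime X (hT Q hQ).1 (hT Q hQ).2).two_le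

end

section Core

variable (X Y : Type*) [Field X] [NumberField X] [Field Y] [NumberField Y]

/-- the key inequality `ζ_X(s)^2 ≤ C ζ_Y(s)`, hypotheses only for primes of prime norm. -/
theorem zeta_sq_le_deg1 (B : Finset (Ideal (𝓞 X)))
    (P : Ideal (𝓞 X) → Fin 2 → Ideal (𝓞 Y))
    (hP : ∀ Q : Ideal (𝓞 X), Q.IsPrime → Q ≠ ⊥ → Q ∉ B → (Ideal.absNorm Q).Prime → ∀ i,
      (P Q i).IsPrime ∧ P Q i ≠ ⊥ ∧ Ideal.absNorm (P Q i) = Ideal.absNorm Q)
    (hinj : ∀ (Q Q' : Ideal (𝓞 X)) (i i' : Fin 2), Q.IsPrime → Q ≠ ⊥ → Q ∉ B →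
      (Ideal.absNorm Q).Prime → Q'.IsPrime → Q' ≠ ⊥ → Q' ∉ B → (Ideal.absNorm Q').Prime →
      P Q i = P Q' i' → Q = Q' ∧ i = i')
    {s : ℝ} (hs : 1 < s) :
    (dedekindZeta X s).re ^ 2 ≤
      (2 ^ B.card * 2 ^ Module.finrank ℚ X) ^ 2 * (dedekindZeta Y s).re := by
  classical
  have hZY : 0 ≤ (dedekindZeta Y s).re := (hasSum_wt Y hs).nonneg (wt_nonneg Y s)
  have hZX : 0 ≤ (dedekindZeta X s).re := (hasSum_wt X hs).nonneg (wt_nonneg X s)
  set C : ℝ := 2 ^ B.card * 2 ^ Module.finrank ℚ X with hC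
  have hC0 : 0 ≤ C := by positivity
  have hfin : ∀ F : Finset (Ideal (𝓞 X)),
      ∑ I ∈ F, wt X s I ≤ √(C ^ 2 * (dedekindZeta Y s).re) := by
    intro F
    obtain ⟨T, hT, hle⟩ := sum_le_euler X hs F
    apply Real.le_sqrt_of_sq_le
    have hfac : ∀ Q ∈ T, 0 ≤ (1 - wt X s Q)⁻¹ ∧ (1 - wt X s Q)⁻¹ ≤ 2 := by
      intro Q hQ
      have h1 := wt_le_half X hs (hT Q hQ).1 (hT Q hQ).2
      constructor
      · apply inv_nonneg.mpr; linarith
      · rw [inv_le_comm₀ (by linarith) (by norm_num)]; linarith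
    have hsplit := Finset.prod_filter_mul_prod_filter_not T (fun Q => Q ∈ B)
      (fun Q => (1 - wt X s Q)⁻¹)
    have h1 : ∏ Q ∈ T.filter (fun Q => Q ∈ B), (1 - wt X s Q)⁻¹ ≤ 2 ^ B.card := by
      calc ∏ Q ∈ T.filter (fun Q => Q ∈ B), (1 - wt X s Q)⁻¹
          ≤ ∏ Q ∈ T.filter (fun Q => Q ∈ B), (2 : ℝ) :=
            Finset.prod_le_prod (fun Q hQ => (hfac Q (Finset.mem_filter.mp hQ).1).1)
              (fun Q hQ => (hfac Q (Finset.mem_filter.mp hQ).1).2)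
        _ = 2 ^ (T.filter (fun Q => Q ∈ B)).card := by rw [Finset.prod_const]
        _ ≤ 2 ^ B.card := by
            apply pow_le_pow_right₀ (by norm_num)
            apply Finset.card_le_card
            intro Q hQ
            exact (Finset.mem_filter.mp hQ).2
    have h1' : 0 ≤ ∏ Q ∈ T.filter (fun Q => Q ∈ B), (1 - wt X s Q)⁻¹ :=
      Finset.prod_nonneg (fun Q hQ => (hfac Q (Finset.mem_filter.mp hQ).1).1)
    set T₀ := T.filter (fun Q => ¬ Q ∈ B) with hT₀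
    have hsplit2 := Finset.prod_filter_mul_prod_filter_not T₀ (fun Q => (Ideal.absNorm Q).Prime)
      (fun Q => (1 - wt X s Q)⁻¹)
    set T' := T₀.filter (fun Q => (Ideal.absNorm Q).Prime) with hT'
    set T'' := T₀.filter (fun Q => ¬ (Ideal.absNorm Q).Prime) with hT''
    have hT'mem : ∀ Q ∈ T', Q.IsPrime ∧ Q ≠ ⊥ ∧ Q ∉ B ∧ (Ideal.absNorm Q).Prime := by
      intro Q hQ
      have h := Finset.mem_filter.mp hQ
      have h' := Finset.mem_filter.mp h.1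
      exact ⟨(hT Q h'.1).1, (hT Q h'.1).2, h'.2, h.2⟩
    have h3 : ∏ Q ∈ T'', (1 - wt X s Q)⁻¹ ≤ 2 ^ Module.finrank ℚ X := by
      apply prod_nonprime_le X hs
      · intro Q hQ
        exact hT Q (Finset.mem_filter.mp (Finset.mem_filter.mp hQ).1).1
      · intro Q hQ
        exact (Finset.mem_filter.mp hQ).2
    have h3' : 0 ≤ ∏ Q ∈ T'', (1 - wt X s Q)⁻¹ :=
      Finset.prod_nonneg (fun Q hQ =>
        (hfac Q (Finset.mem_filter.mp (Finset.mem_filter.mp hQ).1).1).1)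
    have h2' : 0 ≤ ∏ Q ∈ T', (1 - wt X s Q)⁻¹ :=
      Finset.prod_nonneg (fun Q hQ =>
        (hfac Q (Finset.mem_filter.mp (Finset.mem_filter.mp hQ).1).1).1)
    have h2 : (∏ Q ∈ T', (1 - wt X s Q)⁻¹) ^ 2 ≤ (dedekindZeta Y s).re := by
      have hinjOn : Set.InjOn (fun x : Ideal (𝓞 X) × Fin 2 => P x.1 x.2)
          ((T' ×ˢ (Finset.univ : Finset (Fin 2)) : Finset _) : Set (Ideal (𝓞 X) × Fin 2)) := by
        rintro ⟨Q, i⟩ hx ⟨Q', i'⟩ hx' h
        have hQ := hT'mem Q (Finset.mem_product.mp (Finset.mem_coe.mp hx)).1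
        have hQ' := hT'mem Q' (Finset.mem_product.mp (Finset.mem_coe.mp hx')).1
        obtain ⟨e1, e2⟩ := hinj Q Q' i i' hQ.1 hQ.2.1 hQ.2.2.1 hQ.2.2.2 hQ'.1 hQ'.2.1 hQ'.2.2.1
          hQ'.2.2.2 h
        rw [e1, e2]
      have h3 := euler_le_zeta Y hs
        ((T' ×ˢ (Finset.univ : Finset (Fin 2))).image (fun x => P x.1 x.2)) (by
          intro P' hP'
          obtain ⟨⟨Q, i⟩, hx, rfl⟩ := Finset.mem_image.mp hP'
          have hQ := hT'mem Q (Finset.mem_product.mp hx).1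
          exact ⟨(hP Q hQ.1 hQ.2.1 hQ.2.2.1 hQ.2.2.2 i).1, (hP Q hQ.1 hQ.2.1 hQ.2.2.1 hQ.2.2.2 i).2.1⟩)
      rw [Finset.prod_image hinjOn, Finset.prod_product] at h3
      refine le_trans (le_of_eq ?_) h3
      rw [← Finset.prod_pow]
      refine Finset.prod_congr rfl (fun Q hQ => ?_)
      have hQ' := hT'mem Q hQ
      have hw : ∀ i, wt Y s (P Q i) = wt X s Q := by
        intro i
        unfold wt
        rw [(hP Q hQ'.1 hQ'.2.1 hQ'.2.2.1 hQ'.2.2.2 i).2.2]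
      simp only [hw]
      simp [pow_two]
    have hsum0 : 0 ≤ ∑ I ∈ F, wt X s I := Finset.sum_nonneg (fun I _ => wt_nonneg X s I)
    calc (∑ I ∈ F, wt X s I) ^ 2 ≤ (∏ Q ∈ T, (1 - wt X s Q)⁻¹) ^ 2 :=
          pow_le_pow_left₀ hsum0 hle 2
      _ = ((∏ Q ∈ T.filter (fun Q => Q ∈ B), (1 - wt X s Q)⁻¹) *
            (∏ Q ∈ T'', (1 - wt X s Q)⁻¹)) ^ 2 *
            (∏ Q ∈ T', (1 - wt X s Q)⁻¹) ^ 2 := by rw [← hsplit, ← hsplit2]; ring
      _ ≤ C ^ 2 * (dedekindZeta Y s).re := by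
          apply mul_le_mul _ h2 (by positivity) (by positivity)
          apply pow_le_pow_left₀ (by positivity)
          exact mul_le_mul h1 h3 h3' (by positivity)
  have h := (hasSum_wt X hs).summable.tsum_le_of_sum_le hfin
  rw [(hasSum_wt X hs).tsum_eq] at h
  calc (dedekindZeta X s).re ^ 2 ≤ (√(C ^ 2 * (dedekindZeta Y s).re)) ^ 2 :=
        pow_le_pow_left₀ hZX h 2
    _ = C ^ 2 * (dedekindZeta Y s).re := Real.sq_sqrt (by positivity)

/-- **Density lemma for degree one primes**: it is impossible that almost every prime `Q` of `X`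
of prime norm has two partner primes of `Y` of the same absolute norm, injectively in `(Q, i)`. -/
theorem zeta_core_deg1 (B : Set (Ideal (𝓞 X))) (hB : B.Finite)
    (P : Ideal (𝓞 X) → Fin 2 → Ideal (𝓞 Y))
    (hP : ∀ Q : Ideal (𝓞 X), Q.IsPrime → Q ≠ ⊥ → Q ∉ B → (Ideal.absNorm Q).Prime → ∀ i,
      (P Q i).IsPrime ∧ P Q i ≠ ⊥ ∧ Ideal.absNorm (P Q i) = Ideal.absNorm Q)
    (hinj : ∀ (Q Q' : Ideal (𝓞 X)) (i i' : Fin 2), Q.IsPrime → Q ≠ ⊥ → Q ∉ B →
      (Ideal.absNorm Q).Prime → Q'.IsPrime → Q' ≠ ⊥ → Q' ∉ B → (Ideal.absNorm Q').Prime →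
      P Q i = P Q' i' → Q = Q' ∧ i = i') : False := by
  set C : ℝ := (2 ^ hB.toFinset.card * 2 ^ Module.finrank ℚ X) ^ 2 with hC
  have key : ∀ s : ℝ, 1 < s → (dedekindZeta X s).re ^ 2 ≤ C * (dedekindZeta Y s).re := by
    intro s hs
    exact zeta_sq_le_deg1 X Y hB.toFinset P (by simpa using hP) (by simpa using hinj) hs
  have hX := (tendsto_sub_one_mul_re X).pow 2
  have h0 : Tendsto (fun s : ℝ => s - 1) (𝓝[>] 1) (𝓝 0) :=
    ((continuous_id.sub continuous_const).tendsto' (1 : ℝ) 0 (by simp)).mono_left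
      nhdsWithin_le_nhds
  have hY := (h0.const_mul C).mul (tendsto_sub_one_mul_re Y)
  have hle : dedekindZeta_residue X ^ 2 ≤ C * 0 * dedekindZeta_residue Y := by
    refine le_of_tendsto_of_tendsto hX hY ?_
    filter_upwards [self_mem_nhdsWithin] with s hs
    have hs' : (1 : ℝ) < s := hs
    have h1 := key s hs'
    have h2 : 0 ≤ (s - 1) ^ 2 := by positivity
    calc ((s - 1) * (dedekindZeta X s).re) ^ 2 = (s - 1) ^ 2 * (dedekindZeta X s).re ^ 2 := by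
          ring
      _ ≤ (s - 1) ^ 2 * (C * (dedekindZeta Y s).re) :=
          mul_le_mul_of_nonneg_left h1 h2
      _ = C * (s - 1) * ((s - 1) * (dedekindZeta Y s).re) := by ring
  have hpos := dedekindZeta_residue_pos X
  have : 0 < dedekindZeta_residue X ^ 2 := by positivity
  simp at hle
  linarith

/-- **Relative form**: for an extension `Y / X` of number fields there is, outside any finite set,
a prime `Q` of `X` of prime norm which does not have two distinct primes of `Y` above it with the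
same absolute norm as `Q`. -/
theorem density_core_deg1 [Algebra X Y] (B : Set (Ideal (𝓞 X))) (hB : B.Finite)
    (h : ∀ Q : Ideal (𝓞 X), Q.IsPrime → Q ≠ ⊥ → Q ∉ B → (Ideal.absNorm Q).Prime →
      ∃ P₁ P₂ : Ideal (𝓞 Y), P₁ ≠ P₂ ∧
      (P₁.IsPrime ∧ P₁.LiesOver Q ∧ Ideal.absNorm P₁ = Ideal.absNorm Q) ∧
      (P₂.IsPrime ∧ P₂.LiesOver Q ∧ Ideal.absNorm P₂ = Ideal.absNorm Q)) : False := by
  classical
  choose! P₁ P₂ hne h1 h2 using h
  have hbot : ∀ (Q : Ideal (𝓞 X)) (P : Ideal (𝓞 Y)), Q ≠ ⊥ →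
      Ideal.absNorm P = Ideal.absNorm Q → P ≠ ⊥ := by
    rintro Q P hQ0 hN rfl
    rw [Ideal.absNorm_bot] at hN
    exact hQ0 (Ideal.absNorm_eq_zero_iff.mp hN.symm)
  have hall : ∀ Q : Ideal (𝓞 X), Q.IsPrime → Q ≠ ⊥ → Q ∉ B → (Ideal.absNorm Q).Prime →
      ∀ i : Fin 2, (![P₁ Q, P₂ Q] i).IsPrime ∧ (![P₁ Q, P₂ Q] i).LiesOver Q ∧
        Ideal.absNorm (![P₁ Q, P₂ Q] i) = Ideal.absNorm Q := by
    intro Q hQ hQ0 hQB hQp i
    fin_cases i
    · exact h1 Q hQ hQ0 hQB hQp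
    · exact h2 Q hQ hQ0 hQB hQp
  refine zeta_core_deg1 X Y B hB (fun Q => ![P₁ Q, P₂ Q]) ?_ ?_
  · intro Q hQ hQ0 hQB hQp i
    obtain ⟨a, -, c⟩ := hall Q hQ hQ0 hQB hQp i
    exact ⟨a, hbot Q _ hQ0 c, c⟩
  · intro Q Q' i i' hQ hQ0 hQB hQp hQ' hQ0' hQB' hQp' he
    have e1 : Q = Q' := by
      have a1 := (hall Q hQ hQ0 hQB hQp i).2.1.over
      have a2 := (hall Q' hQ' hQ0' hQB' hQp' i').2.1.over
      rw [a1, a2, he]
    subst e1
    refine ⟨rfl, ?_⟩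
    have hne' := hne Q hQ hQ0 hQB hQp
    fin_cases i <;> fin_cases i'
    · rfl
    · exact absurd he hne'
    · exact absurd he.symm hne'
    · rfl

end Core

end Fermat.Agent.S41Lib
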