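import Fermat.Agent.Lib.Frobenius
import Fermat.Agent.S41.ECheb1

/-!
# S41, leaf ECheb, part 2: places of `ℚ̄`, centres on number fields, the unit lemma
-/

set_option autoImplicit false
set_option linter.style.haveILetI false
set_option linter.unusedSectionVars false

open NumberField Polynomial
open scoped Pointwise

namespace Fermat.Agent.S41Lib

open Fermat.Agent.Lib.Frobenius

local notation "Qb" => AlgebraicClosure ℚ
local notation "GQ" => (AlgebraicClosure ℚ ≃ₐ[ℚ] AlgebraicClosure ℚ)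

/-- an integer prime to `ℓ` is a unit at every place above `ℓ`. -/
theorem valuation_intCast_eq_one {ℓ : ℕ} (hℓ : ℓ.Prime) (A : ValuationSubring Qb)
    (hA : A.LiesOverPrime ℓ) {c : ℤ} (hc : ¬ (ℓ : ℤ) ∣ c) : A.valuation (c : Qb) = 1 := by
  have h1 := intCast_not_mem_nonunits hℓ A hA hc
  rw [ValuationSubring.mem_nonunits_iff, not_lt] at h1
  exact le_antisymm ((A.valuation_le_one_iff _).mpr (intCast_mem A c)) h1

theorem exists_finset_mem (u : Qb) :
    ∃ B : Finset ℕ, ∀ ℓ : ℕ, ℓ.Prime → ℓ ∉ B → ∀ A : ValuationSubring Qb, A.LiesOverPrime ℓ →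
      u ∈ A := by
  obtain ⟨n, hn, hy⟩ := (isAlgebraic_int u).exists_integral_multiple
  refine ⟨n.natAbs.primeFactors, fun ℓ hℓ hB A hA => ?_⟩
  have hdvd : ¬ (ℓ : ℤ) ∣ n := by
    intro h
    apply hB
    rw [Nat.mem_primeFactors]
    exact ⟨hℓ, Int.natCast_dvd.mp h, by simpa using hn⟩
  have h1 := valuation_intCast_eq_one hℓ A hA hdvd
  have h2 : n • u ∈ A := mem_of_isIntegral_int A hy
  rw [← A.valuation_le_one_iff] at h2 ⊢
  rw [zsmul_eq_mul, map_mul, h1, one_mul] at h2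
  exact h2

/-- **Unit lemma**: a nonzero algebraic number is a unit at all places above almost all primes. -/
theorem exists_finset_valuation_eq_one {u : Qb} (hu : u ≠ 0) :
    ∃ B : Finset ℕ, ∀ ℓ : ℕ, ℓ.Prime → ℓ ∉ B → ∀ A : ValuationSubring Qb, A.LiesOverPrime ℓ →
      A.valuation u = 1 := by
  classical
  obtain ⟨B₁, h₁⟩ := exists_finset_mem u
  obtain ⟨B₂, h₂⟩ := exists_finset_mem u⁻¹
  refine ⟨B₁ ∪ B₂, fun ℓ hℓ hB A hA => ?_⟩
  rw [Finset.mem_union, not_or] at hB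
  have a1 := (A.valuation_le_one_iff _).mpr (h₁ ℓ hℓ hB.1 A hA)
  have a2 := (A.valuation_le_one_iff _).mpr (h₂ ℓ hℓ hB.2 A hA)
  rw [map_inv₀] at a2
  have hv0 : A.valuation u ≠ 0 := (Valuation.ne_zero_iff _).mpr hu
  refine le_antisymm a1 ?_
  exact (inv_le_one₀ (zero_lt_iff.mpr hv0)).mp a2

/-- the Frobenius congruence in terms of elements of `ℚ̄`. -/
theorem frob_sub_pow_mem {ℓ : ℕ} {A : ValuationSubring Qb} {τ : GQ} (h : A.IsFrobeniusAt τ ℓ)
    {x : Qb} (hx : x ∈ A) : τ x - x ^ ℓ ∈ A.nonunits := by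
  have h1 := h.smul_residue_eq (IsLocalRing.residue A ⟨x, hx⟩)
  rw [← IsLocalRing.ResidueField.residue_smul, ← map_pow, ← sub_eq_zero, ← map_sub,
    IsLocalRing.residue_eq_zero_iff, ← ValuationSubring.coe_mem_nonunits_iff] at h1
  exact h1

section cen

variable {F : Type*} [Field F]

theorem map_mem_of_integer (j : F →+* Qb) (A : ValuationSubring Qb) (x : 𝓞 F) :
    j (algebraMap (𝓞 F) F x) ∈ A :=
  mem_of_isIntegral_int A (map_isIntegral_int j (RingOfIntegers.isIntegral_coe x))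

/-- the centre of a place of `ℚ̄` on the ring of integers of a field embedded in `ℚ̄`. -/
noncomputable def cen (j : F →+* Qb) (A : ValuationSubring Qb) : Ideal (𝓞 F) where
  carrier := {x | j (algebraMap (𝓞 F) F x) ∈ A.nonunits}
  add_mem' := by
    intro a b ha hb
    show j (algebraMap (𝓞 F) F (a + b)) ∈ A.nonunits
    rw [map_add, map_add]
    exact add_mem_nonunits A ha hb
  zero_mem' := by
    show j (algebraMap (𝓞 F) F 0) ∈ A.nonunits
    rw [map_zero, map_zero]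
    exact zero_mem_nonunits A
  smul_mem' := by
    intro c x hx
    show j (algebraMap (𝓞 F) F (c * x)) ∈ A.nonunits
    rw [map_mul, map_mul]
    exact mul_mem_nonunits A (map_mem_of_integer j A c) hx

theorem mem_cen (j : F →+* Qb) (A : ValuationSubring Qb) (x : 𝓞 F) :
    x ∈ cen j A ↔ j (algebraMap (𝓞 F) F x) ∈ A.nonunits := Iff.rfl

theorem cen_isPrime (j : F →+* Qb) (A : ValuationSubring Qb) : (cen j A).IsPrime := by
  constructor
  · rw [Ideal.ne_top_iff_one, mem_cen, map_one, map_one, ValuationSubring.mem_nonunits_iff, map_one]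
    exact lt_irrefl _
  · intro x y hxy
    rw [mem_cen, map_mul, map_mul, ValuationSubring.mem_nonunits_iff, map_mul] at hxy
    rw [mem_cen, mem_cen, ValuationSubring.mem_nonunits_iff, ValuationSubring.mem_nonunits_iff]
    by_contra hcon
    push Not at hcon
    have := mul_le_mul' hcon.1 hcon.2
    rw [one_mul] at this
    exact absurd hxy (not_lt.mpr this)

theorem natCast_mem_cen (j : F →+* Qb) {A : ValuationSubring Qb} {ℓ : ℕ} (hA : A.LiesOverPrime ℓ) :
    (ℓ : 𝓞 F) ∈ cen j A := by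
  rw [mem_cen]
  rw [map_natCast, map_natCast]
  exact hA

/-- every proper ideal of the ring of integers is contained in the centre of a place. -/
theorem exists_le_cen (j : F →+* Qb) (Q : Ideal (𝓞 F)) (hQ : Q ≠ ⊤) :
    ∃ A : ValuationSubring Qb, Q ≤ cen j A := by
  let f : 𝓞 F →+* Qb := j.comp (algebraMap (𝓞 F) F)
  have hf : Function.Injective f := j.injective.comp RingOfIntegers.coe_injective
  let I : Ideal f.range := Q.map f.rangeRestrict
  have hI : I ≠ ⊤ := by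
    intro htop
    have h1 : (1 : f.range) ∈ I := by rw [htop]; trivial
    rw [Ideal.mem_map_iff_of_surjective _ f.rangeRestrict_surjective] at h1
    obtain ⟨x, hx, hx1⟩ := h1
    have h2 : f x = 1 := congrArg Subtype.val hx1
    have h3 : x = 1 := hf (by rw [h2, map_one])
    rw [h3] at hx
    exact hQ ((Ideal.eq_top_iff_one _).mpr hx)
  obtain ⟨A, -, hA⟩ := Ideal.image_subset_nonunits_valuationSubring I hI
  refine ⟨A, fun x hx => ?_⟩
  rw [mem_cen]
  exact hA ⟨f.rangeRestrict x, Ideal.mem_map_of_mem _ hx, rfl⟩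

end cen

section norm

variable {F : Type*} [Field F] [NumberField F]

/-- a prime of a number field containing `ℓ` such that `x ^ ℓ ≡ x` for all `x` has norm `ℓ`. -/
theorem absNorm_eq_of_pow_sub_mem {ℓ : ℕ} (hℓ : ℓ.Prime) (P : Ideal (𝓞 F)) (hP : P.IsPrime)
    (hℓP : (ℓ : 𝓞 F) ∈ P) (hpow : ∀ x : 𝓞 F, x ^ ℓ - x ∈ P) : Ideal.absNorm P = ℓ := by
  classical
  have hP0 : P ≠ ⊥ := by
    rintro rfl
    rw [Ideal.mem_bot] at hℓP
    exact hℓ.ne_zero (by exact_mod_cast hℓP)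
  haveI := hP
  haveI hmax : P.IsMaximal := hP.isMaximal hP0
  letI : Field (𝓞 F ⧸ P) := Ideal.Quotient.field P
  haveI : Finite (𝓞 F ⧸ P) := Ideal.finiteQuotientOfFreeOfNeBot P hP0
  letI : Fintype (𝓞 F ⧸ P) := Fintype.ofFinite _
  have hcard : Ideal.absNorm P = Fintype.card (𝓞 F ⧸ P) := by
    rw [Ideal.absNorm_apply, Submodule.cardQuot_apply, Nat.card_eq_fintype_card]
  have hle : Fintype.card (𝓞 F ⧸ P) ≤ ℓ := by
    have hne : (X ^ ℓ - X : (𝓞 F ⧸ P)[X]) ≠ 0 := FiniteField.X_pow_card_sub_X_ne_zero _ hℓ.one_lt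
    have hdeg : (X ^ ℓ - X : (𝓞 F ⧸ P)[X]).natDegree = ℓ :=
      FiniteField.X_pow_card_sub_X_natDegree_eq _ hℓ.one_lt
    have hsub : (Finset.univ : Finset (𝓞 F ⧸ P)) ⊆ (X ^ ℓ - X : (𝓞 F ⧸ P)[X]).roots.toFinset := by
      intro a _
      obtain ⟨x, rfl⟩ := Ideal.Quotient.mk_surjective a
      rw [Multiset.mem_toFinset, mem_roots hne, IsRoot.def, eval_sub, eval_pow, eval_X, ← map_pow,
        ← map_sub, Ideal.Quotient.eq_zero_iff_mem]
      exact hpow x
    calc Fintype.card (𝓞 F ⧸ P) = (Finset.univ : Finset (𝓞 F ⧸ P)).card := rfl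
      _ ≤ (X ^ ℓ - X : (𝓞 F ⧸ P)[X]).roots.toFinset.card := Finset.card_le_card hsub
      _ ≤ Multiset.card (X ^ ℓ - X : (𝓞 F ⧸ P)[X]).roots := Multiset.toFinset_card_le _
      _ ≤ (X ^ ℓ - X : (𝓞 F ⧸ P)[X]).natDegree := card_roots' _
      _ = ℓ := hdeg
  have hdvd : ℓ ∣ Ideal.absNorm P := by
    have hb : below F P = ℓ := by
      have h1 := below_prime F hP hP0
      have h2 : ((below F P : ℕ) : ℤ) ∣ (ℓ : ℤ) := by
        have : ((ℓ : ℤ) : 𝓞 F) ∈ P := by simpa using hℓP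
        exact Int.cast_mem_ideal_iff.mp this
      exact (Nat.prime_dvd_prime_iff_eq h1 hℓ).mp (Int.natCast_dvd_natCast.mp h2)
    rw [← hb]
    exact Int.absNorm_under_dvd_absNorm P
  have hpos : 0 < Ideal.absNorm P := by
    have := Fermat.Agent.S14Lib.two_le_absNorm F hP hP0
    omega
  exact le_antisymm (hcard ▸ hle) (Nat.le_of_dvd hpos hdvd)

/-- in a prime of norm `ℓ`, `x ^ ℓ ≡ x`. -/
theorem pow_sub_mem_of_absNorm_eq {ℓ : ℕ} (P : Ideal (𝓞 F)) (hP : P.IsPrime) (hP0 : P ≠ ⊥)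
    (hN : Ideal.absNorm P = ℓ) (x : 𝓞 F) : x ^ ℓ - x ∈ P := by
  classical
  haveI := hP
  haveI hmax : P.IsMaximal := hP.isMaximal hP0
  letI : Field (𝓞 F ⧸ P) := Ideal.Quotient.field P
  haveI : Finite (𝓞 F ⧸ P) := Ideal.finiteQuotientOfFreeOfNeBot P hP0
  letI : Fintype (𝓞 F ⧸ P) := Fintype.ofFinite _
  have hcard : Fintype.card (𝓞 F ⧸ P) = ℓ := by
    rw [← hN, Ideal.absNorm_apply, Submodule.cardQuot_apply, Nat.card_eq_fintype_card]
  rw [← Ideal.Quotient.eq_zero_iff_mem, map_sub, map_pow, ← hcard, FiniteField.pow_card, sub_self]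

/-- modulo a prime of norm `ℓ` every integer of `F` is congruent to a rational integer. -/
theorem exists_int_sub_mem {ℓ : ℕ} (hℓ : ℓ.Prime) (P : Ideal (𝓞 F)) (hP : P.IsPrime) (hP0 : P ≠ ⊥)
    (hN : Ideal.absNorm P = ℓ) (x : 𝓞 F) : ∃ n : ℤ, x - (n : 𝓞 F) ∈ P := by
  classical
  haveI := hP
  haveI hmax : P.IsMaximal := hP.isMaximal hP0
  letI : Field (𝓞 F ⧸ P) := Ideal.Quotient.field P
  haveI : Finite (𝓞 F ⧸ P) := Ideal.finiteQuotientOfFreeOfNeBot P hP0
  letI : Fintype (𝓞 F ⧸ P) := Fintype.ofFinite _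
  haveI : Fact ℓ.Prime := ⟨hℓ⟩
  have hcard : Fintype.card (𝓞 F ⧸ P) = ℓ := by
    rw [← hN, Ideal.absNorm_apply, Submodule.cardQuot_apply, Nat.card_eq_fintype_card]
  haveI : CharP (𝓞 F ⧸ P) ℓ := by
    rw [CharP.charP_iff_prime_eq_zero hℓ]
    have h1 : (ℓ : 𝓞 F) ∈ P := by
      rw [← hN]; exact Ideal.absNorm_mem P
    have := Ideal.Quotient.eq_zero_iff_mem.mpr h1
    simpa using this
  let g : ZMod ℓ →+* (𝓞 F ⧸ P) := ZMod.castHom (dvd_refl ℓ) (𝓞 F ⧸ P)
  have hg : Function.Bijective g := by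
    rw [Fintype.bijective_iff_injective_and_card]
    exact ⟨g.injective, by rw [ZMod.card, hcard]⟩
  obtain ⟨a, ha⟩ := hg.2 (Ideal.Quotient.mk P x)
  obtain ⟨n, rfl⟩ := ZMod.intCast_surjective a
  refine ⟨n, ?_⟩
  rw [← Ideal.Quotient.eq_zero_iff_mem, map_sub, ← ha, map_intCast, map_intCast, sub_self]

end norm

end Fermat.Agent.S41Lib
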