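import Fermat.Agent.S41.ECheb2

/-!
# S41, leaf ECheb, part 3: weak Chebotarev for elements of prime order
-/

set_option autoImplicit false
set_option linter.style.haveILetI false
set_option linter.unusedSectionVars false

open NumberField Polynomial
open scoped Pointwise

namespace Fermat.Agent.S41Lib

open Fermat.Agent.Lib.Frobenius

local notation "Qb" => AlgebraicClosure ℚ
local notation "GQ" => (AlgebraicClosure ℚ ≃ₐ[ℚ] AlgebraicClosure ℚ)

section

variable (L : IntermediateField ℚ Qb) [FiniteDimensional ℚ L] [Normal ℚ L]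

instance numberField_of_finiteDimensional : NumberField L where
  to_charZero := inferInstance
  to_finiteDimensional := inferInstance

/-- every element of a number field has a nonzero integer multiple in the ring of integers. -/
theorem exists_integer_multiple {F : Type*} [Field F] [NumberField F] (x : F) :
    ∃ (n : ℤ) (y : 𝓞 F), n ≠ 0 ∧ algebraMap (𝓞 F) F y = n * x := by
  have halg : IsAlgebraic ℤ x := by
    have : Algebra.IsAlgebraic ℚ F := inferInstance
    exact ((IsFractionRing.comap_isAlgebraic_iff (A := ℤ) (K := ℚ) (C := F)).mpr this).isAlgebraic x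
  obtain ⟨n, hn, hy⟩ := halg.exists_integral_multiple
  refine ⟨n, ⟨n • x, hy⟩, hn, ?_⟩
  rw [RingOfIntegers.map_mk, zsmul_eq_mul]

/-- separation: an automorphism of `L` which is trivial on `𝓞 K` modulo a place above a good prime
belongs to `H`, where `K` is the fixed field of `H`. -/
theorem exists_finset_mem_of_congr (H : Subgroup (L ≃ₐ[ℚ] L)) :
    ∃ B : Finset ℕ, ∀ ℓ : ℕ, ℓ.Prime → ℓ ∉ B → ∀ A : ValuationSubring Qb, A.LiesOverPrime ℓ →
      ∀ g : L ≃ₐ[ℚ] L,
        (∀ y : 𝓞 (IntermediateField.fixedField H),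
          algebraMap L Qb (g (algebraMap (IntermediateField.fixedField H) L
            (algebraMap (𝓞 (IntermediateField.fixedField H)) _ y))) -
          algebraMap L Qb (algebraMap (IntermediateField.fixedField H) L
            (algebraMap (𝓞 (IntermediateField.fixedField H)) _ y)) ∈ A.nonunits) → g ∈ H := by
  classical
  have key : ∀ g : L ≃ₐ[ℚ] L, ∃ B : Finset ℕ, ∀ ℓ : ℕ, ℓ.Prime → ℓ ∉ B →
      ∀ A : ValuationSubring Qb, A.LiesOverPrime ℓ →
        (∀ y : 𝓞 (IntermediateField.fixedField H),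
          algebraMap L Qb (g (algebraMap (IntermediateField.fixedField H) L
            (algebraMap (𝓞 (IntermediateField.fixedField H)) _ y))) -
          algebraMap L Qb (algebraMap (IntermediateField.fixedField H) L
            (algebraMap (𝓞 (IntermediateField.fixedField H)) _ y)) ∈ A.nonunits) → g ∈ H := by
    intro g
    by_cases hg : g ∈ H
    · exact ⟨∅, fun _ _ _ _ _ _ => hg⟩
    · have hg' : g ∉ (IntermediateField.fixedField H).fixingSubgroup := by
        rw [IntermediateField.fixingSubgroup_fixedField]; exact hg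
      rw [IntermediateField.mem_fixingSubgroup_iff] at hg'
      push Not at hg'
      obtain ⟨x, hxK, hgx⟩ := hg'
      obtain ⟨n, y, hn, hy⟩ := exists_integer_multiple (⟨x, hxK⟩ : IntermediateField.fixedField H)
      have hyL : algebraMap (IntermediateField.fixedField H) L
          (algebraMap (𝓞 (IntermediateField.fixedField H)) _ y) = n * x := by
        rw [hy, map_mul, map_intCast]
        rfl
      have hu : algebraMap L Qb (g (n * x)) - algebraMap L Qb (n * x) ≠ 0 := by
        rw [sub_ne_zero]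
        intro h
        have h2 := (algebraMap L Qb).injective h
        rw [map_mul, map_intCast] at h2
        exact hgx (mul_left_cancel₀ (by exact_mod_cast hn) h2)
      obtain ⟨B, hB⟩ := exists_finset_valuation_eq_one hu
      refine ⟨B, fun ℓ hℓ hℓB A hA hall => ?_⟩
      exfalso
      have h1 := hall y
      rw [hyL, ValuationSubring.mem_nonunits_iff, hB ℓ hℓ hℓB A hA] at h1
      exact lt_irrefl _ h1
  choose Bg hBg using key
  refine ⟨Finset.univ.biUnion Bg, fun ℓ hℓ hℓB A hA g hall => hBg g ℓ hℓ ?_ A hA hall⟩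
  intro h
  exact hℓB (Finset.mem_biUnion.mpr ⟨g, Finset.mem_univ _, h⟩)

/-- **Weak Chebotarev for elements of prime order.** -/
theorem weakChebotarev_prime (σ : GQ) (q : ℕ) (hq : q.Prime) (hσq : ∀ x ∈ L, (σ ^ q) x = x)
    (hσ1 : ∃ x ∈ L, σ x ≠ x) (B : Finset ℕ) :
    ∃ (ℓ : ℕ) (A : ValuationSubring Qb) (τ : GQ) (k : ℕ), ℓ.Prime ∧ ℓ ∉ B ∧ A.LiesOverPrime ℓ ∧
      A.IsFrobeniusAt τ ℓ ∧ ¬ q ∣ k ∧ ∀ x ∈ L, τ x = (σ ^ k) x := by
  classical
  by_contra hcon
  push Not at hcon
  have hs_apply : ∀ (g : GQ) (x : L),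
      algebraMap L Qb (AlgEquiv.restrictNormalHom L g x) = g (algebraMap L Qb x) :=
    fun g x => AlgEquiv.restrictNormal_commutes g L x
  set s : L ≃ₐ[ℚ] L := AlgEquiv.restrictNormalHom L σ with hs
  have hsq : s ^ q = 1 := by
    rw [hs, ← map_pow]
    apply AlgEquiv.ext
    intro x
    apply (algebraMap L Qb).injective
    rw [hs_apply]
    exact hσq _ x.2
  set H : Subgroup (L ≃ₐ[ℚ] L) := Subgroup.zpowers s with hH
  set K : IntermediateField ℚ L := IntermediateField.fixedField H with hK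
  let jL : L →+* Qb := algebraMap L Qb
  let jK : K →+* Qb := jL.comp (algebraMap K L)
  obtain ⟨BK, hBK⟩ := exists_finset_mem_of_congr L H
  obtain ⟨x1, hx1L, hx1⟩ := hσ1
  obtain ⟨n, y1, hn, hy1⟩ := exists_integer_multiple (⟨x1, hx1L⟩ : L)
  have hu1 : jL (s (algebraMap (𝓞 L) L y1)) - jL (algebraMap (𝓞 L) L y1) ≠ 0 := by
    rw [sub_ne_zero]
    intro h
    have h2 := jL.injective h
    rw [hy1, map_mul, map_intCast] at h2
    have h3 := mul_left_cancel₀ (by exact_mod_cast hn) h2
    apply hx1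
    have h4 := hs_apply σ ⟨x1, hx1L⟩
    rw [← hs, h3] at h4
    exact h4.symm
  obtain ⟨B1, hB1⟩ := exists_finset_valuation_eq_one hu1
  refine density_core_deg1 K L {Q | Ideal.absNorm Q ∈ B ∪ BK ∪ B1} ?_ ?_
  · refine Set.Finite.subset (Set.Finite.biUnion (B ∪ BK ∪ B1).finite_toSet
      (fun n _ => Ideal.finite_setOfPred_absNorm_eq (S := 𝓞 K) n)) ?_
    intro Q hQ
    exact Set.mem_biUnion (Finset.mem_coe.mpr hQ) rfl
  intro Q hQ hQ0 hQB hQp
  set ℓ := Ideal.absNorm Q with hℓ
  simp only [Set.mem_ofPred_eq, Finset.mem_union, not_or] at hQB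
  obtain ⟨⟨hℓB, hℓBK⟩, hℓB1⟩ := hQB
  obtain ⟨A, hA⟩ := exists_le_cen jK Q hQ.ne_top
  have hQmax : Q.IsMaximal := hQ.isMaximal hQ0
  have hcen : Q = cen jK A := hQmax.eq_of_le (cen_isPrime jK A).ne_top hA
  have hAℓ : A.LiesOverPrime ℓ := by
    have h1 : (ℓ : 𝓞 K) ∈ Q := Ideal.absNorm_mem Q
    have h2 := hA h1
    rw [mem_cen, map_natCast, map_natCast] at h2
    exact h2
  obtain ⟨τ, hτ⟩ := exists_isFrobeniusAt hQp A hAℓ
  set t : L ≃ₐ[ℚ] L := AlgEquiv.restrictNormalHom L τ with ht_def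
  have ht : t ∈ H := by
    apply hBK ℓ hQp hℓBK A hAℓ t
    intro y
    have hY : jK (algebraMap _ K y) ∈ A := map_mem_of_integer jK A y
    have h1 := frob_sub_pow_mem hτ hY
    have h2 : y ^ ℓ - y ∈ Q := pow_sub_mem_of_absNorm_eq Q hQ hQ0 rfl y
    rw [hcen, mem_cen, map_sub, map_sub, map_pow, map_pow] at h2
    have h3 := add_mem_nonunits A h1 h2
    rw [hs_apply]
    have e : τ (jK (algebraMap _ K y)) - jK (algebraMap _ K y) ^ ℓ +
        (jK (algebraMap _ K y) ^ ℓ - jK (algebraMap _ K y)) =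
        τ (jK (algebraMap _ K y)) - jK (algebraMap _ K y) := by ring
    rw [e] at h3
    exact h3
  obtain ⟨k, hk⟩ := Subgroup.mem_zpowers_iff.mp ht
  have ht1 : t = 1 := by
    by_contra hne
    have hqk : ¬ (q : ℤ) ∣ k := by
      rintro ⟨m, rfl⟩
      apply hne
      rw [← hk, zpow_mul, zpow_natCast, hsq, one_zpow]
    have hq0 : (q : ℤ) ≠ 0 := by exact_mod_cast hq.ne_zero
    have hk' : (((k % q).toNat : ℕ) : ℤ) = k % q := Int.toNat_of_nonneg (Int.emod_nonneg _ hq0)
    have hsk' : s ^ (k % q).toNat = t := by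
      rw [← hk, ← zpow_natCast, hk']
      conv_rhs => rw [← Int.emod_add_mul_ediv k q, zpow_add, zpow_mul, zpow_natCast, hsq, one_zpow,
        mul_one]
    have hqk' : ¬ q ∣ (k % q).toNat := by
      intro h
      apply hqk
      have h1 : (q : ℤ) ∣ k % q := by rw [← hk']; exact_mod_cast h
      have h2 := Int.emod_eq_zero_of_dvd h1
      rw [Int.emod_emod_of_dvd _ (dvd_refl _)] at h2
      exact Int.dvd_of_emod_eq_zero h2
    obtain ⟨x, hxL, hx⟩ := hcon ℓ A τ (k % q).toNat hQp hℓB hAℓ hτ hqk'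
    apply hx
    have e1 := hs_apply τ ⟨x, hxL⟩
    have e2 := hs_apply (σ ^ (k % q).toNat) ⟨x, hxL⟩
    rw [map_pow, ← hs, hsk'] at e2
    exact e1.symm.trans e2
  have hτL : ∀ x : L, τ (jL x) = jL x := by
    intro x
    have := hs_apply τ x
    rw [← ht_def, ht1] at this
    exact this.symm
  have hcomm : ∀ y : 𝓞 K, algebraMap (𝓞 L) L (algebraMap (𝓞 K) (𝓞 L) y) =
      algebraMap K L (algebraMap (𝓞 K) K y) := fun y => rfl
  have hsK : ∀ z : K, s (algebraMap K L z) = algebraMap K L z := by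
    intro z
    exact (IntermediateField.mem_fixedField_iff H _).mp z.2 s (Subgroup.mem_zpowers s)
  -- a general statement for the two embeddings
  have hgen : ∀ g : L →+* L, (∀ z : K, g (algebraMap K L z) = algebraMap K L z) →
      (cen (jL.comp g) A).IsPrime ∧ (cen (jL.comp g) A).LiesOver Q ∧
        Ideal.absNorm (cen (jL.comp g) A) = ℓ := by
    intro g hg
    refine ⟨cen_isPrime _ A, ⟨?_⟩, ?_⟩
    · rw [hcen]
      ext y
      rw [Ideal.under_def, Ideal.mem_comap, mem_cen, mem_cen, hcomm]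
      show jL (algebraMap K L _) ∈ _ ↔ jL (g (algebraMap K L _)) ∈ _
      rw [hg]
    · apply absNorm_eq_of_pow_sub_mem hQp _ (cen_isPrime _ A) (natCast_mem_cen _ hAℓ)
      intro x
      rw [mem_cen, map_sub, map_sub, map_pow, map_pow]
      have hX : (jL.comp g) (algebraMap (𝓞 L) L x) ∈ A := map_mem_of_integer _ A x
      have h1 := frob_sub_pow_mem hτ hX
      have h2 : τ ((jL.comp g) (algebraMap (𝓞 L) L x)) = (jL.comp g) (algebraMap (𝓞 L) L x) :=
        hτL _
      rw [h2] at h1
      have h3 := neg_mem_nonunits A h1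
      rwa [neg_sub] at h3
  have h₁ := hgen (RingHom.id L) (fun _ => rfl)
  have h₂ := hgen (s : L →+* L) hsK
  refine ⟨cen (jL.comp (RingHom.id L)) A, cen (jL.comp (s : L →+* L)) A, ?_, h₁, h₂⟩
  intro heq
  have hP0 : cen (jL.comp (RingHom.id L)) A ≠ ⊥ := by
    intro h0
    have := h₁.2.2
    rw [h0, Ideal.absNorm_bot] at this
    exact hQp.ne_zero this.symm
  obtain ⟨m, hm⟩ := exists_int_sub_mem hQp _ h₁.1 hP0 h₁.2.2 y1
  have hm2 := hm
  rw [heq] at hm2
  rw [mem_cen, map_sub, map_sub, map_intCast, map_intCast] at hm hm2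
  have h3 := add_mem_nonunits A hm2 (neg_mem_nonunits A hm)
  have e : (jL.comp (s : L →+* L)) (algebraMap (𝓞 L) L y1) - (m : Qb) +
      -((jL.comp (RingHom.id L)) (algebraMap (𝓞 L) L y1) - (m : Qb)) =
      jL (s (algebraMap (𝓞 L) L y1)) - jL (algebraMap (𝓞 L) L y1) := by
    simp only [RingHom.comp_apply, RingHom.id_apply, RingHom.coe_coe]
    ring
  rw [e, ValuationSubring.mem_nonunits_iff, hB1 ℓ hQp hℓB1 A hAℓ] at h3
  exact lt_irrefl _ h3

end

end Fermat.Agent.S41Lib
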