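import Mathlib
set_option autoImplicit false

/-!
# S41, E-side: the Frobenius endomorphism on the points of a curve over `ZMod ℓ`
-/

namespace Fermat.Agent.S41E

open WeierstrassCurve WeierstrassCurve.Affine

/-- the Frobenius endomorphism `(x, y) ↦ (x ^ ℓ, y ^ ℓ)`. -/
noncomputable def frobPt {ℓ : ℕ} [Fact ℓ.Prime] (W : WeierstrassCurve (ZMod ℓ))
    (k : Type*) [Field k] [Algebra (ZMod ℓ) k] [DecidableEq k] :
    (W.toAffine⁄k).Point →+ (W.toAffine⁄k).Point :=
  Point.map (W' := W.toAffine) (FiniteField.frobeniusAlgHom (ZMod ℓ) k)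

theorem frobPt_some {ℓ : ℕ} [Fact ℓ.Prime] (W : WeierstrassCurve (ZMod ℓ))
    (k : Type*) [Field k] [Algebra (ZMod ℓ) k] [DecidableEq k] {x y : k}
    (h : (W.toAffine⁄k).Nonsingular x y) :
    ∃ h' : (W.toAffine⁄k).Nonsingular (x ^ ℓ) (y ^ ℓ), frobPt W k (.some x y h) = .some _ _ h' := by
  have h1 := Point.map_some (W' := W.toAffine) (FiniteField.frobeniusAlgHom (ZMod ℓ) k) h
  have e : ∀ z : k, FiniteField.frobeniusAlgHom (ZMod ℓ) k z = z ^ ℓ := by
    intro z
    rw [FiniteField.coe_frobeniusAlgHom]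
    simp [ZMod.card]
  have hns := (W.toAffine.baseChange_nonsingular
    (FiniteField.frobeniusAlgHom (ZMod ℓ) k).injective x y).mpr h
  rw [e, e] at hns
  refine ⟨hns, ?_⟩
  unfold frobPt
  rw [h1]
  simp only [e]

end Fermat.Agent.S41E
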