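import Mathlib
import Fermat.Agent.S41.EFrobDef

/-!
# S41, E-side, leaf [COUNT]

For an elliptic curve `W` over `𝔽_ℓ` and an algebraically closed extension `k`:
`#ker(Frob - 1) = #W(𝔽_ℓ)` and `#ker(Frob - 1) + #ker(Frob + 1) = 2ℓ + 2` on `W(k)`.
-/

set_option autoImplicit false

namespace Fermat.Agent.S41E

open WeierstrassCurve WeierstrassCurve.Affine Polynomial

theorem count_card_subtype_pair {X : Type*} (p : X → Prop) (z₁ z₂ : X) (hne : z₁ ≠ z₂)
    (h : ∀ z, p z ↔ z = z₁ ∨ z = z₂) : Nat.card {z // p z} = 2 := by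
  have hset : {z | p z} = {z₁, z₂} := by
    ext z
    simp [h z]
  have := Set.ncard_pair hne
  rw [← hset, ← Nat.card_coe_set_eq] at this
  exact this

/-- Abstract form of `#ker(φ-1) + #ker(φ+1) = 2 #B`. -/
theorem count_abstract {G B B' : Type*} [AddCommGroup G] [Fintype B] (φ : G →+ G) (ξ : G → B')
    (ι : B → B') (hι : Function.Injective ι)
    (h1 : ∀ P Q, ξ P = ξ Q ↔ P = Q ∨ P = -Q)
    (h2 : ∀ P, ξ (φ P) = ξ P ↔ ∃ b, ι b = ξ P)
    (h3 : ∀ b, ∃ P, ξ P = ι b) :
    Finite (φ - AddMonoidHom.id G).ker ∧ Finite (φ + AddMonoidHom.id G).ker ∧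
    Nat.card (φ - AddMonoidHom.id G).ker + Nat.card (φ + AddMonoidHom.id G).ker
      = 2 * Fintype.card B := by
  have memp : ∀ P, P ∈ (φ - AddMonoidHom.id G).ker ↔ φ P = P := by
    intro P
    rw [AddMonoidHom.mem_ker, AddMonoidHom.sub_apply, AddMonoidHom.id_apply, sub_eq_zero]
  have memm : ∀ P, P ∈ (φ + AddMonoidHom.id G).ker ↔ φ P = -P := by
    intro P
    rw [AddMonoidHom.mem_ker, AddMonoidHom.add_apply, AddMonoidHom.id_apply,
      add_eq_zero_iff_eq_neg]
  set Tp := (φ - AddMonoidHom.id G).ker with hTp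
  set Tm := (φ + AddMonoidHom.id G).ker with hTm
  let val : Tp ⊕ Tm → G := Sum.elim (fun z => (z : G)) (fun z => (z : G))
  have hx : ∀ z : Tp ⊕ Tm, ∃ b, ι b = ξ (val z) := by
    rintro (⟨P, hP⟩ | ⟨P, hP⟩)
    · exact (h2 P).mp ((h1 _ _).mpr (Or.inl ((memp P).mp hP)))
    · exact (h2 P).mp ((h1 _ _).mpr (Or.inr ((memm P).mp hP)))
  choose π hπ using hx
  have hfib : ∀ b, Nat.card {z // π z = b} = 2 := by
    intro b
    obtain ⟨P, hP⟩ := h3 b
    have hchar : ∀ z, π z = b ↔ val z = P ∨ val z = -P := by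
      intro z
      rw [← h1, hP, ← hπ z]
      exact ⟨fun h => by rw [h], fun h => hι h⟩
    have hφ : φ P = P ∨ φ P = -P := (h1 _ _).mp ((h2 P).mpr ⟨b, hP.symm⟩)
    by_cases hPP : P = -P
    · -- 2-torsion
      have hφP : φ P = P := by
        rcases hφ with h | h
        · exact h
        · rw [h, ← hPP]
      have hφP' : φ P = -P := by rw [hφP]; exact hPP
      refine count_card_subtype_pair _ (Sum.inl ⟨P, (memp P).mpr hφP⟩)
        (Sum.inr ⟨P, (memm P).mpr hφP'⟩) (by simp) ?_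
      rintro (⟨Q, hQ⟩ | ⟨Q, hQ⟩)
      · rw [hchar]
        simp only [val, Sum.elim_inl, Sum.inl.injEq, Subtype.mk.injEq, reduceCtorEq, or_false]
        rw [← hPP, or_self]
      · rw [hchar]
        simp only [val, Sum.elim_inr, Sum.inr.injEq, Subtype.mk.injEq, reduceCtorEq, false_or]
        rw [← hPP, or_self]
    · have hPP' : -P ≠ P := fun h => hPP h.symm
      rcases hφ with hφP | hφP
      · have hφN : φ (-P) = -P := by rw [map_neg, hφP]
        refine count_card_subtype_pair _ (Sum.inl ⟨P, (memp P).mpr hφP⟩)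
          (Sum.inl ⟨-P, (memp _).mpr hφN⟩) (by simpa using hPP) ?_
        rintro (⟨Q, hQ⟩ | ⟨Q, hQ⟩)
        · rw [hchar]
          simp only [val, Sum.elim_inl, Sum.inl.injEq, Subtype.mk.injEq]
        · rw [hchar]
          simp only [val, Sum.elim_inr, reduceCtorEq, or_self, iff_false, not_or]
          have hQ' := (memm Q).mp hQ
          constructor
          · rintro rfl
            rw [hφP] at hQ'
            exact hPP hQ'
          · rintro rfl
            rw [hφN, neg_neg] at hQ'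
            exact hPP' hQ'
      · have hφN : φ (-P) = - -P := by rw [map_neg, hφP]
        refine count_card_subtype_pair _ (Sum.inr ⟨P, (memm P).mpr hφP⟩)
          (Sum.inr ⟨-P, (memm _).mpr hφN⟩) (by simpa using hPP) ?_
        rintro (⟨Q, hQ⟩ | ⟨Q, hQ⟩)
        · rw [hchar]
          simp only [val, Sum.elim_inl, reduceCtorEq, or_self, iff_false, not_or]
          have hQ' := (memp Q).mp hQ
          constructor
          · rintro rfl
            rw [hφP] at hQ'
            exact hPP' hQ'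
          · rintro rfl
            rw [hφN, neg_neg] at hQ'
            exact hPP hQ'
        · rw [hchar]
          simp only [val, Sum.elim_inr, Sum.inr.injEq, Subtype.mk.injEq]
  have hfin : ∀ b, Finite {z // π z = b} := fun b =>
    Nat.finite_of_card_ne_zero (by rw [hfib b]; norm_num)
  have e := Equiv.sigmaFiberEquiv π
  have hX : Finite (Tp ⊕ Tm) := Finite.of_equiv _ e
  have hTpf : Finite Tp := Finite.of_injective (Sum.inl : Tp → Tp ⊕ Tm) Sum.inl_injective
  have hTmf : Finite Tm := Finite.of_injective (Sum.inr : Tm → Tp ⊕ Tm) Sum.inr_injective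
  refine ⟨hTpf, hTmf, ?_⟩
  rw [← Nat.card_sum, ← Nat.card_congr e, Nat.card_sigma]
  simp [hfib, mul_comm]

theorem count_pow_eq_self_iff {ℓ : ℕ} [Fact ℓ.Prime] {k : Type*} [Field k] [Algebra (ZMod ℓ) k]
    (x : k) : x ^ ℓ = x ↔ ∃ a : ZMod ℓ, algebraMap (ZMod ℓ) k a = x := by
  have : CharP k ℓ := charP_of_injective_algebraMap (algebraMap (ZMod ℓ) k).injective ℓ
  rw [← Subfield.mem_bot_iff_pow_eq_self k ℓ, Subfield.bot_eq_of_zMod_algebra ℓ]
  rfl

/-- the `x`-coordinate, with value `none` at the origin -/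
def xOpt {k : Type*} [Field k] {E : Affine k} : E.Point → Option k
  | .zero => none
  | .some x _ _ => some x

theorem xOpt_eq_iff {k : Type*} [Field k] [DecidableEq k] {E : Affine k} (P Q : E.Point) :
    xOpt P = xOpt Q ↔ P = Q ∨ P = -Q := by
  rcases P with _ | ⟨x₁, y₁, h₁⟩ <;> rcases Q with _ | ⟨x₂, y₂, h₂⟩
  · simp [xOpt]
  · simp [xOpt, Point.neg_some]
  · simp only [xOpt, reduceCtorEq, false_or, false_iff]
    change ¬ Point.some x₁ y₁ h₁ = Point.zero
    simp
  · simp only [xOpt, Option.some.injEq, Point.neg_some, Point.some.injEq]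
    constructor
    · rintro rfl
      rcases Y_eq_of_X_eq h₁.1 h₂.1 rfl with h | h
      · exact Or.inl ⟨rfl, h⟩
      · exact Or.inr ⟨rfl, h⟩
    · rintro (h | h) <;> exact h.1

theorem count_exists_point {ℓ : ℕ} [Fact ℓ.Prime] (W : WeierstrassCurve (ZMod ℓ)) [W.IsElliptic]
    (k : Type*) [Field k] [Algebra (ZMod ℓ) k] [IsAlgClosed k] (x : k) :
    ∃ y, (W.toAffine⁄k).Nonsingular x y := by
  set E := (W.toAffine⁄k) with hE
  have : E.IsElliptic := inferInstanceAs (W.map (algebraMap (ZMod ℓ) k)).IsElliptic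
  set b : k := E.a₁ * x + E.a₃ with hb
  set c : k := x ^ 3 + E.a₂ * x ^ 2 + E.a₄ * x + E.a₆ with hc
  have hdeg : (X ^ 2 + C b * X - C c : k[X]).degree ≠ 0 := by
    have : (X ^ 2 + C b * X - C c : k[X]) = C 1 * X ^ 2 + C b * X + C (-c) := by
      simp [sub_eq_add_neg]
    rw [this, degree_quadratic one_ne_zero]
    norm_num
  obtain ⟨y, hy⟩ := IsAlgClosed.exists_root _ hdeg
  refine ⟨y, ?_⟩
  rw [← equation_iff_nonsingular, equation_iff]
  simp only [IsRoot.def, eval_sub, eval_add, eval_pow, eval_X, eval_mul, eval_C] at hy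
  rw [hb, hc] at hy
  linear_combination hy

theorem count_frob {ℓ : ℕ} [Fact ℓ.Prime] (W : WeierstrassCurve (ZMod ℓ)) [W.IsElliptic]
    (k : Type*) [Field k] [Algebra (ZMod ℓ) k] [DecidableEq k] [IsAlgClosed k] :
    Finite (frobPt W k - AddMonoidHom.id _).ker ∧ Finite (frobPt W k + AddMonoidHom.id _).ker ∧
    Nat.card (frobPt W k - AddMonoidHom.id _).ker + Nat.card (frobPt W k + AddMonoidHom.id _).ker
      = 2 * ℓ + 2 := by
  have key := count_abstract (B := Option (ZMod ℓ)) (frobPt W k) xOpt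
    (Option.map (algebraMap (ZMod ℓ) k))
    (Option.map_injective (algebraMap (ZMod ℓ) k).injective) xOpt_eq_iff ?_ ?_
  · refine ⟨key.1, key.2.1, ?_⟩
    rw [key.2.2, Fintype.card_option, ZMod.card]
    ring
  · rintro (_ | ⟨x, y, h⟩)
    · constructor
      · intro _
        exact ⟨none, rfl⟩
      · intro _
        rfl
    · obtain ⟨h', hF⟩ := frobPt_some W k h
      rw [hF]
      simp only [xOpt, Option.some.injEq]
      rw [count_pow_eq_self_iff]
      constructor
      · rintro ⟨a, ha⟩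
        exact ⟨some a, by simp [ha]⟩
      · rintro ⟨b, hb⟩
        rcases b with _ | a
        · simp at hb
        · exact ⟨a, by simpa using hb⟩
  · rintro (_ | a)
    · exact ⟨0, rfl⟩
    · obtain ⟨y, hy⟩ := count_exists_point W k (algebraMap (ZMod ℓ) k a)
      exact ⟨.some _ y hy, rfl⟩

theorem card_ker_frob_add {ℓ : ℕ} [Fact ℓ.Prime] (W : WeierstrassCurve (ZMod ℓ)) [W.IsElliptic]
    (k : Type*) [Field k] [Algebra (ZMod ℓ) k] [DecidableEq k] [IsAlgClosed k] :
    Nat.card (frobPt W k - AddMonoidHom.id _).ker + Nat.card (frobPt W k + AddMonoidHom.id _).ker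
      = 2 * ℓ + 2 := (count_frob W k).2.2

theorem finite_ker_frob_sub {ℓ : ℕ} [Fact ℓ.Prime] (W : WeierstrassCurve (ZMod ℓ)) [W.IsElliptic]
    (k : Type*) [Field k] [Algebra (ZMod ℓ) k] [DecidableEq k] [IsAlgClosed k] :
    Finite (frobPt W k - AddMonoidHom.id _).ker := (count_frob W k).1

theorem finite_ker_frob_add {ℓ : ℕ} [Fact ℓ.Prime] (W : WeierstrassCurve (ZMod ℓ)) [W.IsElliptic]
    (k : Type*) [Field k] [Algebra (ZMod ℓ) k] [DecidableEq k] [IsAlgClosed k] :
    Finite (frobPt W k + AddMonoidHom.id _).ker := (count_frob W k).2.1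

/-- base change of points from `𝔽_ℓ` to `k` -/
noncomputable def toK {ℓ : ℕ} [Fact ℓ.Prime] (W : WeierstrassCurve (ZMod ℓ))
    (k : Type*) [Field k] [Algebra (ZMod ℓ) k] : W.toAffine.Point → (W.toAffine⁄k).Point
  | .zero => .zero
  | .some x y h => .some (algebraMap (ZMod ℓ) k x) (algebraMap (ZMod ℓ) k y)
      ((W.toAffine.map_nonsingular (algebraMap (ZMod ℓ) k).injective x y).mpr h)

theorem toK_injective {ℓ : ℕ} [Fact ℓ.Prime] (W : WeierstrassCurve (ZMod ℓ))
    (k : Type*) [Field k] [Algebra (ZMod ℓ) k] : Function.Injective (toK W k) := by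
  rintro (_ | ⟨x₁, y₁, h₁⟩) (_ | ⟨x₂, y₂, h₂⟩) h
  · rfl
  · simp [toK] at h
  · simp [toK] at h
  · simp only [toK, Point.some.injEq] at h
    obtain ⟨rfl⟩ := (algebraMap (ZMod ℓ) k).injective h.1
    obtain ⟨rfl⟩ := (algebraMap (ZMod ℓ) k).injective h.2
    rfl

theorem frobPt_eq_self_iff {ℓ : ℕ} [Fact ℓ.Prime] (W : WeierstrassCurve (ZMod ℓ))
    (k : Type*) [Field k] [Algebra (ZMod ℓ) k] [DecidableEq k] (P : (W.toAffine⁄k).Point) :
    frobPt W k P = P ↔ ∃ Q, toK W k Q = P := by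
  rcases P with _ | ⟨x, y, h⟩
  · exact ⟨fun _ => ⟨.zero, rfl⟩, fun _ => rfl⟩
  · obtain ⟨h', hF⟩ := frobPt_some W k h
    rw [hF]
    simp only [Point.some.injEq]
    rw [count_pow_eq_self_iff, count_pow_eq_self_iff]
    constructor
    · rintro ⟨⟨a, rfl⟩, ⟨b, rfl⟩⟩
      exact ⟨.some a b ((W.toAffine.map_nonsingular (algebraMap (ZMod ℓ) k).injective a b).mp h),
        rfl⟩
    · rintro ⟨(_ | ⟨a, b, hab⟩), hQ⟩
      · simp [toK] at hQ
      · simp only [toK, Point.some.injEq] at hQ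
        exact ⟨⟨a, hQ.1⟩, ⟨b, hQ.2⟩⟩

theorem card_ker_frob_sub {ℓ : ℕ} [Fact ℓ.Prime] (W : WeierstrassCurve (ZMod ℓ)) [W.IsElliptic]
    (k : Type*) [Field k] [Algebra (ZMod ℓ) k] [DecidableEq k] [IsAlgClosed k] :
    Nat.card (frobPt W k - AddMonoidHom.id _).ker = Nat.card W.toAffine.Point := by
  have memp : ∀ P, P ∈ (frobPt W k - AddMonoidHom.id _).ker ↔ frobPt W k P = P := by
    intro P
    rw [AddMonoidHom.mem_ker, AddMonoidHom.sub_apply, AddMonoidHom.id_apply, sub_eq_zero]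
  symm
  refine Nat.card_congr (Equiv.ofBijective
    (fun Q => (⟨toK W k Q, (memp _).mpr ((frobPt_eq_self_iff W k _).mpr ⟨Q, rfl⟩)⟩ :
      (frobPt W k - AddMonoidHom.id _).ker)) ⟨?_, ?_⟩)
  · intro Q₁ Q₂ h
    exact toK_injective W k (congrArg Subtype.val h)
  · rintro ⟨P, hP⟩
    obtain ⟨Q, hQ⟩ := (frobPt_eq_self_iff W k P).mp ((memp P).mp hP)
    exact ⟨Q, Subtype.ext hQ⟩

end Fermat.Agent.S41E
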