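import Mathlib
import Fermat.Prelude.Def_FLTPrelim_Modularity
import Fermat.Prelude.Def_FLTPrelim_GaloisRep
import Fermat.Prelude.Def_FLTPrelim_Ramification
import Fermat.Prelude.Def_EllipticCurve_FrobeniusTrace

/-!
# S41, E-side: shared definitions

`IsVC W W' u r s t` : `W'` is obtained from `W` by the admissible change of variables
`(x, y) = (u² x' + r, u³ y' + u² s x' + t)` (relational form, stable under ring homs,
no transport along equalities of curves is ever needed).
-/

set_option autoImplicit false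

namespace Fermat.Agent.S41Lib

open WeierstrassCurve

/-- `W'` is obtained from `W` by `(x, y) = (u² x' + r, u³ y' + u² s x' + t)`. -/
structure IsVC {R : Type*} [CommRing R] (W W' : WeierstrassCurve R) (u r s t : R) : Prop where
  c₁ : u * W'.a₁ = W.a₁ + 2 * s
  c₂ : u ^ 2 * W'.a₂ = W.a₂ - s * W.a₁ + 3 * r - s ^ 2
  c₃ : u ^ 3 * W'.a₃ = W.a₃ + r * W.a₁ + 2 * t
  c₄ : u ^ 4 * W'.a₄ = W.a₄ - s * W.a₃ + 2 * r * W.a₂ - (t + r * s) * W.a₁ + 3 * r ^ 2 - 2 * s * t
  c₆ : u ^ 6 * W'.a₆ = W.a₆ + r * W.a₄ + r ^ 2 * W.a₂ + r ^ 3 - t * W.a₃ - t ^ 2 - r * t * W.a₁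

theorem IsVC.map {R S : Type*} [CommRing R] [CommRing S] {W W' : WeierstrassCurve R}
    {u r s t : R} (h : IsVC W W' u r s t) (f : R →+* S) :
    IsVC (W.map f) (W'.map f) (f u) (f r) (f s) (f t) where
  c₁ := by simpa [map_ofNat] using congrArg f h.c₁
  c₂ := by simpa [map_ofNat] using congrArg f h.c₂
  c₃ := by simpa [map_ofNat] using congrArg f h.c₃
  c₄ := by simpa [map_ofNat] using congrArg f h.c₄
  c₆ := by simpa [map_ofNat] using congrArg f h.c₆

theorem isVC_smul {R : Type*} [CommRing R] (W : WeierstrassCurve R) (C : VariableChange R) :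
    IsVC W (C • W) (C.u : R) C.r C.s C.t where
  c₁ := by rw [variableChange_a₁, ← mul_assoc, Units.mul_inv, one_mul]
  c₂ := by rw [variableChange_a₂, ← mul_assoc, ← mul_pow, Units.mul_inv, one_pow, one_mul]
  c₃ := by rw [variableChange_a₃, ← mul_assoc, ← mul_pow, Units.mul_inv, one_pow, one_mul]
  c₄ := by rw [variableChange_a₄, ← mul_assoc, ← mul_pow, Units.mul_inv, one_pow, one_mul]
  c₆ := by rw [variableChange_a₆, ← mul_assoc, ← mul_pow, Units.mul_inv, one_pow, one_mul]

end Fermat.Agent.S41Lib
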