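import Fermat.Agent.S41.EDefs

/-! S41 E-side, leaf EVC : an admissible change of variables as an additive bijection on points
(relational form `IsVC`, see `S41/EDefs.lean`). -/

set_option autoImplicit false
set_option linter.unusedSectionVars false

namespace Fermat.Agent.S41Lib

open WeierstrassCurve WeierstrassCurve.Affine WeierstrassCurve.Affine.Point

section EVC
variable {K : Type*} [Field K] {W W' : Affine K} {u r s t : K}

theorem vc_some_congr {W : Affine K} {x x' y y' : K} (hx : x = x') (hy : y = y')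
    (h : W.Nonsingular x y) (h' : W.Nonsingular x' y') :
    Point.some x y h = Point.some x' y' h' := by
  subst hx hy; rfl

theorem IsVC.equation_iff (h : IsVC W W' u r s t) (hu : u ≠ 0) (x y : K) :
    W.Equation (u ^ 2 * x + r) (u ^ 3 * y + u ^ 2 * s * x + t) ↔ W'.Equation x y := by
  rw [Affine.equation_iff, Affine.equation_iff]
  have key : (u ^ 3 * y + u ^ 2 * s * x + t) ^ 2 + W.a₁ * (u ^ 2 * x + r) *
      (u ^ 3 * y + u ^ 2 * s * x + t) + W.a₃ * (u ^ 3 * y + u ^ 2 * s * x + t)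
      - ((u ^ 2 * x + r) ^ 3 + W.a₂ * (u ^ 2 * x + r) ^ 2 + W.a₄ * (u ^ 2 * x + r) + W.a₆) =
      u ^ 6 * (y ^ 2 + W'.a₁ * x * y + W'.a₃ * y - (x ^ 3 + W'.a₂ * x ^ 2 + W'.a₄ * x + W'.a₆)) := by
    linear_combination (-u ^ 5 * x * y) * h.c₁ + (u ^ 4 * x ^ 2) * h.c₂ - (u ^ 3 * y) * h.c₃
      + (u ^ 2 * x) * h.c₄ + h.c₆
  have hu6 : u ^ 6 ≠ 0 := pow_ne_zero 6 hu
  constructor
  · intro e
    have : u ^ 6 * (y ^ 2 + W'.a₁ * x * y + W'.a₃ * y
        - (x ^ 3 + W'.a₂ * x ^ 2 + W'.a₄ * x + W'.a₆)) = 0 := by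
      rw [← key]; linear_combination e
    exact sub_eq_zero.mp ((mul_eq_zero.mp this).resolve_left hu6)
  · intro e
    apply sub_eq_zero.mp
    rw [key, sub_eq_zero.mpr e, mul_zero]

theorem IsVC.polyY (h : IsVC W W' u r s t) (x y : K) :
    2 * (u ^ 3 * y + u ^ 2 * s * x + t) + W.a₁ * (u ^ 2 * x + r) + W.a₃ =
      u ^ 3 * (2 * y + W'.a₁ * x + W'.a₃) := by
  linear_combination (-u ^ 2 * x) * h.c₁ - h.c₃

theorem IsVC.polyX (h : IsVC W W' u r s t) (x y : K) :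
    W.a₁ * (u ^ 3 * y + u ^ 2 * s * x + t) -
        (3 * (u ^ 2 * x + r) ^ 2 + 2 * W.a₂ * (u ^ 2 * x + r) + W.a₄) =
      u ^ 4 * (W'.a₁ * y - (3 * x ^ 2 + 2 * W'.a₂ * x + W'.a₄))
        - s * (u ^ 3 * (2 * y + W'.a₁ * x + W'.a₃)) := by
  linear_combination (-u ^ 3 * y + s * u ^ 2 * x) * h.c₁ + (2 * u ^ 2 * x) * h.c₂ + s * h.c₃ + h.c₄

theorem IsVC.nonsingular_iff (h : IsVC W W' u r s t) (hu : u ≠ 0) (x y : K) :
    W.Nonsingular (u ^ 2 * x + r) (u ^ 3 * y + u ^ 2 * s * x + t) ↔ W'.Nonsingular x y := by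
  rw [Affine.nonsingular_iff', Affine.nonsingular_iff', h.equation_iff hu, h.polyX, h.polyY]
  have hu3 : u ^ 3 ≠ 0 := pow_ne_zero 3 hu
  have hu4 : u ^ 4 ≠ 0 := pow_ne_zero 4 hu
  refine and_congr_right fun _ => ?_
  set P := W'.a₁ * y - (3 * x ^ 2 + 2 * W'.a₂ * x + W'.a₄)
  set Q := 2 * y + W'.a₁ * x + W'.a₃
  constructor
  · intro hh
    by_contra hcon
    push Not at hcon
    obtain ⟨hP, hQ⟩ := hcon
    rw [hP, hQ] at hh
    simp at hh
  · intro hh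
    by_contra hcon
    push Not at hcon
    obtain ⟨h1, h2⟩ := hcon
    have hQ : Q = 0 := (mul_eq_zero.mp h2).resolve_left hu3
    rw [hQ] at h1
    have hP : P = 0 := by
      have : u ^ 4 * P = 0 := by linear_combination h1
      exact (mul_eq_zero.mp this).resolve_left hu4
    rcases hh with h' | h'
    · exact h' hP
    · exact h' hQ

theorem IsVC.negY (h : IsVC W W' u r s t) (x y : K) :
    W.negY (u ^ 2 * x + r) (u ^ 3 * y + u ^ 2 * s * x + t) =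
      u ^ 3 * W'.negY x y + u ^ 2 * s * x + t := by
  rw [Affine.negY, Affine.negY]
  linear_combination (u ^ 2 * x) * h.c₁ + h.c₃

variable [DecidableEq K]

theorem IsVC.slope (h : IsVC W W' u r s t) (hu : u ≠ 0) {x₁ y₁ x₂ y₂ : K}
    (h₁ : W'.Equation x₁ y₁) (h₂ : W'.Equation x₂ y₂) (hxy : ¬(x₁ = x₂ ∧ y₁ = W'.negY x₂ y₂)) :
    W.slope (u ^ 2 * x₁ + r) (u ^ 2 * x₂ + r) (u ^ 3 * y₁ + u ^ 2 * s * x₁ + t)
      (u ^ 3 * y₂ + u ^ 2 * s * x₂ + t) = u * W'.slope x₁ x₂ y₁ y₂ + s := by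
  have hu2 : u ^ 2 ≠ 0 := pow_ne_zero 2 hu
  have hu3 : u ^ 3 ≠ 0 := pow_ne_zero 3 hu
  by_cases hx : x₁ = x₂
  · subst hx
    have hy : y₁ ≠ W'.negY x₁ y₂ := fun h => hxy ⟨rfl, h⟩
    have hyy : y₁ = y₂ := Affine.Y_eq_of_Y_ne h₁ h₂ rfl hy
    subst hyy
    have hy' : u ^ 3 * y₁ + u ^ 2 * s * x₁ + t ≠
        W.negY (u ^ 2 * x₁ + r) (u ^ 3 * y₁ + u ^ 2 * s * x₁ + t) := by
      rw [h.negY]
      intro e
      apply hy
      have : u ^ 3 * (y₁ - W'.negY x₁ y₁) = 0 := by linear_combination e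
      exact sub_eq_zero.mp ((mul_eq_zero.mp this).resolve_left hu3)
    have hD : y₁ - W'.negY x₁ y₁ ≠ 0 := sub_ne_zero.mpr hy
    rw [Affine.slope_of_Y_ne rfl hy, Affine.slope_of_Y_ne rfl hy', h.negY]
    have e1 : u ^ 3 * y₁ + u ^ 2 * s * x₁ + t - (u ^ 3 * W'.negY x₁ y₁ + u ^ 2 * s * x₁ + t) =
        u ^ 3 * (y₁ - W'.negY x₁ y₁) := by ring
    have e3 : y₁ - W'.negY x₁ y₁ = 2 * y₁ + W'.a₁ * x₁ + W'.a₃ := by rw [Affine.negY]; ring
    have e2 : 3 * (u ^ 2 * x₁ + r) ^ 2 + 2 * W.a₂ * (u ^ 2 * x₁ + r) + W.a₄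
        - W.a₁ * (u ^ 3 * y₁ + u ^ 2 * s * x₁ + t) =
        u ^ 4 * (3 * x₁ ^ 2 + 2 * W'.a₂ * x₁ + W'.a₄ - W'.a₁ * y₁)
          + s * (u ^ 3 * (y₁ - W'.negY x₁ y₁)) := by
      rw [e3]
      linear_combination (-1 : K) * h.polyX x₁ y₁
    rw [e1, e2]
    field_simp
  · have hx' : u ^ 2 * x₁ + r ≠ u ^ 2 * x₂ + r := by
      intro e
      apply hx
      have : u ^ 2 * (x₁ - x₂) = 0 := by linear_combination e
      exact sub_eq_zero.mp ((mul_eq_zero.mp this).resolve_left hu2)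
    rw [Affine.slope_of_X_ne hx, Affine.slope_of_X_ne hx']
    have h1 : x₁ - x₂ ≠ 0 := sub_ne_zero.mpr hx
    have h3 : u ^ 2 * x₁ + r - (u ^ 2 * x₂ + r) = u ^ 2 * (x₁ - x₂) := by ring
    rw [h3]
    field_simp
    ring

/-- The change of variables as a map on points. -/
noncomputable def IsVC.toFun (h : IsVC W W' u r s t) (hu : u ≠ 0) : W'.Point → W.Point
  | 0 => 0
  | Point.some x y hxy => Point.some _ _ ((h.nonsingular_iff hu x y).mpr hxy)

/-- The change of variables as a group homomorphism. -/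
noncomputable def IsVC.hom (h : IsVC W W' u r s t) (hu : u ≠ 0) : W'.Point →+ W.Point where
  toFun := h.toFun hu
  map_zero' := rfl
  map_add' := by
    have hu2 : u ^ 2 ≠ 0 := pow_ne_zero 2 hu
    have hu3 : u ^ 3 ≠ 0 := pow_ne_zero 3 hu
    rintro (_ | ⟨x₁, y₁, h₁⟩) (_ | ⟨x₂, y₂, h₂⟩)
    any_goals rfl
    by_cases hxy : x₁ = x₂ ∧ y₁ = W'.negY x₂ y₂
    · rw [Point.add_of_Y_eq hxy.left hxy.right]
      change (0 : W.Point) = Point.some _ _ ((h.nonsingular_iff hu _ _).mpr h₁) +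
        Point.some _ _ ((h.nonsingular_iff hu _ _).mpr h₂)
      rw [Point.add_of_Y_eq (by rw [hxy.left]) (by rw [h.negY, hxy.right, hxy.left])]
    · have hxy' : ¬(u ^ 2 * x₁ + r = u ^ 2 * x₂ + r ∧ u ^ 3 * y₁ + u ^ 2 * s * x₁ + t =
          W.negY (u ^ 2 * x₂ + r) (u ^ 3 * y₂ + u ^ 2 * s * x₂ + t)) := by
        rintro ⟨hx, hy⟩
        have hx' : x₁ = x₂ := by
          have : u ^ 2 * (x₁ - x₂) = 0 := by linear_combination hx
          exact sub_eq_zero.mp ((mul_eq_zero.mp this).resolve_left hu2)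
        refine hxy ⟨hx', ?_⟩
        rw [h.negY, hx'] at hy
        have : u ^ 3 * (y₁ - W'.negY x₂ y₂) = 0 := by linear_combination hy
        exact sub_eq_zero.mp ((mul_eq_zero.mp this).resolve_left hu3)
      rw [Point.add_some hxy]
      change Point.some _ _ ((h.nonsingular_iff hu _ _).mpr (Affine.nonsingular_add h₁ h₂ hxy)) =
        Point.some _ _ ((h.nonsingular_iff hu _ _).mpr h₁) +
          Point.some _ _ ((h.nonsingular_iff hu _ _).mpr h₂)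
      rw [Point.add_some hxy']
      have hX : u ^ 2 * W'.addX x₁ x₂ (W'.slope x₁ x₂ y₁ y₂) + r =
          W.addX (u ^ 2 * x₁ + r) (u ^ 2 * x₂ + r)
            (W.slope (u ^ 2 * x₁ + r) (u ^ 2 * x₂ + r) (u ^ 3 * y₁ + u ^ 2 * s * x₁ + t)
              (u ^ 3 * y₂ + u ^ 2 * s * x₂ + t)) := by
        rw [h.slope hu h₁.1 h₂.1 hxy, Affine.addX, Affine.addX]
        linear_combination (u * W'.slope x₁ x₂ y₁ y₂) * h.c₁ - h.c₂
      apply vc_some_congr hX
      rw [Affine.addY, Affine.addY, ← hX, Affine.negAddY, Affine.negAddY, ← hX,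
        h.slope hu h₁.1 h₂.1 hxy]
      have e : (u * W'.slope x₁ x₂ y₁ y₂ + s) *
          (u ^ 2 * W'.addX x₁ x₂ (W'.slope x₁ x₂ y₁ y₂) + r - (u ^ 2 * x₁ + r)) +
          (u ^ 3 * y₁ + u ^ 2 * s * x₁ + t) =
          u ^ 3 * (W'.slope x₁ x₂ y₁ y₂ * (W'.addX x₁ x₂ (W'.slope x₁ x₂ y₁ y₂) - x₁) + y₁) +
            u ^ 2 * s * W'.addX x₁ x₂ (W'.slope x₁ x₂ y₁ y₂) + t := by ring
      rw [e, h.negY]

theorem IsVC.hom_some (h : IsVC W W' u r s t) (hu : u ≠ 0) {x y : K} (hxy : W'.Nonsingular x y) :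
    IsVC.hom h hu (.some x y hxy) =
      .some (u ^ 2 * x + r) (u ^ 3 * y + u ^ 2 * s * x + t)
        ((IsVC.nonsingular_iff h hu x y).mpr hxy) := rfl

theorem IsVC.hom_injective (h : IsVC W W' u r s t) (hu : u ≠ 0) :
    Function.Injective (IsVC.hom h hu) := by
  have hu2 : u ^ 2 ≠ 0 := pow_ne_zero 2 hu
  have hu3 : u ^ 3 ≠ 0 := pow_ne_zero 3 hu
  rintro (_ | ⟨x₁, y₁, h₁⟩) (_ | ⟨x₂, y₂, h₂⟩) e
  · rfl
  · exact absurd e.symm (Point.some_ne_zero _)
  · exact absurd e (Point.some_ne_zero _)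
  · rw [h.hom_some, h.hom_some] at e
    have hx := (Point.some.inj e).left
    have hy := (Point.some.inj e).right
    have hx' : x₁ = x₂ := by
      have : u ^ 2 * (x₁ - x₂) = 0 := by linear_combination hx
      exact sub_eq_zero.mp ((mul_eq_zero.mp this).resolve_left hu2)
    have hy' : y₁ = y₂ := by
      rw [hx'] at hy
      have : u ^ 3 * (y₁ - y₂) = 0 := by linear_combination hy
      exact sub_eq_zero.mp ((mul_eq_zero.mp this).resolve_left hu3)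
    exact vc_some_congr hx' hy' _ _

theorem IsVC.hom_surjective (h : IsVC W W' u r s t) (hu : u ≠ 0) :
    Function.Surjective (IsVC.hom h hu) := by
  rintro (_ | ⟨X, Y, hXY⟩)
  · exact ⟨0, rfl⟩
  · have eX : u ^ 2 * ((X - r) / u ^ 2) + r = X := by field_simp; ring
    have eY : u ^ 3 * ((Y - s * (X - r) - t) / u ^ 3) + u ^ 2 * s * ((X - r) / u ^ 2) + t = Y := by
      field_simp; ring
    have hns : W'.Nonsingular ((X - r) / u ^ 2) ((Y - s * (X - r) - t) / u ^ 3) := by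
      rw [← h.nonsingular_iff hu, eX, eY]; exact hXY
    exact ⟨.some _ _ hns, by rw [h.hom_some]; exact vc_some_congr eX eY _ _⟩

theorem IsVC.hom_bijective (h : IsVC W W' u r s t) (hu : u ≠ 0) :
    Function.Bijective (IsVC.hom h hu) := ⟨h.hom_injective hu, h.hom_surjective hu⟩

end EVC

end Fermat.Agent.S41Lib
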