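import Fermat.Agent.S41.ELink
import Fermat.Agent.S41.EVC

/-! S41 E-side : `#E[p] ≤ p²` for every elliptic curve over `ℚ` and every odd prime `p`. -/

set_option autoImplicit false
set_option linter.unusedSectionVars false

namespace Fermat.Agent.S41E

open WeierstrassCurve WeierstrassCurve.Affine WeierstrassCurve.Affine.Point
open Fermat.Agent.S05Lib Fermat.Agent.S41Lib

local notation "Qb" => AlgebraicClosure ℚ

/-- the `x`-coordinate of a point of order `p` (odd prime) is a root of `preΨ' p`. -/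
theorem eval_preΨ'_eq_zero_of_torsion {F : Type*} [Field F] [DecidableEq F]
    {W : WeierstrassCurve.Affine F} (hW : IsE W) (h2 : (2 : F) ≠ 0) {p : ℕ} (hp : p.Prime)
    (hp2 : p ≠ 2) {T : W.Point} (hT : T ≠ 0) (hpT : p • T = 0) :
    (WeierstrassCurve.preΨ' W p).eval (xc T) = 0 := by
  have hne : ∀ k, 0 < k → k < p → k • T ≠ 0 := fun k h0 hk =>
    nsmul_ne_zero_of_not_dvd hp hpT hT (not_dvd_of_lt h0 hk)
  rw [← psiAt_odd hW T (hp.odd_of_ne_two hp2)]
  exact (nsmul_eq_zero_iff_psiAt hW h2 hT hp.two_le hne).mp hpT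

/-- `S13/Card.exists_finset_torsion` for all odd primes. -/
theorem exists_finset_torsion_le {F : Type*} [Field F] [DecidableEq F]
    {W : WeierstrassCurve.Affine F} (hW : IsE W) (h2 : (2 : F) ≠ 0) {p : ℕ} (hp : p.Prime)
    (hp2 : p ≠ 2) (hpF : (p : F) ≠ 0) :
    ∃ S : Finset W.Point, S.card ≤ p ^ 2 ∧ ∀ T : W.Point, p • T = 0 → T ∈ S := by
  classical
  set f := WeierstrassCurve.preΨ' W p with hf
  have hf0 : f ≠ 0 := WeierstrassCurve.preΨ'_ne_zero W hpF
  set Rts := f.roots.toFinset with hRts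
  have hodd : ¬ Even p := Nat.not_even_iff_odd.mpr (hp.odd_of_ne_two hp2)
  have hcard : Rts.card ≤ (p ^ 2 - 1) / 2 := by
    calc Rts.card ≤ Multiset.card f.roots := Multiset.toFinset_card_le _
      _ ≤ f.natDegree := Polynomial.card_roots' f
      _ ≤ (p ^ 2 - if Even p then 4 else 1) / 2 := WeierstrassCurve.natDegree_preΨ'_le W p
      _ = (p ^ 2 - 1) / 2 := by rw [if_neg hodd]
  let Q : F → W.Point := fun x =>
    if h : ∃ T : W.Point, T ≠ 0 ∧ xc T = x then h.choose else 0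
  refine ⟨insert 0 (Rts.image Q ∪ Rts.image (fun x => -Q x)), ?_, ?_⟩
  · have h1 : 1 ≤ p ^ 2 := Nat.one_le_pow _ _ hp.pos
    calc (insert 0 (Rts.image Q ∪ Rts.image (fun x => -Q x))).card
        ≤ (Rts.image Q ∪ Rts.image (fun x => -Q x)).card + 1 := Finset.card_insert_le _ _
      _ ≤ (Rts.image Q).card + (Rts.image (fun x => -Q x)).card + 1 := by
          gcongr
          exact Finset.card_union_le _ _
      _ ≤ Rts.card + Rts.card + 1 := by
          gcongr <;> exact Finset.card_image_le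
      _ ≤ p ^ 2 := by omega
  · intro T hT
    by_cases hT0 : T = 0
    · rw [hT0]; exact Finset.mem_insert_self _ _
    apply Finset.mem_insert_of_mem
    have hroot : xc T ∈ Rts := by
      rw [hRts, Multiset.mem_toFinset, Polynomial.mem_roots hf0]
      exact eval_preΨ'_eq_zero_of_torsion hW h2 hp hp2 hT0 hT
    have hex : ∃ T' : W.Point, T' ≠ 0 ∧ xc T' = xc T := ⟨T, hT0, rfl⟩
    have hQ : Q (xc T) = hex.choose := dif_pos hex
    obtain ⟨hQ0, hQx⟩ := hex.choose_spec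
    rw [← hQ] at hQ0 hQx
    rcases eq_or_eq_neg_of_xc_eq hT0 hQ0 hQx.symm with h | h
    · exact Finset.mem_union_left _ (Finset.mem_image.mpr ⟨xc T, hroot, h.symm⟩)
    · exact Finset.mem_union_right _ (Finset.mem_image.mpr ⟨xc T, hroot, h.symm⟩)

/-- every Weierstrass curve over an algebraically closed field of char `≠ 2` has an `IsE`
model. -/
theorem exists_isVC_isE {F : Type*} [Field F] [IsAlgClosed F] (h2 : (2 : F) ≠ 0)
    (W : WeierstrassCurve F) : ∃ (W' : WeierstrassCurve F) (r s t : F),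
      IsVC W W' 1 r s t ∧ IsE W'.toAffine := by
  have h4 : (4 : F) ≠ 0 := by
    have : (4 : F) = 2 ^ 2 := by norm_num
    rw [this]; exact pow_ne_zero 2 h2
  obtain ⟨r, hr⟩ := IsAlgClosed.exists_root W.Ψ₂Sq (by
    rw [Polynomial.degree_eq_natDegree (W.Ψ₂Sq_ne_zero h4), W.natDegree_Ψ₂Sq h4]
    norm_num)
  have hr' : 4 * r ^ 3 + W.b₂ * r ^ 2 + 2 * W.b₄ * r + W.b₆ = 0 := by
    have := hr
    simp only [Polynomial.IsRoot.def, WeierstrassCurve.Ψ₂Sq, Polynomial.eval_add,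
      Polynomial.eval_mul, Polynomial.eval_C, Polynomial.eval_pow, Polynomial.eval_X] at this
    linear_combination this
  set s : F := -W.a₁ / 2 with hs
  set t : F := -(W.a₃ + r * W.a₁) / 2 with ht
  have hs2 : 2 * s = -W.a₁ := by rw [hs]; field_simp
  have ht2 : 2 * t = -(W.a₃ + r * W.a₁) := by rw [ht]; field_simp
  clear_value s t
  refine ⟨⟨0, W.a₂ - s * W.a₁ + 3 * r - s ^ 2, 0,
    W.a₄ - s * W.a₃ + 2 * r * W.a₂ - (t + r * s) * W.a₁ + 3 * r ^ 2 - 2 * s * t, 0⟩, r, s, t,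
    ⟨?_, ?_, ?_, ?_, ?_⟩, ⟨rfl, rfl, rfl⟩⟩
  · show (1 : F) * 0 = _
    linear_combination -hs2
  · show (1 : F) ^ 2 * (W.a₂ - s * W.a₁ + 3 * r - s ^ 2) = _
    ring
  · show (1 : F) ^ 3 * 0 = _
    linear_combination -ht2
  · show (1 : F) ^ 4 * (W.a₄ - s * W.a₃ + 2 * r * W.a₂ - (t + r * s) * W.a₁ + 3 * r ^ 2
      - 2 * s * t) = _
    ring
  · show (1 : F) ^ 6 * 0 = _
    apply mul_left_cancel₀ h4
    simp only [WeierstrassCurve.b₂, WeierstrassCurve.b₄, WeierstrassCurve.b₆] at hr'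
    linear_combination -hr' + (2 * t + (W.a₃ + r * W.a₁)) * ht2

/-- `#E[p] ≤ p²`. -/
theorem card_torsion_le (E : WeierstrassCurve ℚ) {p : ℕ} (hp : p.Prime) (hp2 : p ≠ 2) :
    Finite (Submodule.torsionBy ℤ (E⁄Qb).Point p) ∧
      Nat.card (Submodule.torsionBy ℤ (E⁄Qb).Point p) ≤ p ^ 2 := by
  obtain ⟨W', r, s, t, hvc, hE⟩ := exists_isVC_isE (F := Qb) two_ne_zero (E⁄Qb)
  obtain ⟨S, hS, hmem⟩ := exists_finset_torsion_le hE two_ne_zero hp hp2
    (by exact_mod_cast hp.ne_zero)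
  have hbij := IsVC.hom_bijective (W := (E⁄Qb).toAffine) (W' := W'.toAffine) hvc one_ne_zero
  set φ := IsVC.hom (W := (E⁄Qb).toAffine) (W' := W'.toAffine) hvc one_ne_zero with hφ
  have hx : ∀ x : Submodule.torsionBy ℤ (E⁄Qb).Point p, ∃ T ∈ S, φ T = x.1 := by
    intro x
    obtain ⟨T, hT⟩ := hbij.2 x.1
    refine ⟨T, hmem T ?_, hT⟩
    have h1 := x.2
    rw [Submodule.mem_torsionBy_iff, Nat.cast_smul_eq_nsmul ℤ] at h1
    apply hbij.1
    rw [map_nsmul, hT, h1, _root_.map_zero]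
  choose g hgS hg using hx
  let ψ : Submodule.torsionBy ℤ (E⁄Qb).Point p → S := fun x => ⟨g x, hgS x⟩
  have hψ : Function.Injective ψ := by
    intro x y h
    apply Subtype.ext
    rw [← hg x, ← hg y]
    exact congrArg (fun z : S => φ z.1) h
  refine ⟨Finite.of_injective ψ hψ, ?_⟩
  calc Nat.card (Submodule.torsionBy ℤ (E⁄Qb).Point p) ≤ Nat.card S :=
        Nat.card_le_card_of_injective ψ hψ
    _ = S.card := by simp
    _ ≤ p ^ 2 := hS

end Fermat.Agent.S41E
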