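import Fermat.Agent.S41.EPrime
import Fermat.Agent.S41.ECheb3
import Fermat.Agent.S41.ETorLe
set_option autoImplicit false
set_option linter.unusedSectionVars false
set_option linter.style.haveILetI false

/-!
# S41, E-side: the Chebotarev step
-/

namespace Fermat.Agent.S41E

open WeierstrassCurve WeierstrassCurve.Affine WeierstrassCurve.Affine.Point
open Fermat.Agent.S05Lib Fermat.Agent.S13Lib Fermat.Agent.S41Lib

local notation "Qb" => AlgebraicClosure ℚ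
local notation "GQ" => (AlgebraicClosure ℚ ≃ₐ[ℚ] AlgebraicClosure ℚ)

theorem exists_field (S : Set Qb) (hSfin : S.Finite) (hSstab : ∀ σ : GQ, ∀ x ∈ S, σ x ∈ S) :
    ∃ L : IntermediateField ℚ Qb, FiniteDimensional ℚ L ∧ Normal ℚ L ∧ S ⊆ L ∧
      ∀ τ τ' : GQ, (∀ x ∈ S, τ x = τ' x) → ∀ x ∈ L, τ x = τ' x := by
  refine ⟨IntermediateField.adjoin ℚ S, ?_, ?_, IntermediateField.subset_adjoin ℚ S, ?_⟩
  · haveI : Finite S := hSfin
    exact IntermediateField.finiteDimensional_adjoin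
      (fun x _ => (AlgebraicClosure.isAlgebraic ℚ).isIntegral.isIntegral x)
  · have hN : @Normal ℚ (IntermediateField.adjoin ℚ S) _ _
        (IntermediateField.algebra' (IntermediateField.adjoin ℚ S)) := by
      rw [IntermediateField.normal_iff_forall_map_le']
      intro σ
      rw [IntermediateField.adjoin_map]
      apply IntermediateField.adjoin.mono
      rintro _ ⟨x, hx, rfl⟩
      exact hSstab σ x hx
    convert hN
    exact Subsingleton.elim _ _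
  · intro τ τ' h x hx
    induction hx using IntermediateField.adjoin_induction with
    | mem x hx => exact h x hx
    | algebraMap x => rw [AlgEquiv.commutes, AlgEquiv.commutes]
    | add x y _ _ hx hy => rw [map_add, map_add, hx, hy]
    | inv x _ hx => rw [map_inv₀, map_inv₀, hx]
    | mul x y _ _ hx hy => rw [map_mul, map_mul, hx, hy]

theorem pow_apply_of_fix {h : GQ} {z : Qb} (hz : h z = z) (n : ℕ) : (h ^ n) z = z := by
  induction n with
  | zero => simp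
  | succ n ih => rw [pow_succ, AlgEquiv.mul_apply, hz, ih]

theorem smul_eq_of_coords {E : WeierstrassCurve ℚ} {τ : GQ} {P : (E.toAffine⁄Qb).Point}
    (hx : τ (xc P) = xc P) (hy : τ (yc P) = yc P) : τ • P = P := by
  by_cases hP : P = 0
  · subst hP; rfl
  have hτP : τ • P ≠ 0 := fun h0 => hP ((smul_eq_zero_iff_eq τ).mp h0)
  exact point_ext hτP hP (by rw [xc_smul, hx]) (by rw [yc_smul, hy])

theorem smul_of_coprime {E : WeierstrassCurve ℚ} {h : GQ} {P : (E.toAffine⁄Qb).Point} {k q : ℕ}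
    (hk : (h ^ k) • P = P) (hq : (h ^ q) • P = P) (hkq : Nat.Coprime k q) : h • P = P := by
  have h1 : h ^ k ∈ MulAction.stabilizer GQ P := hk
  have h2 : h ^ q ∈ MulAction.stabilizer GQ P := hq
  have h3 : (h ^ k) ^ (Nat.gcdA k q) * (h ^ q) ^ (Nat.gcdB k q) ∈ MulAction.stabilizer GQ P :=
    mul_mem (zpow_mem h1 _) (zpow_mem h2 _)
  have h4 : (h ^ k) ^ (Nat.gcdA k q) * (h ^ q) ^ (Nat.gcdB k q) = h := by
    rw [← zpow_natCast h k, ← zpow_natCast h q, ← zpow_mul, ← zpow_mul, ← zpow_add,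
      ← Nat.gcd_eq_gcd_ab, hkq.gcd_eq_one]
    simp
  rw [h4] at h3
  exact h3

theorem finite_torsion (E : WeierstrassCurve ℚ) {p : ℕ} (hp : p.Prime) (hp2 : p ≠ 2) :
    {P : (E.toAffine⁄Qb).Point | p • P = 0}.Finite := by
  haveI := (card_torsion_le E hp hp2).1
  have : {P : (E.toAffine⁄Qb).Point | p • P = 0} =
      Set.range (fun x : Submodule.torsionBy ℤ (E⁄Qb).Point p => (x : (E.toAffine⁄Qb).Point)) := by
    ext P
    constructor
    · intro hP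
      refine ⟨⟨P, ?_⟩, rfl⟩
      rw [Submodule.mem_torsionBy_iff, Nat.cast_smul_eq_nsmul ℤ]
      exact hP
    · rintro ⟨x, rfl⟩
      have h1 := x.2
      rw [Submodule.mem_torsionBy_iff, Nat.cast_smul_eq_nsmul ℤ] at h1
      exact h1
  rw [this]
  exact Set.finite_range _

/-- conditions on the auxiliary modulus. -/
structure ModOK (W : WeierstrassCurve ℤ) (p M : ℕ) : Prop where
  pos : 0 < M
  two : 2 ∣ M
  hp : p ∣ M
  hΔ : W.Δ.natAbs ∣ M

theorem ModOK.facts {W : WeierstrassCurve ℤ} {p M ℓ : ℕ} (h : ModOK W p M) (hℓ : ℓ.Prime)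
    (hℓM : ¬ ℓ ∣ M) : ℓ ≠ 2 ∧ ℓ ≠ p ∧ W.IsGoodPrimeFor ℓ := by
  refine ⟨?_, ?_, ?_⟩
  · rintro rfl; exact hℓM h.two
  · rintro rfl; exact hℓM h.hp
  · intro hd
    apply hℓM
    exact (Int.natCast_dvd.mp hd).trans h.hΔ

theorem cheb_step (E : WeierstrassCurve ℚ) {W : WeierstrassCurve ℤ}
    (hW : W.IsIntegralModelOf E) {p M : ℕ} (hp : p.Prime) (hp2 : p ≠ 2) (hM : ModOK W p M)
    {ζ : Qb} (hζ : IsPrimitiveRoot ζ M)
    (H : ∀ ℓ : ℕ, ℓ.Prime → ℓ ≡ 1 [MOD M] → p ∣ Nat.card (W.reductionMod ℓ).toAffine.Point)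
    (h : GQ) (hhζ : h ζ = ζ) {q : ℕ} (hq : q.Prime)
    (hhq : ∀ P : (E.toAffine⁄Qb).Point, p • P = 0 → (h ^ q) • P = P)
    (hne : ∃ P : (E.toAffine⁄Qb).Point, p • P = 0 ∧ h • P ≠ P) :
    ∃ P : (E.toAffine⁄Qb).Point, P ≠ 0 ∧ p • P = 0 ∧ h • P = P := by
  haveI : NeZero M := ⟨hM.pos.ne'⟩
  have hp3 : 3 ≤ p := by
    have := hp.two_le
    omega
  set Tp : Set (E.toAffine⁄Qb).Point := {P | p • P = 0} with hTp
  have hTfin : Tp.Finite := finite_torsion E hp hp2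
  set S : Set Qb := (xc '' Tp) ∪ (yc '' Tp) ∪ {z | z ^ M = 1} with hS
  have hμfin : {z : Qb | z ^ M = 1}.Finite := by
    have : {z : Qb | z ^ M = 1} = ↑(Polynomial.nthRootsFinset M (1 : Qb)) := by
      ext z
      simp [Polynomial.mem_nthRootsFinset hM.pos]
    rw [this]
    exact Finset.finite_toSet _
  have hSfin : S.Finite := ((hTfin.image _).union (hTfin.image _)).union hμfin
  have hstabT : ∀ (σ : GQ) (P : (E.toAffine⁄Qb).Point), P ∈ Tp → σ • P ∈ Tp := by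
    intro σ P hP
    have := (DistribSMul.toAddMonoidHom (E.toAffine⁄Qb).Point σ).map_nsmul p P
    rw [show p • P = 0 from hP, _root_.map_zero] at this
    exact this.symm
  have hSstab : ∀ σ : GQ, ∀ x ∈ S, σ x ∈ S := by
    rintro σ x ((⟨P, hP, rfl⟩ | ⟨P, hP, rfl⟩) | hx)
    · exact Or.inl (Or.inl ⟨σ • P, hstabT σ P hP, xc_smul σ P⟩)
    · exact Or.inl (Or.inr ⟨σ • P, hstabT σ P hP, yc_smul σ P⟩)
    · refine Or.inr ?_
      show (σ x) ^ M = 1
      rw [← map_pow, show x ^ M = 1 from hx, map_one]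
  obtain ⟨L, hLfin, hLnorm, hSL, hagree⟩ := exists_field S hSfin hSstab
  haveI := hLfin
  haveI := hLnorm
  have hfixμ : ∀ (n : ℕ) (z : Qb), z ^ M = 1 → (h ^ n) z = z := by
    intro n z hz
    obtain ⟨i, -, rfl⟩ := hζ.eq_pow_of_pow_eq_one hz
    rw [map_pow, pow_apply_of_fix hhζ]
  have hσq : ∀ x ∈ L, (h ^ q) x = x := by
    intro x hx
    have := hagree (h ^ q) 1 ?_ x hx
    · simpa using this
    · rintro x ((⟨P, hP, rfl⟩ | ⟨P, hP, rfl⟩) | hx)
      · rw [← xc_smul, hhq P hP]; rfl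
      · rw [← yc_smul, hhq P hP]; rfl
      · rw [hfixμ q x hx]; rfl
  have hσ1 : ∃ x ∈ L, h x ≠ x := by
    obtain ⟨P, hP, hPne⟩ := hne
    by_contra hcon
    push Not at hcon
    exact hPne (smul_eq_of_coords (hcon _ (hSL (Or.inl (Or.inl ⟨P, hP, rfl⟩))))
      (hcon _ (hSL (Or.inl (Or.inr ⟨P, hP, rfl⟩)))))
  obtain ⟨ℓ, A, τ, k, hℓ, hℓB, hA, hτ, hqk, hτL⟩ :=
    weakChebotarev_prime L h q hq hσq hσ1 M.primeFactors
  have hℓM : ¬ ℓ ∣ M := fun hd => hℓB (Nat.mem_primeFactors.mpr ⟨hℓ, hd, hM.pos.ne'⟩)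
  obtain ⟨hℓ2, hℓp, hgood⟩ := hM.facts hℓ hℓM
  have hζS : ζ ∈ L := hSL (Or.inr hζ.pow_eq_one)
  have h1 : ζ ^ ℓ = ζ ^ 1 := by
    rw [pow_one, ← frobenius_apply_of_pow_eq_one hℓ hℓM A hA τ hτ ζ hζ.pow_eq_one, hτL ζ hζS,
      pow_apply_of_fix hhζ]
  have hmod : ℓ ≡ 1 [MOD M] := by
    have hζ0 : ζ ≠ 0 := hζ.ne_zero hM.pos.ne'
    have h2 : (Units.mk0 ζ hζ0) ^ ℓ = (Units.mk0 ζ hζ0) ^ 1 := by
      ext
      simpa using h1
    rw [pow_eq_pow_iff_modEq] at h2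
    have h3 : orderOf (Units.mk0 ζ hζ0) = M := by
      rw [← orderOf_units, Units.val_mk0, ← hζ.eq_orderOf]
    rwa [h3] at h2
  obtain ⟨P, hP0, hpP, hτP⟩ :=
    (perPrime E hW hp hp3 hℓ hℓ2 hℓp hgood A hA τ hτ).1 (H ℓ hℓ hmod)
  refine ⟨P, hP0, hpP, ?_⟩
  have hk : (h ^ k) • P = P := by
    apply smul_eq_of_coords
    · rw [← hτL _ (hSL (Or.inl (Or.inl ⟨P, hpP, rfl⟩))), ← xc_smul, hτP]
    · rw [← hτL _ (hSL (Or.inl (Or.inr ⟨P, hpP, rfl⟩))), ← yc_smul, hτP]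
  exact smul_of_coprime hk (hhq P hpP) ((Nat.Prime.coprime_iff_not_dvd hq).mpr hqk).symm

end Fermat.Agent.S41E
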