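import Fermat.Agent.S41.EGen
import Fermat.Agent.S41.EFrobDef
import Fermat.Agent.S41.ECheb2
import Fermat.Agent.S05.Final
import Fermat.Prelude.Def_FLTPrelim_ModularRep
set_option autoImplicit false
set_option linter.unusedSectionVars false

/-!
# S41, E-side: Frobenius at a place of `ℚ̄` versus the Frobenius endomorphism of the reduction
-/

namespace Fermat.Agent.S41E

open WeierstrassCurve WeierstrassCurve.Affine WeierstrassCurve.Affine.Point
open Fermat.Agent.S05Lib Fermat.Agent.S13Lib Fermat.Agent.S41Lib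

local notation "Qb" => AlgebraicClosure ℚ
local notation "GQ" => (AlgebraicClosure ℚ ≃ₐ[ℚ] AlgebraicClosure ℚ)

theorem point_ext {F : Type*} [Field F] {W : Affine F} {P Q : W.Point} (hP : P ≠ 0) (hQ : Q ≠ 0)
    (hx : xc P = xc Q) (hy : yc P = yc Q) : P = Q := by
  obtain ⟨k₁, e₁⟩ := exists_eq_some hP
  obtain ⟨k₂, e₂⟩ := exists_eq_some hQ
  rw [e₁, e₂]
  simp only [hx, hy]

section neg

theorem yc_neg_gen {F : Type*} [Field F] {W : Affine F} {P : W.Point} (hP : P ≠ 0) :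
    yc (-P) = -yc P - W.a₁ * xc P - W.a₃ := by
  cases P with
  | zero => exact absurd rfl hP
  | some x y h => rfl

variable {K : Type*} [Field K] [DecidableEq K] {A : ValuationSubring K}
  [DecidableEq (IsLocalRing.ResidueField A)] {WA : WeierstrassCurve A}
  {VK : Affine K} {Vk : Affine (IsLocalRing.ResidueField A)}

theorem RelG.neg (hVK : VK = WA.map A.subtype) (hVk : Vk = WA.map (IsLocalRing.residue A))
    {T : VK.Point} {T' : Vk.Point} (h : RelG T T') : RelG (-T) (-T') := by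
  subst hVK hVk
  obtain ⟨n1, n2, x, y, hx, hy, rx, ry⟩ := h
  refine ⟨neg_ne_zero.mpr n1, neg_ne_zero.mpr n2, x, -y - WA.a₁ * x - WA.a₃, ?_, ?_, ?_, ?_⟩
  · rw [xc_neg, hx]
  · rw [yc_neg_gen n1, ← hx, ← hy]
    push_cast
    rfl
  · rw [xc_neg, rx]
  · rw [yc_neg_gen n2, ← rx, ← ry]
    simp only [map_sub, map_neg, map_mul]
    rfl

end neg

/-- the curve over `ℚ`. -/
abbrev WQ (W : WeierstrassCurve ℤ) : WeierstrassCurve ℚ := W.map (Int.castRingHom ℚ)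

/-- the curve over the valuation ring. -/
noncomputable abbrev WAof (W : WeierstrassCurve ℤ) (A : ValuationSubring Qb) : WeierstrassCurve A :=
  W.map (Int.castRingHom A)

variable (W : WeierstrassCurve ℤ) {ℓ p : ℕ} [Fact ℓ.Prime] (A : ValuationSubring Qb)
  [Algebra (ZMod ℓ) (IsLocalRing.ResidueField A)] [DecidableEq (IsLocalRing.ResidueField A)]

theorem hVK_eq : ((WQ W).toAffine⁄Qb) = (WAof W A).map A.subtype := by
  simp only [WeierstrassCurve.baseChange, WQ, WAof, WeierstrassCurve.map_map]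
  congr 1

theorem hVk_eq : ((W.reductionMod ℓ).toAffine⁄(IsLocalRing.ResidueField A)) =
    (WAof W A).map (IsLocalRing.residue A) := by
  simp only [WeierstrassCurve.baseChange, WeierstrassCurve.reductionMod, WAof,
    WeierstrassCurve.map_map]
  congr 1
  exact RingHom.ext_int _ _

variable {W A}

theorem res_intCast_ne_zero (hA : A.LiesOverPrime ℓ) {n : ℤ} (hn : ¬ (ℓ : ℤ) ∣ n) :
    IsLocalRing.residue A (n : A) ≠ 0 := by
  rw [res_ne_zero_iff]
  have := Fermat.Agent.S41Lib.valuation_intCast_eq_one (Fact.out : ℓ.Prime) A hA hn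
  simpa using this

theorem goodW (hA : A.LiesOverPrime ℓ) (hℓ2 : ℓ ≠ 2) (hp : p.Prime) (hℓp : ℓ ≠ p)
    (hgood : W.IsGoodPrimeFor ℓ) : GoodW (WAof W A) p where
  h2 := by
    have := res_intCast_ne_zero (A := A) hA (n := 2) (by
      intro h
      have h1 : ℓ ∣ 2 := by exact_mod_cast h
      exact hℓ2 ((Nat.prime_dvd_prime_iff_eq Fact.out Nat.prime_two).mp h1))
    simpa using this
  hΔ := by
    have := res_intCast_ne_zero (A := A) hA (n := W.Δ) hgood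
    rw [WAof, WeierstrassCurve.map_Δ]
    simpa using this
  hp := by
    have := res_intCast_ne_zero (A := A) hA (n := (p : ℤ)) (by
      intro h
      have h1 : ℓ ∣ p := by exact_mod_cast h
      exact hℓp ((Nat.prime_dvd_prime_iff_eq Fact.out hp).mp h1))
    simpa using this

theorem frob_coe {σ : GQ} (hσ : A.IsFrobeniusAt σ ℓ) (x : A) :
    ∃ x' : A, (x' : Qb) = σ x ∧ IsLocalRing.residue A x' = IsLocalRing.residue A x ^ ℓ := by
  have h1 := Fermat.Agent.S41Lib.frob_sub_pow_mem hσ x.2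
  have hmem : σ (x : Qb) ∈ A := by
    have : σ (x : Qb) = (σ (x : Qb) - (x : Qb) ^ ℓ) + (x : Qb) ^ ℓ := by ring
    rw [this]
    exact A.add_mem _ _ (ValuationSubring.nonunits_subset h1) (pow_mem x.2 ℓ)
  refine ⟨⟨σ x, hmem⟩, rfl, ?_⟩
  rw [← map_pow, ← sub_eq_zero, ← map_sub, IsLocalRing.residue_eq_zero_iff,
    ← ValuationSubring.coe_mem_nonunits_iff]
  exact h1

theorem xc_frobPt (V : WeierstrassCurve (ZMod ℓ)) (k : Type*) [Field k] [Algebra (ZMod ℓ) k]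
    [DecidableEq k] {P : (V.toAffine⁄k).Point} (hP : P ≠ 0) :
    frobPt V k P ≠ 0 ∧ xc (frobPt V k P) = xc P ^ ℓ ∧ yc (frobPt V k P) = yc P ^ ℓ := by
  obtain ⟨h1, e1⟩ := exists_eq_some hP
  obtain ⟨h', e'⟩ := frobPt_some V k h1
  rw [← e1] at e'
  rw [e']
  exact ⟨some_ne_zero _, rfl, rfl⟩

theorem relG_smul {σ : GQ} (hσ : A.IsFrobeniusAt σ ℓ) {T : ((WQ W).toAffine⁄Qb).Point}
    {T' : ((W.reductionMod ℓ).toAffine⁄(IsLocalRing.ResidueField A)).Point} (h : RelG T T') :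
    RelG (σ • T) (frobPt (W.reductionMod ℓ) (IsLocalRing.ResidueField A) T') := by
  obtain ⟨n1, n2, x, y, hx, hy, rx, ry⟩ := h
  obtain ⟨x', hx', rx'⟩ := frob_coe hσ x
  obtain ⟨y', hy', ry'⟩ := frob_coe hσ y
  obtain ⟨f0, fx, fy⟩ := xc_frobPt (W.reductionMod ℓ) (IsLocalRing.ResidueField A) n2
  refine ⟨?_, f0, x', y', ?_, ?_, ?_, ?_⟩
  · intro h0
    exact n1 ((smul_eq_zero_iff_eq σ).mp h0)
  · rw [xc_smul, hx', hx]
  · rw [yc_smul, hy', hy]
  · rw [fx, rx', rx]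
  · rw [fy, ry', ry]

section main

variable (hA : A.LiesOverPrime ℓ) (hℓ2 : ℓ ≠ 2) (hp : p.Prime) (hp3 : 3 ≤ p) (hℓp : ℓ ≠ p)
  (hgood : W.IsGoodPrimeFor ℓ) {σ : GQ} (hσ : A.IsFrobeniusAt σ ℓ)
include hA hℓ2 hp hp3 hℓp hgood hσ

local notation "Fr" => frobPt (W.reductionMod ℓ) (IsLocalRing.ResidueField A)

theorem smul_nsmul_eq_zero {T : ((WQ W).toAffine⁄Qb).Point} (hpT : p • T = 0) :
    p • (σ • T) = 0 := by
  have := (DistribSMul.toAddMonoidHom ((WQ W).toAffine⁄Qb).Point σ).map_nsmul p T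
  rw [hpT, _root_.map_zero] at this
  exact this.symm

theorem exists_fixed_of_dvd [Finite (Fr - AddMonoidHom.id _).ker]
    (hdvd : p ∣ Nat.card (Fr - AddMonoidHom.id _).ker) :
    ∃ T : ((WQ W).toAffine⁄Qb).Point, T ≠ 0 ∧ p • T = 0 ∧ σ • T = T := by
  have : Fact p.Prime := ⟨hp⟩
  obtain ⟨⟨T', hT'⟩, hord⟩ := exists_prime_addOrderOf_dvd_card' p hdvd
  have hT'0 : T' ≠ 0 := by
    rintro rfl
    have : addOrderOf (⟨0, hT'⟩ : (Fr - AddMonoidHom.id _).ker) = 1 := AddMonoid.addOrderOf_eq_one_iff.mpr rfl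
    rw [this] at hord
    exact hp.one_lt.ne hord
  have hpT' : p • T' = 0 := by
    have := addOrderOf_nsmul_eq_zero (⟨T', hT'⟩ : (Fr - AddMonoidHom.id _).ker)
    rw [hord] at this
    exact congrArg Subtype.val this
  have hG := goodW (W := W) hA hℓ2 hp hℓp hgood
  obtain ⟨T, hrel, hpT⟩ := gen_exists_lift hG hp hp3 (hVK_eq W A) (hVk_eq (ℓ := ℓ) W A) hT'0 hpT'
  refine ⟨T, hrel.1, hpT, ?_⟩
  have h1 := relG_smul hσ hrel
  have h2 : Fr T' = T' := by
    rw [AddMonoidHom.mem_ker, AddMonoidHom.sub_apply, AddMonoidHom.id_apply] at hT'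
    exact sub_eq_zero.mp hT'
  rw [h2] at h1
  exact gen_inj hG hp hp3 (hVK_eq W A) (hVk_eq (ℓ := ℓ) W A) h1 hrel
    (smul_nsmul_eq_zero hA hℓ2 hp hp3 hℓp hgood hσ hpT) hpT

theorem exists_neg_of_dvd [Finite (Fr + AddMonoidHom.id _).ker]
    (hdvd : p ∣ Nat.card (Fr + AddMonoidHom.id _).ker) :
    ∃ T : ((WQ W).toAffine⁄Qb).Point, T ≠ 0 ∧ p • T = 0 ∧ σ • T = -T := by
  have : Fact p.Prime := ⟨hp⟩
  obtain ⟨⟨T', hT'⟩, hord⟩ := exists_prime_addOrderOf_dvd_card' p hdvd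
  have hT'0 : T' ≠ 0 := by
    rintro rfl
    have : addOrderOf (⟨0, hT'⟩ : (Fr + AddMonoidHom.id _).ker) = 1 := AddMonoid.addOrderOf_eq_one_iff.mpr rfl
    rw [this] at hord
    exact hp.one_lt.ne hord
  have hpT' : p • T' = 0 := by
    have := addOrderOf_nsmul_eq_zero (⟨T', hT'⟩ : (Fr + AddMonoidHom.id _).ker)
    rw [hord] at this
    exact congrArg Subtype.val this
  have hG := goodW (W := W) hA hℓ2 hp hℓp hgood
  obtain ⟨T, hrel, hpT⟩ := gen_exists_lift hG hp hp3 (hVK_eq W A) (hVk_eq (ℓ := ℓ) W A) hT'0 hpT'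
  refine ⟨T, hrel.1, hpT, ?_⟩
  have h1 := relG_smul hσ hrel
  have h2 : Fr T' = -T' := by
    rw [AddMonoidHom.mem_ker, AddMonoidHom.add_apply, AddMonoidHom.id_apply] at hT'
    exact eq_neg_of_add_eq_zero_left hT'
  rw [h2] at h1
  exact gen_inj hG hp hp3 (hVK_eq W A) (hVk_eq (ℓ := ℓ) W A) h1 (hrel.neg (hVK_eq W A) (hVk_eq (ℓ := ℓ) W A))
    (smul_nsmul_eq_zero hA hℓ2 hp hp3 hℓp hgood hσ hpT) (by rw [smul_neg, hpT, _root_.neg_zero])

theorem dvd_of_fixed [Finite (Fr - AddMonoidHom.id _).ker]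
    {T : ((WQ W).toAffine⁄Qb).Point} (hT : T ≠ 0) (hpT : p • T = 0) (hfix : σ • T = T) :
    p ∣ Nat.card (Fr - AddMonoidHom.id _).ker := by
  have hG := goodW (W := W) hA hℓ2 hp hℓp hgood
  obtain ⟨T', hrel, hpT'⟩ := gen_exists_red hG hp hp3 (hVK_eq W A) (hVk_eq (ℓ := ℓ) W A) hT hpT
  have h1 := relG_smul hσ hrel
  rw [hfix] at h1
  have h2 : Fr T' = T' := h1.unique hrel
  have hmem : T' ∈ (Fr - AddMonoidHom.id _).ker := by
    rw [AddMonoidHom.mem_ker, AddMonoidHom.sub_apply, AddMonoidHom.id_apply, h2, sub_self]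
  have hord : addOrderOf (⟨T', hmem⟩ : (Fr - AddMonoidHom.id _).ker) = p := by
    have : Fact p.Prime := ⟨hp⟩
    apply addOrderOf_eq_prime
    · exact Subtype.ext hpT'
    · intro h0
      exact hrel.2.1 (congrArg Subtype.val h0)
  rw [← hord]
  exact addOrderOf_dvd_natCard _

theorem dvd_of_neg [Finite (Fr + AddMonoidHom.id _).ker]
    {T : ((WQ W).toAffine⁄Qb).Point} (hT : T ≠ 0) (hpT : p • T = 0) (hfix : σ • T = -T) :
    p ∣ Nat.card (Fr + AddMonoidHom.id _).ker := by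
  have hG := goodW (W := W) hA hℓ2 hp hℓp hgood
  obtain ⟨T', hrel, hpT'⟩ := gen_exists_red hG hp hp3 (hVK_eq W A) (hVk_eq (ℓ := ℓ) W A) hT hpT
  have h1 := relG_smul hσ hrel
  rw [hfix] at h1
  have h2 : Fr T' = -T' := h1.unique (hrel.neg (hVK_eq W A) (hVk_eq (ℓ := ℓ) W A))
  have hmem : T' ∈ (Fr + AddMonoidHom.id _).ker := by
    rw [AddMonoidHom.mem_ker, AddMonoidHom.add_apply, AddMonoidHom.id_apply, h2, neg_add_cancel]
  have hord : addOrderOf (⟨T', hmem⟩ : (Fr + AddMonoidHom.id _).ker) = p := by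
    have : Fact p.Prime := ⟨hp⟩
    apply addOrderOf_eq_prime
    · exact Subtype.ext hpT'
    · intro h0
      exact hrel.2.1 (congrArg Subtype.val h0)
  rw [← hord]
  exact addOrderOf_dvd_natCard _

end main

/-! ### transfer to `E` -/

theorem exists_transfer (E : WeierstrassCurve ℚ) {W : WeierstrassCurve ℤ}
    (hW : W.IsIntegralModelOf E) :
    ∃ φ : ((WQ W).toAffine⁄Qb).Point →+ (E.toAffine⁄Qb).Point, Function.Bijective φ ∧
      ∀ (σ : GQ) (P : ((WQ W).toAffine⁄Qb).Point), σ • φ P = φ (σ • P) := by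
  obtain ⟨C, hC⟩ := hW
  have h1 := isVC_smul E C
  rw [hC] at h1
  have h2 : IsVC (E.toAffine⁄Qb) ((WQ W).toAffine⁄Qb) (algebraMap ℚ Qb (C.u : ℚ))
      (algebraMap ℚ Qb C.r) (algebraMap ℚ Qb C.s) (algebraMap ℚ Qb C.t) :=
    h1.map (algebraMap ℚ Qb)
  have hu : algebraMap ℚ Qb (C.u : ℚ) ≠ 0 := by
    rw [Ne, map_eq_zero]
    exact C.u.ne_zero
  refine ⟨IsVC.hom (W := (E.toAffine⁄Qb)) (W' := ((WQ W).toAffine⁄Qb)) h2 hu,
    IsVC.hom_bijective _ hu, ?_⟩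
  intro σ P
  by_cases hP : P = 0
  · subst hP
    have z1 : σ • (0 : ((WQ W).toAffine⁄Qb).Point) = 0 := rfl
    have z2 : σ • (0 : (E.toAffine⁄Qb).Point) = 0 := rfl
    rw [z1, _root_.map_zero, z2]
  have hσP : σ • P ≠ 0 := fun h0 => hP ((smul_eq_zero_iff_eq σ).mp h0)
  have hφP := hom_ne_zero (W := (E.toAffine⁄Qb)) (W' := ((WQ W).toAffine⁄Qb)) h2 hu hP
  have hσφP : σ • (IsVC.hom (W := (E.toAffine⁄Qb)) (W' := ((WQ W).toAffine⁄Qb)) h2 hu P) ≠ 0 :=
    fun h0 => hφP ((smul_eq_zero_iff_eq σ).mp h0)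
  apply point_ext hσφP (hom_ne_zero _ hu hσP)
  · rw [xc_smul, xc_hom _ hu hP, xc_hom _ hu hσP, xc_smul]
    simp only [map_add, map_mul, map_pow, AlgEquiv.commutes]
  · rw [yc_smul, yc_hom _ hu hP, yc_hom _ hu hσP, xc_smul, yc_smul]
    simp only [map_add, map_mul, map_pow, AlgEquiv.commutes]

end Fermat.Agent.S41E
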