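import Fermat.Agent.S41.ERedB
import Fermat.Agent.S41.EVC
set_option autoImplicit false
set_option linter.unusedSectionVars false

/-!
# S41, E-side: the reduction bijection on `p`-torsion points for a general Weierstrass model
-/

namespace Fermat.Agent.S41E

open WeierstrassCurve WeierstrassCurve.Affine WeierstrassCurve.Affine.Point
open Fermat.Agent.S05Lib Fermat.Agent.S13Lib Fermat.Agent.S41Lib

section hom

variable {F : Type*} [Field F] [DecidableEq F] {W W' : Affine F} {u r s t : F}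

theorem hom_ne_zero (h : IsVC W W' u r s t) (hu : u ≠ 0) {P : W'.Point} (hP : P ≠ 0) :
    IsVC.hom h hu P ≠ 0 := by
  intro h0
  apply hP
  apply (IsVC.hom_bijective h hu).1
  rw [h0, _root_.map_zero]

theorem xc_hom (h : IsVC W W' u r s t) (hu : u ≠ 0) {P : W'.Point} (hP : P ≠ 0) :
    xc (IsVC.hom h hu P) = u ^ 2 * xc P + r := by
  obtain ⟨h1, e1⟩ := exists_eq_some hP
  conv_lhs => rw [e1, IsVC.hom_some, xc_some]

theorem yc_hom (h : IsVC W W' u r s t) (hu : u ≠ 0) {P : W'.Point} (hP : P ≠ 0) :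
    yc (IsVC.hom h hu P) = u ^ 3 * yc P + u ^ 2 * s * xc P + t := by
  obtain ⟨h1, e1⟩ := exists_eq_some hP
  conv_lhs => rw [e1, IsVC.hom_some, yc_some]

theorem hom_eq_zero_iff (h : IsVC W W' u r s t) (hu : u ≠ 0) {P : W'.Point} :
    IsVC.hom h hu P = 0 ↔ P = 0 :=
  ⟨fun h0 => by_contra fun hP => hom_ne_zero h hu hP h0, fun h0 => by rw [h0, _root_.map_zero]⟩

theorem nsmul_hom_eq_zero_iff (h : IsVC W W' u r s t) (hu : u ≠ 0) {P : W'.Point} (n : ℕ) :
    n • IsVC.hom h hu P = 0 ↔ n • P = 0 := by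
  rw [← map_nsmul, hom_eq_zero_iff]

end hom

theorem map_short {R S : Type*} [CommRing R] [CommRing S] (f : R →+* S) (a b : R) :
    (⟨0, a, 0, b, 0⟩ : WeierstrassCurve R).map f = ⟨0, f a, 0, f b, 0⟩ := by
  ext <;> simp [WeierstrassCurve.map]

variable {K : Type*} [Field K] [DecidableEq K] {A : ValuationSubring K}
  [DecidableEq (IsLocalRing.ResidueField A)]

/-- `T'` is the coordinatewise reduction of `T`. -/
def RelG {WK : Affine K} {Wk : Affine (IsLocalRing.ResidueField A)} (T : WK.Point)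
    (T' : Wk.Point) : Prop :=
  T ≠ 0 ∧ T' ≠ 0 ∧ ∃ x y : A, (x : K) = xc T ∧ (y : K) = yc T ∧
    IsLocalRing.residue A x = xc T' ∧ IsLocalRing.residue A y = yc T'

/-- good reduction data for a general model over `A`. -/
structure GoodW (WA : WeierstrassCurve A) (p : ℕ) : Prop where
  h2 : IsLocalRing.residue A 2 ≠ 0
  hΔ : IsLocalRing.residue A WA.Δ ≠ 0
  hp : IsLocalRing.residue A (p : A) ≠ 0

variable {WA : WeierstrassCurve A} {p : ℕ}

theorem exists_short [IsAlgClosed K] (G : GoodW WA p) :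
    ∃ a b e s t : A, IsVC WA ⟨0, a, 0, b, 0⟩ 1 e s t ∧ Good A a b p := by
  obtain ⟨h, hh⟩ : ∃ h : A, 2 * h = 1 :=
    ((IsLocalRing.residue_ne_zero_iff_isUnit _).mp G.h2).exists_right_inv
  have h20 : (2 : A) ≠ 0 := by
    intro h0
    apply G.h2
    rw [h0, _root_.map_zero]
  have h40 : (4 : A) ≠ 0 := by
    have : (4 : A) = 2 * 2 := by norm_num
    rw [this]
    exact mul_ne_zero h20 h20
  have hinj : Function.Injective A.subtype := Subtype.val_injective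
  -- a root of the 2-division cubic
  obtain ⟨e, he⟩ : ∃ e : A, WA.Ψ₂Sq.eval e = 0 := by
    have hdeg : (WA.Ψ₂Sq.map A.subtype).degree ≠ 0 := by
      rw [Polynomial.degree_map_eq_of_injective hinj,
        Polynomial.degree_eq_natDegree (WA.Ψ₂Sq_ne_zero h40), WA.natDegree_Ψ₂Sq h40]
      norm_num
    obtain ⟨e₀, he₀⟩ := IsAlgClosed.exists_root _ hdeg
    have hlead : IsUnit WA.Ψ₂Sq.leadingCoeff := by
      rw [WA.leadingCoeff_Ψ₂Sq h40]
      have : (4 : A) = 2 * 2 := by norm_num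
      rw [this]
      exact ((IsLocalRing.residue_ne_zero_iff_isUnit _).mp G.h2).mul
        ((IsLocalRing.residue_ne_zero_iff_isUnit _).mp G.h2)
    have hmem := root_mem _ hlead he₀
    refine ⟨⟨e₀, hmem⟩, ?_⟩
    apply hinj
    rw [_root_.map_zero, ← he₀]
    exact (Polynomial.eval_map_apply A.subtype (⟨e₀, hmem⟩ : A)).symm
  have hcub : 4 * e ^ 3 + WA.b₂ * e ^ 2 + 2 * WA.b₄ * e + WA.b₆ = 0 := by
    rw [← he]
    simp only [WeierstrassCurve.Ψ₂Sq, Polynomial.eval_add, Polynomial.eval_mul, Polynomial.eval_C,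
      Polynomial.eval_pow, Polynomial.eval_X]
  set C : VariableChange A := ⟨1, e, -h * WA.a₁, -h * (WA.a₁ * e + WA.a₃)⟩ with hCdef
  have hu : ((C.u⁻¹ : Aˣ) : A) = 1 := by simp [hCdef]
  have ha1 : (C • WA).a₁ = 0 := by
    rw [variableChange_a₁, hu]
    simp only [hCdef]
    linear_combination (-WA.a₁) * hh
  have ha3 : (C • WA).a₃ = 0 := by
    rw [variableChange_a₃, hu]
    simp only [hCdef]
    linear_combination (-(WA.a₁ * e + WA.a₃)) * hh
  have ha6 : (C • WA).a₆ = 0 := by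
    rw [variableChange_a₆, hu]
    simp only [hCdef]
    apply mul_left_cancel₀ h40
    simp only [WeierstrassCurve.b₂, WeierstrassCurve.b₄, WeierstrassCurve.b₆] at hcub
    linear_combination hcub - (WA.a₁ * e + WA.a₃) ^ 2 * (2 * h - 1) * hh
  have hC : C • WA = ⟨0, (C • WA).a₂, 0, (C • WA).a₄, 0⟩ :=
    WeierstrassCurve.ext ha1 rfl ha3 rfl ha6
  have hvc := isVC_smul WA C
  rw [hC] at hvc
  refine ⟨(C • WA).a₂, (C • WA).a₄, e, -h * WA.a₁, -h * (WA.a₁ * e + WA.a₃), hvc, ?_⟩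
  have hΔ : (C • WA).Δ = WA.Δ := by
    rw [variableChange_Δ, hu, one_pow, one_mul]
  rw [hC, Δ_E] at hΔ
  have hres := G.hΔ
  rw [← hΔ, map_mul, map_mul, map_pow] at hres
  refine ⟨G.h2, ?_, ?_, G.hp⟩
  · intro h0
    apply hres
    rw [h0]
    ring
  · intro h0
    apply hres
    rw [h0, mul_zero]

section transfer

variable {a b e s t : A} {VK : Affine K} {Wk : Affine (IsLocalRing.ResidueField A)}
  (hK : IsVC VK (WK A a b) 1 (e : K) (s : K) (t : K))
  (hk : IsVC Wk (Wκ A a b) 1 (IsLocalRing.residue A e) (IsLocalRing.residue A s)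
    (IsLocalRing.residue A t))

theorem relG_hom_iff (T₀ : (WK A a b).Point) (T₀' : (Wκ A a b).Point) :
    RelG (IsVC.hom hK one_ne_zero T₀) (IsVC.hom hk one_ne_zero T₀') ↔ Rel T₀ T₀' := by
  constructor
  · rintro ⟨n1, n2, x, y, hx, hy, rx, ry⟩
    have m1 : T₀ ≠ 0 := fun h => n1 (by rw [h, _root_.map_zero])
    have m2 : T₀' ≠ 0 := fun h => n2 (by rw [h, _root_.map_zero])
    rw [xc_hom hK one_ne_zero m1] at hx
    rw [yc_hom hK one_ne_zero m1] at hy
    rw [xc_hom hk one_ne_zero m2] at rx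
    rw [yc_hom hk one_ne_zero m2] at ry
    refine ⟨m1, m2, x - e, y - s * (x - e) - t, ?_, ?_, ?_, ?_⟩
    · push_cast; rw [hx]; ring
    · push_cast; rw [hx, hy]; ring
    · rw [map_sub, rx]; ring
    · rw [map_sub, map_sub, map_mul, map_sub, rx, ry]; ring
  · rintro ⟨m1, m2, x, y, hx, hy, rx, ry⟩
    refine ⟨hom_ne_zero hK one_ne_zero m1, hom_ne_zero hk one_ne_zero m2, x + e,
      y + s * x + t, ?_, ?_, ?_, ?_⟩
    · rw [xc_hom hK one_ne_zero m1]; push_cast; rw [hx]; ring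
    · rw [yc_hom hK one_ne_zero m1]; push_cast; rw [hx, hy]; ring
    · rw [xc_hom hk one_ne_zero m2, map_add, rx]; ring
    · rw [yc_hom hk one_ne_zero m2, map_add, map_add, map_mul, rx, ry]; ring

end transfer

section main

variable [IsAlgClosed K] (G : GoodW WA p) (hp : p.Prime) (hp3 : 3 ≤ p)
  {VK : Affine K} (hVK : VK = WA.map A.subtype)
  {Wk : Affine (IsLocalRing.ResidueField A)} (hWk : Wk = WA.map (IsLocalRing.residue A))
include G hp hp3 hVK hWk

theorem exists_data : ∃ a b e s t : A, Good A a b p ∧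
    IsVC VK (WK A a b) 1 (e : K) (s : K) (t : K) ∧
    IsVC Wk (Wκ A a b) 1 (IsLocalRing.residue A e) (IsLocalRing.residue A s)
      (IsLocalRing.residue A t) := by
  obtain ⟨a, b, e, s, t, hvc, hG⟩ := exists_short G
  refine ⟨a, b, e, s, t, hG, ?_, ?_⟩
  · have := hvc.map A.subtype
    rw [map_short, map_one, ← hVK] at this
    exact this
  · have := hvc.map (IsLocalRing.residue A)
    rw [map_short, map_one, ← hWk] at this
    exact this

/-- (GR1) -/
theorem gen_exists_red {T : VK.Point} (hT : T ≠ 0) (hpT : p • T = 0) :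
    ∃ T' : Wk.Point, RelG T T' ∧ p • T' = 0 := by
  obtain ⟨a, b, e, s, t, hG, hK, hk⟩ := exists_data G hp hp3 hVK hWk
  obtain ⟨T₀, rfl⟩ := (IsVC.hom_bijective hK one_ne_zero).2 T
  have hT₀ : T₀ ≠ 0 := fun h => hT (by rw [h, _root_.map_zero])
  rw [nsmul_hom_eq_zero_iff] at hpT
  obtain ⟨T₀', hrel, hp0⟩ := exists_red hG hp hp3 hT₀ hpT
  exact ⟨IsVC.hom hk one_ne_zero T₀', (relG_hom_iff hK hk _ _).mpr hrel,
    (nsmul_hom_eq_zero_iff hk one_ne_zero p).mpr hp0⟩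

/-- (GR2) -/
theorem gen_inj {T₁ T₂ : VK.Point} {T' : Wk.Point} (h₁ : RelG T₁ T') (h₂ : RelG T₂ T')
    (hp₁ : p • T₁ = 0) (hp₂ : p • T₂ = 0) : T₁ = T₂ := by
  obtain ⟨a, b, e, s, t, hG, hK, hk⟩ := exists_data G hp hp3 hVK hWk
  obtain ⟨S₁, rfl⟩ := (IsVC.hom_bijective hK one_ne_zero).2 T₁
  obtain ⟨S₂, rfl⟩ := (IsVC.hom_bijective hK one_ne_zero).2 T₂
  obtain ⟨S', rfl⟩ := (IsVC.hom_bijective hk one_ne_zero).2 T'
  rw [nsmul_hom_eq_zero_iff] at hp₁ hp₂
  rw [relG_hom_iff] at h₁ h₂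
  rw [Rel.inj hG hp hp3 h₁ h₂ hp₁ hp₂]

/-- (GR3) -/
theorem gen_exists_lift {T' : Wk.Point} (hT' : T' ≠ 0) (hpT' : p • T' = 0) :
    ∃ T : VK.Point, RelG T T' ∧ p • T = 0 := by
  obtain ⟨a, b, e, s, t, hG, hK, hk⟩ := exists_data G hp hp3 hVK hWk
  obtain ⟨T₀', rfl⟩ := (IsVC.hom_bijective hk one_ne_zero).2 T'
  have hT₀ : T₀' ≠ 0 := fun h => hT' (by rw [h, _root_.map_zero])
  rw [nsmul_hom_eq_zero_iff] at hpT'
  obtain ⟨T₀, hrel, hp0⟩ := exists_lift hG hp hp3 hT₀ hpT'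
  exact ⟨IsVC.hom hK one_ne_zero T₀, (relG_hom_iff hK hk _ _).mpr hrel,
    (nsmul_hom_eq_zero_iff hK one_ne_zero p).mpr hp0⟩

end main

/-- the reduction is determined by the point. -/
theorem RelG.unique {VK : Affine K} {Wk : Affine (IsLocalRing.ResidueField A)} {T : VK.Point}
    {T₁' T₂' : Wk.Point} (h₁ : RelG T T₁') (h₂ : RelG T T₂') : T₁' = T₂' := by
  obtain ⟨-, n₁, x₁, y₁, hx₁, hy₁, rx₁, ry₁⟩ := h₁
  obtain ⟨-, n₂, x₂, y₂, hx₂, hy₂, rx₂, ry₂⟩ := h₂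
  have ex : x₁ = x₂ := Subtype.ext (hx₁.trans hx₂.symm)
  have ey : y₁ = y₂ := Subtype.ext (hy₁.trans hy₂.symm)
  obtain ⟨k₁, e₁⟩ := exists_eq_some n₁
  obtain ⟨k₂, e₂⟩ := exists_eq_some n₂
  rw [e₁, e₂]
  have a1 : xc T₁' = xc T₂' := by rw [← rx₁, ← rx₂, ex]
  have a2 : yc T₁' = yc T₂' := by rw [← ry₁, ← ry₂, ey]
  simp only [a1, a2]

end Fermat.Agent.S41E
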