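import Fermat.Agent.S13.Link

/-! S41 E-side, leaf ELink : complements to `S13/Link` (`IsE` curves, `2 ≠ 0`). -/

set_option autoImplicit false
set_option linter.unusedSectionVars false

namespace Fermat.Agent.S41Lib

open WeierstrassCurve WeierstrassCurve.Affine WeierstrassCurve.Affine.Point
open Fermat.Agent.S05Lib Fermat.Agent.S13Lib Polynomial

section ELink
variable {F : Type*} [Field F] [DecidableEq F] {W : WeierstrassCurve.Affine F}

/-- the value at `T` of the `n`-th division "polynomial". -/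
noncomputable def psiAt (T : W.Point) (n : ℕ) : F :=
  normEDS (2 * yc T) ((WeierstrassCurve.Ψ₃ W).eval (xc T)) ((WeierstrassCurve.preΨ₄ W).eval (xc T)) n

theorem two_yc_sq (hW : IsE W) (T : W.Point) :
    (2 * yc T) ^ 2 = (WeierstrassCurve.Ψ₂Sq W).eval (xc T) := by
  rw [eval_Ψ₂Sq hW]
  linear_combination 4 * curve_eq hW T

/-- the value of `preΨ'`. -/
theorem eval_preΨ' (hW : IsE W) (T : W.Point) (n : ℕ) :
    (WeierstrassCurve.preΨ' W n).eval (xc T) =
      preNormEDS' ((2 * yc T) ^ 4) ((WeierstrassCurve.Ψ₃ W).eval (xc T))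
        ((WeierstrassCurve.preΨ₄ W).eval (xc T)) n := by
  rw [WeierstrassCurve.preΨ', ← coe_evalRingHom, map_preNormEDS', coe_evalRingHom, eval_pow,
    ← two_yc_sq hW]
  congr 1
  ring

theorem psiAt_eq (hW : IsE W) (T : W.Point) (n : ℕ) :
    psiAt T n = (WeierstrassCurve.preΨ' W n).eval (xc T) * if Even n then 2 * yc T else 1 := by
  rw [psiAt, normEDS_ofNat, eval_preΨ' hW]

theorem psiAt_sq (hW : IsE W) (T : W.Point) (n : ℕ) :
    psiAt T n ^ 2 = (WeierstrassCurve.ΨSq W n).eval (xc T) := by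
  rw [psiAt_eq hW, WeierstrassCurve.ΨSq_ofNat, eval_mul, eval_pow, mul_pow]
  congr 1
  split_ifs
  · exact two_yc_sq hW T
  · simp

theorem psiAt_odd (hW : IsE W) (T : W.Point) {n : ℕ} (hn : Odd n) :
    psiAt T n = (WeierstrassCurve.preΨ' W n).eval (xc T) := by
  rw [psiAt_eq hW, if_neg (Nat.not_even_iff_odd.mpr hn), mul_one]

/-- `psiAt (n+2) * psiAt n` in terms of the polynomials. -/
theorem psiAt_mul_psiAt (hW : IsE W) (T : W.Point) (n : ℕ) :
    psiAt T (n + 2) * psiAt T n =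
      ((WeierstrassCurve.preΨ' W (n + 2)) * (WeierstrassCurve.preΨ' W n) *
        (if Even n then WeierstrassCurve.Ψ₂Sq W else 1)).eval (xc T) := by
  rw [psiAt_eq hW, psiAt_eq hW, eval_mul, eval_mul]
  have h : Even (n + 2) ↔ Even n := by
    rw [Nat.even_add]; simp
  simp only [h]
  split_ifs
  · rw [← two_yc_sq hW]; ring
  · simp

/-- `Φ` in terms of `psiAt`. -/
theorem eval_Φ (hW : IsE W) (T : W.Point) (n : ℕ) :
    (WeierstrassCurve.Φ W ((n + 1 : ℕ) : ℤ)).eval (xc T) =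
      xc T * psiAt T (n + 1) ^ 2 - psiAt T (n + 2) * psiAt T n := by
  rw [psiAt_mul_psiAt hW, psiAt_sq hW]
  push_cast
  rw [WeierstrassCurve.Φ_ofNat, eval_sub]
  congr 1
  have := WeierstrassCurve.ΨSq_ofNat W (n + 1)
  push_cast at this
  rw [this, eval_mul, eval_mul, eval_mul, eval_X, mul_assoc]
  congr 2
  simp only [Nat.even_add_one, ite_not]

theorem hseq_eq_psiAt (hW : IsE W) (h2 : (2 : F) ≠ 0) {T : W.Point} {n : ℕ} (hn : 2 ≤ n)
    (hne : ∀ k, 0 < k → k < n → k • T ≠ 0) : ∀ k, k ≤ n → hseq T k = psiAt T k := by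
  intro k hk
  by_cases h4 : 4 ≤ n
  · exact hseq_eq_normEDS hW h2 h4 hne k hk
  · match k, hk with
    | 0, _ => simp [psiAt]
    | 1, _ => simp [psiAt]
    | 2, _ =>
      rw [hseq_two, psiAt, show ((2 : ℕ) : ℤ) = 2 from rfl, normEDS_two]
    | 3, hk =>
      have hy : yc T ≠ 0 := by
        have := yc_nsmul_ne_zero hW hne one_pos (by omega : 2 * 1 < n)
        rwa [one_nsmul] at this
      rw [hseq_three hW h2 hy, psiAt, show ((3 : ℕ) : ℤ) = 3 from rfl, normEDS_three]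
    | (k + 4), hk => omega

/-- (LK1) all `n ≥ 2`. -/
theorem nsmul_eq_zero_iff_psiAt (hW : IsE W) (h2 : (2 : F) ≠ 0) {T : W.Point} (hT : T ≠ 0) {n : ℕ}
    (hn : 2 ≤ n) (hne : ∀ k, 0 < k → k < n → k • T ≠ 0) : n • T = 0 ↔ psiAt T n = 0 := by
  rw [← hseq_eq_psiAt hW h2 hn hne n le_rfl]
  match n, hn, hne with
  | 2, _, _ =>
    rw [hseq_two, two_nsmul]
    constructor
    · intro h
      by_contra hy
      have hy' : yc T ≠ 0 := fun h0 => hy (by rw [h0, mul_zero])
      exact add_self_ne_zero hW h2 hy' h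
    · intro h
      exact add_self_eq_zero_of_yc_eq_zero hW ((mul_eq_zero.mp h).resolve_left h2)
  | (k + 3), _, hne =>
    have h1 := hseq_ne_zero hW h2 hne (k + 2) (by omega) (by omega)
    have h3 := hseq_ne_zero hW h2 hne (k + 1) (by omega) (by omega)
    rw [hseq_succ]
    constructor
    · intro h
      have e : (k + 2) • T = -T := by
        rw [eq_neg_iff_add_eq_zero, ← succ_nsmul, h]
      rw [e, xc_neg, sub_self]
      simp
    · intro h0
      have h4 : xc ((k + 2) • T) = xc T := by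
        rcases div_eq_zero_iff.mp h0 with h | h
        · rcases mul_eq_zero.mp h with h | h
          · exact sub_eq_zero.mp (neg_eq_zero.mp h)
          · exact absurd (pow_eq_zero_iff two_ne_zero |>.mp h) h1
        · exact absurd h h3
      rcases eq_or_eq_neg_of_xc_eq (hne (k + 2) (by omega) (by omega)) hT h4 with h | h
      · exfalso
        apply hne (k + 1) (by omega) (by omega)
        have : (k + 1) • T + T = T := by rw [← succ_nsmul]; exact h
        simpa using this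
      · rw [succ_nsmul, h, neg_add_cancel]

/-- `psiAt T k ≠ 0` below the order. -/
theorem psiAt_ne_zero (hW : IsE W) (h2 : (2 : F) ≠ 0) {T : W.Point} {n : ℕ} (hn : 2 ≤ n)
    (hne : ∀ k, 0 < k → k < n → k • T ≠ 0) {k : ℕ} (h0 : 0 < k) (hk : k < n) : psiAt T k ≠ 0 := by
  rw [← hseq_eq_psiAt hW h2 hn hne k hk.le]
  exact hseq_ne_zero hW h2 hne k h0 hk

/-- (LK2) the multiplication formula for points without small torsion. -/
theorem xc_nsmul_mul_ΨSq (hW : IsE W) (h2 : (2 : F) ≠ 0) {T : W.Point} {k : ℕ} (hk : 1 ≤ k)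
    (hne : ∀ j, 0 < j → j ≤ k + 1 → j • T ≠ 0) :
    (WeierstrassCurve.ΨSq W k).eval (xc T) ≠ 0 ∧
      xc (k • T) * (WeierstrassCurve.ΨSq W k).eval (xc T) = (WeierstrassCurve.Φ W k).eval (xc T) := by
  have hne' : ∀ j, 0 < j → j < k + 2 → j • T ≠ 0 := fun j h0 hj => hne j h0 (by omega)
  have hk0 := psiAt_ne_zero hW h2 (by omega) hne' (k := k) (by omega) (by omega)
  obtain ⟨m, rfl⟩ : ∃ m, k = m + 1 := ⟨k - 1, by omega⟩
  refine ⟨by rw [← psiAt_sq hW]; exact pow_ne_zero 2 hk0, ?_⟩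
  rw [eval_Φ hW, ← psiAt_sq hW]
  have g := hseq_G1 hW h2 hne' m (by omega)
  rw [hseq_eq_psiAt hW h2 (by omega) hne' (m + 1) (by omega),
    hseq_eq_psiAt hW h2 (by omega) hne' (m + 2) (by omega),
    hseq_eq_psiAt hW h2 (by omega) hne' m (by omega)] at g
  linear_combination g

/-- (LK3) small torsion is detected by the `ΨSq j`. -/
theorem exists_eval_ΨSq_eq_zero (hW : IsE W) (h2 : (2 : F) ≠ 0) {T : W.Point} (hT : T ≠ 0) {n : ℕ}
    (hn : 0 < n) (h : n • T = 0) :
    ∃ j, 2 ≤ j ∧ j ≤ n ∧ (WeierstrassCurve.ΨSq W j).eval (xc T) = 0 := by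
  classical
  have hex : ∃ j, 0 < j ∧ j • T = 0 := ⟨n, hn, h⟩
  set j := Nat.find hex with hj
  obtain ⟨hj0, hjT⟩ := Nat.find_spec hex
  have hmin : ∀ k, 0 < k → k < j → k • T ≠ 0 := fun k h0 hk hkT =>
    Nat.find_min hex hk ⟨h0, hkT⟩
  have hj2 : 2 ≤ j := by
    by_contra hlt
    have : j = 1 := by omega
    rw [← hj, this, one_nsmul] at hjT
    exact hT hjT
  refine ⟨j, hj2, Nat.find_min' hex ⟨hn, h⟩, ?_⟩
  rw [← psiAt_sq hW, (nsmul_eq_zero_iff_psiAt hW h2 hT hj2 hmin).mp hjT]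
  simp

end ELink

end Fermat.Agent.S41Lib
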