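import Fermat.Agent.S13.Link
set_option autoImplicit false
set_option linter.unusedSectionVars false

/-!
# S41, E-side: the order of a point is the rank of apparition of its elliptic divisibility sequence
-/

namespace Fermat.Agent.S41E

open WeierstrassCurve WeierstrassCurve.Affine WeierstrassCurve.Affine.Point
open Fermat.Agent.S05Lib Fermat.Agent.S13Lib

/-- the EDS of the point `(x, y)` on `y² = x³ + a x² + b x`. -/
noncomputable def ed {R : Type*} [CommRing R] (a b x y : R) (k : ℕ) : R :=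
  normEDS (2 * y) (3 * x ^ 4 + 4 * a * x ^ 3 + 6 * b * x ^ 2 - b ^ 2)
    (2 * x ^ 6 + 4 * a * x ^ 5 + 10 * b * x ^ 4 - 10 * b ^ 2 * x ^ 2 - 4 * a * b ^ 2 * x
      - 2 * b ^ 3) (k : ℤ)

theorem map_ed {R S : Type*} [CommRing R] [CommRing S] (f : R →+* S) (a b x y : R) (k : ℕ) :
    f (ed a b x y k) = ed (f a) (f b) (f x) (f y) k := by
  unfold ed
  rw [map_normEDS]
  simp only [map_mul, map_add, map_sub, map_pow, map_ofNat]

theorem ed_one {R : Type*} [CommRing R] (a b x y : R) : ed a b x y 1 = 1 := by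
  unfold ed
  simp

theorem ed_two {R : Type*} [CommRing R] (a b x y : R) : ed a b x y 2 = 2 * y := by
  unfold ed
  rw [show ((2 : ℕ) : ℤ) = 2 from rfl, normEDS_two]

variable {F : Type*} [Field F] [DecidableEq F] {W : WeierstrassCurve.Affine F}

theorem hseq_eq_zero_iff (hW : IsE W) (h2 : (2 : F) ≠ 0) {T : W.Point} (k : ℕ)
    (hne : ∀ j, 0 < j → j < k + 3 → j • T ≠ 0) : hseq T (k + 3) = 0 ↔ (k + 3) • T = 0 := by
  have h1 := hseq_ne_zero hW h2 hne (k + 2) (by omega) (by omega)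
  have h3 := hseq_ne_zero hW h2 hne (k + 1) (by omega) (by omega)
  have hT := T_ne_zero (by omega) hne
  constructor
  · intro h0
    rw [hseq_succ] at h0
    have h4 : xc ((k + 2) • T) = xc T := by
      rcases div_eq_zero_iff.mp h0 with h | h
      · rcases mul_eq_zero.mp h with h | h
        · exact sub_eq_zero.mp (neg_eq_zero.mp h)
        · exact absurd (pow_eq_zero_iff two_ne_zero |>.mp h) h1
      · exact absurd h h3
    rcases eq_or_eq_neg_of_xc_eq (hne (k + 2) (by omega) (by omega)) hT h4 with h | h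
    · exfalso
      apply hne (k + 1) (by omega) (by omega)
      have : (k + 1) • T + T = T := by rw [← succ_nsmul]; exact h
      simpa using this
    · rw [succ_nsmul, h, neg_add_cancel]
  · intro hpT
    have e : (k + 2) • T = -T := by
      rw [eq_neg_iff_add_eq_zero, ← succ_nsmul, hpT]
    rw [hseq_succ, e, xc_neg, sub_self]
    simp

theorem hseq_eq_ed (hW : IsE W) (h2 : (2 : F) ≠ 0) {T : W.Point} {n : ℕ} (hn : 2 ≤ n)
    (hne : ∀ k, 0 < k → k < n → k • T ≠ 0) :
    ∀ k, k ≤ n → hseq T k = ed W.a₂ W.a₄ (xc T) (yc T) k := by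
  intro k hk
  unfold ed
  rw [← eval_Ψ₃ hW, ← eval_preΨ₄ hW]
  by_cases h4 : 4 ≤ n
  · exact hseq_eq_normEDS hW h2 h4 hne k hk
  · have hk3 : k ≤ 3 := by omega
    interval_cases k
    · simp
    · simp
    · rw [hseq_two, show ((2 : ℕ) : ℤ) = 2 from rfl, normEDS_two]
    · have hy : yc T ≠ 0 := by
        have := yc_nsmul_ne_zero hW hne one_pos (by omega : 2 * 1 < n)
        rwa [one_nsmul] at this
      rw [hseq_three hW h2 hy, show ((3 : ℕ) : ℤ) = 3 from rfl, normEDS_three]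

/-- if `k • T ≠ 0` for `0 < k < n` then `n • T = 0` iff the `n`-th term of the EDS vanishes. -/
theorem nsmul_eq_zero_iff_ed (hW : IsE W) (h2 : (2 : F) ≠ 0) {T : W.Point} {n : ℕ} (hn : 2 ≤ n)
    (hne : ∀ k, 0 < k → k < n → k • T ≠ 0) :
    n • T = 0 ↔ ed W.a₂ W.a₄ (xc T) (yc T) n = 0 := by
  rw [← hseq_eq_ed hW h2 hn hne n le_rfl]
  obtain rfl | h3 : n = 2 ∨ 3 ≤ n := by omega
  · rw [hseq_two, two_nsmul]
    constructor
    · intro h
      by_contra hy
      have hy' : yc T ≠ 0 := fun h0 => hy (by rw [h0, mul_zero])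
      exact add_self_ne_zero hW h2 hy' h
    · intro h
      exact add_self_eq_zero_of_yc_eq_zero hW ((mul_eq_zero.mp h).resolve_left h2)
  · obtain ⟨k, rfl⟩ : ∃ k, n = k + 3 := ⟨n - 3, by omega⟩
    exact (hseq_eq_zero_iff hW h2 k hne).symm

theorem forall_nsmul_ne_zero_iff (hW : IsE W) (h2 : (2 : F) ≠ 0) {T : W.Point} (hT : T ≠ 0)
    (n : ℕ) : (∀ k, 0 < k → k < n → k • T ≠ 0) ↔
      (∀ k, 0 < k → k < n → ed W.a₂ W.a₄ (xc T) (yc T) k ≠ 0) := by
  induction n with
  | zero => simp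
  | succ n ih =>
    constructor
    · intro h k h0 hk
      have hlt : ∀ j, 0 < j → j < k → j • T ≠ 0 := fun j hj hjk => h j hj (by omega)
      obtain rfl | h2k : k = 1 ∨ 2 ≤ k := by omega
      · rw [ed_one]; exact one_ne_zero
      · rw [Ne, ← nsmul_eq_zero_iff_ed hW h2 h2k hlt]
        exact h k h0 hk
    · intro h k h0 hk
      have hlt : ∀ j, 0 < j → j < k → j • T ≠ 0 := by
        have := ih.mpr (fun j hj hjn => h j hj (by omega))
        exact fun j hj hjk => this j hj (by omega)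
      obtain rfl | h2k : k = 1 ∨ 2 ≤ k := by omega
      · rwa [one_nsmul]
      · rw [Ne, nsmul_eq_zero_iff_ed hW h2 h2k hlt]
        exact h k h0 hk

/-- exact order `p` in terms of the EDS. -/
theorem order_iff_ed (hW : IsE W) (h2 : (2 : F) ≠ 0) {p : ℕ} (hp : p.Prime) {T : W.Point}
    (hT : T ≠ 0) : p • T = 0 ↔
      (∀ k, 0 < k → k < p → ed W.a₂ W.a₄ (xc T) (yc T) k ≠ 0) ∧
        ed W.a₂ W.a₄ (xc T) (yc T) p = 0 := by
  constructor
  · intro hpT
    have hne : ∀ k, 0 < k → k < p → k • T ≠ 0 := fun k h0 hk =>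
      nsmul_ne_zero_of_not_dvd hp hpT hT (not_dvd_of_lt h0 hk)
    exact ⟨(forall_nsmul_ne_zero_iff hW h2 hT p).mp hne,
      (nsmul_eq_zero_iff_ed hW h2 hp.two_le hne).mp hpT⟩
  · rintro ⟨h1, h0⟩
    have hne := (forall_nsmul_ne_zero_iff hW h2 hT p).mpr h1
    exact (nsmul_eq_zero_iff_ed hW h2 hp.two_le hne).mpr h0

/-- for odd `k` the EDS value is the value of the division polynomial. -/
theorem ed_eq_eval_preΨ' {R : Type*} [CommRing R] (a b x y : R)
    (hc : y ^ 2 = x ^ 3 + a * x ^ 2 + b * x) {k : ℕ} (hodd : Odd k) :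
    ed a b x y k = ((⟨0, a, 0, b, 0⟩ : WeierstrassCurve R).preΨ' k).eval x := by
  unfold ed
  rw [normEDS_ofNat, if_neg (Nat.not_even_iff_odd.mpr hodd),
    mul_one, WeierstrassCurve.preΨ', ← Polynomial.coe_evalRingHom, map_preNormEDS',
    Polynomial.coe_evalRingHom, Polynomial.eval_pow]
  have e1 : (WeierstrassCurve.Ψ₂Sq (⟨0, a, 0, b, 0⟩ : WeierstrassCurve R)).eval x =
      4 * x ^ 3 + 4 * a * x ^ 2 + 4 * b * x := by
    simp only [WeierstrassCurve.Ψ₂Sq, WeierstrassCurve.b₂, WeierstrassCurve.b₄,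
      WeierstrassCurve.b₆, Polynomial.eval_add, Polynomial.eval_mul, Polynomial.eval_C,
      Polynomial.eval_pow, Polynomial.eval_X]
    ring
  have e2 : (WeierstrassCurve.Ψ₃ (⟨0, a, 0, b, 0⟩ : WeierstrassCurve R)).eval x =
      3 * x ^ 4 + 4 * a * x ^ 3 + 6 * b * x ^ 2 - b ^ 2 := by
    simp only [WeierstrassCurve.Ψ₃, WeierstrassCurve.b₂, WeierstrassCurve.b₄, WeierstrassCurve.b₆,
      WeierstrassCurve.b₈, Polynomial.eval_add, Polynomial.eval_mul, Polynomial.eval_C,
      Polynomial.eval_pow, Polynomial.eval_X, Polynomial.eval_ofNat]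
    ring
  have e3 : (WeierstrassCurve.preΨ₄ (⟨0, a, 0, b, 0⟩ : WeierstrassCurve R)).eval x =
      2 * x ^ 6 + 4 * a * x ^ 5 + 10 * b * x ^ 4 - 10 * b ^ 2 * x ^ 2 - 4 * a * b ^ 2 * x
        - 2 * b ^ 3 := by
    simp only [WeierstrassCurve.preΨ₄, WeierstrassCurve.b₂, WeierstrassCurve.b₄,
      WeierstrassCurve.b₆, WeierstrassCurve.b₈, Polynomial.eval_add, Polynomial.eval_mul,
      Polynomial.eval_C, Polynomial.eval_pow, Polynomial.eval_X, Polynomial.eval_ofNat]
    ring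
  rw [e1, e2, e3]
  congr 1
  linear_combination (16 * y ^ 2 + 16 * (x ^ 3 + a * x ^ 2 + b * x)) * hc

end Fermat.Agent.S41E
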