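import Fermat.Agent.S41.ECheb2

/-! S41 E-side, leaves [ZETA] and [RESALG]. -/

set_option autoImplicit false

namespace Fermat.Agent.S41E

open Fermat.Agent.S41Lib Fermat.Agent.Lib.Frobenius Polynomial

local notation "Qb" => AlgebraicClosure ℚ
local notation "GQ" => (AlgebraicClosure ℚ ≃ₐ[ℚ] AlgebraicClosure ℚ)

/-- roots of unity of order prime to `ℓ` which are congruent at a place above `ℓ` are equal. -/
theorem eq_of_pow_eq_one_of_sub_mem {ℓ M : ℕ} (hℓ : ℓ.Prime) (hM : ¬ ℓ ∣ M)
    (A : ValuationSubring Qb) (hA : A.LiesOverPrime ℓ) {α β : Qb} (hα : α ^ M = 1)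
    (hβ : β ^ M = 1) (h : α - β ∈ A.nonunits) : α = β := by
  have hM0 : M ≠ 0 := by rintro rfl; exact hM (dvd_zero _)
  have hv : ∀ γ : Qb, γ ^ M = 1 → A.valuation γ = 1 := by
    intro γ hγ
    have := congrArg A.valuation hγ
    rw [map_pow, map_one] at this
    exact (pow_eq_one_iff_of_nonneg zero_le hM0).mp this
  have hβ0 : β ≠ 0 := by
    rintro rfl
    rw [zero_pow hM0] at hβ
    exact zero_ne_one hβ
  set η := α / β with hη
  have hηM : η ^ M = 1 := by rw [hη, div_pow, hα, hβ, div_one]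
  have hη1 : A.valuation (η - 1) < 1 := by
    have : η - 1 = (α - β) / β := by rw [hη]; field_simp
    rw [this, map_div₀, hv β hβ, div_one]
    exact (ValuationSubring.mem_nonunits_iff A).mp h
  by_contra hne
  have hηne : η ≠ 1 := by
    intro h1
    apply hne
    rw [hη, div_eq_one_iff_eq hβ0] at h1
    exact h1
  have hsum : ∑ i ∈ Finset.range M, η ^ i = 0 := by
    have := mul_neg_geom_sum η M
    rw [hηM, sub_self] at this
    exact (mul_eq_zero.mp this).resolve_left (sub_ne_zero.mpr hηne.symm)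
  have hMsum : (M : Qb) = ∑ i ∈ Finset.range M, (1 - η ^ i) := by
    rw [Finset.sum_sub_distrib, hsum]
    simp
  have hlt : A.valuation (M : Qb) < 1 := by
    rw [hMsum]
    apply Valuation.map_sum_lt _ one_ne_zero
    intro i _
    have e : 1 - η ^ i = (1 - η) * ∑ j ∈ Finset.range i, η ^ j := (mul_neg_geom_sum η i).symm
    rw [e, map_mul]
    have h1 : A.valuation (1 - η) < 1 := by rwa [← Valuation.map_neg, neg_sub]
    have h2 : A.valuation (∑ j ∈ Finset.range i, η ^ j) ≤ 1 := by
      apply Valuation.map_sum_le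
      intro j _
      rw [map_pow, hv η hηM, one_pow]
    calc A.valuation (1 - η) * A.valuation (∑ j ∈ Finset.range i, η ^ j)
        ≤ A.valuation (1 - η) * 1 := by gcongr
      _ < 1 := by rwa [mul_one]
  have h1 := valuation_intCast_eq_one hℓ A hA (c := (M : ℤ)) (by exact_mod_cast hM)
  rw [Int.cast_natCast] at h1
  exact absurd h1 hlt.ne

/-- ZETA -/
theorem frobenius_apply_of_pow_eq_one {ℓ M : ℕ} (hℓ : ℓ.Prime) (hM : ¬ ℓ ∣ M)
    (A : ValuationSubring Qb) (hA : A.LiesOverPrime ℓ) (σ : GQ) (hσ : A.IsFrobeniusAt σ ℓ)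
    (ζ : Qb) (hζ : ζ ^ M = 1) : σ ζ = ζ ^ ℓ := by
  have hM0 : M ≠ 0 := by rintro rfl; exact hM (dvd_zero _)
  have hmem : ζ ∈ A := by
    rw [← A.valuation_le_one_iff]
    have := congrArg A.valuation hζ
    rw [map_pow, map_one] at this
    exact ((pow_eq_one_iff_of_nonneg zero_le hM0).mp this).le
  apply eq_of_pow_eq_one_of_sub_mem hℓ hM A hA _ _ (frob_sub_pow_mem hσ hmem)
  · rw [← map_pow, hζ, map_one]
  · rw [← pow_mul, mul_comm, pow_mul, hζ, one_pow]

/-- RESALG -/
theorem isAlgClosed_residueField (A : ValuationSubring Qb) :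
    IsAlgClosed (IsLocalRing.ResidueField A) := by
  apply IsAlgClosed.of_exists_root
  intro p hp hirr
  obtain ⟨q, hq, hdeg, hmonic⟩ := Polynomial.lifts_and_natDegree_eq_and_monic
    ((Polynomial.mem_lifts p).mpr (Polynomial.map_surjective _ IsLocalRing.residue_surjective p)) hp
  have hpos : 0 < p.natDegree := hirr.natDegree_pos
  have hdeg' : (q.map A.subtype).degree ≠ 0 := by
    rw [Polynomial.degree_eq_natDegree (hmonic.map A.subtype).ne_zero, hmonic.natDegree_map, hdeg]
    exact_mod_cast hpos.ne'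
  obtain ⟨α, hα⟩ := IsAlgClosed.exists_root (q.map A.subtype) hdeg'
  have hint : IsIntegral A α := ⟨q, hmonic, by
    rw [← Polynomial.eval_map]; exact hα⟩
  obtain ⟨a, ha⟩ := (IsIntegrallyClosed.isIntegral_iff (R := A) (K := Qb)).mp hint
  refine ⟨IsLocalRing.residue A a, ?_⟩
  have hqa : q.eval a = 0 := by
    apply Subtype.val_injective
    have h1 : (q.map A.subtype).eval (A.subtype a) = A.subtype (q.eval a) :=
      Polynomial.eval_map_apply _ _
    have h2 : A.subtype a = α := ha
    rw [h2] at h1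
    exact h1.symm.trans hα
  rw [← hq, Polynomial.eval_map_apply, hqa, map_zero]

end Fermat.Agent.S41E
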