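import Fermat.Agent.S41.EFrob
import Fermat.Agent.S41.ECount
import Fermat.Agent.S41.EZeta
set_option autoImplicit false
set_option linter.unusedSectionVars false
set_option linter.style.haveILetI false

/-!
# S41, E-side: what a Frobenius element at a good prime does on `E[p]`
-/

namespace Fermat.Agent.S41E

open WeierstrassCurve WeierstrassCurve.Affine WeierstrassCurve.Affine.Point
open Fermat.Agent.S05Lib Fermat.Agent.S13Lib Fermat.Agent.S41Lib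

local notation "Qb" => AlgebraicClosure ℚ
local notation "GQ" => (AlgebraicClosure ℚ ≃ₐ[ℚ] AlgebraicClosure ℚ)

theorem charP_residueField {ℓ : ℕ} (hℓ : ℓ.Prime) (A : ValuationSubring Qb)
    (hA : A.LiesOverPrime ℓ) : CharP (IsLocalRing.ResidueField A) ℓ := by
  rw [CharP.charP_iff_prime_eq_zero hℓ]
  have h1 : IsLocalRing.residue A (ℓ : A) = 0 := by
    rw [IsLocalRing.residue_eq_zero_iff, ← ValuationSubring.coe_mem_nonunits_iff]
    have e : ((ℓ : A) : Qb) = (ℓ : Qb) := by push_cast; rfl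
    rw [e]
    exact hA
  simpa using h1

theorem isElliptic_reductionMod {W : WeierstrassCurve ℤ} {ℓ : ℕ} [Fact ℓ.Prime]
    (hgood : W.IsGoodPrimeFor ℓ) : (W.reductionMod ℓ).IsElliptic := by
  constructor
  rw [WeierstrassCurve.reductionMod, WeierstrassCurve.map_Δ, isUnit_iff_ne_zero]
  intro h0
  apply hgood
  exact (ZMod.intCast_zmod_eq_zero_iff_dvd _ _).mp h0

theorem perPrime (E : WeierstrassCurve ℚ) {W : WeierstrassCurve ℤ}
    (hW : W.IsIntegralModelOf E) {p ℓ : ℕ} (hp : p.Prime) (hp3 : 3 ≤ p) (hℓ : ℓ.Prime)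
    (hℓ2 : ℓ ≠ 2) (hℓp : ℓ ≠ p) (hgood : W.IsGoodPrimeFor ℓ) (A : ValuationSubring Qb)
    (hA : A.LiesOverPrime ℓ) (σ : GQ) (hσ : A.IsFrobeniusAt σ ℓ) :
    (p ∣ Nat.card (W.reductionMod ℓ).toAffine.Point →
      ∃ P : (E.toAffine⁄Qb).Point, P ≠ 0 ∧ p • P = 0 ∧ σ • P = P) ∧
    (p ∣ ℓ + 1 → (∃ P : (E.toAffine⁄Qb).Point, P ≠ 0 ∧ p • P = 0 ∧ σ • P = P) →
      ∃ P : (E.toAffine⁄Qb).Point, P ≠ 0 ∧ p • P = 0 ∧ σ • P = -P) ∧
    (p ∣ ℓ + 1 → (∃ P : (E.toAffine⁄Qb).Point, P ≠ 0 ∧ p • P = 0 ∧ σ • P = -P) →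
      ∃ P : (E.toAffine⁄Qb).Point, P ≠ 0 ∧ p • P = 0 ∧ σ • P = P) := by
  classical
  haveI : Fact ℓ.Prime := ⟨hℓ⟩
  haveI := charP_residueField hℓ A hA
  letI : Algebra (ZMod ℓ) (IsLocalRing.ResidueField A) := ZMod.algebra _ ℓ
  haveI := isAlgClosed_residueField A
  haveI := isElliptic_reductionMod hgood
  haveI := finite_ker_frob_sub (W.reductionMod ℓ) (IsLocalRing.ResidueField A)
  haveI := finite_ker_frob_add (W.reductionMod ℓ) (IsLocalRing.ResidueField A)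
  have hsub := card_ker_frob_sub (W.reductionMod ℓ) (IsLocalRing.ResidueField A)
  have hadd := card_ker_frob_add (W.reductionMod ℓ) (IsLocalRing.ResidueField A)
  obtain ⟨φ, hφ, hequiv⟩ := exists_transfer E hW
  have up : ∀ (T : ((WQ W).toAffine⁄Qb).Point), T ≠ 0 → p • T = 0 →
      φ T ≠ 0 ∧ p • φ T = 0 := by
    intro T hT hpT
    refine ⟨fun h0 => hT (hφ.1 (by rw [h0, _root_.map_zero])), by
      rw [← map_nsmul, hpT, _root_.map_zero]⟩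
  have down : ∀ (P : (E.toAffine⁄Qb).Point), P ≠ 0 → p • P = 0 →
      ∃ T : ((WQ W).toAffine⁄Qb).Point, φ T = P ∧ T ≠ 0 ∧ p • T = 0 := by
    intro P hP hpP
    obtain ⟨T, rfl⟩ := hφ.2 P
    refine ⟨T, rfl, fun h0 => hP (by rw [h0, _root_.map_zero]), hφ.1 ?_⟩
    rw [map_nsmul, hpP, _root_.map_zero]
  have h2 : ∀ h : p ∣ ℓ + 1, p ∣ 2 * ℓ + 2 := fun h => by
    have : 2 * ℓ + 2 = 2 * (ℓ + 1) := by ring
    rw [this]
    exact Dvd.dvd.mul_left h 2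
  refine ⟨?_, ?_, ?_⟩
  · intro hdvd
    rw [← hsub] at hdvd
    obtain ⟨T, hT, hpT, hfix⟩ := exists_fixed_of_dvd hA hℓ2 hp hp3 hℓp hgood hσ hdvd
    exact ⟨φ T, (up T hT hpT).1, (up T hT hpT).2, by rw [hequiv, hfix]⟩
  · rintro hdvd ⟨P, hP, hpP, hfix⟩
    obtain ⟨T, rfl, hT, hpT⟩ := down P hP hpP
    have hfixT : σ • T = T := hφ.1 (by rw [← hequiv, hfix])
    have h3 := dvd_of_fixed hA hℓ2 hp hp3 hℓp hgood hσ hT hpT hfixT
    have h4 := (Nat.dvd_add_right h3).mp (hadd ▸ h2 hdvd)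
    obtain ⟨T₂, hT₂, hpT₂, hfix₂⟩ := exists_neg_of_dvd hA hℓ2 hp hp3 hℓp hgood hσ h4
    exact ⟨φ T₂, (up T₂ hT₂ hpT₂).1, (up T₂ hT₂ hpT₂).2, by rw [hequiv, hfix₂, map_neg]⟩
  · rintro hdvd ⟨P, hP, hpP, hfix⟩
    obtain ⟨T, rfl, hT, hpT⟩ := down P hP hpP
    have hfixT : σ • T = -T := hφ.1 (by rw [← hequiv, hfix, map_neg])
    have h3 := dvd_of_neg hA hℓ2 hp hp3 hℓp hgood hσ hT hpT hfixT
    have h4 := (Nat.dvd_add_left h3).mp (hadd ▸ h2 hdvd)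
    obtain ⟨T₂, hT₂, hpT₂, hfix₂⟩ := exists_fixed_of_dvd hA hℓ2 hp hp3 hℓp hgood hσ h4
    exact ⟨φ T₂, (up T₂ hT₂ hpT₂).1, (up T₂ hT₂ hpT₂).2, by rw [hequiv, hfix₂]⟩

end Fermat.Agent.S41E
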