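import Fermat.Agent.S41.EOrder
import Fermat.Agent.S05.L3
set_option autoImplicit false
set_option linter.unusedSectionVars false

/-!
# S41, E-side: reduction of `p`-torsion points on `y² = x (x² + a x + b)` (good reduction)
-/

namespace Fermat.Agent.S41E

open WeierstrassCurve WeierstrassCurve.Affine WeierstrassCurve.Affine.Point
open Fermat.Agent.S05Lib Fermat.Agent.S13Lib

variable {K : Type*} [Field K] [DecidableEq K] (A : ValuationSubring K)

theorem res_eq_zero_iff (x : A) : IsLocalRing.residue A x = 0 ↔ A.valuation (x : K) < 1 := by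
  rw [IsLocalRing.residue_eq_zero_iff, A.valuation_lt_one_iff]

theorem res_ne_zero_iff (x : A) : IsLocalRing.residue A x ≠ 0 ↔ A.valuation (x : K) = 1 := by
  rw [IsLocalRing.residue_ne_zero_iff_isUnit, A.valuation_eq_one_iff]

theorem exists_coe_eq {x : K} (h : A.valuation x ≤ 1) : ∃ x' : A, (x' : K) = x :=
  ⟨⟨x, (A.valuation_le_one_iff x).mp h⟩, rfl⟩

/-- the curve over `K`. -/
def WK (a b : A) : WeierstrassCurve.Affine K := ⟨0, (a : K), 0, (b : K), 0⟩

/-- the reduced curve. -/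
noncomputable def Wκ (a b : A) : WeierstrassCurve.Affine (IsLocalRing.ResidueField A) :=
  ⟨0, IsLocalRing.residue A a, 0, IsLocalRing.residue A b, 0⟩

theorem isE_WK (a b : A) : IsE (WK A a b) := ⟨rfl, rfl, rfl⟩
theorem isE_Wκ (a b : A) : IsE (Wκ A a b) := ⟨rfl, rfl, rfl⟩

/-- good reduction data. -/
structure Good (a b : A) (p : ℕ) : Prop where
  h2 : IsLocalRing.residue A 2 ≠ 0
  hb : IsLocalRing.residue A b ≠ 0
  hd : IsLocalRing.residue A (a ^ 2 - 4 * b) ≠ 0
  hp : IsLocalRing.residue A (p : A) ≠ 0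

variable {A} {a b : A} {p : ℕ}

theorem Good.hyp (G : Good A a b p) : Hyp A.valuation (WK A a b) where
  toIsE := isE_WK A a b
  ha₂ := A.valuation_le_one a
  ha₄ := A.valuation_le_one b
  h2 := (res_ne_zero_iff A 2).mp G.h2

theorem Good.vp (G : Good A a b p) : A.valuation (p : K) = 1 := by
  have := (res_ne_zero_iff A (p : A)).mp G.hp
  simpa using this

theorem Good.two_ne_zero (G : Good A a b p) : (2 : IsLocalRing.ResidueField A) ≠ 0 := by
  have := G.h2
  rwa [map_ofNat] at this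

theorem good_contra {κ : Type*} [Field κ] {α β ξ : κ} (hβ : β ≠ 0)
    (hd : α ^ 2 - 4 * β ≠ 0) (h1 : ξ ^ 2 = β) (h2 : ξ * (2 * β + α * ξ) = 0) : False := by
  have hξ : ξ ≠ 0 := by
    rintro rfl
    apply hβ
    rw [← h1]; ring
  have h3 : 2 * β + α * ξ = 0 := (mul_eq_zero.mp h2).resolve_left hξ
  have h4 : β * (α ^ 2 - 4 * β) = 0 := by
    linear_combination (α * ξ - 2 * β) * h3 - α ^ 2 * h1
  rcases mul_eq_zero.mp h4 with h | h
  · exact hβ h
  · exact hd h

theorem Good.contra (G : Good A a b p) {ξ : IsLocalRing.ResidueField A}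
    (h1 : ξ ^ 2 = IsLocalRing.residue A b)
    (h2 : ξ * (2 * IsLocalRing.residue A b + IsLocalRing.residue A a * ξ) = 0) : False := by
  refine good_contra G.hb ?_ h1 h2
  have := G.hd
  rwa [map_sub, map_mul, map_pow, map_ofNat] at this

theorem coe_ed (x y : A) (k : ℕ) :
    ((ed a b x y k : A) : K) = ed (a : K) (b : K) (x : K) (y : K) k :=
  map_ed A.subtype a b x y k

section torsion

variable (G : Good A a b p) (hp : p.Prime) (hp3 : 3 ≤ p)
include G hp hp3

theorem exists_coords {T : (WK A a b).Point} (hT : T ≠ 0) (hpT : p • T = 0) :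
    ∃ x y : A, (x : K) = xc T ∧ (y : K) = yc T := by
  have hx := no_torsion A G.hyp hp hp3 G.vp hT hpT
  have hy := v_yc_le_one G.hyp hx
  obtain ⟨x, hx'⟩ := exists_coe_eq A hx
  obtain ⟨y, hy'⟩ := exists_coe_eq A hy
  exact ⟨x, y, hx', hy'⟩

theorem curve_eq_A {T : (WK A a b).Point} {x y : A} (hx : (x : K) = xc T) (hy : (y : K) = yc T) :
    y ^ 2 = x ^ 3 + a * x ^ 2 + b * x := by
  apply Subtype.ext
  push_cast
  rw [hx, hy]
  exact curve_eq (isE_WK A a b) T

theorem yc_ne_zero_of_torsion {T : (WK A a b).Point} (hT : T ≠ 0) (hpT : p • T = 0) :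
    yc T ≠ 0 := by
  intro hy0
  have h3 := add_self_eq_zero_of_yc_eq_zero (isE_WK A a b) hy0
  have h4 : ¬ p ∣ 2 := fun h => by
    have := Nat.le_of_dvd (by norm_num) h
    omega
  exact nsmul_ne_zero_of_not_dvd hp hpT hT h4 (by rw [two_nsmul]; exact h3)

/-- the `y`-coordinate of a torsion point is a unit. -/
theorem res_yc_ne_zero {T : (WK A a b).Point} (hT : T ≠ 0) (hpT : p • T = 0) {x y : A}
    (hx : (x : K) = xc T) (hy : (y : K) = yc T) : IsLocalRing.residue A y ≠ 0 := by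
  intro hy0
  have hyne := yc_ne_zero_of_torsion G hp hp3 hT hpT
  have h3 : T + T ≠ 0 := add_self_ne_zero (isE_WK A a b) G.hyp.two_ne_zero hyne
  have h4 : p • (T + T) = 0 := by rw [nsmul_add, hpT, add_zero]
  obtain ⟨X2, -, hX2, -⟩ := exists_coords G hp hp3 h3 h4
  have i2 := xc_add_self (isE_WK A a b) G.hyp.two_ne_zero hyne
  have i2A : X2 * (4 * y ^ 2) = (x ^ 2 - b) ^ 2 := by
    apply Subtype.ext
    push_cast
    rw [hX2, hx, hy]
    exact i2
  have c := curve_eq_A G hp hp3 hx hy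
  have j2 := congrArg (IsLocalRing.residue A) i2A
  have jc := congrArg (IsLocalRing.residue A) c
  simp only [map_mul, map_add, map_sub, map_pow, hy0] at j2 jc
  have h1 : IsLocalRing.residue A x ^ 2 = IsLocalRing.residue A b := by
    have : (IsLocalRing.residue A x ^ 2 - IsLocalRing.residue A b) ^ 2 = 0 := by
      rw [← j2]; ring
    exact sub_eq_zero.mp (pow_eq_zero_iff two_ne_zero |>.mp this)
  refine G.contra h1 ?_
  linear_combination (-1 : IsLocalRing.ResidueField A) * jc - IsLocalRing.residue A x * h1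

/-- distinct (up to sign) torsion points have distinct reduced `x`-coordinates. -/
theorem eq_or_eq_neg_of_res_eq {T₁ T₂ : (WK A a b).Point} (h₁ : T₁ ≠ 0) (h₂ : T₂ ≠ 0)
    (hp₁ : p • T₁ = 0) (hp₂ : p • T₂ = 0) {x₁ x₂ : A} (hx₁ : (x₁ : K) = xc T₁)
    (hx₂ : (x₂ : K) = xc T₂) (hres : IsLocalRing.residue A x₁ = IsLocalRing.residue A x₂) :
    T₁ = T₂ ∨ T₁ = -T₂ := by
  by_contra hcon
  push Not at hcon
  obtain ⟨hne, hne'⟩ := hcon
  have hs : T₁ - T₂ ≠ 0 := sub_ne_zero.mpr hne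
  have ha : T₁ + T₂ ≠ 0 := fun h => hne' (eq_neg_of_add_eq_zero_left h)
  have hxx := xc_ne_of_ne h₁ h₂ hs ha
  obtain ⟨Xp, -, hXp, -⟩ := exists_coords G hp hp3 ha (by rw [nsmul_add, hp₁, hp₂, add_zero])
  obtain ⟨Xm, -, hXm, -⟩ := exists_coords G hp hp3 hs (by rw [nsmul_sub, hp₁, hp₂, sub_zero])
  have e1 := xc_add (isE_WK A a b) h₁ h₂ hxx
  have e2 := xc_sub (isE_WK A a b) h₁ h₂ hxx
  have e3 := xc_add_mul_xc_sub (isE_WK A a b) h₁ h₂ hxx
  have e3A : Xp * Xm * (x₁ - x₂) ^ 2 = (x₁ * x₂ - b) ^ 2 := by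
    apply Subtype.ext
    push_cast
    rw [hXp, hXm, hx₁, hx₂]
    exact e3
  have e12A : (Xp + Xm) * (x₁ - x₂) ^ 2 = 2 * ((x₁ * x₂ + b) * (x₁ + x₂) + 2 * a * (x₁ * x₂)) := by
    apply Subtype.ext
    push_cast
    rw [hXp, hXm, hx₁, hx₂]
    have ea : (WK A a b).a₂ = (a : K) := rfl
    have eb : (WK A a b).a₄ = (b : K) := rfl
    rw [ea, eb] at e1 e2
    have c2 : ((2 : A) : K) = 2 := rfl
    rw [c2]
    linear_combination e1 + e2
  have j3 := congrArg (IsLocalRing.residue A) e3A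
  have j12 := congrArg (IsLocalRing.residue A) e12A
  simp only [map_mul, map_add, map_sub, map_pow, hres, sub_self, map_ofNat] at j3 j12
  set ξ := IsLocalRing.residue A x₂
  have h1 : ξ ^ 2 = IsLocalRing.residue A b := by
    have : (ξ * ξ - IsLocalRing.residue A b) ^ 2 = 0 := by
      rw [← j3]; ring
    have := sub_eq_zero.mp (pow_eq_zero_iff two_ne_zero |>.mp this)
    rw [← this]; ring
  refine G.contra h1 ?_
  have h4 : (4 : IsLocalRing.ResidueField A) ≠ 0 := by
    have : (4 : IsLocalRing.ResidueField A) = 2 * 2 := by norm_num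
    rw [this]
    exact mul_ne_zero G.two_ne_zero G.two_ne_zero
  apply mul_left_cancel₀ h4
  linear_combination (-1 : IsLocalRing.ResidueField A) * j12 - 4 * ξ * h1

/-- injectivity of reduction on `p`-torsion. -/
theorem eq_of_res_eq {T₁ T₂ : (WK A a b).Point} (h₁ : T₁ ≠ 0) (h₂ : T₂ ≠ 0)
    (hp₁ : p • T₁ = 0) (hp₂ : p • T₂ = 0) {x₁ x₂ y₁ y₂ : A} (hx₁ : (x₁ : K) = xc T₁)
    (hx₂ : (x₂ : K) = xc T₂) (hy₁ : (y₁ : K) = yc T₁) (hy₂ : (y₂ : K) = yc T₂)
    (hres : IsLocalRing.residue A x₁ = IsLocalRing.residue A x₂)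
    (hresy : IsLocalRing.residue A y₁ = IsLocalRing.residue A y₂) : T₁ = T₂ := by
  rcases eq_or_eq_neg_of_res_eq G hp hp3 h₁ h₂ hp₁ hp₂ hx₁ hx₂ hres with h | h
  · exact h
  · exfalso
    have e : y₁ = -y₂ := by
      apply Subtype.ext
      push_cast
      rw [hy₁, hy₂, h, yc_neg (isE_WK A a b)]
    rw [e, map_neg] at hresy
    have h0 : 2 * IsLocalRing.residue A y₂ = 0 := by linear_combination -hresy
    exact res_yc_ne_zero G hp hp3 h₂ hp₂ hx₂ hy₂ ((mul_eq_zero.mp h0).resolve_left G.two_ne_zero)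

/-- the EDS values of a torsion point are units. -/
theorem v_hseq_eq_one {T : (WK A a b).Point} (hT : T ≠ 0) (hpT : p • T = 0) :
    ∀ k, k + 1 < p → A.valuation (hseq T (k + 1)) = 1 := by
  have hne : ∀ k, 0 < k → k < p → k • T ≠ 0 := fun k h0 hk =>
    nsmul_ne_zero_of_not_dvd hp hpT hT (not_dvd_of_lt h0 hk)
  obtain ⟨x, y, hx, hy⟩ := exists_coords G hp hp3 hT hpT
  intro k
  induction k using Nat.twoStepInduction with
  | zero => intro _; simp
  | one =>
    intro _
    rw [hseq_two, map_mul, G.hyp.h2, one_mul, ← hy]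
    exact (res_ne_zero_iff A y).mp (res_yc_ne_zero G hp hp3 hT hpT hx hy)
  | more k ih1 ih2 =>
    intro hk
    have g := hseq_G1 (isE_WK A a b) G.hyp.two_ne_zero hne (k + 1) (by omega)
    have hkT : (k + 2) • T ≠ 0 := hne _ (by omega) (by omega)
    have hpk : p • ((k + 2) • T) = 0 := by rw [smul_comm, hpT, nsmul_zero]
    obtain ⟨xk, -, hxk, -⟩ := exists_coords G hp hp3 hkT hpk
    have hu : A.valuation (xc ((k + 2) • T) - xc T) = 1 := by
      have : ((xk - x : A) : K) = xc ((k + 2) • T) - xc T := by push_cast; rw [hxk, hx]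
      rw [← this]
      apply (res_ne_zero_iff A _).mp
      intro h0
      rw [map_sub, sub_eq_zero] at h0
      rcases eq_or_eq_neg_of_res_eq G hp hp3 hkT hT hpk hpT hxk hx h0 with h | h
      · apply hne (k + 1) (by omega) (by omega)
        have : (k + 1) • T + T = T := by rw [← succ_nsmul]; exact h
        simpa using this
      · apply hne (k + 3) (by omega) (by omega)
        rw [succ_nsmul, h, neg_add_cancel]
    have g' := congrArg A.valuation g
    rw [map_mul, map_pow, Valuation.map_neg, map_mul] at g'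
    rw [show k + 1 + 1 = k + 2 from rfl, show k + 1 + 2 = k + 3 from rfl] at g'
    rw [hu, ih2 (by omega), ih1 (by omega)] at g'
    simpa using g'.symm

theorem res_ed_ne_zero {T : (WK A a b).Point} (hT : T ≠ 0) (hpT : p • T = 0) {x y : A}
    (hx : (x : K) = xc T) (hy : (y : K) = yc T) {k : ℕ} (h0 : 0 < k) (hk : k < p) :
    IsLocalRing.residue A (ed a b x y k) ≠ 0 := by
  have hne : ∀ k, 0 < k → k < p → k • T ≠ 0 := fun k h0 hk =>
    nsmul_ne_zero_of_not_dvd hp hpT hT (not_dvd_of_lt h0 hk)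
  rw [res_ne_zero_iff, coe_ed, hx, hy]
  have := hseq_eq_ed (isE_WK A a b) G.hyp.two_ne_zero hp.two_le hne k hk.le
  have e : ed (WK A a b).a₂ (WK A a b).a₄ (xc T) (yc T) k = ed (a : K) (b : K) (xc T) (yc T) k := rfl
  rw [← e, ← this]
  obtain ⟨j, rfl⟩ : ∃ j, k = j + 1 := ⟨k - 1, by omega⟩
  exact v_hseq_eq_one G hp hp3 hT hpT j hk

theorem ed_p_eq_zero {T : (WK A a b).Point} (hT : T ≠ 0) (hpT : p • T = 0) {x y : A}
    (hx : (x : K) = xc T) (hy : (y : K) = yc T) : ed a b x y p = 0 := by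
  apply Subtype.ext
  rw [coe_ed, hx, hy]
  exact ((order_iff_ed (isE_WK A a b) G.hyp.two_ne_zero hp hT).mp hpT).2

end torsion

end Fermat.Agent.S41E
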