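import Fermat.Agent.S41.ERedA
set_option autoImplicit false
set_option linter.unusedSectionVars false

/-!
# S41, E-side: the reduction bijection on `p`-torsion points (model `y² = x (x² + a x + b)`)
-/

namespace Fermat.Agent.S41E

open WeierstrassCurve WeierstrassCurve.Affine WeierstrassCurve.Affine.Point
open Fermat.Agent.S05Lib Fermat.Agent.S13Lib

variable {K : Type*} [Field K] [DecidableEq K] {A : ValuationSubring K}
  [DecidableEq (IsLocalRing.ResidueField A)]

/-! ### lifting roots -/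

theorem root_mem (f : Polynomial A) (hlead : IsUnit f.leadingCoeff) {r : K}
    (hr : (f.map A.subtype).eval r = 0) : r ∈ A := by
  obtain ⟨u, hu⟩ := hlead
  have hm : (Polynomial.C (↑u⁻¹ : A) * f).Monic :=
    Polynomial.monic_C_mul_of_mul_leadingCoeff_eq_one (by rw [← hu]; exact u.inv_mul)
  have hint : IsIntegral A r := by
    refine ⟨_, hm, ?_⟩
    rw [Polynomial.eval₂_mul]
    have : Polynomial.eval₂ (algebraMap A K) r f = 0 := by
      rw [Polynomial.eval₂_eq_eval_map]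
      exact hr
    rw [this, mul_zero]
  obtain ⟨y, hy⟩ := IsIntegrallyClosed.isIntegral_iff.mp hint
  rw [← hy]
  exact y.2

theorem v_prod_eq_one {F Γ₀ : Type*} [Field F] [LinearOrderedCommGroupWithZero Γ₀]
    (v : Valuation F Γ₀) (x₀ : F) (s : Multiset F) (h : ∀ r ∈ s, v (x₀ - r) = 1) :
    v ((s.map (fun r => x₀ - r)).prod) = 1 := by
  induction s using Multiset.induction_on with
  | empty => simp
  | cons a s ih =>
    rw [Multiset.map_cons, Multiset.prod_cons, map_mul, h a (Multiset.mem_cons_self a s),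
      ih fun r hr => h r (Multiset.mem_cons_of_mem hr), one_mul]

theorem exists_root_lift [IsAlgClosed K] (f : Polynomial A) (hlead : IsUnit f.leadingCoeff)
    (ξ : IsLocalRing.ResidueField A) (hξ : (f.map (IsLocalRing.residue A)).eval ξ = 0) :
    ∃ x : A, f.eval x = 0 ∧ IsLocalRing.residue A x = ξ := by
  obtain ⟨x₀, hx₀⟩ := IsLocalRing.residue_surjective ξ
  have hinj : Function.Injective A.subtype := Subtype.val_injective
  set fK := f.map A.subtype with hfK
  have hf0 : f ≠ 0 := by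
    rintro rfl
    simp at hlead
  have hfK0 : fK ≠ 0 := (Polynomial.map_ne_zero_iff hinj).mpr hf0
  have h1 := (IsAlgClosed.splits fK).eval_eq_prod_roots (x₀ : K)
  have hlc : fK.leadingCoeff = (f.leadingCoeff : K) := Polynomial.leadingCoeff_map_of_injective hinj f
  have hvlc : A.valuation fK.leadingCoeff = 1 := by
    rw [hlc]; exact (A.valuation_eq_one_iff _).mp hlead
  have hev : fK.eval (x₀ : K) = ((f.eval x₀ : A) : K) := by
    rw [hfK]
    exact Polynomial.eval_map_apply A.subtype x₀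
  have hlt : A.valuation (fK.eval (x₀ : K)) < 1 := by
    rw [hev, ← res_eq_zero_iff, ← Polynomial.eval_map_apply, hx₀]
    exact hξ
  by_contra hcon
  push Not at hcon
  have hall : ∀ r ∈ fK.roots, A.valuation ((x₀ : K) - r) = 1 := by
    intro r hr
    have hr0 : fK.eval r = 0 := (Polynomial.mem_roots hfK0).mp hr
    have hrA := root_mem f hlead hr0
    have e : (x₀ : K) - r = ((x₀ - ⟨r, hrA⟩ : A) : K) := by push_cast; rfl
    rw [e]
    apply (res_ne_zero_iff A _).mp
    intro h0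
    rw [map_sub, sub_eq_zero] at h0
    refine hcon ⟨r, hrA⟩ ?_ (by rw [← h0, hx₀])
    apply hinj
    rw [_root_.map_zero, ← hr0, hfK]
    exact (Polynomial.eval_map_apply A.subtype (⟨r, hrA⟩ : A)).symm
  rw [h1, map_mul, hvlc, one_mul, v_prod_eq_one _ _ _ hall] at hlt
  exact lt_irrefl _ hlt

/-! ### the relation between a point and its reduction -/

variable {a b : A} {p : ℕ}

/-- `T'` is the reduction of `T`. -/
def Rel (T : (WK A a b).Point) (T' : (Wκ A a b).Point) : Prop :=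
  T ≠ 0 ∧ T' ≠ 0 ∧ ∃ x y : A, (x : K) = xc T ∧ (y : K) = yc T ∧
    IsLocalRing.residue A x = xc T' ∧ IsLocalRing.residue A y = yc T'

theorem Δ_E {R : Type*} [CommRing R] (a b : R) :
    (⟨0, a, 0, b, 0⟩ : WeierstrassCurve R).Δ = 16 * b ^ 2 * (a ^ 2 - 4 * b) := by
  simp only [WeierstrassCurve.Δ, WeierstrassCurve.b₂, WeierstrassCurve.b₄, WeierstrassCurve.b₆,
    WeierstrassCurve.b₈]
  ring

theorem Good.Δκ_ne_zero (G : Good A a b p) : (Wκ A a b).Δ ≠ 0 := by
  have e : (Wκ A a b).Δ = _ := Δ_E (IsLocalRing.residue A a) (IsLocalRing.residue A b)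
  rw [e]
  have h16 : (16 : IsLocalRing.ResidueField A) ≠ 0 := by
    have : (16 : IsLocalRing.ResidueField A) = 2 * 2 * 2 * 2 := by norm_num
    rw [this]
    exact mul_ne_zero (mul_ne_zero (mul_ne_zero G.two_ne_zero G.two_ne_zero) G.two_ne_zero)
      G.two_ne_zero
  have hd := G.hd
  rw [map_sub, map_mul, map_pow, map_ofNat] at hd
  exact mul_ne_zero (mul_ne_zero h16 (pow_ne_zero 2 G.hb)) hd

theorem Good.ΔK_ne_zero (G : Good A a b p) : (WK A a b).Δ ≠ 0 := by
  have e : (WK A a b).Δ = _ := Δ_E (a : K) (b : K)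
  intro h0
  apply G.Δκ_ne_zero
  have e' : (Wκ A a b).Δ = _ := Δ_E (IsLocalRing.residue A a) (IsLocalRing.residue A b)
  rw [e']
  rw [e] at h0
  have h1 : (16 * b ^ 2 * (a ^ 2 - 4 * b) : A) = 0 := by
    apply Subtype.ext
    push_cast
    exact h0
  have := congrArg (IsLocalRing.residue A) h1
  simpa only [map_mul, map_sub, map_pow, map_ofNat, _root_.map_zero] using this

theorem equation_E {R : Type*} [CommRing R] (a b x y : R) :
    WeierstrassCurve.Affine.Equation (⟨0, a, 0, b, 0⟩ : WeierstrassCurve.Affine R) x y ↔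
      y ^ 2 = x ^ 3 + a * x ^ 2 + b * x := by
  rw [equation_iff]
  constructor
  · intro h; linear_combination h
  · intro h; linear_combination h

section

variable (G : Good A a b p) (hp : p.Prime) (hp3 : 3 ≤ p)
include G hp hp3

/-- (R1) every nonzero `p`-torsion point has a reduction, which is a nonzero `p`-torsion point. -/
theorem exists_red {T : (WK A a b).Point} (hT : T ≠ 0) (hpT : p • T = 0) :
    ∃ T' : (Wκ A a b).Point, Rel T T' ∧ p • T' = 0 := by
  obtain ⟨x, y, hx, hy⟩ := exists_coords G hp hp3 hT hpT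
  have c := curve_eq_A G hp hp3 hx hy
  have ceq : (Wκ A a b).Equation (IsLocalRing.residue A x) (IsLocalRing.residue A y) := by
    refine (equation_E _ _ _ _).mpr ?_
    have := congrArg (IsLocalRing.residue A) c
    simpa only [map_mul, map_add, map_pow] using this
  have hns := ((Wκ A a b).equation_iff_nonsingular_of_Δ_ne_zero G.Δκ_ne_zero).mp ceq
  refine ⟨Point.some _ _ hns, ⟨hT, some_ne_zero _, x, y, hx, hy, rfl, rfl⟩, ?_⟩
  rw [order_iff_ed (isE_Wκ A a b) G.two_ne_zero hp (some_ne_zero _)]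
  have e : ∀ k, ed (Wκ A a b).a₂ (Wκ A a b).a₄ (xc (Point.some _ _ hns)) (yc (Point.some _ _ hns)) k
      = IsLocalRing.residue A (ed a b x y k) := fun k => (map_ed _ a b x y k).symm
  refine ⟨fun k h0 hk => ?_, ?_⟩
  · rw [e]; exact res_ed_ne_zero G hp hp3 hT hpT hx hy h0 hk
  · rw [e, ed_p_eq_zero G hp hp3 hT hpT hx hy, _root_.map_zero]

/-- (R2) injectivity. -/
theorem Rel.inj {T₁ T₂ : (WK A a b).Point} {T' : (Wκ A a b).Point} (h₁ : Rel T₁ T')
    (h₂ : Rel T₂ T') (hp₁ : p • T₁ = 0) (hp₂ : p • T₂ = 0) : T₁ = T₂ := by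
  obtain ⟨n₁, -, x₁, y₁, hx₁, hy₁, rx₁, ry₁⟩ := h₁
  obtain ⟨n₂, -, x₂, y₂, hx₂, hy₂, rx₂, ry₂⟩ := h₂
  exact eq_of_res_eq G hp hp3 n₁ n₂ hp₁ hp₂ hx₁ hx₂ hy₁ hy₂ (rx₁.trans rx₂.symm)
    (ry₁.trans ry₂.symm)

/-- (R3) lifting. -/
theorem exists_lift [IsAlgClosed K] {T' : (Wκ A a b).Point} (hT' : T' ≠ 0) (hpT' : p • T' = 0) :
    ∃ T : (WK A a b).Point, Rel T T' ∧ p • T = 0 := by
  have hodd : Odd p := hp.odd_of_ne_two (by omega)
  obtain ⟨hk1, hk0⟩ := (order_iff_ed (isE_Wκ A a b) G.two_ne_zero hp hT').mp hpT'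
  have cκ := curve_eq (isE_Wκ A a b) T'
  set ξ := xc T' with hξ
  set η := yc T' with hη
  have ea : (Wκ A a b).a₂ = IsLocalRing.residue A a := rfl
  have eb : (Wκ A a b).a₄ = IsLocalRing.residue A b := rfl
  rw [ea, eb] at hk1 hk0 cκ
  -- the division polynomial over `A`
  set f := (⟨0, a, 0, b, 0⟩ : WeierstrassCurve A).preΨ' p with hf
  have hpA : (p : A) ≠ 0 := by
    intro h
    apply G.hp
    rw [h, _root_.map_zero]
  have hlead : IsUnit f.leadingCoeff := by
    rw [hf, WeierstrassCurve.leadingCoeff_preΨ' _ hpA, if_neg (Nat.not_even_iff_odd.mpr hodd)]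
    exact (IsLocalRing.residue_ne_zero_iff_isUnit _).mp G.hp
  have hmap : f.map (IsLocalRing.residue A) =
      (⟨0, IsLocalRing.residue A a, 0, IsLocalRing.residue A b, 0⟩ :
        WeierstrassCurve (IsLocalRing.ResidueField A)).preΨ' p := by
    rw [hf, ← WeierstrassCurve.map_preΨ']
    congr 1
  have hroot : (f.map (IsLocalRing.residue A)).eval ξ = 0 := by
    rw [hmap, ← ed_eq_eval_preΨ' _ _ ξ η cκ hodd]
    exact hk0
  obtain ⟨x, hfx, hxξ⟩ := exists_root_lift f hlead ξ hroot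
  -- the `y`-coordinate
  obtain ⟨y₀, hy₀⟩ := IsAlgClosed.exists_pow_nat_eq (((x ^ 3 + a * x ^ 2 + b * x : A)) : K)
    (n := 2) (by norm_num)
  have hy₀A : y₀ ∈ A := by
    rw [← A.valuation_le_one_iff]
    have : A.valuation y₀ ^ 2 ≤ 1 := by
      rw [← map_pow, hy₀]
      exact A.valuation_le_one _
    exact (pow_le_one_iff_of_nonneg zero_le two_ne_zero).mp this
  have hyy : (⟨y₀, hy₀A⟩ : A) ^ 2 = x ^ 3 + a * x ^ 2 + b * x := by
    apply Subtype.ext
    rw [← hy₀]
    rfl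
  have hsq : IsLocalRing.residue A ⟨y₀, hy₀A⟩ ^ 2 = η ^ 2 := by
    rw [cκ, ← map_pow, hyy]
    simp only [map_mul, map_add, map_pow, hxξ]
  obtain ⟨y, hy, hyη⟩ : ∃ y : A, y ^ 2 = x ^ 3 + a * x ^ 2 + b * x ∧
      IsLocalRing.residue A y = η := by
    rcases sq_eq_sq_iff_eq_or_eq_neg.mp hsq with h | h
    · exact ⟨_, hyy, h⟩
    · exact ⟨-⟨y₀, hy₀A⟩, by rw [neg_sq, hyy], by rw [map_neg, h, neg_neg]⟩
  have ceq : (WK A a b).Equation (x : K) (y : K) := by
    refine (equation_E _ _ _ _).mpr ?_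
    have := congrArg (A.subtype) hy
    simp only [map_mul, map_add, map_pow] at this
    exact this
  have hns := ((WK A a b).equation_iff_nonsingular_of_Δ_ne_zero G.ΔK_ne_zero).mp ceq
  refine ⟨Point.some _ _ hns, ⟨some_ne_zero _, hT', x, y, rfl, rfl, hxξ, hyη⟩, ?_⟩
  rw [order_iff_ed (isE_WK A a b) G.hyp.two_ne_zero hp (some_ne_zero _)]
  have e : ∀ k, ed (WK A a b).a₂ (WK A a b).a₄ (xc (Point.some _ _ hns)) (yc (Point.some _ _ hns)) k
      = ((ed a b x y k : A) : K) := fun k => (coe_ed x y k).symm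
  refine ⟨fun k h0 hk => ?_, ?_⟩
  · rw [e]
    intro h
    have h' : ed a b x y k = 0 := Subtype.ext h
    apply hk1 k h0 hk
    rw [← hxξ, ← hyη, ← map_ed, h', _root_.map_zero]
  · rw [e, ed_eq_eval_preΨ' a b x y hy hodd, ← hf, hfx]
    rfl

end

end Fermat.Agent.S41E
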