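import Fermat.Agent.S41.EVC

/-! S41 E-side, leaf [VC] : `vcHom W C : (C • W).Point →+ W.Point` (wrapper around `IsVC.hom`). -/

set_option autoImplicit false

namespace Fermat.Agent.S41E

open WeierstrassCurve WeierstrassCurve.Affine Fermat.Agent.S41Lib

/-- VC -/
noncomputable def vcHom {F : Type*} [Field F] [DecidableEq F] (W : WeierstrassCurve F)
    (C : VariableChange F) : (C • W).toAffine.Point →+ W.toAffine.Point :=
  IsVC.hom (W := W.toAffine) (W' := (C • W).toAffine) (isVC_smul W C) C.u.ne_zero

theorem vc_nonsingular {F : Type*} [Field F] (W : WeierstrassCurve F)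
    (C : VariableChange F) {x y : F} (h : (C • W).toAffine.Nonsingular x y) :
    W.toAffine.Nonsingular ((C.u : F) ^ 2 * x + C.r)
      ((C.u : F) ^ 3 * y + (C.u : F) ^ 2 * C.s * x + C.t) :=
  (IsVC.nonsingular_iff (W := W.toAffine) (W' := (C • W).toAffine) (isVC_smul W C)
    C.u.ne_zero x y).mpr h

theorem vcHom_some {F : Type*} [Field F] [DecidableEq F] (W : WeierstrassCurve F)
    (C : VariableChange F) {x y : F} (h : (C • W).toAffine.Nonsingular x y) :
    vcHom W C (.some x y h) = .some _ _ (vc_nonsingular W C h) := rfl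

theorem vcHom_bijective {F : Type*} [Field F] [DecidableEq F] (W : WeierstrassCurve F)
    (C : VariableChange F) : Function.Bijective (vcHom W C) :=
  IsVC.hom_bijective (W := W.toAffine) (W' := (C • W).toAffine) (isVC_smul W C) C.u.ne_zero

end Fermat.Agent.S41E
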