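/-
S41, Hecke calculus part 4: `res`, `resD`, `cores`, `coresD`, `heckeHom`, `heckeHomU` preserve
parabolic homomorphisms.
-/
import Fermat.Agent.S41.HC1
import Fermat.Agent.S41.IharaTransfer

set_option autoImplicit false

open scoped MatrixGroups
open CongruenceSubgroup Function ModularCurve.Period

namespace Fermat.Agent.S41Lib

/-- Cayley-Hamilton for `SL₂(ℤ)`, in the form of a recursion for the traces of powers. -/
theorem SL2_trace_pow_succ_succ (g : SL(2, ℤ)) (k : ℕ) :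
    ((g ^ (k + 2) : SL(2, ℤ)) : Matrix (Fin 2) (Fin 2) ℤ).trace =
      (g : Matrix (Fin 2) (Fin 2) ℤ).trace *
        ((g ^ (k + 1) : SL(2, ℤ)) : Matrix (Fin 2) (Fin 2) ℤ).trace -
      ((g ^ k : SL(2, ℤ)) : Matrix (Fin 2) (Fin 2) ℤ).trace := by
  have hdet : (g : Matrix (Fin 2) (Fin 2) ℤ) 0 0 * (g : Matrix (Fin 2) (Fin 2) ℤ) 1 1 -
      (g : Matrix (Fin 2) (Fin 2) ℤ) 0 1 * (g : Matrix (Fin 2) (Fin 2) ℤ) 1 0 = 1 := by
    have := g.2
    rwa [Matrix.det_fin_two] at this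
  rw [pow_succ (n := k + 1), pow_succ (n := k)]
  simp only [Matrix.SpecialLinearGroup.coe_mul, Matrix.trace_fin_two, Matrix.mul_apply,
    Fin.sum_univ_two]
  generalize ((g ^ k : SL(2, ℤ)) : Matrix (Fin 2) (Fin 2) ℤ) 0 0 = x00
  generalize ((g ^ k : SL(2, ℤ)) : Matrix (Fin 2) (Fin 2) ℤ) 0 1 = x01
  generalize ((g ^ k : SL(2, ℤ)) : Matrix (Fin 2) (Fin 2) ℤ) 1 0 = x10
  generalize ((g ^ k : SL(2, ℤ)) : Matrix (Fin 2) (Fin 2) ℤ) 1 1 = x11
  linear_combination (-(x00 + x11)) * hdet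

theorem SL2_trace_pow_sq (g : SL(2, ℤ)) (hg : (g : Matrix (Fin 2) (Fin 2) ℤ).trace ^ 2 = 4)
    (k : ℕ) : ((g ^ k : SL(2, ℤ)) : Matrix (Fin 2) (Fin 2) ℤ).trace ^ 2 = 4 := by
  obtain ⟨ε, hε, ht⟩ : ∃ ε : ℤ, ε ^ 2 = 1 ∧ (g : Matrix (Fin 2) (Fin 2) ℤ).trace = 2 * ε := by
    have h1 : ((g : Matrix (Fin 2) (Fin 2) ℤ).trace - 2) *
        ((g : Matrix (Fin 2) (Fin 2) ℤ).trace + 2) = 0 := by linear_combination hg
    rcases mul_eq_zero.mp h1 with h | h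
    · exact ⟨1, by norm_num, by linarith⟩
    · exact ⟨-1, by norm_num, by linarith⟩
  have key : ∀ k : ℕ, ((g ^ k : SL(2, ℤ)) : Matrix (Fin 2) (Fin 2) ℤ).trace = 2 * ε ^ k ∧
      ((g ^ (k + 1) : SL(2, ℤ)) : Matrix (Fin 2) (Fin 2) ℤ).trace = 2 * ε ^ (k + 1) := by
    intro k
    induction k with
    | zero =>
      refine ⟨by simp, by simpa using ht⟩
    | succ k ih =>
      refine ⟨ih.2, ?_⟩
      rw [SL2_trace_pow_succ_succ, ih.1, ih.2, ht]
      linear_combination (2 * ε ^ k) * hε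
  rw [(key k).1]
  have : (ε ^ k) ^ 2 = 1 := by rw [← pow_mul, mul_comm, pow_mul, hε, one_pow]
  linear_combination 4 * this

theorem SL2_trace_conj (x g : SL(2, ℤ)) :
    ((x⁻¹ * g * x : SL(2, ℤ)) : Matrix (Fin 2) (Fin 2) ℤ).trace =
      (g : Matrix (Fin 2) (Fin 2) ℤ).trace := by
  rw [Matrix.SpecialLinearGroup.coe_mul, Matrix.trace_mul_comm, ← Matrix.SpecialLinearGroup.coe_mul,
    ← mul_assoc, mul_inv_cancel, one_mul]

section Homs

variable {A : Type*} [AddCommGroup A]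

/-- the transfer along a trace-preserving embedding preserves parabolic homomorphisms -/
theorem isParabolicHom_trHom {M M' : ℕ} (j : Gamma0 M' →* Gamma0 M) (hj : Injective j)
    [j.range.FiniteIndex] (htr : ∀ γ, (mat (j γ)).trace = (mat γ).trace)
    {Ψ : Additive (Gamma0 M') →+ A} (hΨ : IsParabolicHom (Gamma0 M') Ψ) :
    IsParabolicHom (Gamma0 M) (trHom j hj Ψ) := by
  intro g hg
  show Multiplicative.toAdd (MonoidHom.transfer _ g) = 0
  rw [transfer_eq_one_of_conj_pow _ g]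
  · rfl
  intro k x h
  show Multiplicative.ofAdd (Ψ (Additive.ofMul ((MonoidHom.ofInjective hj).symm ⟨_, h⟩))) = 1
  rw [hΨ, ofAdd_zero]
  have h1 : j ((MonoidHom.ofInjective hj).symm ⟨_, h⟩) = x⁻¹ * g ^ k * x :=
    congrArg Subtype.val ((MonoidHom.ofInjective hj).apply_symm_apply ⟨_, h⟩)
  have h2 := htr ((MonoidHom.ofInjective hj).symm ⟨_, h⟩)
  rw [h1] at h2
  show (mat ((MonoidHom.ofInjective hj).symm ⟨_, h⟩)).trace ^ 2 = 4
  rw [← h2]
  show (((x : SL(2, ℤ))⁻¹ * (g : SL(2, ℤ)) ^ k * (x : SL(2, ℤ)) : SL(2, ℤ)) :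
    Matrix (Fin 2) (Fin 2) ℤ).trace ^ 2 = 4
  rw [SL2_trace_conj]
  exact SL2_trace_pow_sq _ hg k

theorem trace_conjD (N t : ℕ) [NeZero t] (γ : Gamma0 (N * t)) :
    (mat (conjD N t γ)).trace = (mat γ).trace := by
  rw [Matrix.trace_fin_two, Matrix.trace_fin_two, mat_conjD_00, mat_conjD_11]

theorem isParabolicHom_res (N t : ℕ) {Φ : Additive (Gamma0 N) →+ A}
    (hΦ : IsParabolicHom (Gamma0 N) Φ) : IsParabolicHom (Gamma0 (N * t)) (res N t Φ) :=
  fun γ hγ => hΦ (inclG N t γ) hγ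

theorem isParabolicHom_resD (N t : ℕ) [NeZero t] {Φ : Additive (Gamma0 N) →+ A}
    (hΦ : IsParabolicHom (Gamma0 N) Φ) : IsParabolicHom (Gamma0 (N * t)) (resD N t Φ) := by
  intro γ hγ
  refine hΦ (conjD N t γ) ?_
  have := trace_conjD N t γ
  show (mat (conjD N t γ)).trace ^ 2 = 4
  rw [this]
  exact hγ

theorem isParabolicHom_cores (N t : ℕ) [NeZero (N * t)] {Ψ : Additive (Gamma0 (N * t)) →+ A}
    (hΨ : IsParabolicHom (Gamma0 (N * t)) Ψ) : IsParabolicHom (Gamma0 N) (cores N t Ψ) := by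
  rw [cores_eq_trHom]
  exact isParabolicHom_trHom _ _ (fun _ => rfl) hΨ

theorem isParabolicHom_coresD (N t : ℕ) [NeZero t] {Ψ : Additive (Gamma0 (N * t)) →+ A}
    (hΨ : IsParabolicHom (Gamma0 (N * t)) Ψ) : IsParabolicHom (Gamma0 N) (coresD N t Ψ) := by
  rw [coresD_eq_trHom]
  exact isParabolicHom_trHom _ _ (trace_conjD N t) hΨ

theorem isParabolicHom_heckeHomU (N q : ℕ) [NeZero q] {Φ : Additive (Gamma0 N) →+ A}
    (hΦ : IsParabolicHom (Gamma0 N) Φ) : IsParabolicHom (Gamma0 N) (heckeHomU N q Φ) :=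
  isParabolicHom_coresD N q (isParabolicHom_res N q hΦ)

theorem isParabolicHom_heckeHom (N q : ℕ) [NeZero q] [NeZero (N * q)]
    {Φ : Additive (Gamma0 N) →+ A}
    (hΦ : IsParabolicHom (Gamma0 N) Φ) : IsParabolicHom (Gamma0 N) (heckeHom N q Φ) :=
  isParabolicHom_cores N q (isParabolicHom_resD N q hΦ)

end Homs

end Fermat.Agent.S41Lib
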