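/-
S41, Hecke calculus part 6: the Atkin-Lehner automorphism of `Γ₀(N r)` and `heckeHom = heckeHomU`.
-/
import Fermat.Agent.S41.HC1
import Fermat.Agent.S41.Bridge3

set_option autoImplicit false
set_option linter.unusedSectionVars false
set_option linter.style.haveILetI false

open scoped MatrixGroups
open CongruenceSubgroup Function

namespace Fermat.Agent.S41Lib

section AL

variable {N r : ℕ} [NeZero r] (u v : ℤ) (h : (r : ℤ) * u + N * v = 1)

/-- `g₁ = [[1,-v],[N,ru]]` -/
def alG1 (N r : ℕ) (u v : ℤ) (h : (r : ℤ) * u + N * v = 1) : Gamma0 N :=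
  mkG N 1 (-v) N (r * u) (by linear_combination h) (dvd_refl _)

theorem mat_alG1 : mat (alG1 N r u v h) = !![1, -v; (N : ℤ), r * u] := rfl

theorem mat_g0 : mat (g0 N r u v h) = !![(r : ℤ), -v; (N : ℤ), u] := rfl

theorem exists_conjD_10 (η : Gamma0 (N * r)) :
    ∃ c : ℤ, mat (conjD N r η) 1 0 = N * c ∧ mat η 1 0 = r * (N * c) := by
  obtain ⟨c, hc⟩ := dvd_of_Gamma0_mul η
  have hr' : (r : ℤ) ≠ 0 := by exact_mod_cast NeZero.ne r
  refine ⟨c, ?_, hc⟩
  have h1 := mat_conjD_10 N r η
  have hc' : mat η 1 0 = r * (N * c) := hc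
  rw [hc'] at h1
  exact mul_left_cancel₀ hr' h1

theorem al_mem (η : Gamma0 (N * r)) :
    ((alG1 N r u v h * conjD N r η * (alG1 N r u v h)⁻¹ : Gamma0 N) : SL(2, ℤ)) ∈
      Gamma0 (N * r) := by
  apply mem_Gamma0_of_dvd
  obtain ⟨c, hc, -⟩ := exists_conjD_10 η
  show ((N * r : ℕ) : ℤ) ∣ mat (alG1 N r u v h * conjD N r η * (alG1 N r u v h)⁻¹) 1 0
  rw [mat_mul_inv_10, mat_mul_apply, mat_mul_apply, mat_alG1, hc]
  simp only [mat_conjD_00, mat_conjD_01, mat_conjD_11, Matrix.of_apply, Matrix.cons_val_zero,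
    Matrix.cons_val_one, Matrix.cons_val_fin_one]
  refine ⟨u * mat η 0 0 + r * u ^ 2 * c - N * mat η 0 1 - u * mat η 1 1, ?_⟩
  push_cast
  ring

/-- the Atkin-Lehner automorphism `η ↦ g₁ (δ η δ⁻¹) g₁⁻¹` of `Γ₀(N r)`. -/
def alHom (N r : ℕ) [NeZero r] (u v : ℤ) (h : (r : ℤ) * u + N * v = 1) :
    Gamma0 (N * r) →* Gamma0 (N * r) where
  toFun η := ⟨_, al_mem u v h η⟩
  map_one' := by
    apply Subtype.ext
    simp
  map_mul' a b := by
    apply Subtype.ext
    simp [mul_assoc]

/-- (AL2) -/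
theorem inclG_alHom (η : Gamma0 (N * r)) :
    inclG N r (alHom N r u v h η) = alG1 N r u v h * conjD N r η * (alG1 N r u v h)⁻¹ := rfl

/-- (AL1) -/
theorem conjD_alHom (η : Gamma0 (N * r)) :
    conjD N r (alHom N r u v h η) = g0 N r u v h * inclG N r η * (g0 N r u v h)⁻¹ := by
  have hr' : (r : ℤ) ≠ 0 := by exact_mod_cast NeZero.ne r
  obtain ⟨c, hc, hc'⟩ := exists_conjD_10 η
  have e : mat (alHom N r u v h η) =
      mat (alG1 N r u v h * conjD N r η * (alG1 N r u v h)⁻¹) := rfl
  apply mat_ext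
  · rw [mat_conjD_00, e]
    simp only [mat_mul_apply, mat_inv, mat_alG1, mat_g0, mat_inclG, hc, hc', mat_conjD_00,
      mat_conjD_01, mat_conjD_11, Matrix.of_apply, Matrix.cons_val_zero,
      Matrix.cons_val_one, Matrix.cons_val_fin_one]
    ring
  · rw [mat_conjD_01, e]
    simp only [mat_mul_apply, mat_inv, mat_alG1, mat_g0, mat_inclG, hc, hc', mat_conjD_00,
      mat_conjD_01, mat_conjD_11, Matrix.of_apply, Matrix.cons_val_zero,
      Matrix.cons_val_one, Matrix.cons_val_fin_one]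
    ring
  · apply mul_left_cancel₀ hr'
    rw [mat_conjD_10, e]
    simp only [mat_mul_apply, mat_inv, mat_alG1, mat_g0, mat_inclG, hc, hc', mat_conjD_00,
      mat_conjD_01, mat_conjD_11, Matrix.of_apply, Matrix.cons_val_zero,
      Matrix.cons_val_one, Matrix.cons_val_fin_one]
    ring
  · rw [mat_conjD_11, e]
    simp only [mat_mul_apply, mat_inv, mat_alG1, mat_g0, mat_inclG, hc, hc', mat_conjD_00,
      mat_conjD_01, mat_conjD_11, Matrix.of_apply, Matrix.cons_val_zero,
      Matrix.cons_val_one, Matrix.cons_val_fin_one]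
    ring

/-- `κ` with `δ κ δ⁻¹ = g₀ g₁`. -/
theorem exists_kappa : ∃ κ : Gamma0 (N * r), conjD N r κ = g0 N r u v h * alG1 N r u v h := by
  have : g0 N r u v h * alG1 N r u v h ∈ (conjD N r).range := by
    rw [mem_subD_iff', mat_mul_apply, mat_g0, mat_alG1]
    simp only [Matrix.of_apply, Matrix.cons_val_zero, Matrix.cons_val_one, Matrix.cons_val_fin_one]
    exact ⟨-v - v * u, by ring⟩
  exact this

theorem alHom_alHom {κ : Gamma0 (N * r)} (hκ : conjD N r κ = g0 N r u v h * alG1 N r u v h)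
    (η : Gamma0 (N * r)) : alHom N r u v h (alHom N r u v h η) = κ * η * κ⁻¹ := by
  apply conjD_injective N r
  rw [conjD_alHom, inclG_alHom, map_mul, map_mul, map_inv, hκ]
  group

theorem alHom_bijective : Bijective (alHom N r u v h) := by
  obtain ⟨κ, hκ⟩ := exists_kappa u v h
  have hb : Bijective ((alHom N r u v h) ∘ (alHom N r u v h)) := by
    have : (alHom N r u v h) ∘ (alHom N r u v h) = MulAut.conj κ := by
      funext η
      exact alHom_alHom u v h hκ η
    rw [this]
    exact (MulAut.conj κ).bijective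
  exact ⟨Injective.of_comp hb.1, Surjective.of_comp hb.2⟩

theorem range_finiteIndex_of_surjective {G G' : Type*} [Group G] [Group G'] (f : G' →* G)
    (hf : Surjective f) : f.range.FiniteIndex := by
  rw [MonoidHom.range_eq_top.mpr hf]
  infer_instance

variable {A : Type*} [AddCommGroup A]

/-- pull-back by the Atkin-Lehner automorphism -/
def alPull (N r : ℕ) [NeZero r] (u v : ℤ) (h : (r : ℤ) * u + N * v = 1)
    (Ψ : Additive (Gamma0 (N * r)) →+ A) : Additive (Gamma0 (N * r)) →+ A :=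
  Ψ.comp (MonoidHom.toAdditive (alHom N r u v h))

theorem alPull_apply (Ψ : Additive (Gamma0 (N * r)) →+ A) (η : Gamma0 (N * r)) :
    alPull N r u v h Ψ (Additive.ofMul η) = Ψ (Additive.ofMul (alHom N r u v h η)) := rfl

theorem alPull_alPull (Ψ : Additive (Gamma0 (N * r)) →+ A) :
    alPull N r u v h (alPull N r u v h Ψ) = Ψ := by
  obtain ⟨κ, hκ⟩ := exists_kappa u v h
  refine addHom_ext fun η => ?_
  rw [alPull_apply, alPull_apply, alHom_alHom u v h hκ]
  simp only [ofMul_mul, ofMul_inv, map_add, map_neg]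
  abel

theorem alPull_neg (Ψ : Additive (Gamma0 (N * r)) →+ A) :
    alPull N r u v h (-Ψ) = -alPull N r u v h Ψ := rfl

/-- (R') `cores Ψ = coresD (Ψ ∘ AL)`. -/
theorem cores_eq_coresD_alPull [NeZero (N * r)] (Ψ : Additive (Gamma0 (N * r)) →+ A) :
    cores N r Ψ = coresD N r (alPull N r u v h Ψ) := by
  have hb := alHom_bijective u v h
  haveI := range_finiteIndex_of_surjective (alHom N r u v h) hb.2
  haveI := range_finiteIndex_of_surjective (conjHom (alG1 N r u v h))
    (MulAut.conj (alG1 N r u v h)).surjective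
  haveI : ((inclG N r).comp (alHom N r u v h)).range.FiniteIndex :=
    finiteIndex_range_comp _ (inclG_injective _ _) _
  haveI : ((conjHom (alG1 N r u v h)).comp (conjD N r)).range.FiniteIndex :=
    finiteIndex_range_comp _ (conjHom_injective _) _
  rw [cores_eq_trHom, coresD_eq_trHom,
    ← trHom_comp_bij (inclG N r) (inclG_injective N r) (alHom N r u v h) hb
      ((inclG_injective N r).comp hb.1) Ψ,
    ← trHom_conj (conjD N r) (conjD_injective N r) (alG1 N r u v h)
      ((conjHom_injective _).comp (conjD_injective N r))]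
  exact trHom_congr (MonoidHom.ext fun η => inclG_alHom u v h η) _ _ _

/-- (R) `coresD Ψ = cores (Ψ ∘ AL)`. -/
theorem coresD_eq_cores_alPull [NeZero (N * r)] (Ψ : Additive (Gamma0 (N * r)) →+ A) :
    coresD N r Ψ = cores N r (alPull N r u v h Ψ) := by
  rw [cores_eq_coresD_alPull u v h, alPull_alPull]

theorem alPull_resD (Φ : Additive (Gamma0 N) →+ A) :
    alPull N r u v h (resD N r Φ) = res N r Φ := by
  refine addHom_ext fun η => ?_
  rw [alPull_apply, resD_apply, res_apply, conjD_alHom]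
  simp only [ofMul_mul, ofMul_inv, map_add, map_neg]
  abel

end AL

/-- **HC6** -/
theorem heckeHom_eq_heckeHomU {N r : ℕ} [NeZero r] [NeZero (N * r)] (hr : r.Prime)
    (hrN : ¬ r ∣ N) {A : Type*} [AddCommGroup A] (Φ : Additive (Gamma0 N) →+ A) :
    heckeHom N r Φ = heckeHomU N r Φ := by
  have hcop : IsCoprime (r : ℤ) (N : ℤ) :=
    Nat.isCoprime_iff_coprime.mpr ((Nat.Prime.coprime_iff_not_dvd hr).mpr hrN)
  obtain ⟨u, v, huv⟩ := hcop
  have h : (r : ℤ) * u + N * v = 1 := by linear_combination huv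
  show cores N r (resD N r Φ) = coresD N r (res N r Φ)
  rw [cores_eq_coresD_alPull u v h, alPull_resD]

end Fermat.Agent.S41Lib
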