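/-
S41, Hecke calculus part 7: `ker β ⊆ {U_r² = 1}`.
-/
import Fermat.Agent.S41.HC6

set_option autoImplicit false
set_option linter.unusedSectionVars false
set_option linter.style.haveILetI false

open scoped MatrixGroups
open CongruenceSubgroup Function

namespace Fermat.Agent.S41Lib

/-- from representatives of the left cosets `(ρ x)⁻¹ H` to a right family. -/
theorem right_family_of_mk_inv {G G' : Type*} [Group G] [Group G'] (j : G' →* G)
    (hj : Injective j) {ι : Type*} (ρ : ι → G)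
    (hρ : Bijective (fun x => (((ρ x)⁻¹ : G) : G ⧸ j.range))) :
    Bijective fun p : ι × G' => j p.2 * ρ p.1 := by
  constructor
  · rintro ⟨x, γ⟩ ⟨x', γ'⟩ hh
    simp only at hh
    have h1 : (((ρ x)⁻¹ : G) : G ⧸ j.range) = (((ρ x')⁻¹ : G) : G ⧸ j.range) := by
      rw [QuotientGroup.eq, inv_inv]
      refine ⟨γ⁻¹ * γ', ?_⟩
      rw [map_mul, map_inv]
      have : ρ x = (j γ)⁻¹ * (j γ' * ρ x') := by rw [← hh]; group
      rw [this]; group
    have h2 : x = x' := hρ.1 h1
    subst h2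
    have h3 : j γ = j γ' := mul_right_cancel hh
    rw [hj h3]
  · intro g
    obtain ⟨x, hx⟩ := hρ.2 ((g⁻¹ : G) : G ⧸ j.range)
    simp only at hx
    rw [QuotientGroup.eq, inv_inv] at hx
    obtain ⟨γ, hγ⟩ := hx
    refine ⟨(x, γ⁻¹), ?_⟩
    simp only
    rw [map_inv, hγ]; group

section F

variable {N r : ℕ} [NeZero r] [Fact r.Prime] (u v : ℤ) (h : (r : ℤ) * u + N * v = 1)
  {A : Type*} [AddCommGroup A]

theorem inclG_tauG (j : ℤ) : inclG N r (tauG (N * r) j) = tauG N j := rfl

theorem inclG_conjD (η : Gamma0 (N * r * r)) :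
    inclG N r (conjD (N * r) r η) = conjD N r (inclG (N * r) r η) := rfl

/-- (F) -/
theorem coresD_inclG (Ψ : Additive (Gamma0 (N * r)) →+ A) (γ : Gamma0 (N * r)) :
    coresD N r Ψ (Additive.ofMul (inclG N r γ)) =
      heckeHomU (N * r) r Ψ (Additive.ofMul γ) + Ψ (Additive.ofMul (alHom N r u v h γ)) := by
  classical
  set ρ' : ZMod r → Gamma0 (N * r) := fun x => tauG (N * r) x.val with hρ'def
  have hρ' := right_family_of_mk_inv (conjD (N * r) r) (conjD_injective _ _)
    ρ' (rep_U (Dvd.intro_left N rfl))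
  have hρ := right_family_of_mk_inv (conjD N r) (conjD_injective _ _)
    (rhoT N r u v h) (rep_T u v h)
  have hU : heckeHomU (N * r) r Ψ (Additive.ofMul γ) =
      ∑ x : ZMod r, Ψ (Additive.ofMul (inclG (N * r) r
        (repCoc (conjD (N * r) r) ρ' hρ' γ x))) := by
    show coresD (N * r) r (res (N * r) r Ψ) (Additive.ofMul γ) = _
    rw [coresD_eq_trHom, trHom_eq_sum_rep _ _ _ _ hρ' γ]
    rfl
  rw [hU, coresD_eq_trHom, trHom_eq_sum (conjD N r) _ Ψ (rhoT N r u v h) hρ (inclG N r γ)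
    (fun x => x.elim OnePoint.infty
      (fun j => ((repIdx (conjD (N * r) r) ρ' hρ' γ j : ZMod r) : OnePoint (ZMod r))))
    (fun x => x.elim (alHom N r u v h γ)
      (fun j => inclG (N * r) r (repCoc (conjD (N * r) r) ρ' hρ' γ j)))]
  · rw [add_comm]
    exact Fintype.sum_option _
  · intro x
    induction x using OnePoint.rec with
    | infty =>
      show g0 N r u v h * inclG N r γ = conjD N r (alHom N r u v h γ) * g0 N r u v h
      rw [conjD_alHom]
      group
    | coe j =>
      show tauG N j.val * inclG N r γ = conjD N r (inclG (N * r) r _) * tauG N _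
      have := congrArg (inclG N r) (rep_spec (conjD (N * r) r) ρ' hρ' γ j)
      rw [map_mul, map_mul, inclG_tauG, inclG_tauG, inclG_conjD] at this
      exact this

end F

/-- **HC7** -/
theorem heckeHomU_heckeHomU_of_ker {N r : ℕ} [NeZero r] [NeZero (N * r)] (hr : r.Prime)
    (hrN : ¬ r ∣ N) {A : Type*} [AddCommGroup A] (Ψ : Additive (Gamma0 (N * r)) →+ A)
    (h1 : cores N r Ψ = 0) (h2 : coresD N r Ψ = 0) :
    heckeHomU (N * r) r (heckeHomU (N * r) r Ψ) = Ψ := by
  haveI : Fact r.Prime := ⟨hr⟩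
  have hcop : IsCoprime (r : ℤ) (N : ℤ) :=
    Nat.isCoprime_iff_coprime.mpr ((Nat.Prime.coprime_iff_not_dvd hr).mpr hrN)
  obtain ⟨u, v, huv⟩ := hcop
  have h : (r : ℤ) * u + N * v = 1 := by linear_combination huv
  have key : ∀ Ψ' : Additive (Gamma0 (N * r)) →+ A, coresD N r Ψ' = 0 →
      heckeHomU (N * r) r Ψ' = -alPull N r u v h Ψ' := by
    intro Ψ' h0
    refine addHom_ext fun γ => ?_
    have := coresD_inclG u v h Ψ' γ
    rw [h0] at this
    rw [AddMonoidHom.neg_apply, alPull_apply]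
    exact eq_neg_of_add_eq_zero_left this.symm
  have h3 : coresD N r (alPull N r u v h Ψ) = 0 := by
    rw [← cores_eq_coresD_alPull u v h, h1]
  have hneg : ∀ Ψ' : Additive (Gamma0 (N * r)) →+ A,
      heckeHomU (N * r) r (-Ψ') = -heckeHomU (N * r) r Ψ' := by
    intro Ψ'
    show coresD (N * r) r (res (N * r) r (-Ψ')) = -coresD (N * r) r (res (N * r) r Ψ')
    rw [map_neg, coresD_eq_trHom, coresD_eq_trHom, trHom_neg]
  rw [key Ψ h2, hneg, key _ h3, alPull_alPull, neg_neg]

end Fermat.Agent.S41Lib
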