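import Fermat.Agent.S41.IharaGeneric

/-!
# S41 library (Ihara), leaf G2: `Γ₀(N)[1/r]` is generated by `Γ₀(N)` and `δ⁻¹ Γ₀(N) δ`
-/

set_option autoImplicit false

open scoped MatrixGroups
open CongruenceSubgroup

namespace Fermat.Agent.S41Lib

local notation "Mat2" => Matrix (Fin 2) (Fin 2)

/-- (a) a coprime column `(a, c)` with `N ∣ c` is the first column of an element of `Γ₀(N)`. -/
theorem exists_col {N : ℕ} {a c : ℤ} (h : IsCoprime a c) (hN : (N : ℤ) ∣ c) :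
    ∃ M : Gamma0 N, ((M : SL(2, ℤ)) : Mat2 ℤ) 0 0 = a ∧ ((M : SL(2, ℤ)) : Mat2 ℤ) 1 0 = c := by
  obtain ⟨u, v, huv⟩ := h
  let M : SL(2, ℤ) := ⟨!![a, -v; c, u], by rw [Matrix.det_fin_two_of]; linarith⟩
  refine ⟨⟨M, mem_Gamma0_of_dvd (by simpa [M] using hN)⟩, ?_, ?_⟩ <;> simp [M]

theorem SLQ_ext {g h : SL(2, ℚ)} (h00 : (g : Mat2 ℚ) 0 0 = (h : Mat2 ℚ) 0 0)
    (h01 : (g : Mat2 ℚ) 0 1 = (h : Mat2 ℚ) 0 1) (h10 : (g : Mat2 ℚ) 1 0 = (h : Mat2 ℚ) 1 0)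
    (h11 : (g : Mat2 ℚ) 1 1 = (h : Mat2 ℚ) 1 1) : g = h := by
  apply Subtype.ext
  ext i j
  fin_cases i <;> fin_cases j
  · exact h00
  · exact h01
  · exact h10
  · exact h11

theorem SLQ_mul_apply (g h : SL(2, ℚ)) (i j : Fin 2) :
    ((g * h : SL(2, ℚ)) : Mat2 ℚ) i j =
      (g : Mat2 ℚ) i 0 * (h : Mat2 ℚ) 0 j + (g : Mat2 ℚ) i 1 * (h : Mat2 ℚ) 1 j := by
  rw [Matrix.SpecialLinearGroup.coe_mul, Matrix.mul_apply, Fin.sum_univ_two]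

theorem SLQ_inv_00 (g : SL(2, ℚ)) : ((g⁻¹ : SL(2, ℚ)) : Mat2 ℚ) 0 0 = (g : Mat2 ℚ) 1 1 := by
  rw [Matrix.SpecialLinearGroup.SL2_inv_expl]; rfl
theorem SLQ_inv_01 (g : SL(2, ℚ)) : ((g⁻¹ : SL(2, ℚ)) : Mat2 ℚ) 0 1 = -(g : Mat2 ℚ) 0 1 := by
  rw [Matrix.SpecialLinearGroup.SL2_inv_expl]; rfl
theorem SLQ_inv_10 (g : SL(2, ℚ)) : ((g⁻¹ : SL(2, ℚ)) : Mat2 ℚ) 1 0 = -(g : Mat2 ℚ) 1 0 := by
  rw [Matrix.SpecialLinearGroup.SL2_inv_expl]; rfl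
theorem SLQ_inv_11 (g : SL(2, ℚ)) : ((g⁻¹ : SL(2, ℚ)) : Mat2 ℚ) 1 1 = (g : Mat2 ℚ) 0 0 := by
  rw [Matrix.SpecialLinearGroup.SL2_inv_expl]; rfl

/-- upper triangular matrices: natural powers -/
theorem ut_pow (p : SL(2, ℚ)) (h : (p : Mat2 ℚ) 1 0 = 0) (n : ℕ) :
    ((p ^ n : SL(2, ℚ)) : Mat2 ℚ) 1 0 = 0 ∧ ((p ^ n : SL(2, ℚ)) : Mat2 ℚ) 0 0 = (p : Mat2 ℚ) 0 0 ^ n := by
  induction n with
  | zero => simp
  | succ n ih =>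
    rw [pow_succ, SLQ_mul_apply, SLQ_mul_apply, ih.1, ih.2, h]
    constructor
    · ring
    · ring

theorem ut_inv (p : SL(2, ℚ)) (h : (p : Mat2 ℚ) 1 0 = 0) :
    ((p⁻¹ : SL(2, ℚ)) : Mat2 ℚ) 1 0 = 0 ∧ ((p⁻¹ : SL(2, ℚ)) : Mat2 ℚ) 0 0 = ((p : Mat2 ℚ) 0 0)⁻¹ := by
  rw [SLQ_inv_10, SLQ_inv_00, h]
  refine ⟨by simp, ?_⟩
  have hd := SLQ_det p
  rw [h, mul_zero, sub_zero] at hd
  exact eq_inv_of_mul_eq_one_right hd

/-- upper triangular matrices: integer powers -/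
theorem ut_zpow (p : SL(2, ℚ)) (h : (p : Mat2 ℚ) 1 0 = 0) (k : ℤ) :
    ((p ^ k : SL(2, ℚ)) : Mat2 ℚ) 1 0 = 0 ∧ ((p ^ k : SL(2, ℚ)) : Mat2 ℚ) 0 0 = (p : Mat2 ℚ) 0 0 ^ k := by
  obtain ⟨n, rfl | rfl⟩ := k.eq_nat_or_neg
  · rw [zpow_natCast, zpow_natCast]
    exact ut_pow p h n
  · rw [zpow_neg, zpow_natCast, zpow_neg, zpow_natCast]
    have h1 := ut_pow p h n
    have h2 := ut_inv (p ^ n) h1.1
    rw [h1.2] at h2
    exact h2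

/-- conjugating `x(t)` by an upper triangular matrix -/
theorem ut_conj_xq (p : SL(2, ℚ)) (h : (p : Mat2 ℚ) 1 0 = 0) (t : ℚ) :
    p * xq t * p⁻¹ = xq ((p : Mat2 ℚ) 0 0 ^ 2 * t) := by
  have hd := SLQ_det p
  rw [h, mul_zero, sub_zero] at hd
  apply SLQ_ext
  · rw [SLQ_mul_apply, SLQ_mul_apply, SLQ_mul_apply, SLQ_inv_00, SLQ_inv_10, h]
    simp only [xq_coe, Matrix.of_apply, Matrix.cons_val_zero, Matrix.cons_val_one,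
      Matrix.cons_val_fin_one]
    linear_combination hd
  · rw [SLQ_mul_apply, SLQ_mul_apply, SLQ_mul_apply, SLQ_inv_01, SLQ_inv_11]
    simp only [xq_coe, Matrix.of_apply, Matrix.cons_val_zero, Matrix.cons_val_one,
      Matrix.cons_val_fin_one]
    ring
  · rw [SLQ_mul_apply, SLQ_mul_apply, SLQ_mul_apply, SLQ_inv_00, SLQ_inv_10, h]
    simp only [xq_coe, Matrix.of_apply, Matrix.cons_val_zero, Matrix.cons_val_one,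
      Matrix.cons_val_fin_one]
    ring
  · rw [SLQ_mul_apply, SLQ_mul_apply, SLQ_mul_apply, SLQ_inv_01, SLQ_inv_11, h]
    simp only [xq_coe, Matrix.of_apply, Matrix.cons_val_zero, Matrix.cons_val_one,
      Matrix.cons_val_fin_one]
    linear_combination hd

/-- two matrices with the same first column differ by an `x(t)` -/
theorem eq_mul_xq_of_col (P g : SL(2, ℚ)) (h0 : (P : Mat2 ℚ) 0 0 = (g : Mat2 ℚ) 0 0)
    (h1 : (P : Mat2 ℚ) 1 0 = (g : Mat2 ℚ) 1 0) :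
    g = P * xq ((P : Mat2 ℚ) 1 1 * (g : Mat2 ℚ) 0 1 - (P : Mat2 ℚ) 0 1 * (g : Mat2 ℚ) 1 1) := by
  have hP := SLQ_det P
  have hg := SLQ_det g
  apply SLQ_ext
  · rw [SLQ_mul_apply]
    simp only [xq_coe, Matrix.of_apply, Matrix.cons_val_zero, Matrix.cons_val_one,
      Matrix.cons_val_fin_one]
    rw [h0]; ring
  · rw [SLQ_mul_apply]
    simp only [xq_coe, Matrix.of_apply, Matrix.cons_val_zero, Matrix.cons_val_one,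
      Matrix.cons_val_fin_one]
    rw [h0] at hP ⊢
    rw [h1] at hP
    linear_combination (-(g : Mat2 ℚ) 0 1) * hP + (P : Mat2 ℚ) 0 1 * hg
  · rw [SLQ_mul_apply]
    simp only [xq_coe, Matrix.of_apply, Matrix.cons_val_zero, Matrix.cons_val_one,
      Matrix.cons_val_fin_one]
    rw [h1]; ring
  · rw [SLQ_mul_apply]
    simp only [xq_coe, Matrix.of_apply, Matrix.cons_val_zero, Matrix.cons_val_one,
      Matrix.cons_val_fin_one]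
    rw [h0, h1] at hP
    rw [h1]
    linear_combination (-(g : Mat2 ℚ) 1 1) * hP + (P : Mat2 ℚ) 1 1 * hg

/-- (b) the first column of an element of `Γ₀(N)[1/r]` is `r ^ k (a₀, c₀)` with `(a₀, c₀)`
coprime and `N ∣ c₀`. -/
theorem exists_primitive_col {N r : ℕ} (hr : r.Prime) (hrN : ¬ r ∣ N) (g : SL(2, ℚ))
    (hg : (g : Mat2 ℚ) ∈ MatR r) (hc : ∃ c ∈ Rr r, (g : Mat2 ℚ) 1 0 = N * c) :
    ∃ (k : ℤ) (a₀ c₀ : ℤ), IsCoprime a₀ c₀ ∧ (N : ℤ) ∣ c₀ ∧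
      (g : Mat2 ℚ) 0 0 = (r : ℚ) ^ k * a₀ ∧ (g : Mat2 ℚ) 1 0 = (r : ℚ) ^ k * c₀ := by
  have hr0 : (r : ℚ) ≠ 0 := by exact_mod_cast hr.ne_zero
  have hg' := mem_MatR.mp hg
  obtain ⟨k1, a, ha⟩ := hg' 0 0
  obtain ⟨k2, b, hb⟩ := hg' 0 1
  obtain ⟨k4, e, he⟩ := hg' 1 1
  obtain ⟨c, ⟨k3, c', hc'⟩, hgc⟩ := hc
  -- common exponent `K = k1 + k3` for the first column
  set a1 : ℤ := a * r ^ k3 with ha1
  set c1 : ℤ := N * (c' * r ^ k1) with hc1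
  have hA : (g : Mat2 ℚ) 0 0 * (r : ℚ) ^ (k1 + k3) = a1 := by
    rw [ha1]; push_cast; rw [← ha]; ring
  have hC : (g : Mat2 ℚ) 1 0 * (r : ℚ) ^ (k1 + k3) = c1 := by
    rw [hc1, hgc]; push_cast; rw [← hc']; ring
  have hdet : a1 * (e * r ^ k2) - (b * r ^ k4) * c1 = (r : ℤ) ^ (k1 + k3 + k2 + k4) := by
    have h := SLQ_det g
    have : ((a1 * (e * r ^ k2) - (b * r ^ k4) * c1 : ℤ) : ℚ) = (((r : ℤ) ^ (k1 + k3 + k2 + k4) : ℤ) : ℚ) := by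
      push_cast
      rw [← hA, ← hC, ← he, ← hb]
      linear_combination ((r : ℚ) ^ (k1 + k3 + k2 + k4)) * h
    exact_mod_cast this
  have hgd : ((Int.gcd a1 c1 : ℕ) : ℤ) ∣ (r : ℤ) ^ (k1 + k3 + k2 + k4) := by
    rw [← hdet]
    exact dvd_sub (Dvd.dvd.mul_right (Int.gcd_dvd_left ..) _) (Dvd.dvd.mul_left (Int.gcd_dvd_right ..) _)
  have hgd' : Int.gcd a1 c1 ∣ r ^ (k1 + k3 + k2 + k4) := by exact_mod_cast hgd
  obtain ⟨j, -, hj⟩ := (Nat.dvd_prime_pow hr).mp hgd'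
  have hpos : 0 < Int.gcd a1 c1 := by rw [hj]; exact pow_pos hr.pos j
  obtain ⟨a₀, c₀, hcop, e1, e2⟩ := Int.exists_gcd_one hpos
  rw [hj] at e1 e2
  refine ⟨(j : ℤ) - ((k1 + k3 : ℕ) : ℤ), a₀, c₀, Int.isCoprime_iff_gcd_eq_one.mpr hcop, ?_, ?_, ?_⟩
  · have hcop' : IsCoprime (N : ℤ) (((r ^ j : ℕ) : ℤ)) := by
      push_cast
      apply IsCoprime.pow_right
      rw [Nat.isCoprime_iff_coprime]
      exact ((Nat.Prime.coprime_iff_not_dvd hr).mpr hrN).symm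
    apply hcop'.dvd_of_dvd_mul_right
    rw [← e2, hc1]
    exact Dvd.intro _ rfl
  · rw [zpow_sub₀ hr0, zpow_natCast, zpow_natCast]
    have : (a1 : ℚ) = a₀ * (r : ℚ) ^ j := by rw [e1]; push_cast; ring
    rw [this] at hA
    field_simp
    linear_combination hA
  · rw [zpow_sub₀ hr0, zpow_natCast, zpow_natCast]
    have : (c1 : ℚ) = c₀ * (r : ℚ) ^ j := by rw [e2]; push_cast; ring
    rw [this] at hC
    field_simp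
    linear_combination hC

/-- **G2**: `Γ₀(N)[1/r]` is generated by `Γ₀(N)` and `δ⁻¹ Γ₀(N) δ`. -/
theorem GR_le_closure {N r : ℕ} (hr : r.Prime) (hrN : ¬ r ∣ N) (hrr : (r : ℚ)⁻¹ * r = 1)
    (g : SL(2, ℚ)) (hg : (g : Mat2 ℚ) ∈ MatR r) (hc : ∃ c ∈ Rr r, (g : Mat2 ℚ) 1 0 = N * c) :
    g ∈ Subgroup.closure (Set.range (fun γ : Gamma0 N => toQ (γ : SL(2, ℤ))) ∪
      Set.range (fun γ : Gamma0 N => conjQ (r : ℚ)⁻¹ r hrr (toQ (γ : SL(2, ℤ))))) := by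
  set 𝒞 := Subgroup.closure (Set.range (fun γ : Gamma0 N => toQ (γ : SL(2, ℤ))) ∪
      Set.range (fun γ : Gamma0 N => conjQ (r : ℚ)⁻¹ r hrr (toQ (γ : SL(2, ℤ))))) with h𝒞
  have hr0 : (r : ℚ) ≠ 0 := by exact_mod_cast hr.ne_zero
  have hmem1 : ∀ γ : Gamma0 N, toQ (γ : SL(2, ℤ)) ∈ 𝒞 :=
    fun γ => Subgroup.subset_closure (Or.inl ⟨γ, rfl⟩)
  have hmem2 : ∀ γ : Gamma0 N, conjQ (r : ℚ)⁻¹ r hrr (toQ (γ : SL(2, ℤ))) ∈ 𝒞 :=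
    fun γ => Subgroup.subset_closure (Or.inr ⟨γ, rfl⟩)
  -- the element `η`
  have hcopr : IsCoprime (r : ℤ) (N : ℤ) := by
    rw [Nat.isCoprime_iff_coprime]
    exact (Nat.Prime.coprime_iff_not_dvd hr).mpr hrN
  obtain ⟨γ2, h200, h210⟩ := exists_col (N := N) hcopr (dvd_refl _)
  have hyz : yz (-(N : ℤ)) ∈ Gamma0 N := by
    apply mem_Gamma0_of_dvd; simp [yz_coe]
  set η : SL(2, ℚ) := toQ (yz (-(N : ℤ))) * conjQ (r : ℚ)⁻¹ r hrr (toQ (γ2 : SL(2, ℤ))) with hη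
  have hη𝒞 : η ∈ 𝒞 := 𝒞.mul_mem (hmem1 ⟨_, hyz⟩) (hmem2 γ2)
  have hη10 : (η : Mat2 ℚ) 1 0 = 0 := by
    rw [hη, SLQ_mul_apply, toQ_yz, conjQ_coe]
    simp only [yq_coe, Matrix.of_apply, Matrix.cons_val_zero, Matrix.cons_val_one,
      Matrix.cons_val_fin_one, toQ_apply, h200, h210]
    push_cast
    ring
  have hη00 : (η : Mat2 ℚ) 0 0 = r := by
    rw [hη, SLQ_mul_apply, toQ_yz, conjQ_coe]
    simp only [yq_coe, Matrix.of_apply, Matrix.cons_val_zero, Matrix.cons_val_one,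
      Matrix.cons_val_fin_one, toQ_apply, h200, h210]
    push_cast
    ring
  have hηR : η ∈ GamR r := by
    apply (GamR r).mul_mem (toQ_mem_GamR r _)
    rw [mem_GamR, mem_MatR, conjQ_coe]
    have hinv : (r : ℚ)⁻¹ ∈ Rr r := by simpa using inv_pow_mem_Rr hr.ne_zero 1
    intro i j
    fin_cases i <;> fin_cases j
    · exact intCast_mem_Rr r _
    · exact (Rr r).mul_mem hinv (intCast_mem_Rr r _)
    · exact (Rr r).mul_mem (natCast_mem_Rr r r) (intCast_mem_Rr r _)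
    · exact intCast_mem_Rr r _
  obtain ⟨k, a₀, c₀, hcop, hNc, hg00, hg10⟩ := exists_primitive_col hr hrN g hg hc
  obtain ⟨M, hM00, hM10⟩ := exists_col hcop hNc
  set P : SL(2, ℚ) := toQ (M : SL(2, ℤ)) * η ^ k with hP
  have hηk := ut_zpow η hη10 k
  have hP00 : (P : Mat2 ℚ) 0 0 = (g : Mat2 ℚ) 0 0 := by
    rw [hP, SLQ_mul_apply, hηk.1, hηk.2, hη00, toQ_apply, hM00, hg00]; ring
  have hP10 : (P : Mat2 ℚ) 1 0 = (g : Mat2 ℚ) 1 0 := by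
    rw [hP, SLQ_mul_apply, hηk.1, hηk.2, hη00, toQ_apply, hM10, hg10]; ring
  have hP𝒞 : P ∈ 𝒞 := 𝒞.mul_mem (hmem1 M) (𝒞.zpow_mem hη𝒞 k)
  have hPR : P ∈ GamR r := (GamR r).mul_mem (toQ_mem_GamR r _) ((GamR r).zpow_mem hηR k)
  have hgP := eq_mul_xq_of_col P g hP00 hP10
  set t : ℚ := (P : Mat2 ℚ) 1 1 * (g : Mat2 ℚ) 0 1 - (P : Mat2 ℚ) 0 1 * (g : Mat2 ℚ) 1 1 with ht
  have htR : t ∈ Rr r := by
    have h1 := mem_MatR.mp (mem_GamR.mp hPR)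
    have h2 := mem_MatR.mp hg
    exact (Rr r).sub_mem ((Rr r).mul_mem (h1 1 1) (h2 0 1)) ((Rr r).mul_mem (h1 0 1) (h2 1 1))
  obtain ⟨m, a, hta⟩ := htR
  have hxz : ∀ b : ℤ, xz b ∈ Gamma0 N := by
    intro b; apply mem_Gamma0_of_dvd; simp [xz_coe]
  have hxt : xq t = η ^ (-(m : ℤ)) * toQ (xz (a * r ^ m)) * (η ^ (-(m : ℤ)))⁻¹ := by
    have hηm := ut_zpow η hη10 (-(m : ℤ))
    rw [toQ_xz, ut_conj_xq _ hηm.1, hηm.2, hη00]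
    congr 1
    push_cast
    rw [← hta, zpow_neg, zpow_natCast]
    field_simp
  rw [hgP, hxt]
  exact 𝒞.mul_mem hP𝒞 (𝒞.mul_mem (𝒞.mul_mem (𝒞.zpow_mem hη𝒞 _) (hmem1 ⟨_, hxz _⟩))
    (𝒞.inv_mem (𝒞.zpow_mem hη𝒞 _)))

end Fermat.Agent.S41Lib
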