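import Fermat.Agent.S41.IharaInt
import Fermat.Agent.S41.IharaTransfer
import Fermat.Agent.S41.IharaDefs2

/-!
# S41 library (Ihara): the generic transfer computation
-/

set_option autoImplicit false

open scoped MatrixGroups
open CongruenceSubgroup ModularCurve.Period

namespace Fermat.Agent.S41Lib

/-- unipotent elements of `Γ₀(N)[1/r]` -/
def UG (r N : ℕ) : Set SL(2, ℚ) :=
  {g | (g : Matrix (Fin 2) (Fin 2) ℚ).trace = 2 ∧ (g : Matrix (Fin 2) (Fin 2) ℚ) ∈ MatR r ∧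
    ∃ c ∈ Rr r, (g : Matrix (Fin 2) (Fin 2) ℚ) 1 0 = N * c}

/-- the subgroup generated by the unipotent elements of `Γ₀(N)[1/r]` -/
def UGc (r N : ℕ) : Subgroup SL(2, ℚ) := Subgroup.closure (UG r N)

/-- `Φ` kills the integral matrices which are products of unipotents of `Γ₀(N)[1/r]`. -/
def KillsU (r N : ℕ) {A : Type*} [AddCommGroup A] (Φ : Additive (Gamma0 N) →+ A) : Prop :=
  ∀ γ : Gamma0 N, toQ (γ : SL(2, ℤ)) ∈ UGc r N → Φ (Additive.ofMul γ) = 0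

theorem Un_subset_UG {r N n : ℕ} (h : N ∣ n) : Un r n ⊆ UG r N := by
  rintro g ⟨ht, M, hM, hg⟩
  obtain ⟨n', rfl⟩ := h
  refine ⟨ht, ?_, (n' : ℚ) * M 1 0, (Rr r).mul_mem (natCast_mem_Rr r n') (mem_MatR.mp hM 1 0), ?_⟩
  · rw [hg]
    exact (MatR r).add_mem (MatR r).one_mem (smul_mem_MatR (natCast_mem_Rr r _) hM)
  · rw [hg]; simp; ring

theorem Qn_le_UGc {r N n : ℕ} (h : N ∣ n) : Qn r n ≤ UGc r N :=
  Subgroup.closure_mono (Un_subset_UG h)

theorem EZ_le_Gamma0 (N : ℕ) : EZ N ≤ Gamma0 N := by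
  rw [EZ, Subgroup.closure_le]
  rintro g (⟨a, rfl⟩ | ⟨a, rfl⟩)
  · apply mem_Gamma0_of_dvd; simp [xz_coe]
  · apply mem_Gamma0_of_dvd; simp [yz_coe]

theorem Qn_cong {r n : ℕ} {g : SL(2, ℚ)} (hg : g ∈ Qn r n) :
    ∃ M ∈ MatR r, (g : Matrix (Fin 2) (Fin 2) ℚ) = 1 + (n : ℚ) • M := by
  induction hg using Subgroup.closure_induction with
  | mem x hx => exact hx.2
  | one => exact ⟨0, (MatR r).zero_mem, by simp⟩
  | mul x y _ _ hx hy =>
    obtain ⟨M, hM, hx⟩ := hx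
    obtain ⟨M', hM', hy⟩ := hy
    refine ⟨M + M' + (n : ℚ) • (M * M'), (MatR r).add_mem ((MatR r).add_mem hM hM')
      (smul_mem_MatR (natCast_mem_Rr r _) ((MatR r).mul_mem hM hM')), ?_⟩
    rw [Matrix.SpecialLinearGroup.coe_mul, hx, hy]
    simp only [mul_add, add_mul, mul_one, one_mul, Matrix.smul_mul, Matrix.mul_smul, smul_add]
    abel
  | inv x _ hx =>
    obtain ⟨M, hM, hx⟩ := hx
    have hM' := mem_MatR.mp hM
    refine ⟨!![M 1 1, -M 0 1; -M 1 0, M 0 0], ?_, ?_⟩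
    · rw [mem_MatR]
      intro i j
      fin_cases i <;> fin_cases j
      · exact hM' 1 1
      · exact (Rr r).neg_mem (hM' 0 1)
      · exact (Rr r).neg_mem (hM' 1 0)
      · exact hM' 0 0
    · have h00 : (x : Matrix (Fin 2) (Fin 2) ℚ) 0 0 = 1 + n * M 0 0 := by rw [hx]; simp
      have h01 : (x : Matrix (Fin 2) (Fin 2) ℚ) 0 1 = n * M 0 1 := by rw [hx]; simp
      have h10 : (x : Matrix (Fin 2) (Fin 2) ℚ) 1 0 = n * M 1 0 := by rw [hx]; simp
      have h11 : (x : Matrix (Fin 2) (Fin 2) ℚ) 1 1 = 1 + n * M 1 1 := by rw [hx]; simp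
      rw [Matrix.SpecialLinearGroup.SL2_inv_expl]
      ext i j
      fin_cases i <;> fin_cases j
      · simpa using h11
      · simpa using h01
      · simpa using h10
      · simpa using h00

theorem QZ_le_Gamma0 {r n : ℕ} (h : Nat.Coprime n r) : QZ r n ≤ Gamma0 n := by
  intro g hg
  obtain ⟨M, hM, hgM⟩ := Qn_cong (mem_QZ.mp hg)
  obtain ⟨k, a, hka⟩ := mem_MatR.mp hM 1 0
  apply mem_Gamma0_of_dvd
  have h1 : (((g : Matrix (Fin 2) (Fin 2) ℤ) 1 0 : ℤ) : ℚ) = n * M 1 0 := by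
    rw [← toQ_apply, hgM]; simp
  have h2 : (g : Matrix (Fin 2) (Fin 2) ℤ) 1 0 * (r : ℤ) ^ k = n * a := by
    have : (((g : Matrix (Fin 2) (Fin 2) ℤ) 1 0 : ℤ) : ℚ) * (r : ℚ) ^ k = n * a := by
      rw [h1, ← hka]; ring
    exact_mod_cast this
  have hcop : IsCoprime (n : ℤ) ((r : ℤ) ^ k) :=
    IsCoprime.pow_right (Nat.isCoprime_iff_coprime.mpr h)
  exact hcop.dvd_of_dvd_mul_right ⟨a, h2⟩

theorem SLQ_det (g : SL(2, ℚ)) : (g : Matrix (Fin 2) (Fin 2) ℚ) 0 0 * (g : Matrix (Fin 2) (Fin 2) ℚ) 1 1 -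
    (g : Matrix (Fin 2) (Fin 2) ℚ) 0 1 * (g : Matrix (Fin 2) (Fin 2) ℚ) 1 0 = 1 := by
  have := g.2; rwa [Matrix.det_fin_two] at this

theorem SLZ_det (g : SL(2, ℤ)) : (g : Matrix (Fin 2) (Fin 2) ℤ) 0 0 * (g : Matrix (Fin 2) (Fin 2) ℤ) 1 1 -
    (g : Matrix (Fin 2) (Fin 2) ℤ) 0 1 * (g : Matrix (Fin 2) (Fin 2) ℤ) 1 0 = 1 := by
  have := g.2; rwa [Matrix.det_fin_two] at this

/-- the matrix `[[a,tb],[sc,d]]` -/
def conjQMat (t s : ℚ) (M : Matrix (Fin 2) (Fin 2) ℚ) : Matrix (Fin 2) (Fin 2) ℚ :=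
  !![M 0 0, t * M 0 1; s * M 1 0, M 1 1]

theorem conjQMat_det (t s : ℚ) (h : t * s = 1) (M : Matrix (Fin 2) (Fin 2) ℚ) :
    (conjQMat t s M).det = M.det := by
  rw [conjQMat, Matrix.det_fin_two_of, Matrix.det_fin_two]
  linear_combination (- M 0 1 * M 1 0) * h

theorem conjQMat_mul (t s : ℚ) (h : t * s = 1) (M M' : Matrix (Fin 2) (Fin 2) ℚ) :
    conjQMat t s (M * M') = conjQMat t s M * conjQMat t s M' := by
  ext i j
  fin_cases i <;> fin_cases j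
  · simp only [conjQMat, Matrix.mul_apply, Fin.sum_univ_two, Fin.zero_eta, Fin.isValue,
      Matrix.of_apply, Matrix.cons_val_zero, Matrix.cons_val_one, Matrix.cons_val_fin_one]
    linear_combination (-M 0 1 * M' 1 0) * h
  · simp only [conjQMat, Matrix.mul_apply, Fin.sum_univ_two, Fin.zero_eta, Fin.isValue,
      Fin.mk_one, Matrix.of_apply, Matrix.cons_val_zero, Matrix.cons_val_one,
      Matrix.cons_val_fin_one]
    ring
  · simp only [conjQMat, Matrix.mul_apply, Fin.sum_univ_two, Fin.zero_eta, Fin.isValue,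
      Fin.mk_one, Matrix.of_apply, Matrix.cons_val_zero, Matrix.cons_val_one,
      Matrix.cons_val_fin_one]
    ring
  · simp only [conjQMat, Matrix.mul_apply, Fin.sum_univ_two, Fin.isValue,
      Fin.mk_one, Matrix.of_apply, Matrix.cons_val_zero, Matrix.cons_val_one,
      Matrix.cons_val_fin_one]
    linear_combination (-M 1 0 * M' 0 1) * h

/-- conjugation by `diag(t,1)` on `SL₂(ℚ)` (`s = t⁻¹`): `[[a,b],[c,d]] ↦ [[a,tb],[sc,d]]`. -/
def conjQ (t s : ℚ) (h : t * s = 1) : SL(2, ℚ) →* SL(2, ℚ) where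
  toFun g := ⟨conjQMat t s (g : Matrix (Fin 2) (Fin 2) ℚ), by rw [conjQMat_det t s h]; exact g.2⟩
  map_one' := by
    apply Subtype.ext
    show conjQMat t s ((1 : SL(2, ℚ)) : Matrix (Fin 2) (Fin 2) ℚ) = 1
    ext i j; fin_cases i <;> fin_cases j <;> simp [conjQMat]
  map_mul' g g' := by
    apply Subtype.ext
    exact conjQMat_mul t s h _ _

theorem conjQ_coe (t s : ℚ) (h : t * s = 1) (g : SL(2, ℚ)) :
    (conjQ t s h g : Matrix (Fin 2) (Fin 2) ℚ) =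
      !![(g : Matrix (Fin 2) (Fin 2) ℚ) 0 0, t * (g : Matrix (Fin 2) (Fin 2) ℚ) 0 1;
      s * (g : Matrix (Fin 2) (Fin 2) ℚ) 1 0, (g : Matrix (Fin 2) (Fin 2) ℚ) 1 1] := rfl

theorem toQ_conjD (N t : ℕ) [NeZero t] (γ : Gamma0 (N * t)) :
    toQ ((conjD N t γ : Gamma0 N) : SL(2, ℤ)) =
      conjQ (t : ℚ) (t : ℚ)⁻¹ (mul_inv_cancel₀ (by exact_mod_cast NeZero.ne t))
        (toQ ((γ : Gamma0 (N * t)) : SL(2, ℤ))) := by
  have ht' : (t : ℤ) ≠ 0 := by exact_mod_cast NeZero.ne t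
  have ht'' : (t : ℚ) ≠ 0 := by exact_mod_cast NeZero.ne t
  obtain ⟨c, hc⟩ := dvd_of_Gamma0_mul γ
  apply Subtype.ext
  ext i j
  rw [toQ_apply, conjD_coe, conjQ_coe]
  fin_cases i <;> fin_cases j
  · simp [conjDMat, toQ_apply]
  · simp [conjDMat, toQ_apply]
  · simp only [conjDMat, toQ_apply, Fin.zero_eta, Fin.isValue,
        Fin.mk_one, Matrix.of_apply, Matrix.cons_val_zero, Matrix.cons_val_one,
        Matrix.cons_val_fin_one]
    rw [hc, Int.mul_ediv_cancel_left _ ht']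
    push_cast
    field_simp
  · simp [conjDMat, toQ_apply]

end Fermat.Agent.S41Lib
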