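import Fermat.Agent.S41.IharaTr

/-!
# S41 library (Ihara): instantiating the generic transfer computation
-/

set_option autoImplicit false

open scoped MatrixGroups
open CongruenceSubgroup ModularCurve.Period

namespace Fermat.Agent.S41Lib

theorem conjQ_conjQ (t s : ℚ) (h : t * s = 1) (h' : s * t = 1) (g : SL(2, ℚ)) :
    conjQ s t h' (conjQ t s h g) = g := by
  apply Subtype.ext
  rw [conjQ_coe, conjQ_coe]
  ext i j
  fin_cases i <;> fin_cases j
  · simp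
  · simp only [Fin.zero_eta, Fin.isValue, Fin.mk_one, Matrix.of_apply, Matrix.cons_val_zero,
      Matrix.cons_val_one, Matrix.cons_val_fin_one]
    rw [← mul_assoc, h', one_mul]
  · simp only [Fin.zero_eta, Fin.isValue, Fin.mk_one, Matrix.of_apply, Matrix.cons_val_zero,
      Matrix.cons_val_one, Matrix.cons_val_fin_one]
    rw [← mul_assoc, h, one_mul]
  · simp

theorem conjQ_xq (t s : ℚ) (h : t * s = 1) (a : ℚ) : conjQ t s h (xq a) = xq (t * a) := by
  apply Subtype.ext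
  rw [conjQ_coe, xq_coe, xq_coe]
  ext i j
  fin_cases i <;> fin_cases j <;> simp

theorem conjQ_yq (t s : ℚ) (h : t * s = 1) (a : ℚ) : conjQ t s h (yq a) = yq (s * a) := by
  apply Subtype.ext
  rw [conjQ_coe, yq_coe, yq_coe]
  ext i j
  fin_cases i <;> fin_cases j <;> simp

section

variable {N W r : ℕ} {t s : ℚ} (h : t * s = 1)

theorem conjQ_mem_UG (htW : t * W ∈ Rr r) (hsW : s * W ∈ Rr r) {g : SL(2, ℚ)}
    (hg : g ∈ Un r (N * W)) : conjQ t s h g ∈ UG r N := by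
  obtain ⟨htr, M, hM, hgM⟩ := hg
  have hM' := mem_MatR.mp hM
  have h00 : (g : Matrix (Fin 2) (Fin 2) ℚ) 0 0 = 1 + N * W * M 0 0 := by rw [hgM]; simp
  have h01 : (g : Matrix (Fin 2) (Fin 2) ℚ) 0 1 = N * W * M 0 1 := by rw [hgM]; simp
  have h10 : (g : Matrix (Fin 2) (Fin 2) ℚ) 1 0 = N * W * M 1 0 := by rw [hgM]; simp
  have h11 : (g : Matrix (Fin 2) (Fin 2) ℚ) 1 1 = 1 + N * W * M 1 1 := by rw [hgM]; simp
  have hNW : (N : ℚ) * W ∈ Rr r := (Rr r).mul_mem (natCast_mem_Rr r N) (natCast_mem_Rr r W)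
  refine ⟨?_, ?_, s * W * M 1 0, (Rr r).mul_mem hsW (hM' 1 0), ?_⟩
  · rw [conjQ_coe, Matrix.trace_fin_two_of, ← htr, Matrix.trace_fin_two]
  · rw [mem_MatR, conjQ_coe]
    intro i j
    fin_cases i <;> fin_cases j
    · show (g : Matrix (Fin 2) (Fin 2) ℚ) 0 0 ∈ Rr r
      rw [h00]; exact (Rr r).add_mem (Rr r).one_mem ((Rr r).mul_mem hNW (hM' 0 0))
    · show t * (g : Matrix (Fin 2) (Fin 2) ℚ) 0 1 ∈ Rr r
      rw [h01]
      have : t * (N * W * M 0 1) = N * ((t * W) * M 0 1) := by ring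
      rw [this]
      exact (Rr r).mul_mem (natCast_mem_Rr r N) ((Rr r).mul_mem htW (hM' 0 1))
    · show s * (g : Matrix (Fin 2) (Fin 2) ℚ) 1 0 ∈ Rr r
      rw [h10]
      have : s * (N * W * M 1 0) = N * ((s * W) * M 1 0) := by ring
      rw [this]
      exact (Rr r).mul_mem (natCast_mem_Rr r N) ((Rr r).mul_mem hsW (hM' 1 0))
    · show (g : Matrix (Fin 2) (Fin 2) ℚ) 1 1 ∈ Rr r
      rw [h11]; exact (Rr r).add_mem (Rr r).one_mem ((Rr r).mul_mem hNW (hM' 1 1))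
  · rw [conjQ_coe]
    show s * (g : Matrix (Fin 2) (Fin 2) ℚ) 1 0 = _
    rw [h10]; ring

theorem conjQ_mem_UGc (htW : t * W ∈ Rr r) (hsW : s * W ∈ Rr r) {g : SL(2, ℚ)}
    (hg : g ∈ Qn r (N * W)) : conjQ t s h g ∈ UGc r N := by
  have : Qn r (N * W) ≤ (UGc r N).comap (conjQ t s h) := by
    rw [Qn, Subgroup.closure_le]
    intro x hx
    exact Subgroup.subset_closure (conjQ_mem_UG h htW hsW hx)
  exact this hg

theorem conjQ_EZ (ht1 : ∃ u ∈ Rr r, (t - 1) * W = N * u) (hs1 : ∃ u ∈ Rr r, (s - 1) * W = N * u)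
    {g : SL(2, ℤ)} (hg : g ∈ EZ W) : conjQ t s h (toQ g) * (toQ g)⁻¹ ∈ Qn r N := by
  obtain ⟨u, hu, htu⟩ := ht1
  obtain ⟨u', hu', hsu⟩ := hs1
  induction hg using Subgroup.closure_induction with
  | mem x hx =>
    rcases hx with ⟨a, rfl⟩ | ⟨a, rfl⟩
    · rw [toQ_xz, conjQ_xq, ← xq_neg, ← xq_add]
      have : t * ((W * a : ℤ) : ℚ) + -((W * a : ℤ) : ℚ) = N * (u * a) := by
        push_cast; linear_combination (a : ℚ) * htu
      rw [this]
      exact Subgroup.subset_closure (xq_mem_Un ((Rr r).mul_mem hu (intCast_mem_Rr r a)))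
    · rw [toQ_yz, conjQ_yq, ← yq_neg, ← yq_add]
      have : s * ((W * a : ℤ) : ℚ) + -((W * a : ℤ) : ℚ) = N * (u' * a) := by
        push_cast; linear_combination (a : ℚ) * hsu
      rw [this]
      exact Subgroup.subset_closure (yq_mem_Un ((Rr r).mul_mem hu' (intCast_mem_Rr r a)))
  | one => simp
  | mul x y _ _ ihx ihy =>
    have e : conjQ t s h (toQ (x * y)) * (toQ (x * y))⁻¹ =
        (conjQ t s h (toQ x) * (toQ x)⁻¹) *
          (toQ x * (conjQ t s h (toQ y) * (toQ y)⁻¹) * (toQ x)⁻¹) := by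
      simp only [map_mul]; group
    rw [e]
    exact (Qn r N).mul_mem ihx (conj_mem_Qn (toQ_mem_GamR r x) ihy)
  | inv x _ ihx =>
    have e : conjQ t s h (toQ x⁻¹) * (toQ x⁻¹)⁻¹ =
        (toQ x⁻¹) * (conjQ t s h (toQ x) * (toQ x)⁻¹)⁻¹ * (toQ x⁻¹)⁻¹ := by
      simp only [map_inv]; group
    rw [e]
    exact conj_mem_Qn (toQ_mem_GamR r x⁻¹) ((Qn r N).inv_mem ihx)

end

end Fermat.Agent.S41Lib
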