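import Fermat.Agent.S41.IharaUnip

/-!
# S41 library (Ihara): the integral side — `E_N`, `E_W` commute modulo `Q(NW)`
-/

set_option autoImplicit false

open scoped MatrixGroups

namespace Fermat.Agent.S41Lib

/-- upper unipotent over `ℤ` -/
def xz (s : ℤ) : SL(2, ℤ) := ⟨!![1, s; 0, 1], by simp [Matrix.det_fin_two_of]⟩

/-- lower unipotent over `ℤ` -/
def yz (t : ℤ) : SL(2, ℤ) := ⟨!![1, 0; t, 1], by simp [Matrix.det_fin_two_of]⟩

theorem xz_coe (s : ℤ) : (xz s : Matrix (Fin 2) (Fin 2) ℤ) = !![1, s; 0, 1] := rfl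
theorem yz_coe (t : ℤ) : (yz t : Matrix (Fin 2) (Fin 2) ℤ) = !![1, 0; t, 1] := rfl

theorem toQ_xz (s : ℤ) : toQ (xz s) = xq s := by
  apply Subtype.ext
  ext i j
  rw [toQ_apply, xz_coe, xq_coe]
  fin_cases i <;> fin_cases j <;> simp

theorem toQ_yz (s : ℤ) : toQ (yz s) = yq s := by
  apply Subtype.ext
  ext i j
  rw [toQ_apply, yz_coe, yq_coe]
  fin_cases i <;> fin_cases j <;> simp

theorem xz_add (s s' : ℤ) : xz (s + s') = xz s * xz s' := by
  apply toQ_injective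
  rw [map_mul, toQ_xz, toQ_xz, toQ_xz, ← xq_add]; push_cast; rfl

theorem yz_add (s s' : ℤ) : yz (s + s') = yz s * yz s' := by
  apply toQ_injective
  rw [map_mul, toQ_yz, toQ_yz, toQ_yz, ← yq_add]; push_cast; rfl

theorem xz_zero : xz 0 = 1 := by
  apply toQ_injective; rw [toQ_xz, map_one]; exact_mod_cast xq_zero

theorem yz_zero : yz 0 = 1 := by
  apply toQ_injective; rw [toQ_yz, map_one]; exact_mod_cast yq_zero

/-- `xz` as a homomorphism -/
def xzHom : Multiplicative ℤ →* SL(2, ℤ) where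
  toFun a := xz (Multiplicative.toAdd a)
  map_one' := xz_zero
  map_mul' _ _ := xz_add _ _

/-- `yz` as a homomorphism -/
def yzHom : Multiplicative ℤ →* SL(2, ℤ) where
  toFun a := yz (Multiplicative.toAdd a)
  map_one' := yz_zero
  map_mul' _ _ := yz_add _ _

theorem xz_mul (j s : ℤ) : xz (j * s) = xz s ^ j := by
  have := map_zpow xzHom (Multiplicative.ofAdd s) j
  rw [← ofAdd_zsmul] at this
  rw [mul_comm]; simpa [xzHom] using this

theorem yz_mul (j s : ℤ) : yz (j * s) = yz s ^ j := by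
  have := map_zpow yzHom (Multiplicative.ofAdd s) j
  rw [← ofAdd_zsmul] at this
  rw [mul_comm]; simpa [yzHom] using this

theorem xz_neg (s : ℤ) : xz (-s) = (xz s)⁻¹ := by
  rw [eq_inv_iff_mul_eq_one, ← xz_add, neg_add_cancel, xz_zero]

theorem yz_neg (s : ℤ) : yz (-s) = (yz s)⁻¹ := by
  rw [eq_inv_iff_mul_eq_one, ← yz_add, neg_add_cancel, yz_zero]

/-- the integral matrices lying in `Qn r n` -/
def QZ (r n : ℕ) : Subgroup SL(2, ℤ) := (Qn r n).comap toQ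

theorem mem_QZ {r n : ℕ} {g : SL(2, ℤ)} : g ∈ QZ r n ↔ toQ g ∈ Qn r n := Iff.rfl

instance QZ_normal (r n : ℕ) : (QZ r n).Normal := by
  constructor
  intro g hg γ
  rw [mem_QZ, map_mul, map_mul, map_inv]
  exact conj_mem_Qn (toQ_mem_GamR r γ) hg

theorem xz_mem_QZ (r n : ℕ) (a : ℤ) : xz (n * a) ∈ QZ r n := by
  rw [mem_QZ, toQ_xz]
  push_cast
  exact Subgroup.subset_closure (xq_mem_Un (intCast_mem_Rr r a))

theorem yz_mem_QZ (r n : ℕ) (a : ℤ) : yz (n * a) ∈ QZ r n := by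
  rw [mem_QZ, toQ_yz]
  push_cast
  exact Subgroup.subset_closure (yq_mem_Un (intCast_mem_Rr r a))

/-- the projection to `SL₂(ℤ)/QZ` -/
abbrev prQ (r n : ℕ) : SL(2, ℤ) →* SL(2, ℤ) ⧸ QZ r n := QuotientGroup.mk' (QZ r n)

theorem prQ_eq_one {r n : ℕ} {g : SL(2, ℤ)} : prQ r n g = 1 ↔ g ∈ QZ r n :=
  QuotientGroup.eq_one_iff g

theorem prQ_xz_of {r n : ℕ} {s s₀ j c : ℤ} (h : s = j * s₀ + n * c) :
    prQ r n (xz s) = prQ r n (xz s₀) ^ j := by
  rw [h, xz_add, map_mul, prQ_eq_one.mpr (xz_mem_QZ r n c), mul_one, xz_mul, map_zpow]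

theorem prQ_yz_of {r n : ℕ} {s s₀ j c : ℤ} (h : s = j * s₀ + n * c) :
    prQ r n (yz s) = prQ r n (yz s₀) ^ j := by
  rw [h, yz_add, map_mul, prQ_eq_one.mpr (yz_mem_QZ r n c), mul_one, yz_mul, map_zpow]

/-- the basic commutation, from the unit `r ^ k = 1 + s t`. -/
theorem commute_prQ_base {r n k : ℕ} (hr : r ≠ 0) (s t m : ℤ) (h : (r : ℤ) ^ k = 1 + s * t)
    (hn : s * t = n * m) : Commute (prQ r n (xz s)) (prQ r n (yz t)) := by
  have h1 : xz s * yz t * (xz s)⁻¹ * (yz t)⁻¹ ∈ QZ r n := by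
    rw [mem_QZ]
    simp only [map_mul, map_inv, toQ_xz, toQ_yz]
    exact comm_mem_Qn hr s t m h hn
  have h2 := prQ_eq_one.mpr h1
  simp only [map_mul, map_inv] at h2
  show _ * _ = _ * _
  have h3 := mul_inv_eq_one.mp h2
  exact mul_inv_eq_iff_eq_mul.mp h3

theorem exists_unit_factor {N W r : ℕ} (hN : N ≠ 0) (hW : W.Prime) (hWN : ¬ W ∣ N)
    (hr : r.Prime) (hrN : ¬ r ∣ N) (hrW : W ≠ r) :
    ∃ (k : ℕ) (s₀ t₀ m s₁ t₁ : ℤ), (r : ℤ) ^ k = 1 + s₀ * t₀ ∧ s₀ * t₀ = ((N * W : ℕ) : ℤ) * m ∧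
      s₀ = N * s₁ ∧ IsCoprime s₁ (W : ℤ) ∧ t₀ = W * t₁ ∧ IsCoprime t₁ (N : ℤ) := by
  have hn0 : N * W ≠ 0 := Nat.mul_ne_zero hN hW.ne_zero
  have hcop : Nat.Coprime r (N * W) := by
    apply Nat.Coprime.mul_right
    · exact (Nat.Prime.coprime_iff_not_dvd hr).mpr hrN
    · exact (Nat.coprime_primes hr hW).mpr (Ne.symm hrW)
  have hmod := Nat.ModEq.pow_totient hcop
  set k := Nat.totient (N * W) with hk
  have hkpos : 0 < k := Nat.totient_pos.mpr (Nat.pos_of_ne_zero hn0)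
  have hge : 2 ≤ r ^ k := by
    calc 2 ≤ r := hr.two_le
      _ = r ^ 1 := (pow_one r).symm
      _ ≤ r ^ k := Nat.pow_le_pow_right hr.pos hkpos
  have hdvd : N * W ∣ r ^ k - 1 := (Nat.modEq_iff_dvd' (by omega)).mp hmod.symm
  have hM0 : r ^ k - 1 ≠ 0 := by omega
  obtain ⟨e, M', hWM', hM⟩ := Nat.exists_eq_pow_mul_and_not_dvd hM0 W hW.ne_one
  have hWdvd : W ∣ r ^ k - 1 := (Dvd.intro_left N rfl).trans hdvd
  have he : e ≠ 0 := by
    rintro rfl
    rw [pow_zero, one_mul] at hM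
    exact hWM' (hM ▸ hWdvd)
  obtain ⟨e', rfl⟩ := Nat.exists_eq_succ_of_ne_zero he
  rw [Nat.succ_eq_add_one] at hM
  have hNW : Nat.Coprime N W := ((Nat.Prime.coprime_iff_not_dvd hW).mpr hWN).symm
  have hNM' : N ∣ M' := by
    have h1 : N ∣ W ^ (e' + 1) * M' := hM ▸ (Dvd.intro _ rfl).trans hdvd
    exact (Nat.Coprime.pow_right _ hNW).dvd_of_dvd_mul_left h1
  obtain ⟨s₁, rfl⟩ := hNM'
  obtain ⟨m, hm⟩ := hdvd
  have hWs₁ : ¬ W ∣ s₁ := fun h => hWM' (h.mul_left N)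
  refine ⟨k, (N * s₁ : ℕ), (W ^ (e' + 1) : ℕ), m, s₁, (W ^ e' : ℕ), ?_, ?_, by push_cast; ring, ?_,
    by push_cast; ring, ?_⟩
  · have : r ^ k = 1 + (N * s₁) * W ^ (e' + 1) := by
      have : r ^ k = 1 + (r ^ k - 1) := by omega
      rw [this, hM]; ring
    exact_mod_cast this
  · have : (N * s₁) * W ^ (e' + 1) = N * W * m := by rw [← hm, hM]; ring
    exact_mod_cast this
  · exact Nat.isCoprime_iff_coprime.mpr ((Nat.Prime.coprime_iff_not_dvd hW).mpr hWs₁).symm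
  · exact Nat.isCoprime_iff_coprime.mpr (Nat.Coprime.pow_left _ hNW.symm)


/-- generators of `EZ M` -/
def EZgen (M : ℕ) : Set SL(2, ℤ) :=
  Set.range (fun a : ℤ => xz (M * a)) ∪ Set.range (fun a : ℤ => yz (M * a))

/-- the subgroup of `SL₂(ℤ)` generated by the elementary matrices `≡ 1 mod M` -/
def EZ (M : ℕ) : Subgroup SL(2, ℤ) := Subgroup.closure (EZgen M)

theorem xz_mem_EZ (M : ℕ) (a : ℤ) : xz (M * a) ∈ EZ M :=
  Subgroup.subset_closure (Or.inl ⟨a, rfl⟩)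

theorem yz_mem_EZ (M : ℕ) (a : ℤ) : yz (M * a) ∈ EZ M :=
  Subgroup.subset_closure (Or.inr ⟨a, rfl⟩)

theorem commute_of_closure {G : Type*} [Group G] {S T : Set G}
    (h : ∀ s ∈ S, ∀ t ∈ T, Commute s t) :
    ∀ a ∈ Subgroup.closure S, ∀ b ∈ Subgroup.closure T, Commute a b := by
  intro a ha b hb
  induction ha using Subgroup.closure_induction with
  | mem x hx =>
    induction hb using Subgroup.closure_induction with
    | mem y hy => exact h x hx y hy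
    | one => exact Commute.one_right x
    | mul y z _ _ hy hz => exact hy.mul_right hz
    | inv y _ hy => exact hy.inv_right
  | one => exact Commute.one_left b
  | mul x y _ _ hx hy => exact hx.mul_left hy
  | inv x _ hx => exact hx.inv_left

section
variable {N W r : ℕ} (hN : N ≠ 0) (hW : W.Prime) (hWN : ¬ W ∣ N)
    (hr : r.Prime) (hrN : ¬ r ∣ N) (hrW : W ≠ r)
include hN hW hWN hr hrN hrW

theorem commute_gen (g : SL(2, ℤ)) (hg : g ∈ EZgen N) (g' : SL(2, ℤ)) (hg' : g' ∈ EZgen W) :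
    Commute (prQ r (N * W) g) (prQ r (N * W) g') := by
  obtain ⟨k, s₀, t₀, m, s₁, t₁, hk, hm, hs, ⟨p, q, hpq⟩, ht, ⟨p', q', hpq'⟩⟩ :=
    exists_unit_factor hN hW hWN hr hrN hrW
  have hN' : ∀ a : ℤ, (N : ℤ) * a = (a * p) * s₀ + ((N * W : ℕ) : ℤ) * (a * q) := by
    intro a; rw [hs]; push_cast; linear_combination (-(N : ℤ) * a) * hpq
  have hW' : ∀ a : ℤ, (W : ℤ) * a = (a * p') * t₀ + ((N * W : ℕ) : ℤ) * (a * q') := by
    intro a; rw [ht]; push_cast; linear_combination (-(W : ℤ) * a) * hpq'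
  have b1 : Commute (prQ r (N * W) (xz s₀)) (prQ r (N * W) (yz t₀)) :=
    commute_prQ_base hr.ne_zero s₀ t₀ m hk hm
  have b2 : Commute (prQ r (N * W) (xz t₀)) (prQ r (N * W) (yz s₀)) :=
    commute_prQ_base hr.ne_zero t₀ s₀ m (by rw [hk]; ring) (by rw [← hm]; ring)
  rcases hg with ⟨a, rfl⟩ | ⟨a, rfl⟩ <;> rcases hg' with ⟨b, rfl⟩ | ⟨b, rfl⟩
  · show _ * _ = _ * _
    simp only [← map_mul, ← xz_add, add_comm]
  · simp only
    rw [prQ_xz_of (hN' a), prQ_yz_of (hW' b)]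
    exact (b1.zpow_left _).zpow_right _
  · simp only
    rw [prQ_yz_of (hN' a), prQ_xz_of (hW' b)]
    exact ((b2.zpow_left _).zpow_right _).symm
  · show _ * _ = _ * _
    simp only [← map_mul, ← yz_add, add_comm]

theorem commute_EZ (g : SL(2, ℤ)) (hg : g ∈ EZ N) (g' : SL(2, ℤ)) (hg' : g' ∈ EZ W) :
    Commute (prQ r (N * W) g) (prQ r (N * W) g') := by
  have key := commute_of_closure (G := SL(2, ℤ) ⧸ QZ r (N * W))
    (S := prQ r (N * W) '' EZgen N) (T := prQ r (N * W) '' EZgen W) (by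
      rintro _ ⟨x, hx, rfl⟩ _ ⟨y, hy, rfl⟩
      exact commute_gen hN hW hWN hr hrN hrW x hx y hy)
  rw [← MonoidHom.map_closure, ← MonoidHom.map_closure] at key
  exact key _ (Subgroup.mem_map_of_mem _ hg) _ (Subgroup.mem_map_of_mem _ hg')

end


theorem S_eq_xyx : ModularGroup.S = xz (-1) * yz 1 * xz (-1) := by
  apply Subtype.ext
  rw [Matrix.SpecialLinearGroup.coe_mul, Matrix.SpecialLinearGroup.coe_mul, ModularGroup.coe_S,
    xz_coe, yz_coe]
  ext i j; fin_cases i <;> fin_cases j <;> simp [Matrix.mul_apply, Fin.sum_univ_two]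

theorem T_eq_xz : ModularGroup.T = xz 1 := by
  apply Subtype.ext
  rw [ModularGroup.coe_T, xz_coe]

section
variable {N W r : ℕ} (hN : N ≠ 0) (hW : W.Prime) (hWN : ¬ W ∣ N)
    (hr : r.Prime) (hrN : ¬ r ∣ N) (hrW : W ≠ r)
include hN hW hWN hr hrN hrW

/-- every integral matrix is `e_W e_N q`. -/
theorem exists_decomp (γ : SL(2, ℤ)) :
    ∃ eW ∈ EZ W, ∃ eN ∈ EZ N, ∃ q ∈ QZ r (N * W), γ = eW * eN * q := by
  -- reformulate in the quotient
  suffices h : ∃ eW ∈ EZ W, ∃ eN ∈ EZ N, prQ r (N * W) γ = prQ r (N * W) eW * prQ r (N * W) eN by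
    obtain ⟨eW, hW', eN, hN', h⟩ := h
    refine ⟨eW, hW', eN, hN', (eW * eN)⁻¹ * γ, ?_, by group⟩
    rw [← prQ_eq_one, map_mul, map_inv, map_mul, h, inv_mul_cancel]
  have hcomm := commute_EZ (r := r) hN hW hWN hr hrN hrW
  have hcop : IsCoprime (W : ℤ) (N : ℤ) :=
    Nat.isCoprime_iff_coprime.mpr ((Nat.Prime.coprime_iff_not_dvd hW).mpr hWN)
  obtain ⟨p, q, hpq⟩ := hcop
  have hx : ∀ a : ℤ, ∃ eW ∈ EZ W, ∃ eN ∈ EZ N, xz a = eW * eN := fun a =>
    ⟨xz (W * (a * p)), xz_mem_EZ W _, xz (N * (a * q)), xz_mem_EZ N _, by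
      rw [← xz_add]; congr 1; linear_combination (-a) * hpq⟩
  have hy : ∀ a : ℤ, ∃ eW ∈ EZ W, ∃ eN ∈ EZ N, yz a = eW * eN := fun a =>
    ⟨yz (W * (a * p)), yz_mem_EZ W _, yz (N * (a * q)), yz_mem_EZ N _, by
      rw [← yz_add]; congr 1; linear_combination (-a) * hpq⟩
  have hmul : ∀ g g' : SL(2, ℤ),
      (∃ eW ∈ EZ W, ∃ eN ∈ EZ N, prQ r (N * W) g = prQ r (N * W) eW * prQ r (N * W) eN) →
      (∃ eW ∈ EZ W, ∃ eN ∈ EZ N, prQ r (N * W) g' = prQ r (N * W) eW * prQ r (N * W) eN) →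
      (∃ eW ∈ EZ W, ∃ eN ∈ EZ N,
        prQ r (N * W) (g * g') = prQ r (N * W) eW * prQ r (N * W) eN) := by
    rintro g g' ⟨w, hw, n, hn, h⟩ ⟨w', hw', n', hn', h'⟩
    refine ⟨w * w', (EZ W).mul_mem hw hw', n * n', (EZ N).mul_mem hn hn', ?_⟩
    have hc : prQ r (N * W) n * prQ r (N * W) w' = prQ r (N * W) w' * prQ r (N * W) n :=
      hcomm n hn w' hw'
    rw [map_mul, h, h', map_mul, map_mul]
    calc _ = prQ r (N * W) w * (prQ r (N * W) n * prQ r (N * W) w') * prQ r (N * W) n' := by group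
      _ = prQ r (N * W) w * (prQ r (N * W) w' * prQ r (N * W) n) * prQ r (N * W) n' := by rw [hc]
      _ = _ := by group
  have hx' : ∀ a : ℤ, ∃ eW ∈ EZ W, ∃ eN ∈ EZ N,
      prQ r (N * W) (xz a) = prQ r (N * W) eW * prQ r (N * W) eN := fun a => by
    obtain ⟨w, hw, n, hn, h⟩ := hx a
    exact ⟨w, hw, n, hn, by rw [h, map_mul]⟩
  have hy' : ∀ a : ℤ, ∃ eW ∈ EZ W, ∃ eN ∈ EZ N,
      prQ r (N * W) (yz a) = prQ r (N * W) eW * prQ r (N * W) eN := fun a => by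
    obtain ⟨w, hw, n, hn, h⟩ := hy a
    exact ⟨w, hw, n, hn, by rw [h, map_mul]⟩
  have hγ : γ ∈ Subgroup.closure {ModularGroup.S, ModularGroup.T} := by
    rw [SpecialLinearGroup.SL2Z_generators]; trivial
  induction hγ using Subgroup.closure_induction with
  | mem x hx0 =>
    rcases hx0 with rfl | rfl
    · rw [S_eq_xyx]
      exact hmul _ _ (hmul _ _ (hx' _) (hy' _)) (hx' _)
    · rw [T_eq_xz]; exact hx' 1
  | one => exact ⟨1, (EZ W).one_mem, 1, (EZ N).one_mem, by simp⟩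
  | mul x y _ _ hx0 hy0 => exact hmul _ _ hx0 hy0
  | inv x _ hx0 =>
    obtain ⟨w, hw, n, hn, h⟩ := hx0
    refine ⟨w⁻¹, (EZ W).inv_mem hw, n⁻¹, (EZ N).inv_mem hn, ?_⟩
    have hc : prQ r (N * W) n * prQ r (N * W) w = prQ r (N * W) w * prQ r (N * W) n :=
      hcomm n hn w hw
    rw [map_inv, h, map_inv, map_inv, ← hc, mul_inv_rev]

end


end Fermat.Agent.S41Lib
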