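import Fermat.Agent.S41.IharaGen

/-!
# S41 library (Ihara): from a potential to `KillsU`
-/

set_option autoImplicit false

open scoped MatrixGroups
open CongruenceSubgroup ModularCurve.Period Matrix

namespace Fermat.Agent.S41Lib

local notation "Mat2" => Matrix (Fin 2) (Fin 2)

section Good

variable {A : Type*} [AddCommGroup A] (L : (Fin 2 → ℚ) → A → Prop)

/-- `g` shifts the potential by `a`. -/
def Good (g : SL(2, ℚ)) (a : A) : Prop := ∀ v x, L v x → L ((g : Mat2 ℚ) *ᵥ v) (x + a)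

variable {L}

theorem Good_one : Good L 1 0 := by
  intro v x h
  simpa using h

theorem Good_mul {g g' : SL(2, ℚ)} {a a' : A} (h : Good L g a) (h' : Good L g' a') :
    Good L (g * g') (a + a') := by
  intro v x hx
  have := h _ _ (h' _ _ hx)
  rw [Matrix.mulVec_mulVec, ← Matrix.SpecialLinearGroup.coe_mul] at this
  have e : x + (a + a') = x + a' + a := by abel
  rw [e]; exact this

theorem Good_pow {g : SL(2, ℚ)} {a : A} (h : Good L g a) (n : ℕ) : Good L (g ^ n) (n • a) := by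
  induction n with
  | zero => simpa using Good_one
  | succ n ih => rw [pow_succ, succ_nsmul]; exact Good_mul ih h

theorem Good_unique (hu : ∀ v x x', L v x → L v x' → x = x') (he : L ![1, 0] 0)
    {g : SL(2, ℚ)} {a a' : A} (h : Good L g a) (h' : Good L g a') : a = a' := by
  have := hu _ _ _ (h _ _ he) (h' _ _ he)
  simpa using this

variable (L)

/-- the subgroup of elements shifting the potential by a constant -/
def SS : Subgroup SL(2, ℚ) where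
  carrier := {g | ∃ a, Good L g a ∧ Good L g⁻¹ (-a)}
  one_mem' := ⟨0, Good_one, by simpa using Good_one⟩
  mul_mem' := by
    rintro g g' ⟨a, h1, h2⟩ ⟨a', h1', h2'⟩
    refine ⟨a + a', Good_mul h1 h1', ?_⟩
    rw [_root_.mul_inv_rev, neg_add_rev]
    exact Good_mul h2' h2
  inv_mem' := by
    rintro g ⟨a, h1, h2⟩
    exact ⟨-a, h2, by simpa using h1⟩

end Good

/-- Cayley–Hamilton for trace 2 -/
theorem unip_pow (g : SL(2, ℚ)) (h : (g : Mat2 ℚ).trace = 2) (n : ℕ) :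
    ((g ^ n : SL(2, ℚ)) : Mat2 ℚ) 0 0 = 1 + n * ((g : Mat2 ℚ) 0 0 - 1) ∧
    ((g ^ n : SL(2, ℚ)) : Mat2 ℚ) 0 1 = n * (g : Mat2 ℚ) 0 1 ∧
    ((g ^ n : SL(2, ℚ)) : Mat2 ℚ) 1 0 = n * (g : Mat2 ℚ) 1 0 ∧
    ((g ^ n : SL(2, ℚ)) : Mat2 ℚ) 1 1 = 1 + n * ((g : Mat2 ℚ) 1 1 - 1) := by
  have hdet := SLQ_det g
  rw [Matrix.trace_fin_two] at h
  induction n with
  | zero => simp
  | succ n ih =>
    obtain ⟨i0, i1, i2, i3⟩ := ih
    rw [pow_succ, SLQ_mul_apply, SLQ_mul_apply, SLQ_mul_apply, SLQ_mul_apply, i0, i1, i2, i3]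
    push_cast
    refine ⟨?_, ?_, ?_, ?_⟩
    · linear_combination (n : ℚ) * (g : Mat2 ℚ) 0 0 * h - (n : ℚ) * hdet
    · linear_combination (n : ℚ) * (g : Mat2 ℚ) 0 1 * h
    · linear_combination (n : ℚ) * (g : Mat2 ℚ) 1 0 * h
    · linear_combination (n : ℚ) * (g : Mat2 ℚ) 1 1 * h - (n : ℚ) * hdet

theorem exists_toQ (g : SL(2, ℚ)) (a b c d : ℤ) (h00 : (g : Mat2 ℚ) 0 0 = a)
    (h01 : (g : Mat2 ℚ) 0 1 = b) (h10 : (g : Mat2 ℚ) 1 0 = c) (h11 : (g : Mat2 ℚ) 1 1 = d) :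
    ∃ γ : SL(2, ℤ), toQ γ = g ∧ (γ : Mat2 ℤ) = !![a, b; c, d] := by
  have hdet := SLQ_det g
  rw [h00, h01, h10, h11] at hdet
  have hdet' : a * d - b * c = 1 := by exact_mod_cast hdet
  let γ : SL(2, ℤ) := ⟨!![a, b; c, d], by rw [Matrix.det_fin_two_of]; exact hdet'⟩
  refine ⟨γ, ?_, rfl⟩
  apply SLQ_ext
  · rw [h00]; rfl
  · rw [h01]; rfl
  · rw [h10]; rfl
  · rw [h11]; rfl

theorem mul_pow_int {r : ℕ} {q : ℚ} {k : ℕ} {a : ℤ} (h : q * (r : ℚ) ^ k = a) (l : ℕ) :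
    ∃ b : ℤ, q * (r : ℚ) ^ (k + l) = b :=
  ⟨a * (r : ℤ) ^ l, by rw [pow_add, ← mul_assoc, h]; push_cast; ring⟩

theorem UG_pow {r N : ℕ} {π : SL(2, ℚ)} (hπ : π ∈ UG r N) :
    ∃ (k : ℕ) (γ : Gamma0 N), π ^ (r ^ k) = toQ (γ : SL(2, ℤ)) ∧
      ((γ : SL(2, ℤ)) : Mat2 ℤ).trace = 2 := by
  obtain ⟨htr, hM, c, hc, h10⟩ := hπ
  have hM' := mem_MatR.mp hM
  obtain ⟨k0, a0, h0⟩ := hM' 0 0
  obtain ⟨k1, a1, h1⟩ := hM' 0 1
  obtain ⟨k2, a2, h2⟩ := hc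
  obtain ⟨k3, a3, h3⟩ := hM' 1 1
  set k := k0 + k1 + k2 + k3 with hk
  obtain ⟨b0, hb0⟩ : ∃ b : ℤ, (π : Mat2 ℚ) 0 0 * (r : ℚ) ^ k = b := by
    have := mul_pow_int h0 (k1 + k2 + k3)
    rwa [show k0 + (k1 + k2 + k3) = k by omega] at this
  obtain ⟨b1, hb1⟩ : ∃ b : ℤ, (π : Mat2 ℚ) 0 1 * (r : ℚ) ^ k = b := by
    have := mul_pow_int h1 (k0 + k2 + k3)
    rwa [show k1 + (k0 + k2 + k3) = k by omega] at this
  obtain ⟨b2, hb2⟩ : ∃ b : ℤ, c * (r : ℚ) ^ k = b := by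
    have := mul_pow_int h2 (k0 + k1 + k3)
    rwa [show k2 + (k0 + k1 + k3) = k by omega] at this
  obtain ⟨b3, hb3⟩ : ∃ b : ℤ, (π : Mat2 ℚ) 1 1 * (r : ℚ) ^ k = b := by
    have := mul_pow_int h3 (k0 + k1 + k2)
    rwa [show k3 + (k0 + k1 + k2) = k by omega] at this
  obtain ⟨γ, hγ, hγM⟩ := exists_toQ (π ^ (r ^ k)) (1 + (b0 - (r : ℤ) ^ k)) b1 (N * b2)
    (1 + (b3 - (r : ℤ) ^ k))
    (by rw [(unip_pow π htr _).1]; push_cast; rw [← hb0]; ring)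
    (by rw [(unip_pow π htr _).2.1]; push_cast; rw [← hb1]; ring)
    (by rw [(unip_pow π htr _).2.2.1]; push_cast; rw [← hb2, h10]; ring)
    (by rw [(unip_pow π htr _).2.2.2]; push_cast; rw [← hb3]; ring)
  refine ⟨k, ⟨γ, mem_Gamma0_of_dvd (by rw [hγM]; exact ⟨b2, rfl⟩)⟩, hγ.symm, ?_⟩
  show (γ : Mat2 ℤ).trace = 2
  rw [hγM, Matrix.trace_fin_two_of]
  rw [Matrix.trace_fin_two] at htr
  have : ((b0 + b3 : ℤ) : ℚ) = 2 * (r : ℚ) ^ k := by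
    push_cast; rw [← hb0, ← hb3, ← add_mul, htr]
  have h' : b0 + b3 = 2 * (r : ℤ) ^ k := by exact_mod_cast this
  linarith

theorem UG_inv {r N : ℕ} {π : SL(2, ℚ)} (hπ : π ∈ UG r N) : π⁻¹ ∈ UG r N := by
  obtain ⟨htr, hM, c, hc, h10⟩ := hπ
  refine ⟨?_, (GamR r).inv_mem hM, -c, (Rr r).neg_mem hc, ?_⟩
  · rw [Matrix.trace_fin_two, SLQ_inv_00, SLQ_inv_11, add_comm, ← Matrix.trace_fin_two, htr]
  · rw [SLQ_inv_10, h10]; ring

theorem conjQ_UG {r N : ℕ} (hr : r ≠ 0) (hrr : (r : ℚ)⁻¹ * r = 1) {π : SL(2, ℚ)}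
    (hπ : π ∈ UG r N) : conjQ (r : ℚ)⁻¹ r hrr π ∈ UG r N := by
  obtain ⟨htr, hM, c, hc, h10⟩ := hπ
  have hM' := mem_MatR.mp hM
  have hri : (r : ℚ)⁻¹ ∈ Rr r := by simpa using inv_pow_mem_Rr hr 1
  refine ⟨?_, ?_, r * c, (Rr r).mul_mem (natCast_mem_Rr r r) hc, ?_⟩
  · rw [conjQ_coe, Matrix.trace_fin_two_of, ← htr, Matrix.trace_fin_two]
  · rw [mem_MatR, conjQ_coe]
    intro i j
    fin_cases i <;> fin_cases j
    · exact hM' 0 0
    · exact (Rr r).mul_mem hri (hM' 0 1)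
    · exact (Rr r).mul_mem (natCast_mem_Rr r r) (hM' 1 0)
    · exact hM' 1 1
  · rw [conjQ_coe]
    show (r : ℚ) * (π : Mat2 ℚ) 1 0 = _
    rw [h10]; ring

theorem conjQ_UGc {r N : ℕ} (hr : r ≠ 0) (hrr : (r : ℚ)⁻¹ * r = 1) {g : SL(2, ℚ)}
    (hg : g ∈ UGc r N) : conjQ (r : ℚ)⁻¹ r hrr g ∈ UGc r N := by
  have : UGc r N ≤ (UGc r N).comap (conjQ (r : ℚ)⁻¹ r hrr) := by
    rw [UGc, Subgroup.closure_le]
    intro x hx
    exact Subgroup.subset_closure (conjQ_UG hr hrr hx)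
  exact this hg

theorem pow_nsmul_eq_zero {A : Type*} [AddCommGroup A] {r : ℕ} (hA : ∀ a : A, r • a = 0 → a = 0)
    (k : ℕ) (a : A) (h : (r ^ k) • a = 0) : a = 0 := by
  induction k with
  | zero => simpa using h
  | succ k ih =>
    apply ih
    apply hA
    rw [← mul_nsmul', ← pow_succ']
    exact h

/-- **From a potential to `KillsU`.** -/
theorem killsU_of_potential {N r : ℕ} (hr : r.Prime) (hrN : ¬ r ∣ N) (hrr : (r : ℚ)⁻¹ * r = 1)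
    {A : Type*} [AddCommGroup A] (hA : ∀ a : A, r • a = 0 → a = 0)
    (Φ₁ Φ₂ : Additive (Gamma0 N) →+ A) (h₁ : IsParabolicHom (Gamma0 N) Φ₁)
    (L : (Fin 2 → ℚ) → A → Prop)
    (hu : ∀ v x x', L v x → L v x' → x = x') (he : L ![1, 0] 0)
    (ha : ∀ (γ : Gamma0 N) v x, L v x →
      L ((toQ (γ : SL(2, ℤ)) : Mat2 ℚ) *ᵥ v) (x + Φ₁ (Additive.ofMul γ)))
    (hb : ∀ (γ : Gamma0 N) v x, L v x →
      L ((conjQ (r : ℚ)⁻¹ r hrr (toQ (γ : SL(2, ℤ))) : Mat2 ℚ) *ᵥ v)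
        (x + Φ₂ (Additive.ofMul γ))) :
    KillsU r N Φ₁ ∧ KillsU r N Φ₂ := by
  have gA : ∀ γ : Gamma0 N, Good L (toQ (γ : SL(2, ℤ))) (Φ₁ (Additive.ofMul γ)) :=
    fun γ v x h => ha γ v x h
  have gB : ∀ γ : Gamma0 N, Good L (conjQ (r : ℚ)⁻¹ r hrr (toQ (γ : SL(2, ℤ))))
      (Φ₂ (Additive.ofMul γ)) := fun γ v x h => hb γ v x h
  have hcl : Subgroup.closure (Set.range (fun γ : Gamma0 N => toQ (γ : SL(2, ℤ))) ∪
      Set.range (fun γ : Gamma0 N => conjQ (r : ℚ)⁻¹ r hrr (toQ (γ : SL(2, ℤ))))) ≤ SS L := by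
    rw [Subgroup.closure_le]
    rintro g (⟨γ, rfl⟩ | ⟨γ, rfl⟩)
    · refine ⟨_, gA γ, ?_⟩
      have := gA γ⁻¹
      rw [ofMul_inv, map_neg] at this
      simpa using this
    · refine ⟨_, gB γ, ?_⟩
      have := gB γ⁻¹
      rw [ofMul_inv, map_neg] at this
      simpa using this
  have gU : ∀ π ∈ UG r N, Good L π 0 := by
    intro π hπ
    obtain ⟨a, hga, -⟩ := hcl (GR_le_closure hr hrN hrr π hπ.2.1 hπ.2.2)
    obtain ⟨k, γ, hk, htr⟩ := UG_pow hπ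
    have h1 := Good_pow hga (r ^ k)
    rw [hk] at h1
    have h2 := gA γ
    rw [h₁ γ (by rw [htr]; norm_num)] at h2
    have h3 := Good_unique hu he h1 h2
    rw [pow_nsmul_eq_zero hA k a h3] at hga
    exact hga
  have gUc : ∀ g ∈ UGc r N, Good L g 0 ∧ Good L g⁻¹ 0 := by
    intro g hg
    induction hg using Subgroup.closure_induction with
    | mem x hx => exact ⟨gU x hx, gU _ (UG_inv hx)⟩
    | one => exact ⟨Good_one, by simpa using Good_one⟩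
    | mul x y _ _ hx hy =>
      refine ⟨by simpa using Good_mul hx.1 hy.1, ?_⟩
      rw [_root_.mul_inv_rev]
      simpa using Good_mul hy.2 hx.2
    | inv x _ hx => exact ⟨hx.2, by simpa using hx.1⟩
  constructor
  · intro γ hγ
    exact Good_unique hu he (gA γ) (gUc _ hγ).1
  · intro γ hγ
    exact Good_unique hu he (gB γ) (gUc _ (conjQ_UGc hr.ne_zero hrr hγ)).1

end Fermat.Agent.S41Lib
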