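import Fermat.Agent.S41.IharaGeneric

/-!
# S41 library (Ihara): the generic transfer computation `T Φ = [Γ₀(N) : H] • Φ`
-/

set_option autoImplicit false

open scoped MatrixGroups
open CongruenceSubgroup ModularCurve.Period

namespace Fermat.Agent.S41Lib

theorem trace_xz (a : ℤ) : (xz a : Matrix (Fin 2) (Fin 2) ℤ).trace = 2 := by
  simp [xz_coe, Matrix.trace_fin_two_of]

theorem trace_yz (a : ℤ) : (yz a : Matrix (Fin 2) (Fin 2) ℤ).trace = 2 := by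
  simp [yz_coe, Matrix.trace_fin_two_of]

theorem trace_conj (x g : SL(2, ℤ)) :
    ((x⁻¹ * g * x : SL(2, ℤ)) : Matrix (Fin 2) (Fin 2) ℤ).trace =
      (g : Matrix (Fin 2) (Fin 2) ℤ).trace := by
  rw [Matrix.SpecialLinearGroup.coe_mul, Matrix.trace_mul_comm,
    ← Matrix.SpecialLinearGroup.coe_mul, mul_inv_cancel_left]

theorem xz_pow (s : ℤ) (k : ℕ) : xz s ^ k = xz (k * s) := by
  rw [xz_mul, zpow_natCast]

theorem yz_pow (s : ℤ) (k : ℕ) : yz s ^ k = yz (k * s) := by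
  rw [yz_mul, zpow_natCast]

section Generic

variable {N W r : ℕ} {A : Type*} [AddCommGroup A] (Φ : Additive (Gamma0 N) →+ A)
  (H : Subgroup (Gamma0 N)) (c : H →* Gamma0 N)

/-- the homomorphism `Φ ∘ c` on `H` -/
noncomputable def phiC : H →* Multiplicative A := (AddMonoidHom.toMultiplicativeRight Φ).comp c

theorem phiC_apply (h : H) : phiC Φ H c h = Multiplicative.ofAdd (Φ (Additive.ofMul (c h))) := rfl

variable {Φ H c}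

theorem transfer_unip [H.FiniteIndex] (hΦ : IsParabolicHom (Gamma0 N) Φ)
    (htr : ∀ h : H, (((c h : Gamma0 N) : SL(2, ℤ)) : Matrix (Fin 2) (Fin 2) ℤ).trace =
      (((h : Gamma0 N) : SL(2, ℤ)) : Matrix (Fin 2) (Fin 2) ℤ).trace)
    (g : Gamma0 N)
    (hg : ∀ k : ℕ, (((g : SL(2, ℤ)) ^ k : SL(2, ℤ)) : Matrix (Fin 2) (Fin 2) ℤ).trace = 2) :
    MonoidHom.transfer (phiC Φ H c) g = 1 := by
  apply transfer_eq_one_of_conj_pow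
  intro k x h
  rw [phiC_apply, hΦ, ofAdd_zero]
  rw [htr]
  have : (((x⁻¹ * g ^ k * x : Gamma0 N) : SL(2, ℤ)) : Matrix (Fin 2) (Fin 2) ℤ).trace = 2 := by
    have h1 : ((x⁻¹ * g ^ k * x : Gamma0 N) : SL(2, ℤ)) =
      (x : SL(2, ℤ))⁻¹ * (g : SL(2, ℤ)) ^ k * (x : SL(2, ℤ)) := rfl
    rw [h1, trace_conj, hg]
  show (((x⁻¹ * g ^ k * x : Gamma0 N) : SL(2, ℤ)) : Matrix (Fin 2) (Fin 2) ℤ).trace ^ 2 = 4
  rw [this]; norm_num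

theorem transfer_EZ [H.FiniteIndex] (hΦ : IsParabolicHom (Gamma0 N) Φ)
    (htr : ∀ h : H, (((c h : Gamma0 N) : SL(2, ℤ)) : Matrix (Fin 2) (Fin 2) ℤ).trace =
      (((h : Gamma0 N) : SL(2, ℤ)) : Matrix (Fin 2) (Fin 2) ℤ).trace)
    (g : SL(2, ℤ)) (hg : g ∈ EZ N) :
    MonoidHom.transfer (phiC Φ H c) ⟨g, EZ_le_Gamma0 N hg⟩ = 1 ∧
      Φ (Additive.ofMul (⟨g, EZ_le_Gamma0 N hg⟩ : Gamma0 N)) = 0 := by
  induction hg using Subgroup.closure_induction with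
  | mem x hx =>
    rcases hx with ⟨a, rfl⟩ | ⟨a, rfl⟩
    · refine ⟨transfer_unip hΦ htr _ ?_, hΦ _ ?_⟩
      · intro k
        show ((xz (N * a) ^ k : SL(2, ℤ)) : Matrix (Fin 2) (Fin 2) ℤ).trace = 2
        rw [xz_pow, trace_xz]
      · show ((xz (N * a) : SL(2, ℤ)) : Matrix (Fin 2) (Fin 2) ℤ).trace ^ 2 = 4
        rw [trace_xz]; norm_num
    · refine ⟨transfer_unip hΦ htr _ ?_, hΦ _ ?_⟩
      · intro k
        show ((yz (N * a) ^ k : SL(2, ℤ)) : Matrix (Fin 2) (Fin 2) ℤ).trace = 2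
        rw [yz_pow, trace_yz]
      · show ((yz (N * a) : SL(2, ℤ)) : Matrix (Fin 2) (Fin 2) ℤ).trace ^ 2 = 4
        rw [trace_yz]; norm_num
  | one => exact ⟨map_one _, map_zero Φ⟩
  | mul x y hx hy ihx ihy =>
    have e : (⟨x * y, EZ_le_Gamma0 N ((EZ N).mul_mem hx hy)⟩ : Gamma0 N) =
      ⟨x, EZ_le_Gamma0 N hx⟩ * ⟨y, EZ_le_Gamma0 N hy⟩ := rfl
    constructor
    · rw [e, map_mul, ihx.1, ihy.1, one_mul]
    · rw [e, ofMul_mul, map_add, ihx.2, ihy.2, add_zero]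
  | inv x hx ihx =>
    have e : (⟨x⁻¹, EZ_le_Gamma0 N ((EZ N).inv_mem hx)⟩ : Gamma0 N) =
      (⟨x, EZ_le_Gamma0 N hx⟩ : Gamma0 N)⁻¹ := rfl
    constructor
    · rw [e, map_inv, ihx.1, inv_one]
    · rw [e, ofMul_inv, map_neg, ihx.2, neg_zero]

theorem transfer_Q [H.FiniteIndex] (hK : KillsU r N Φ)
    (hQ : ∀ g : Gamma0 N, (g : SL(2, ℤ)) ∈ QZ r (N * W) →
      ∃ h : g ∈ H, toQ ((c ⟨g, h⟩ : Gamma0 N) : SL(2, ℤ)) ∈ UGc r N)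
    (q : Gamma0 N) (hq : (q : SL(2, ℤ)) ∈ QZ r (N * W)) :
    MonoidHom.transfer (phiC Φ H c) q = 1 := by
  have hconj : ∀ x : Gamma0 N, ((x⁻¹ * q * x : Gamma0 N) : SL(2, ℤ)) ∈ QZ r (N * W) := by
    intro x
    have := (QZ_normal r (N * W)).conj_mem _ hq ((x : SL(2, ℤ))⁻¹)
    rwa [inv_inv] at this
  rw [transfer_eq_pow_of_conj (phiC Φ H c) q (fun x => (hQ _ (hconj x)).1) 1, one_pow]
  intro x
  obtain ⟨h, hh⟩ := hQ _ (hconj x)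
  rw [phiC_apply, hK _ hh, ofAdd_zero]

section Main

variable (hN : N ≠ 0) (hW : W.Prime) (hWN : ¬ W ∣ N) (hr : r.Prime) (hrN : ¬ r ∣ N) (hrW : W ≠ r)
include hN hW hWN hr hrN hrW

theorem comm_mem_QZ (t e : SL(2, ℤ)) (ht : t ∈ EZ N) (he : e ∈ EZ W) :
    e⁻¹ * t⁻¹ * e * t ∈ QZ r (N * W) := by
  have h := commute_EZ hN hW hWN hr hrN hrW t ht e he
  rw [← prQ_eq_one]
  simp only [map_mul, map_inv]
  have h' : prQ r (N * W) t * prQ r (N * W) e = prQ r (N * W) e * prQ r (N * W) t := h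
  rw [mul_assoc, ← h', ← mul_assoc, mul_assoc _ _ (prQ r (N * W) t), inv_mul_cancel, mul_one,
    inv_mul_cancel]

theorem QZ_mul_le_Gamma0 : QZ r (N * W) ≤ Gamma0 N := by
  have hc : Nat.Coprime (N * W) r := by
    apply Nat.Coprime.mul_left
    · exact ((Nat.Prime.coprime_iff_not_dvd hr).mpr hrN).symm
    · exact (Nat.coprime_primes hW hr).mpr hrW
  exact (QZ_le_Gamma0 hc).trans (Gamma0_mul_le N W)

theorem exists_EZ_rep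
    (hQ : ∀ g : Gamma0 N, (g : SL(2, ℤ)) ∈ QZ r (N * W) →
      ∃ h : g ∈ H, toQ ((c ⟨g, h⟩ : Gamma0 N) : SL(2, ℤ)) ∈ UGc r N)
    (hE : ∀ g : Gamma0 N, (g : SL(2, ℤ)) ∈ EZ W → ∃ h : g ∈ H,
      toQ ((c ⟨g, h⟩ : Gamma0 N) : SL(2, ℤ)) * (toQ (g : SL(2, ℤ)))⁻¹ ∈ UGc r N)
    (x : Gamma0 N) : ∃ t : Gamma0 N, (t : SL(2, ℤ)) ∈ EZ N ∧ t⁻¹ * x ∈ H := by
  obtain ⟨eW, heW, eN, heN, q, hq, hx⟩ := exists_decomp hN hW hWN hr hrN hrW (x : SL(2, ℤ))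
  have hqG : q ∈ Gamma0 N := QZ_mul_le_Gamma0 hN hW hWN hr hrN hrW hq
  have heNG : eN ∈ Gamma0 N := EZ_le_Gamma0 N heN
  have heWG : eW ∈ Gamma0 N := by
    have : eW = (x : SL(2, ℤ)) * q⁻¹ * eN⁻¹ := by rw [hx]; group
    rw [this]
    exact (Gamma0 N).mul_mem ((Gamma0 N).mul_mem x.2 ((Gamma0 N).inv_mem hqG))
      ((Gamma0 N).inv_mem heNG)
  have hk := comm_mem_QZ hN hW hWN hr hrN hrW eN eW heN heW
  have hkG : eW⁻¹ * eN⁻¹ * eW * eN ∈ Gamma0 N := QZ_mul_le_Gamma0 hN hW hWN hr hrN hrW hk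
  refine ⟨⟨eN, heNG⟩, heN, ?_⟩
  have e : (⟨eN, heNG⟩ : Gamma0 N)⁻¹ * x =
      ⟨eW, heWG⟩ * ⟨eW⁻¹ * eN⁻¹ * eW * eN, hkG⟩ * ⟨q, hqG⟩ := by
    apply Subtype.ext
    show eN⁻¹ * (x : SL(2, ℤ)) = eW * (eW⁻¹ * eN⁻¹ * eW * eN) * q
    rw [hx]; group
  rw [e]
  exact H.mul_mem (H.mul_mem (hE ⟨eW, heWG⟩ heW).1 (hQ ⟨_, hkG⟩ hk).1) (hQ ⟨q, hqG⟩ hq).1

theorem transfer_EW [H.FiniteIndex] (hK : KillsU r N Φ)
    (hQ : ∀ g : Gamma0 N, (g : SL(2, ℤ)) ∈ QZ r (N * W) →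
      ∃ h : g ∈ H, toQ ((c ⟨g, h⟩ : Gamma0 N) : SL(2, ℤ)) ∈ UGc r N)
    (hE : ∀ g : Gamma0 N, (g : SL(2, ℤ)) ∈ EZ W → ∃ h : g ∈ H,
      toQ ((c ⟨g, h⟩ : Gamma0 N) : SL(2, ℤ)) * (toQ (g : SL(2, ℤ)))⁻¹ ∈ UGc r N)
    (e : Gamma0 N) (he : (e : SL(2, ℤ)) ∈ EZ W) :
    MonoidHom.transfer (phiC Φ H c) e =
      Multiplicative.ofAdd (H.index • Φ (Additive.ofMul e)) := by
  obtain ⟨heH, heU⟩ := hE e he
  have hΦe : Φ (Additive.ofMul (c ⟨e, heH⟩)) = Φ (Additive.ofMul e) := by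
    have h0 := hK (c ⟨e, heH⟩ * e⁻¹) (by
      show toQ (((c ⟨e, heH⟩ : Gamma0 N) : SL(2, ℤ)) * (e : SL(2, ℤ))⁻¹) ∈ UGc r N
      rw [map_mul, map_inv]; exact heU)
    rw [ofMul_mul, map_add, ofMul_inv, map_neg] at h0
    exact add_neg_eq_zero.mp h0
  -- the structure of the conjugates
  have key : ∀ x : Gamma0 N, ∃ (h₀ k : H), toQ ((c k : Gamma0 N) : SL(2, ℤ)) ∈ UGc r N ∧
      x⁻¹ * e * x = ((h₀⁻¹ * (⟨e, heH⟩ * k) * h₀ : H) : Gamma0 N) := by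
    intro x
    obtain ⟨t, ht, hx⟩ := exists_EZ_rep hN hW hWN hr hrN hrW hQ hE x
    have hk := comm_mem_QZ hN hW hWN hr hrN hrW t e ht he
    obtain ⟨hkH, hkU⟩ := hQ (e⁻¹ * t⁻¹ * e * t) hk
    refine ⟨⟨t⁻¹ * x, hx⟩, ⟨_, hkH⟩, hkU, ?_⟩
    show x⁻¹ * e * x = (t⁻¹ * x)⁻¹ * (e * (e⁻¹ * t⁻¹ * e * t)) * (t⁻¹ * x)
    group
  have hmem : ∀ x : Gamma0 N, x⁻¹ * e * x ∈ H := by
    intro x
    obtain ⟨h₀, k, -, hx⟩ := key x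
    rw [hx]; exact Subtype.property _
  rw [transfer_eq_pow_of_conj (phiC Φ H c) e hmem (Multiplicative.ofAdd (Φ (Additive.ofMul e))),
    ← ofAdd_nsmul]
  intro x
  obtain ⟨h₀, k, hkU, hx⟩ := key x
  have : (⟨x⁻¹ * e * x, hmem x⟩ : H) = h₀⁻¹ * (⟨e, heH⟩ * k) * h₀ := Subtype.ext hx
  rw [this, map_mul, map_mul, map_inv, map_mul, mul_comm, ← mul_assoc, mul_inv_cancel, one_mul,
    phiC_apply, phiC_apply, hK _ hkU, hΦe, ofAdd_zero, mul_one]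

/-- **The generic transfer computation.** -/
theorem ihara_generic [H.FiniteIndex] (hΦ : IsParabolicHom (Gamma0 N) Φ) (hK : KillsU r N Φ)
    (hQ : ∀ g : Gamma0 N, (g : SL(2, ℤ)) ∈ QZ r (N * W) →
      ∃ h : g ∈ H, toQ ((c ⟨g, h⟩ : Gamma0 N) : SL(2, ℤ)) ∈ UGc r N)
    (hE : ∀ g : Gamma0 N, (g : SL(2, ℤ)) ∈ EZ W → ∃ h : g ∈ H,
      toQ ((c ⟨g, h⟩ : Gamma0 N) : SL(2, ℤ)) * (toQ (g : SL(2, ℤ)))⁻¹ ∈ UGc r N)
    (htr : ∀ h : H, (((c h : Gamma0 N) : SL(2, ℤ)) : Matrix (Fin 2) (Fin 2) ℤ).trace =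
      (((h : Gamma0 N) : SL(2, ℤ)) : Matrix (Fin 2) (Fin 2) ℤ).trace)
    (γ : Gamma0 N) :
    MonoidHom.transfer (phiC Φ H c) γ =
      Multiplicative.ofAdd (H.index • Φ (Additive.ofMul γ)) := by
  obtain ⟨eW, heW, eN, heN, q, hq, hx⟩ := exists_decomp hN hW hWN hr hrN hrW (γ : SL(2, ℤ))
  have hqG : q ∈ Gamma0 N := QZ_mul_le_Gamma0 hN hW hWN hr hrN hrW hq
  have heNG : eN ∈ Gamma0 N := EZ_le_Gamma0 N heN
  have heWG : eW ∈ Gamma0 N := by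
    have : eW = (γ : SL(2, ℤ)) * q⁻¹ * eN⁻¹ := by rw [hx]; group
    rw [this]
    exact (Gamma0 N).mul_mem ((Gamma0 N).mul_mem γ.2 ((Gamma0 N).inv_mem hqG))
      ((Gamma0 N).inv_mem heNG)
  have e : γ = ⟨eW, heWG⟩ * ⟨eN, heNG⟩ * ⟨q, hqG⟩ := Subtype.ext hx
  have h1 := transfer_EW hN hW hWN hr hrN hrW hK hQ hE ⟨eW, heWG⟩ heW
  have h2 := transfer_EZ (H := H) (c := c) hΦ htr eN heN
  have h3 := transfer_Q hK hQ ⟨q, hqG⟩ hq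
  have h4 : Φ (Additive.ofMul (⟨q, hqG⟩ : Gamma0 N)) = 0 :=
    hK _ (Qn_le_UGc (Dvd.intro _ rfl) hq)
  rw [e, map_mul, map_mul, h1, h2.1, h3, mul_one, mul_one, ofMul_mul, ofMul_mul, map_add, map_add,
    h2.2, h4, add_zero, add_zero]

end Main

end Generic

end Fermat.Agent.S41Lib
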