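import Mathlib

/-!
# S41 library (Ihara): the ring `ℤ[1/r]`, unipotent matrices over it, and the commutation lemma
-/

set_option autoImplicit false

open scoped MatrixGroups

namespace Fermat.Agent.S41Lib

/-- `ℤ[1/r]` as a subring of `ℚ` -/
def Rr (r : ℕ) : Subring ℚ where
  carrier := {q | ∃ (k : ℕ) (a : ℤ), q * (r : ℚ) ^ k = a}
  mul_mem' := by
    rintro q q' ⟨k, a, h⟩ ⟨l, b, h'⟩
    exact ⟨k + l, a * b, by push_cast; rw [← h, ← h']; ring⟩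
  one_mem' := ⟨0, 1, by simp⟩
  add_mem' := by
    rintro q q' ⟨k, a, h⟩ ⟨l, b, h'⟩
    exact ⟨k + l, a * r ^ l + b * r ^ k, by push_cast; rw [← h, ← h']; ring⟩
  zero_mem' := ⟨0, 0, by simp⟩
  neg_mem' := by
    rintro q ⟨k, a, h⟩
    exact ⟨k, -a, by push_cast; rw [← h]; ring⟩

theorem mem_Rr {r : ℕ} {q : ℚ} : q ∈ Rr r ↔ ∃ (k : ℕ) (a : ℤ), q * (r : ℚ) ^ k = a := Iff.rfl

theorem intCast_mem_Rr (r : ℕ) (a : ℤ) : (a : ℚ) ∈ Rr r := ⟨0, a, by simp⟩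

theorem natCast_mem_Rr (r : ℕ) (a : ℕ) : (a : ℚ) ∈ Rr r := ⟨0, a, by simp⟩

theorem inv_pow_mem_Rr {r : ℕ} (hr : r ≠ 0) (k : ℕ) : ((r : ℚ) ^ k)⁻¹ ∈ Rr r :=
  ⟨k, 1, by
    have : (r : ℚ) ^ k ≠ 0 := pow_ne_zero _ (by exact_mod_cast hr)
    simp [this]⟩

/-- `2 × 2` matrices with entries in `ℤ[1/r]` -/
def MatR (r : ℕ) : Subring (Matrix (Fin 2) (Fin 2) ℚ) := ((Rr r).subtype.mapMatrix).range

theorem mem_MatR {r : ℕ} {M : Matrix (Fin 2) (Fin 2) ℚ} :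
    M ∈ MatR r ↔ ∀ i j, M i j ∈ Rr r := by
  constructor
  · rintro ⟨M', rfl⟩ i j
    exact (M' i j).2
  · intro h
    exact ⟨Matrix.of fun i j => ⟨M i j, h i j⟩, by ext i j; rfl⟩

theorem smul_mem_MatR {r : ℕ} {q : ℚ} (hq : q ∈ Rr r) {M : Matrix (Fin 2) (Fin 2) ℚ}
    (hM : M ∈ MatR r) : q • M ∈ MatR r := by
  rw [mem_MatR] at hM ⊢
  intro i j
  exact (Rr r).mul_mem hq (hM i j)

/-- `SL₂(ℤ[1/r])` inside `SL₂(ℚ)` -/
def GamR (r : ℕ) : Subgroup SL(2, ℚ) where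
  carrier := {g | (g : Matrix (Fin 2) (Fin 2) ℚ) ∈ MatR r}
  mul_mem' := by
    intro g g' h h'
    show ((g * g' : SL(2, ℚ)) : Matrix (Fin 2) (Fin 2) ℚ) ∈ MatR r
    rw [Matrix.SpecialLinearGroup.coe_mul]
    exact (MatR r).mul_mem h h'
  one_mem' := by
    show ((1 : SL(2, ℚ)) : Matrix (Fin 2) (Fin 2) ℚ) ∈ MatR r
    rw [Matrix.SpecialLinearGroup.coe_one]
    exact (MatR r).one_mem
  inv_mem' := by
    intro g h
    show ((g⁻¹ : SL(2, ℚ)) : Matrix (Fin 2) (Fin 2) ℚ) ∈ MatR r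
    rw [Matrix.SpecialLinearGroup.SL2_inv_expl]
    have h' : ∀ i j, (g : Matrix (Fin 2) (Fin 2) ℚ) i j ∈ Rr r := mem_MatR.mp h
    rw [mem_MatR]
    intro i j
    fin_cases i <;> fin_cases j
    · exact h' 1 1
    · exact (Rr r).neg_mem (h' 0 1)
    · exact (Rr r).neg_mem (h' 1 0)
    · exact h' 0 0

theorem mem_GamR {r : ℕ} {g : SL(2, ℚ)} :
    g ∈ GamR r ↔ (g : Matrix (Fin 2) (Fin 2) ℚ) ∈ MatR r := Iff.rfl

/-- the embedding `SL₂(ℤ) → SL₂(ℚ)` -/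
def toQ : SL(2, ℤ) →* SL(2, ℚ) := Matrix.SpecialLinearGroup.map (Int.castRingHom ℚ)

theorem toQ_apply (g : SL(2, ℤ)) (i j : Fin 2) :
    (toQ g : Matrix (Fin 2) (Fin 2) ℚ) i j = ((g : Matrix (Fin 2) (Fin 2) ℤ) i j : ℚ) := rfl

theorem toQ_injective : Function.Injective toQ := by
  intro g g' h
  apply Subtype.ext
  ext i j
  have := congrArg (fun m : SL(2, ℚ) => (m : Matrix (Fin 2) (Fin 2) ℚ) i j) h
  simp only [toQ_apply] at this
  exact_mod_cast this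

theorem toQ_mem_GamR (r : ℕ) (g : SL(2, ℤ)) : toQ g ∈ GamR r := by
  rw [mem_GamR, mem_MatR]
  intro i j
  rw [toQ_apply]
  exact intCast_mem_Rr r _

/-- the unipotent elements of `SL₂(ℤ[1/r])` congruent to `1` modulo `n` -/
def Un (r n : ℕ) : Set SL(2, ℚ) :=
  {g | (g : Matrix (Fin 2) (Fin 2) ℚ).trace = 2 ∧
    ∃ M ∈ MatR r, (g : Matrix (Fin 2) (Fin 2) ℚ) = 1 + (n : ℚ) • M}

/-- the subgroup generated by `Un r n` -/
def Qn (r n : ℕ) : Subgroup SL(2, ℚ) := Subgroup.closure (Un r n)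

theorem conj_mem_Un {r n : ℕ} {γ g : SL(2, ℚ)} (hγ : γ ∈ GamR r) (hg : g ∈ Un r n) :
    γ * g * γ⁻¹ ∈ Un r n := by
  obtain ⟨ht, M, hM, hgM⟩ := hg
  have hγ' : ((γ⁻¹ : SL(2, ℚ)) : Matrix (Fin 2) (Fin 2) ℚ) ∈ MatR r := (GamR r).inv_mem hγ
  have hinv : (γ : Matrix (Fin 2) (Fin 2) ℚ) * ((γ⁻¹ : SL(2, ℚ)) : Matrix (Fin 2) (Fin 2) ℚ) = 1 := by
    rw [← Matrix.SpecialLinearGroup.coe_mul, mul_inv_cancel, Matrix.SpecialLinearGroup.coe_one]
  refine ⟨?_, (γ : Matrix (Fin 2) (Fin 2) ℚ) * M * ((γ⁻¹ : SL(2, ℚ)) : Matrix (Fin 2) (Fin 2) ℚ),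
    (MatR r).mul_mem ((MatR r).mul_mem hγ hM) hγ', ?_⟩
  · rw [Matrix.SpecialLinearGroup.coe_mul, Matrix.SpecialLinearGroup.coe_mul, Matrix.trace_mul_comm,
      ← mul_assoc, ← Matrix.SpecialLinearGroup.coe_mul, inv_mul_cancel,
      Matrix.SpecialLinearGroup.coe_one, one_mul, ht]
  · rw [Matrix.SpecialLinearGroup.coe_mul, Matrix.SpecialLinearGroup.coe_mul, hgM, mul_add, add_mul,
      mul_one, hinv, Matrix.mul_smul, Matrix.smul_mul]

theorem conj_mem_Qn {r n : ℕ} {γ g : SL(2, ℚ)} (hγ : γ ∈ GamR r) (hg : g ∈ Qn r n) :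
    γ * g * γ⁻¹ ∈ Qn r n := by
  induction hg using Subgroup.closure_induction with
  | mem x hx => exact Subgroup.subset_closure (conj_mem_Un hγ hx)
  | one => simp [(Qn r n).one_mem]
  | mul x y _ _ hx hy =>
    have : γ * (x * y) * γ⁻¹ = (γ * x * γ⁻¹) * (γ * y * γ⁻¹) := by group
    rw [this]; exact (Qn r n).mul_mem hx hy
  | inv x _ hx =>
    have : γ * x⁻¹ * γ⁻¹ = (γ * x * γ⁻¹)⁻¹ := by group
    rw [this]; exact (Qn r n).inv_mem hx

/-- upper unipotent -/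
def xq (s : ℚ) : SL(2, ℚ) := ⟨!![1, s; 0, 1], by simp [Matrix.det_fin_two_of]⟩

/-- lower unipotent -/
def yq (t : ℚ) : SL(2, ℚ) := ⟨!![1, 0; t, 1], by simp [Matrix.det_fin_two_of]⟩

theorem xq_coe (s : ℚ) : (xq s : Matrix (Fin 2) (Fin 2) ℚ) = !![1, s; 0, 1] := rfl
theorem yq_coe (t : ℚ) : (yq t : Matrix (Fin 2) (Fin 2) ℚ) = !![1, 0; t, 1] := rfl

theorem xq_add (s s' : ℚ) : xq (s + s') = xq s * xq s' := by
  apply Subtype.ext
  rw [Matrix.SpecialLinearGroup.coe_mul, xq_coe, xq_coe, xq_coe]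
  ext i j; fin_cases i <;> fin_cases j <;> simp [Matrix.mul_apply, Fin.sum_univ_two, add_comm]

theorem yq_add (s s' : ℚ) : yq (s + s') = yq s * yq s' := by
  apply Subtype.ext
  rw [Matrix.SpecialLinearGroup.coe_mul, yq_coe, yq_coe, yq_coe]
  ext i j; fin_cases i <;> fin_cases j <;> simp [Matrix.mul_apply, Fin.sum_univ_two]

theorem xq_zero : xq 0 = 1 := by
  apply Subtype.ext
  rw [xq_coe, Matrix.SpecialLinearGroup.coe_one]
  ext i j; fin_cases i <;> fin_cases j <;> simp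

theorem yq_zero : yq 0 = 1 := by
  apply Subtype.ext
  rw [yq_coe, Matrix.SpecialLinearGroup.coe_one]
  ext i j; fin_cases i <;> fin_cases j <;> simp

theorem xq_neg (s : ℚ) : xq (-s) = (xq s)⁻¹ := by
  rw [eq_inv_iff_mul_eq_one, ← xq_add, neg_add_cancel, xq_zero]

theorem yq_neg (s : ℚ) : yq (-s) = (yq s)⁻¹ := by
  rw [eq_inv_iff_mul_eq_one, ← yq_add, neg_add_cancel, yq_zero]

theorem xq_mem_GamR {r : ℕ} {s : ℚ} (hs : s ∈ Rr r) : xq s ∈ GamR r := by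
  rw [mem_GamR, mem_MatR, xq_coe]
  intro i j
  fin_cases i <;> fin_cases j
  · exact (Rr r).one_mem
  · exact hs
  · exact (Rr r).zero_mem
  · exact (Rr r).one_mem

theorem yq_mem_GamR {r : ℕ} {s : ℚ} (hs : s ∈ Rr r) : yq s ∈ GamR r := by
  rw [mem_GamR, mem_MatR, yq_coe]
  intro i j
  fin_cases i <;> fin_cases j
  · exact (Rr r).one_mem
  · exact (Rr r).zero_mem
  · exact hs
  · exact (Rr r).one_mem

theorem xq_mem_Un {r n : ℕ} {s : ℚ} (hs : s ∈ Rr r) : xq (n * s) ∈ Un r n := by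
  refine ⟨by simp [xq_coe, Matrix.trace_fin_two_of]; norm_num, !![0, s; 0, 0], ?_, ?_⟩
  · rw [mem_MatR]
    intro i j
    fin_cases i <;> fin_cases j
    · exact (Rr r).zero_mem
    · exact hs
    · exact (Rr r).zero_mem
    · exact (Rr r).zero_mem
  · rw [xq_coe]
    ext i j; fin_cases i <;> fin_cases j <;> simp

theorem yq_mem_Un {r n : ℕ} {s : ℚ} (hs : s ∈ Rr r) : yq (n * s) ∈ Un r n := by
  refine ⟨by simp [yq_coe, Matrix.trace_fin_two_of]; norm_num, !![0, 0; s, 0], ?_, ?_⟩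
  · rw [mem_MatR]
    intro i j
    fin_cases i <;> fin_cases j
    · exact (Rr r).zero_mem
    · exact (Rr r).zero_mem
    · exact hs
    · exact (Rr r).zero_mem
  · rw [yq_coe]
    ext i j; fin_cases i <;> fin_cases j <;> simp

theorem xy_factor (s t v : ℚ) (hv : (1 + s * t) * v = 1) :
    xq s * yq t = yq (t * v) * (yq (-(s * t) * v) * xq 1 * yq (s * t) * xq (-v)) * xq (s * v) := by
  apply Subtype.ext
  simp only [Matrix.SpecialLinearGroup.coe_mul, xq_coe, yq_coe]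
  ext i j
  fin_cases i <;> fin_cases j <;>
    simp [Matrix.mul_apply, Fin.sum_univ_two]
  · linear_combination (1 - s) * hv
  · linear_combination (s * t - t) * hv
  · linear_combination (-((t - s * t) * s * v - t * v + s * t * v)) * hv

theorem comm_factor (s t v : ℚ) (hv : (1 + s * t) * v = 1) :
    xq s * yq t * (xq s)⁻¹ * (yq t)⁻¹ =
      yq (t * v - t) * yq (-(s * t) * v) *
      (yq t * (xq 1 * yq (s * t) * (xq 1)⁻¹) * (yq t)⁻¹) *
      (yq t * xq (1 - v + s * v - s) * (yq t)⁻¹) := by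
  rw [xy_factor s t v hv]
  have h1 : yq (t * v - t) = yq (t * v) * (yq t)⁻¹ := by
    rw [sub_eq_add_neg, yq_add, yq_neg]
  have h2 : xq (1 - v + s * v - s) = xq 1 * xq (-v) * xq (s * v) * (xq s)⁻¹ := by
    rw [← xq_neg, ← xq_add, ← xq_add, ← xq_add]; congr 1; ring
  have h3 : (yq t)⁻¹ * yq (-(s * t) * v) = yq (-(s * t) * v) * (yq t)⁻¹ := by
    rw [← yq_neg, ← yq_add, ← yq_add, add_comm]
  rw [h1, h2]
  calc _ = yq (t * v) * (yq (-(s * t) * v) * (yq t)⁻¹) * yq t * xq 1 * yq (s * t) * xq (-v)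
        * xq (s * v) * (xq s)⁻¹ * (yq t)⁻¹ := by group
    _ = yq (t * v) * ((yq t)⁻¹ * yq (-(s * t) * v)) * yq t * xq 1 * yq (s * t) * xq (-v)
        * xq (s * v) * (xq s)⁻¹ * (yq t)⁻¹ := by rw [h3]
    _ = _ := by group

theorem comm_mem_Qn {r n k : ℕ} (hr : r ≠ 0) (s t m : ℤ) (h : (r : ℤ) ^ k = 1 + s * t)
    (hn : s * t = n * m) :
    xq s * yq t * (xq s)⁻¹ * (yq t)⁻¹ ∈ Qn r n := by
  have hu : ((r : ℚ) ^ k) = 1 + s * t := by exact_mod_cast h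
  have hu0 : (r : ℚ) ^ k ≠ 0 := pow_ne_zero _ (by exact_mod_cast hr)
  set v : ℚ := ((r : ℚ) ^ k)⁻¹ with hvdef
  have hvR : v ∈ Rr r := inv_pow_mem_Rr hr k
  have hv : (1 + (s : ℚ) * t) * v = 1 := by rw [← hu, hvdef]; exact mul_inv_cancel₀ hu0
  have hnq : (s : ℚ) * t = n * m := by exact_mod_cast hn
  have hv1 : 1 - v = n * (m * v) := by
    have : 1 - v = (s * t) * v := by linear_combination -hv
    rw [this, hnq]; ring
  have hyt : yq (t : ℚ) ∈ GamR r := yq_mem_GamR (intCast_mem_Rr r t)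
  have hx1 : xq (1 : ℚ) ∈ GamR r := xq_mem_GamR (Rr r).one_mem
  rw [comm_factor s t v hv]
  refine (Qn r n).mul_mem ((Qn r n).mul_mem ((Qn r n).mul_mem ?_ ?_) ?_) ?_
  · apply Subgroup.subset_closure
    have : (t : ℚ) * v - t = n * (-(t * (m * v))) := by linear_combination (-(t : ℚ)) * hv1
    rw [this]
    exact yq_mem_Un ((Rr r).neg_mem ((Rr r).mul_mem (intCast_mem_Rr r t)
      ((Rr r).mul_mem (intCast_mem_Rr r m) hvR)))
  · apply Subgroup.subset_closure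
    have : -((s : ℚ) * t) * v = n * (-(m * v)) := by rw [hnq]; ring
    rw [this]
    exact yq_mem_Un ((Rr r).neg_mem ((Rr r).mul_mem (intCast_mem_Rr r m) hvR))
  · apply conj_mem_Qn hyt
    apply conj_mem_Qn hx1
    apply Subgroup.subset_closure
    rw [hnq]
    exact yq_mem_Un (intCast_mem_Rr r m)
  · apply conj_mem_Qn hyt
    apply Subgroup.subset_closure
    have : 1 - v + (s : ℚ) * v - s = n * ((1 - s) * (m * v)) := by
      linear_combination (1 - (s : ℚ)) * hv1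
    rw [this]
    exact xq_mem_Un ((Rr r).mul_mem ((Rr r).sub_mem (Rr r).one_mem (intCast_mem_Rr r s))
      ((Rr r).mul_mem (intCast_mem_Rr r m) hvR))


end Fermat.Agent.S41Lib
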