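/-
S41 duality, final: (F3) unconditional.
-/
import Fermat.Agent.S41.IntF3b
import Fermat.Agent.S41.Ihara

set_option autoImplicit false

open scoped MatrixGroups
open CongruenceSubgroup Function ModularCurve.Period

namespace Fermat.Agent.S41Lib

theorem iharaProp_zmod {N r W p : ℕ} [NeZero N] [NeZero r] [NeZero W] [NeZero (N * W)]
    (hr : r.Prime) (hrN : ¬ r ∣ N) (hW : W.Prime) (hWr : W ≠ r) (hW1 : W ≡ 1 [MOD N])
    (hp : p.Prime) (hpr : p ≠ r) : IharaProp N r W (ZMod p) := by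
  have : Fact p.Prime := ⟨hp⟩
  have hA : ∀ a : ZMod p, r • a = 0 → a = 0 := by
    intro a ha
    rw [nsmul_eq_mul] at ha
    refine (mul_eq_zero.mp ha).resolve_left ?_
    intro h0
    rw [ZMod.natCast_eq_zero_iff] at h0
    exact hpr ((Nat.prime_dvd_prime_iff_eq hp hr).mp h0)
  intro Φ₁ Φ₂ h₁ h₂ hg
  exact (ihara hr hrN hW hWr hW1 hA Φ₁ Φ₂ h₁ h₂ hg).1

/-- **(F3)** `β = (cores, coresD)` is surjective modulo `p` up to `(T_W - (W+1))^2`. -/
theorem beta_surj {N r W p : ℕ} [NeZero N] [NeZero r] [NeZero W] [NeZero (N * r)]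
    [NeZero (N * W)] (hr : r.Prime) (hrN : ¬ r ∣ N) (hW : W.Prime) (hWr : W ≠ r)
    (hW1 : W ≡ 1 [MOD N]) (hp : p.Prime) (hp2 : p ≠ 2) (hpr : p ≠ r)
    (u₁ u₂ : Additive (Gamma0 N) →+ ℤ) :
    ∃ (z : Additive (Gamma0 (N * r)) →+ ℤ) (w₁ w₂ : Additive (Gamma0 N) →+ ℤ),
      eisU N W (eisU N W u₁) = cores N r z + p • w₁ ∧
      eisU N W (eisU N W u₂) = coresD N r z + p • w₂ :=
  beta_surj_of_ihara hW (not_dvd_of_modEq_one hW hW1) hW1 hp hp2
    (iharaProp_zmod hr hrN hW hWr hW1 hp hpr) u₁ u₂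

end Fermat.Agent.S41Lib
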