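import Mathlib

set_option autoImplicit false

/-!
# Intersection pairing: algebraic core

Points of the upper half plane are modelled by positive definite binary forms `PD`,
cusps by integer vectors.  `side F u v` is the side of the point `F` with respect to
the geodesic joining the cusps `u`, `v`.
-/

namespace Fermat.Agent.S41Lib

open Matrix
open scoped MatrixGroups

/-- integer vectors (cusps are nonzero vectors up to scaling) -/
abbrev V2 := ℤ × ℤ

def dt (u v : V2) : ℤ := u.1 * v.2 - u.2 * v.1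

def mv (A : Matrix (Fin 2) (Fin 2) ℤ) (v : V2) : V2 :=
  (A 0 0 * v.1 + A 0 1 * v.2, A 1 0 * v.1 + A 1 1 * v.2)

lemma mv_mul (A B : Matrix (Fin 2) (Fin 2) ℤ) (v : V2) : mv (A * B) v = mv A (mv B v) := by
  simp only [mv, Matrix.mul_apply, Fin.sum_univ_two]
  ext <;> simp <;> ring

@[simp] lemma mv_one (v : V2) : mv 1 v = v := by
  simp [mv]

lemma dt_mv (A : Matrix (Fin 2) (Fin 2) ℤ) (u v : V2) : dt (mv A u) (mv A v) = A.det * dt u v := by
  simp only [dt, mv, Matrix.det_fin_two]; ring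

lemma dt_swap (u v : V2) : dt v u = - dt u v := by
  simp only [dt]; ring

@[simp] lemma dt_self (u : V2) : dt u u = 0 := by
  simp only [dt]; ring

/-- positive definite binary forms with rational coefficients -/
structure PD where
  p : ℚ
  q : ℚ
  r : ℚ
  hp : 0 < p
  hd : 0 < p * r - q ^ 2

namespace PD

def B (F : PD) (u v : V2) : ℚ :=
  F.p * u.1 * v.1 + F.q * (u.1 * v.2 + u.2 * v.1) + F.r * u.2 * v.2

lemma hr (F : PD) : 0 < F.r := by
  have h1 := F.hd
  have h2 := F.hp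
  by_contra h
  push Not at h
  nlinarith [sq_nonneg F.q]

lemma B_comm (F : PD) (u v : V2) : F.B u v = F.B v u := by
  simp only [B]; ring

lemma gram (F : PD) (u v : V2) :
    F.B u u * F.B v v - (F.B u v) ^ 2 = (F.p * F.r - F.q ^ 2) * (dt u v : ℚ) ^ 2 := by
  simp only [B, dt]; push_cast; ring

lemma lower (F : PD) (w : V2) :
    (F.p * F.r - F.q ^ 2) * ((w.1 : ℚ) ^ 2 + (w.2 : ℚ) ^ 2) ≤ F.B w w * (F.p + F.r) := by
  have : F.B w w * (F.p + F.r) - (F.p * F.r - F.q ^ 2) * ((w.1 : ℚ) ^ 2 + (w.2 : ℚ) ^ 2)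
      = (F.p * w.1 + F.q * w.2) ^ 2 + (F.q * w.1 + F.r * w.2) ^ 2 := by
    simp only [B]; ring
  nlinarith [sq_nonneg (F.p * w.1 + F.q * w.2), sq_nonneg (F.q * w.1 + F.r * w.2)]

/-- the constant `c` with `Q(w) ≥ c |w|^2` -/
def lc (F : PD) : ℚ := (F.p * F.r - F.q ^ 2) / (F.p + F.r)

lemma lc_pos (F : PD) : 0 < F.lc := div_pos F.hd (add_pos F.hp F.hr)

lemma lc_le (F : PD) (w : V2) : F.lc * ((w.1 : ℚ) ^ 2 + (w.2 : ℚ) ^ 2) ≤ F.B w w := by
  have h := F.lower w
  have hs : 0 < F.p + F.r := add_pos F.hp F.hr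
  rw [lc, div_mul_eq_mul_div, div_le_iff₀ hs]
  exact h

lemma B_self_nonneg (F : PD) (w : V2) : 0 ≤ F.B w w := by
  have h := F.lc_le w
  have := F.lc_pos
  have h2 : 0 ≤ F.lc * ((w.1 : ℚ) ^ 2 + (w.2 : ℚ) ^ 2) := by positivity
  linarith

lemma B_self_pos (F : PD) {w : V2} (hw : w ≠ 0) : 0 < F.B w w := by
  have h := F.lc_le w
  have hc := F.lc_pos
  have h2 : 0 < (w.1 : ℚ) ^ 2 + (w.2 : ℚ) ^ 2 := by
    by_contra hcon
    push Not at hcon
    have h1 : (w.1 : ℚ) = 0 := by nlinarith [sq_nonneg (w.1 : ℚ), sq_nonneg (w.2 : ℚ)]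
    have h3 : (w.2 : ℚ) = 0 := by nlinarith [sq_nonneg (w.1 : ℚ), sq_nonneg (w.2 : ℚ)]
    apply hw
    ext
    · exact_mod_cast h1
    · exact_mod_cast h3
  have : 0 < F.lc * ((w.1 : ℚ) ^ 2 + (w.2 : ℚ) ^ 2) := mul_pos hc h2
  linarith

/-- pull back of a form along an integer matrix of nonzero determinant -/
def comap (F : PD) (A : Matrix (Fin 2) (Fin 2) ℤ) (hA : A.det ≠ 0) : PD where
  p := F.B (mv A (1, 0)) (mv A (1, 0))
  q := F.B (mv A (1, 0)) (mv A (0, 1))
  r := F.B (mv A (0, 1)) (mv A (0, 1))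
  hp := by
    apply F.B_self_pos
    intro h
    apply hA
    have h1 : A 0 0 = 0 := by simpa [mv] using congrArg Prod.fst h
    have h2 : A 1 0 = 0 := by simpa [mv] using congrArg Prod.snd h
    rw [Matrix.det_fin_two, h1, h2]; ring
  hd := by
    rw [F.gram, dt_mv]
    have h1 := F.hd
    have h2 : (0 : ℚ) < ((A.det * dt (1, 0) (0, 1) : ℤ) : ℚ) ^ 2 := by
      have : dt (1, 0) (0, 1) = 1 := by simp [dt]
      rw [this, mul_one]
      have : (A.det : ℚ) ≠ 0 := by exact_mod_cast hA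
      positivity
    exact mul_pos h1 h2

lemma comap_B (F : PD) (A : Matrix (Fin 2) (Fin 2) ℤ) (hA : A.det ≠ 0) (u v : V2) :
    (F.comap A hA).B u v = F.B (mv A u) (mv A v) := by
  simp only [comap, B, mv]; push_cast; ring

@[ext] lemma ext' {F G : PD} (h1 : F.p = G.p) (h2 : F.q = G.q) (h3 : F.r = G.r) : F = G := by
  cases F; cases G; simp_all

lemma ext_B {F G : PD} (h : ∀ u v, F.B u v = G.B u v) : F = G := by
  apply ext'
  · simpa [B] using h (1, 0) (1, 0)
  · simpa [B] using h (1, 0) (0, 1)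
  · simpa [B] using h (0, 1) (0, 1)

/-- the standard form (the point `i`) -/
def std : PD where
  p := 1
  q := 0
  r := 1
  hp := one_pos
  hd := by norm_num

lemma std_B (u v : V2) : std.B u v = (u.1 * v.1 + u.2 * v.2 : ℤ) := by
  simp [std, B]

end PD

/-- sign as an integer -/
def sg (x : ℚ) : ℤ := ((SignType.sign x : SignType) : ℤ)

lemma sg_pos {x : ℚ} (h : 0 < x) : sg x = 1 := by simp [sg, sign_pos h]
lemma sg_neg {x : ℚ} (h : x < 0) : sg x = -1 := by simp [sg, sign_neg h]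
@[simp] lemma sg_zero : sg 0 = 0 := by simp [sg]
lemma sg_mul (x y : ℚ) : sg (x * y) = sg x * sg y := by simp [sg, sign_mul]
lemma sg_neg' (x : ℚ) : sg (-x) = - sg x := by
  simp [sg, Left.sign_neg]
lemma sg_mul_pos {c : ℚ} (hc : 0 < c) (x : ℚ) : sg (c * x) = sg x := by
  rw [sg_mul, sg_pos hc, one_mul]
lemma sg_eq_of_mul_pos {x y : ℚ} (h : 0 < x * y) : sg x = sg y := by
  rcases lt_trichotomy x 0 with hx | hx | hx
  · have hy : y < 0 := by
      by_contra hy; push Not at hy; nlinarith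
    rw [sg_neg hx, sg_neg hy]
  · rw [hx] at h; simp at h
  · have hy : 0 < y := by
      by_contra hy; push Not at hy; nlinarith
    rw [sg_pos hx, sg_pos hy]

/-- side of the point `F` w.r.t. the oriented geodesic from `u` to `v` -/
def side (F : PD) (u v : V2) : ℤ := sg (F.B u v * (dt u v : ℚ))

lemma side_swap (F : PD) (u v : V2) : side F v u = - side F u v := by
  rw [side, side, F.B_comm v u, dt_swap, ← sg_neg']
  congr 1; push_cast; ring

lemma side_of_dt_eq_zero (F : PD) {u v : V2} (h : dt u v = 0) : side F u v = 0 := by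
  simp [side, h]

lemma side_comap (F : PD) (A : Matrix (Fin 2) (Fin 2) ℤ) (hA : A.det ≠ 0) (u v : V2) :
    side (F.comap A hA) u v = sg (A.det : ℚ) * side F (mv A u) (mv A v) := by
  rw [side, side, PD.comap_B, dt_mv, ← sg_mul]
  have hd : (0 : ℚ) < (A.det : ℚ) ^ 2 := by
    have : (A.det : ℚ) ≠ 0 := by exact_mod_cast hA
    positivity
  rw [← sg_mul_pos hd]
  congr 1; push_cast; ring

lemma side_smul_left (F : PD) (k : ℤ) (hk : k ≠ 0) (u v : V2) :
    side F (k * u.1, k * u.2) v = side F u v := by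
  rw [side, side]
  have hd : (0 : ℚ) < (k : ℚ) ^ 2 := by
    have : (k : ℚ) ≠ 0 := by exact_mod_cast hk
    positivity
  rw [← sg_mul_pos hd (F.B u v * _)]
  congr 1; simp only [PD.B, dt]; push_cast; ring

lemma side_smul_right (F : PD) (k : ℤ) (hk : k ≠ 0) (u v : V2) :
    side F u (k * v.1, k * v.2) = side F u v := by
  rw [side_swap, side_smul_left F k hk, side_swap, neg_neg]

end Fermat.Agent.S41Lib
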