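import Fermat.Agent.S41.InterFin

/-!
# S41 geometric core: the local fact (KL)

The two hexagonal forms `x² ± xy + y²` (the points `ρ`, `ρ+1`, exchanged by `S`), and the fact that
a Farey edge `g e₁, g e₂` separates them only when `g ∈ {±1, ±S}`.
-/

open Matrix MatrixGroups

namespace Fermat.Agent.S41Lib

/-- pull back of a form along an element of `SL(2,ℤ)` -/
def PD.csl (F : PD) (g : SL(2, ℤ)) : PD :=
  F.comap (g : Matrix (Fin 2) (Fin 2) ℤ) (by rw [g.2]; exact one_ne_zero)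

lemma PD.csl_B (F : PD) (g : SL(2, ℤ)) (u v : V2) : (F.csl g).B u v = F.B (sv g u) (sv g v) :=
  F.comap_B _ _ u v

lemma PD.csl_mul (F : PD) (g h : SL(2, ℤ)) : F.csl (g * h) = (F.csl g).csl h := by
  apply PD.ext_B
  intro u v
  rw [PD.csl_B, PD.csl_B, PD.csl_B, sv_mul, sv_mul]

lemma PD.csl_one (F : PD) : F.csl 1 = F := by
  apply PD.ext_B
  intro u v
  rw [PD.csl_B, sv_one, sv_one]

lemma side_csl (F : PD) (g : SL(2, ℤ)) (u v : V2) :
    side (F.csl g) u v = side F (sv g u) (sv g v) := by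
  rw [side, side, PD.csl_B, dt_sv]

/-- `x² + xy + y²` -/
def PD.hexP : PD where
  p := 1
  q := 1 / 2
  r := 1
  hp := one_pos
  hd := by norm_num

/-- `x² - xy + y²` -/
def PD.hexM : PD where
  p := 1
  q := -1 / 2
  r := 1
  hp := one_pos
  hd := by norm_num

lemma sv_S (v : V2) : sv ModularGroup.S v = (-v.2, v.1) := by
  simp [sv, mv, ModularGroup.S]

lemma sv_T (v : V2) : sv ModularGroup.T v = (v.1 + v.2, v.2) := by
  simp [sv, mv, ModularGroup.T]

lemma sv_negOne (v : V2) : sv (-1) v = -v := by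
  ext <;> simp [sv, mv]

lemma hexP_csl_S : PD.hexP.csl ModularGroup.S = PD.hexM := by
  apply PD.ext_B
  intro u v
  rw [PD.csl_B, sv_S, sv_S]
  simp only [PD.B, PD.hexP, PD.hexM]; push_cast; ring

lemma hexM_csl_S : PD.hexM.csl ModularGroup.S = PD.hexP := by
  apply PD.ext_B
  intro u v
  rw [PD.csl_B, sv_S, sv_S]
  simp only [PD.B, PD.hexP, PD.hexM]; push_cast; ring

/-- `x² + xy + y²` is fixed by `U = S T = [[0,-1],[1,1]]` -/
lemma hexP_csl_ST : PD.hexP.csl (ModularGroup.S * ModularGroup.T) = PD.hexP := by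
  apply PD.ext_B
  intro u v
  rw [PD.csl_B, sv_mul, sv_mul, sv_T, sv_T, sv_S, sv_S]
  simp only [PD.B, PD.hexP]; push_cast; ring

/-- `x² - xy + y²` is fixed by `T S = [[1,-1],[1,0]]` -/
lemma hexM_csl_TS : PD.hexM.csl (ModularGroup.T * ModularGroup.S) = PD.hexM := by
  apply PD.ext_B
  intro u v
  rw [PD.csl_B, sv_mul, sv_mul, sv_S, sv_S, sv_T, sv_T]
  simp only [PD.B, PD.hexM]; push_cast; ring

lemma csl_negOne (F : PD) : F.csl (-1) = F := by
  apply PD.ext_B
  intro u v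
  rw [PD.csl_B, sv_negOne, sv_negOne]
  simp only [PD.B, Prod.fst_neg, Prod.snd_neg]; push_cast; ring

/-- an element of `SL(2,ℤ)` with `g₀₀ g₀₁ = 0 = g₁₀ g₁₁` is `±1` or `±S` -/
lemma eq_of_prod_zero (g : SL(2, ℤ)) (h1 : g 0 0 * g 0 1 = 0) (h2 : g 1 0 * g 1 1 = 0) :
    g = 1 ∨ g = -1 ∨ g = ModularGroup.S ∨ g = -ModularGroup.S := by
  have hdet : g 0 0 * g 1 1 - g 0 1 * g 1 0 = 1 := by
    have := g.2; rwa [Matrix.det_fin_two] at this
  rcases mul_eq_zero.mp h1 with ha | hb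
  · -- a = 0, so b c = -1, d = 0
    have hbc : g 0 1 * g 1 0 = -1 := by rw [ha] at hdet; linarith
    have hc : g 1 0 ≠ 0 := by intro h; rw [h] at hbc; simp at hbc
    have hd : g 1 1 = 0 := by
      rcases mul_eq_zero.mp h2 with h | h
      · exact absurd h hc
      · exact h
    have hu : IsUnit (g 0 1) := IsUnit.of_mul_eq_one (- g 1 0) (by linarith)
    rcases Int.isUnit_iff.mp hu with hb | hb
    · right; right; right
      have hc' : g 1 0 = -1 := by rw [hb] at hbc; linarith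
      ext i j
      fin_cases i <;> fin_cases j <;> simp [ModularGroup.S, ha, hb, hc', hd]
    · right; right; left
      have hc' : g 1 0 = 1 := by rw [hb] at hbc; linarith
      ext i j
      fin_cases i <;> fin_cases j <;> simp [ModularGroup.S, ha, hb, hc', hd]
  · have had : g 0 0 * g 1 1 = 1 := by rw [hb] at hdet; linarith
    have hd : g 1 1 ≠ 0 := by intro h; rw [h] at had; simp at had
    have hc : g 1 0 = 0 := by
      rcases mul_eq_zero.mp h2 with h | h
      · exact h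
      · exact absurd h hd
    have hu : IsUnit (g 0 0) := IsUnit.of_mul_eq_one (g 1 1) had
    rcases Int.isUnit_iff.mp hu with ha | ha
    · left
      have hd' : g 1 1 = 1 := by rw [ha] at had; linarith
      ext i j
      fin_cases i <;> fin_cases j <;> simp [ha, hb, hc, hd']
    · right; left
      have hd' : g 1 1 = -1 := by rw [ha] at had; linarith
      ext i j
      fin_cases i <;> fin_cases j <;> simp [ha, hb, hc, hd']

/-- **(KL)** a Farey edge `g e₁, g e₂` does not separate the two hexagonal points, unless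
`g ∈ {±1, ±S}`. -/
theorem side_hex (g : SL(2, ℤ))
    (hg : ¬ (g = 1 ∨ g = -1 ∨ g = ModularGroup.S ∨ g = -ModularGroup.S)) :
    side PD.hexP (sv g (1, 0)) (sv g (0, 1)) = side PD.hexM (sv g (1, 0)) (sv g (0, 1)) := by
  have hdet : g 0 0 * g 1 1 - g 0 1 * g 1 0 = 1 := by
    have := g.2; rwa [Matrix.det_fin_two] at this
  rw [side, side, dt_sv]
  have hdt : dt (1, 0) (0, 1) = 1 := by simp [dt]
  rw [hdt]
  apply sg_eq_of_mul_pos
  set A : ℤ := g 0 0 * g 0 1 with hA
  set B : ℤ := g 1 0 * g 1 1 with hB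
  have hAB : ¬ (A = 0 ∧ B = 0) := fun h => hg (eq_of_prod_zero g h.1 h.2)
  have hpos : 1 ≤ A ^ 2 + A * B + B ^ 2 := by
    by_contra hcon
    push Not at hcon
    apply hAB
    have h0 : A ^ 2 + A * B + B ^ 2 ≤ 0 := by linarith
    constructor
    · nlinarith [sq_nonneg (A + 2 * B), sq_nonneg A, sq_nonneg B, sq_nonneg (A + B)]
    · nlinarith [sq_nonneg (2 * A + B), sq_nonneg A, sq_nonneg B, sq_nonneg (A + B)]
  have key : (4 : ℚ) * (PD.hexP.B (sv g (1, 0)) (sv g (0, 1)) * ((1 : ℤ) : ℚ) *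
      (PD.hexM.B (sv g (1, 0)) (sv g (0, 1)) * ((1 : ℤ) : ℚ)))
      = 4 * ((A ^ 2 + A * B + B ^ 2 : ℤ) : ℚ) - 1 := by
    have hdq : (g 0 0 : ℚ) * g 1 1 - g 0 1 * g 1 0 = 1 := by exact_mod_cast hdet
    have hsq : ((g 0 0 : ℚ) * g 1 1 + g 0 1 * g 1 0) ^ 2
        = 1 + 4 * (g 0 0 * g 0 1) * (g 1 0 * g 1 1) := by
      have : ((g 0 0 : ℚ) * g 1 1 + g 0 1 * g 1 0) ^ 2
          = ((g 0 0 : ℚ) * g 1 1 - g 0 1 * g 1 0) ^ 2 + 4 * (g 0 0 * g 0 1) * (g 1 0 * g 1 1) := by
        ring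
      rw [this, hdq]; ring
    simp only [PD.B, PD.hexP, PD.hexM, sv, mv, hA, hB]
    push_cast
    simp only [mul_one, mul_zero, add_zero, zero_add]
    linear_combination (-1 : ℚ) * hsq
  have hq : (1 : ℚ) ≤ ((A ^ 2 + A * B + B ^ 2 : ℤ) : ℚ) := by exact_mod_cast hpos
  linarith

lemma side_hexP_one : side PD.hexP (1, 0) (0, 1) = 1 := by
  rw [side]; apply sg_pos; simp [PD.B, PD.hexP, dt]

lemma side_hexM_one : side PD.hexM (1, 0) (0, 1) = -1 := by
  rw [side]; apply sg_neg; simp [PD.B, PD.hexM, dt]; norm_num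

/-- values of the two sides at the four exceptional elements -/
lemma side_hexP_sv_one : side PD.hexP (sv 1 (1, 0)) (sv 1 (0, 1)) = 1 := by
  rw [sv_one, sv_one, side_hexP_one]

lemma side_hexM_sv_one : side PD.hexM (sv 1 (1, 0)) (sv 1 (0, 1)) = -1 := by
  rw [sv_one, sv_one, side_hexM_one]

lemma side_hexP_sv_negOne : side PD.hexP (sv (-1) (1, 0)) (sv (-1) (0, 1)) = 1 := by
  rw [← side_csl, csl_negOne, side_hexP_one]

lemma side_hexM_sv_negOne : side PD.hexM (sv (-1) (1, 0)) (sv (-1) (0, 1)) = -1 := by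
  rw [← side_csl, csl_negOne, side_hexM_one]

lemma side_hexP_sv_S :
    side PD.hexP (sv ModularGroup.S (1, 0)) (sv ModularGroup.S (0, 1)) = -1 := by
  rw [← side_csl, hexP_csl_S, side_hexM_one]

lemma side_hexM_sv_S :
    side PD.hexM (sv ModularGroup.S (1, 0)) (sv ModularGroup.S (0, 1)) = 1 := by
  rw [← side_csl, hexM_csl_S, side_hexP_one]

lemma side_hexP_sv_negS :
    side PD.hexP (sv (-ModularGroup.S) (1, 0)) (sv (-ModularGroup.S) (0, 1)) = -1 := by
  have : (-ModularGroup.S : SL(2, ℤ)) = ModularGroup.S * (-1) := by simp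
  rw [← side_csl, this, PD.csl_mul, hexP_csl_S, csl_negOne, side_hexM_one]

lemma side_hexM_sv_negS :
    side PD.hexM (sv (-ModularGroup.S) (1, 0)) (sv (-ModularGroup.S) (0, 1)) = 1 := by
  have : (-ModularGroup.S : SL(2, ℤ)) = ModularGroup.S * (-1) := by simp
  rw [← side_csl, this, PD.csl_mul, hexM_csl_S, csl_negOne, side_hexP_one]

/-- helper4's shape of (KL): `B₀ = x² - xy + y²`. -/
theorem side_hexM_S (g : SL(2, ℤ))
    (hg : ¬ (g = 1 ∨ g = -1 ∨ g = ModularGroup.S ∨ g = -ModularGroup.S)) :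
    side PD.hexM (sv g (1, 0)) (sv g (0, 1))
      = side PD.hexM (sv (ModularGroup.S * g) (1, 0)) (sv (ModularGroup.S * g) (0, 1)) := by
  rw [sv_mul, sv_mul, ← side_csl PD.hexM ModularGroup.S, hexM_csl_S, side_hex g hg]

/-- (KL) for `hex = x² + xy + y²` (fixed by `U = S T`). -/
theorem side_hexP_S (g : SL(2, ℤ))
    (hg : ¬ (g = 1 ∨ g = -1 ∨ g = ModularGroup.S ∨ g = -ModularGroup.S)) :
    side PD.hexP (sv g (1, 0)) (sv g (0, 1))
      = side PD.hexP (sv (ModularGroup.S * g) (1, 0)) (sv (ModularGroup.S * g) (0, 1)) := by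
  rw [sv_mul, sv_mul, ← side_csl PD.hexP ModularGroup.S, hexP_csl_S, side_hex g hg]

/-- invariance of `hex` under `U = S T` -/
theorem side_hexP_U (g : SL(2, ℤ)) (u v : V2) :
    side PD.hexP (sv (ModularGroup.S * ModularGroup.T * g) u)
      (sv (ModularGroup.S * ModularGroup.T * g) v) = side PD.hexP (sv g u) (sv g v) := by
  rw [sv_mul _ g u, sv_mul _ g v, ← side_csl PD.hexP (ModularGroup.S * ModularGroup.T),
    hexP_csl_ST]

end Fermat.Agent.S41Lib
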