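import Fermat.Agent.S41.InterCusp

/-!
# S41, leaf (PAR), part 0: the unipotent elements `1 + n ν_y` of `SL₂(ℤ)`
-/

set_option autoImplicit false

open Matrix MatrixGroups CongruenceSubgroup

namespace Fermat.Agent.S41Lib

/-- the unipotent `v ↦ v + n det(y,v) y` fixing the cusp `y` -/
def Umat (y : V2) (n : ℤ) : SL(2, ℤ) :=
  ⟨!![1 - n * y.1 * y.2, n * y.1 ^ 2; -(n * y.2 ^ 2), 1 + n * y.1 * y.2], by
    rw [Matrix.det_fin_two_of]; ring⟩

theorem Umat_coe (y : V2) (n : ℤ) : ((Umat y n : SL(2, ℤ)) : Matrix (Fin 2) (Fin 2) ℤ) =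
    !![1 - n * y.1 * y.2, n * y.1 ^ 2; -(n * y.2 ^ 2), 1 + n * y.1 * y.2] := rfl

theorem Umat_zero (y : V2) : Umat y 0 = 1 := by
  apply Subtype.ext
  rw [Umat_coe]
  ext i j; fin_cases i <;> fin_cases j <;> simp

theorem Umat_add (y : V2) (n n' : ℤ) : Umat y (n + n') = Umat y n * Umat y n' := by
  apply Subtype.ext
  rw [Matrix.SpecialLinearGroup.coe_mul, Umat_coe, Umat_coe, Umat_coe]
  ext i j
  fin_cases i <;> fin_cases j <;>
    simp [Matrix.mul_apply, Fin.sum_univ_two] <;> ring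

theorem Umat_pow (y : V2) (n : ℤ) (k : ℕ) : Umat y n ^ k = Umat y (k * n) := by
  induction k with
  | zero => simp [Umat_zero]
  | succ k ih =>
    rw [pow_succ, ih, ← Umat_add]
    congr 1; push_cast; ring

theorem mul_Umat (g : SL(2, ℤ)) (y : V2) (n : ℤ) : g * Umat y n = Umat (sv g y) n * g := by
  have hdet : g 0 0 * g 1 1 - g 0 1 * g 1 0 = 1 := by
    have := g.2; rwa [Matrix.det_fin_two] at this
  apply Subtype.ext
  rw [Matrix.SpecialLinearGroup.coe_mul, Matrix.SpecialLinearGroup.coe_mul, Umat_coe, Umat_coe]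
  ext i j
  fin_cases i <;> fin_cases j <;>
    simp only [Matrix.mul_apply, Fin.sum_univ_two, sv, mv, Fin.zero_eta, Fin.mk_one, Fin.isValue,
      Matrix.of_apply, Matrix.cons_val_zero, Matrix.cons_val_one, Matrix.cons_val_fin_one]
  · linear_combination (n * (g 0 0 * y.1 + g 0 1 * y.2) * y.2) * hdet
  · linear_combination (-n * (g 0 0 * y.1 + g 0 1 * y.2) * y.1) * hdet
  · linear_combination (n * (g 1 0 * y.1 + g 1 1 * y.2) * y.2) * hdet
  · linear_combination (-n * (g 1 0 * y.1 + g 1 1 * y.2) * y.1) * hdet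

theorem conj_Umat (g : SL(2, ℤ)) (y : V2) (n : ℤ) : g * Umat y n * g⁻¹ = Umat (sv g y) n := by
  rw [mul_Umat, mul_assoc, mul_inv_cancel, mul_one]

theorem Umat_mem_Gamma0 {M : ℕ} {y : V2} {n : ℤ} :
    Umat y n ∈ Gamma0 M ↔ (M : ℤ) ∣ n * y.2 ^ 2 := by
  rw [Gamma0_mem, ZMod.intCast_zmod_eq_zero_iff_dvd]
  show (M : ℤ) ∣ -(n * y.2 ^ 2) ↔ _
  rw [dvd_neg]

/-- every element of trace `2` is some `Umat y n` with `y` primitive -/
theorem exists_eq_Umat (γ : SL(2, ℤ)) (htr : (γ : Matrix (Fin 2) (Fin 2) ℤ).trace = 2) :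
    ∃ (y : V2) (n : ℤ), IsCoprime y.1 y.2 ∧ γ = Umat y n := by
  have hdet : γ 0 0 * γ 1 1 - γ 0 1 * γ 1 0 = 1 := by
    have := γ.2; rwa [Matrix.det_fin_two] at this
  rw [Matrix.trace_fin_two] at htr
  obtain ⟨a, ha⟩ : ∃ a, γ 0 0 = 1 + a := ⟨γ 0 0 - 1, by ring⟩
  have hd : γ 1 1 = 1 - a := by linarith
  have hsq : a ^ 2 = -(γ 0 1 * γ 1 0) := by
    rw [ha, hd] at hdet; linear_combination -hdet
  by_cases hb : γ 0 1 = 0
  · have ha0 : a = 0 := by
      rw [hb] at hsq; simpa using hsq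
    refine ⟨(0, 1), -γ 1 0, isCoprime_zero_left.mpr isUnit_one, ?_⟩
    apply Subtype.ext
    rw [Umat_coe]
    ext i j
    fin_cases i <;> fin_cases j <;> simp [ha, hd, ha0, hb]
  · have hg : 0 < Int.gcd (γ 0 1) a := by
      rw [Nat.pos_iff_ne_zero, Ne, Int.gcd_eq_zero_iff]
      rintro ⟨h1, -⟩; exact hb h1
    obtain ⟨b', a', h1, h2, h3⟩ := Int.exists_gcd_one hg
    set g : ℤ := (Int.gcd (γ 0 1) a : ℤ) with hgdef
    have hg0 : g ≠ 0 := by rw [hgdef]; exact_mod_cast hg.ne'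
    have hb'0 : b' ≠ 0 := by
      rintro rfl; apply hb; rw [h2]; simp
    have hcop : IsCoprime b' a' := Int.isCoprime_iff_gcd_eq_one.mpr h1
    have e1 : a' ^ 2 * g = -(b' * γ 1 0) := by
      have : g * (a' ^ 2 * g) = g * (-(b' * γ 1 0)) := by
        rw [h3, h2] at hsq; linear_combination hsq
      exact mul_left_cancel₀ hg0 this
    have hdvd : b' ∣ g := by
      have h4 : b' ∣ a' ^ 2 * g := ⟨-γ 1 0, by rw [e1]; ring⟩
      exact (hcop.pow_right).dvd_of_dvd_mul_left h4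
    obtain ⟨n, hn⟩ := hdvd
    have e2 : a' ^ 2 * n = -γ 1 0 := by
      have : b' * (a' ^ 2 * n) = b' * (-γ 1 0) := by
        rw [hn] at e1; linear_combination e1
      exact mul_left_cancel₀ hb'0 this
    refine ⟨(b', -a'), n, hcop.neg_right, ?_⟩
    apply Subtype.ext
    rw [Umat_coe]
    ext i j
    fin_cases i <;> fin_cases j
    · show γ 0 0 = 1 - n * b' * (-a')
      rw [ha, h3, hn]; ring
    · show γ 0 1 = n * b' ^ 2
      rw [h2, hn]; ring
    · show γ 1 0 = -(n * (-a') ^ 2)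
      linear_combination e2
    · show γ 1 1 = 1 + n * b' * (-a')
      rw [hd, h3, hn]; ring

end Fermat.Agent.S41Lib
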