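import Fermat.Agent.S41.Par0
import Fermat.Agent.S41.Bridge3
import Fermat.Agent.S41.IharaTransfer

/-!
# S41, leaf (PAR), part 1: the local term of the transfer at a unipotent element
-/

set_option autoImplicit false

open Matrix MatrixGroups CongruenceSubgroup

namespace Fermat.Agent.S41Lib

variable {M W : ℕ} {A : Type*} [AddCommGroup A]

/-- the integers `n` with `1 + n ν_y ∈ Γ₀(M)` -/
def Udom (M : ℕ) (y : V2) : AddSubgroup ℤ where
  carrier := {n | (M : ℤ) ∣ n * y.2 ^ 2}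
  zero_mem' := by simp
  add_mem' := fun {a b} ha hb => by
    show (M : ℤ) ∣ (a + b) * y.2 ^ 2
    rw [add_mul]; exact dvd_add ha hb
  neg_mem' := fun {a} ha => by
    show (M : ℤ) ∣ (-a) * y.2 ^ 2
    rw [neg_mul, dvd_neg]; exact ha

theorem mem_Udom {y : V2} {n : ℤ} : n ∈ Udom M y ↔ (M : ℤ) ∣ n * y.2 ^ 2 := Iff.rfl

/-- `1 + n ν_y` as an element of `Γ₀(M)` -/
def Uel (M : ℕ) (y : V2) (n : Udom M y) : Gamma0 M := ⟨Umat y n, Umat_mem_Gamma0.mpr n.2⟩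

/-- the restriction of `Φ` to the unipotent stabiliser of the cusp `y` -/
def Uhom (Φ : Additive (Gamma0 M) →+ A) (y : V2) : Udom M y →+ A where
  toFun n := Φ (Additive.ofMul (Uel M y n))
  map_zero' := by
    have : Uel M y 0 = 1 := Subtype.ext (Umat_zero y)
    rw [this]; exact map_zero Φ
  map_add' a b := by
    have : Uel M y (a + b) = Uel M y a * Uel M y b := Subtype.ext (Umat_add y a b)
    rw [this]; exact map_add Φ _ _

theorem Uhom_apply (Φ : Additive (Gamma0 M) →+ A) (y : V2) (n : Udom M y) :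
    Uhom Φ y n = Φ (Additive.ofMul (Uel M y n)) := rfl

theorem Phi_conj (Φ : Additive (Gamma0 M) →+ A) (g u : Gamma0 M) :
    Φ (Additive.ofMul (g * u * g⁻¹)) = Φ (Additive.ofMul u) := by
  rw [ofMul_mul, ofMul_mul, map_add, map_add, ofMul_inv, map_neg]; abel

theorem Phi_Umat_congr (Φ : Additive (Gamma0 M) →+ A) {y z' : V2} (g : Gamma0 M)
    (hg : sv (g : SL(2, ℤ)) y = z') (n' : ℤ) (h' : Umat z' n' ∈ Gamma0 M) :
    ∃ hn : n' ∈ Udom M y, Φ (Additive.ofMul ⟨Umat z' n', h'⟩) = Uhom Φ y ⟨n', hn⟩ := by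
  have e : Umat z' n' = (g : SL(2, ℤ)) * Umat y n' * (g : SL(2, ℤ))⁻¹ := by
    rw [conj_Umat, hg]
  have hmem : Umat y n' ∈ Gamma0 M := by
    have : Umat y n' = (g : SL(2, ℤ))⁻¹ * Umat z' n' * (g : SL(2, ℤ)) := by
      rw [e]; group
    rw [this]
    exact (Gamma0 M).mul_mem ((Gamma0 M).mul_mem ((Gamma0 M).inv_mem g.2) h') g.2
  refine ⟨Umat_mem_Gamma0.mp hmem, ?_⟩
  rw [Uhom_apply, ← Phi_conj Φ g (Uel M y ⟨n', Umat_mem_Gamma0.mp hmem⟩)]
  congr 2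
  exact Subtype.ext e

theorem subDEquiv_eq [NeZero W] (h : subD M W) (η : Gamma0 (M * W))
    (e : conjD M W η = (h : Gamma0 M)) : subDEquiv M W h = η :=
  conjD_injective M W (by rw [conjD_subDEquiv, e])

/-- the value of `Φ ∘ (δ⁻¹ · δ)` on a unipotent element of `Γ₀(M) ∩ Γ⁰(W)` -/
theorem local_aux [NeZero W] (Φ : Additive (Gamma0 M) →+ A) {y z z' : V2} (g : Gamma0 M)
    (hg : sv (g : SL(2, ℤ)) y = z') (N₀ n' : ℤ) (h : subD M W)
    (hh : ((h : Gamma0 M) : SL(2, ℤ)) = Umat z N₀)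
    (hmem : ((M * W : ℕ) : ℤ) ∣ n' * z'.2 ^ 2)
    (hmat : conjDMat W ((Umat z' n' : SL(2, ℤ)) : Matrix (Fin 2) (Fin 2) ℤ) =
      ((Umat z N₀ : SL(2, ℤ)) : Matrix (Fin 2) (Fin 2) ℤ)) :
    ∃ hn : n' ∈ Udom M y,
      Φ (Additive.ofMul (inclG M W (subDEquiv M W h))) = Uhom Φ y ⟨n', hn⟩ := by
  have hη : Umat z' n' ∈ Gamma0 (M * W) := Umat_mem_Gamma0.mpr hmem
  have e1 : subDEquiv M W h = ⟨Umat z' n', hη⟩ := by
    apply subDEquiv_eq
    apply Subtype.ext; apply Subtype.ext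
    rw [conjD_coe, hh]
    exact hmat
  rw [e1]
  exact Phi_Umat_congr Φ g hg n' (Gamma0_mul_le M W hη)

theorem local_term [NeZero W] (hW : W.Prime) (hW1 : (M : ℤ) ∣ (W : ℤ) - 1)
    (Φ : Additive (Gamma0 M) →+ A) {y : V2} (hy : IsCoprime y.1 y.2) (m : Udom M y)
    (x : Gamma0 M) (k : ℕ) (hmem : x⁻¹ * (Uel M y m) ^ k * x ∈ subD M W) :
    ∃ n : Udom M y,
      Φ (Additive.ofMul (inclG M W (subDEquiv M W ⟨_, hmem⟩))) = Uhom Φ y n ∧
      (W : ℤ) * n = k * m *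
        (if (W : ℤ) ∣ (sv ((x : SL(2, ℤ))⁻¹) y).1 then (W : ℤ) ^ 2 else 1) := by
  have hW0 : (W : ℤ) ≠ 0 := by exact_mod_cast hW.ne_zero
  have hWp : Prime (W : ℤ) := Nat.prime_iff_prime_int.mp hW
  set z : V2 := sv ((x : SL(2, ℤ))⁻¹) y with hzdef
  have hz : IsCoprime z.1 z.2 := isCoprime_sv _ hy
  have hcoe : (((⟨x⁻¹ * (Uel M y m) ^ k * x, hmem⟩ : subD M W) : Gamma0 M) : SL(2, ℤ)) =
      Umat z (k * m) := by
    show (x : SL(2, ℤ))⁻¹ * (Umat y m) ^ k * (x : SL(2, ℤ)) = _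
    rw [Umat_pow, hzdef, ← conj_Umat, inv_inv]
  have hG : (M : ℤ) ∣ (k * m) * z.2 ^ 2 := by
    have : Umat z (k * m) ∈ Gamma0 M := by
      rw [← hcoe]; exact (x⁻¹ * (Uel M y m) ^ k * x).2
    exact Umat_mem_Gamma0.mp this
  have hD : (W : ℤ) ∣ (k * m) * z.1 ^ 2 := by
    have := (mem_subD_iff M W _).mp hmem
    have e : (((x⁻¹ * (Uel M y m) ^ k * x : Gamma0 M) : SL(2, ℤ)) : Matrix (Fin 2) (Fin 2) ℤ) 0 1 =
        (k * m) * z.1 ^ 2 := by
      have := congrArg (fun u : SL(2, ℤ) => (u : Matrix (Fin 2) (Fin 2) ℤ) 0 1) hcoe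
      simpa [Umat_coe] using this
    rwa [e] at this
  by_cases hd : (W : ℤ) ∣ z.1
  · rw [if_pos hd]
    obtain ⟨t, ht⟩ := hd
    have hz' : IsCoprime (t, z.2).1 (t, z.2).2 := by
      rw [ht] at hz; exact hz.of_mul_left_right
    obtain ⟨σ, hσ, hσz⟩ := primitive_congr M hz hz'
      (by
        show (M : ℤ) ∣ t - z.1
        rw [ht]
        have : t - (W : ℤ) * t = ((W : ℤ) - 1) * (-t) := by ring
        rw [this]; exact Dvd.dvd.mul_right hW1 _)
      (by simp)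
    obtain ⟨hn, hΦ⟩ := local_aux (W := W) Φ (y := y) (z := z) (z' := (t, z.2))
      (⟨σ, Gamma_le_Gamma0' M hσ⟩ * x⁻¹)
      (by rw [Subgroup.coe_mul, sv_mul]; exact hσz) (k * m) (k * m * W) _ hcoe
      (by
        obtain ⟨c, hc⟩ := hG
        refine ⟨c, ?_⟩
        show (k * m * W : ℤ) * z.2 ^ 2 = _
        push_cast
        linear_combination (W : ℤ) * hc)
      (by
        rw [Umat_coe, Umat_coe]
        have e10 : -((k * m * W : ℤ) * z.2 ^ 2) / (W : ℤ) = -((k * m : ℤ) * z.2 ^ 2) := by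
          have : -((k * m * W : ℤ) * z.2 ^ 2) = (W : ℤ) * (-((k * m : ℤ) * z.2 ^ 2)) := by ring
          rw [this, Int.mul_ediv_cancel_left _ hW0]
        ext i j
        fin_cases i <;> fin_cases j
        · show (1 - (k * m * W : ℤ) * t * z.2) = 1 - (k * m : ℤ) * z.1 * z.2
          rw [ht]; ring
        · show (W : ℤ) * ((k * m * W : ℤ) * t ^ 2) = (k * m : ℤ) * z.1 ^ 2
          rw [ht]; ring
        · exact e10
        · show (1 + (k * m * W : ℤ) * t * z.2) = 1 + (k * m : ℤ) * z.1 * z.2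
          rw [ht]; ring)
    exact ⟨⟨_, hn⟩, hΦ, by show (W : ℤ) * (k * m * W) = _; ring⟩
  · rw [if_neg hd]
    have hkm : (W : ℤ) ∣ k * m := by
      rcases hWp.dvd_or_dvd hD with h | h
      · exact h
      · exact absurd (hWp.dvd_of_dvd_pow h) hd
    obtain ⟨n', hn'⟩ := hkm
    have hz' : IsCoprime (z.1, (W : ℤ) * z.2).1 (z.1, (W : ℤ) * z.2).2 :=
      IsCoprime.mul_right (isCoprime_of_prime_not_dvd hW hd) hz
    obtain ⟨σ, hσ, hσz⟩ := primitive_congr M hz hz' (by simp)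
      (by
        show (M : ℤ) ∣ (W : ℤ) * z.2 - z.2
        have : (W : ℤ) * z.2 - z.2 = ((W : ℤ) - 1) * z.2 := by ring
        rw [this]; exact Dvd.dvd.mul_right hW1 _)
    obtain ⟨hn, hΦ⟩ := local_aux (W := W) Φ (y := y) (z := z) (z' := (z.1, (W : ℤ) * z.2))
      (⟨σ, Gamma_le_Gamma0' M hσ⟩ * x⁻¹)
      (by rw [Subgroup.coe_mul, sv_mul]; exact hσz) (k * m) n' _ hcoe
      (by
        obtain ⟨c, hc⟩ := hG
        refine ⟨c, ?_⟩
        show n' * ((W : ℤ) * z.2) ^ 2 = _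
        push_cast
        rw [hn'] at hc
        linear_combination (W : ℤ) * hc)
      (by
        rw [Umat_coe, Umat_coe]
        have e10 : -(n' * ((W : ℤ) * z.2) ^ 2) / (W : ℤ) = -((k * m : ℤ) * z.2 ^ 2) := by
          have : -(n' * ((W : ℤ) * z.2) ^ 2) = (W : ℤ) * (-((k * m : ℤ) * z.2 ^ 2)) := by
            rw [hn']; ring
          rw [this, Int.mul_ediv_cancel_left _ hW0]
        ext i j
        fin_cases i <;> fin_cases j
        · show (1 - n' * z.1 * ((W : ℤ) * z.2)) = 1 - (k * m : ℤ) * z.1 * z.2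
          rw [hn']; ring
        · show (W : ℤ) * (n' * z.1 ^ 2) = (k * m : ℤ) * z.1 ^ 2
          rw [hn']; ring
        · exact e10
        · show (1 + n' * z.1 * ((W : ℤ) * z.2)) = 1 + (k * m : ℤ) * z.1 * z.2
          rw [hn']; ring)
    exact ⟨⟨_, hn⟩, hΦ, by show (W : ℤ) * n' = _; rw [hn']; ring⟩

end Fermat.Agent.S41Lib
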