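import Mathlib
import Fermat.Agent.S21
import Fermat.Agent.S23.Fin
import Fermat.Agent.S49.CommAlg
import Fermat.Agent.S49.Formal
import Fermat.Agent.S49.QCoeff
import Fermat.Agent.S41.Bridge4
import Fermat.Agent.S41.Bridge5
import Fermat.Prelude.Thm_CuspForm_heckeTLin_comm
import Fermat.Prelude.Thm_CuspForm_heckeTLin_heckeULin_comm
import Fermat.Prelude.Thm_CuspForm_heckeULin_comm
import Fermat.Prelude.Def_FLTPrelim_Modularity

/-!
# S41 library: (UP) from a parabolic Hecke eigenclass to a normalised eigenform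
-/

set_option autoImplicit false

open scoped MatrixGroups
open CongruenceSubgroup ModularCurve ModularCurve.Period ModularFormClass
open Fermat.Agent.S49Lib Fermat.Agent.S21Lib

namespace Fermat.Agent.S41Lib

section Normalize

variable {M : ℕ} [NeZero M]

/-- A nonzero common eigenvector of all `T_ℓ`, `U_ℓ` can be normalised. -/
theorem up_normalize (v : CuspForm (Gamma0 M) 2) (hv0 : v ≠ 0)
    (hT : ∀ (ℓ : ℕ) (hℓ : ℓ.Prime) (hN : ¬ ℓ ∣ M), ∃ c : ℂ, CuspForm.heckeTLin 2 hℓ hN v = c • v)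
    (hU : ∀ (ℓ : ℕ) (_ : ℓ.Prime) (hN : ℓ ∣ M), ∃ c : ℂ, CuspForm.heckeULin 2 hN v = c • v) :
    qCoeff v 1 ≠ 0 ∧ ((qCoeff v 1)⁻¹ • v).IsNormalizedEigenform := by
  classical
  let e : ℕ → ℂ := fun ℓ => if ℓ ∣ M then 0 else (ℓ : ℂ)
  let lam : ℕ → ℂ := fun ℓ =>
    if hℓ : ℓ.Prime then
      (if hN : ℓ ∣ M then (hU ℓ hℓ hN).choose else (hT ℓ hℓ hN).choose)
    else 0
  have hrec : ∀ ℓ : ℕ, ℓ.Prime → ∀ n : ℕ,
      qCoeff v (ℓ * n) + e ℓ * (if ℓ ∣ n then qCoeff v (n / ℓ) else 0) = lam ℓ * qCoeff v n := by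
    intro ℓ hℓ n
    by_cases hN : ℓ ∣ M
    · have h1 := (hU ℓ hℓ hN).choose_spec
      have h2 := congrArg (fun g : CuspForm (Gamma0 M) 2 => qCoeff (⇑g) n) h1
      simp only [qCoeff_heckeULin hℓ hN, qCoeff_smul] at h2
      simp only [e, lam, hℓ, hN, dif_pos, if_pos, zero_mul, add_zero]
      exact h2
    · have h1 := (hT ℓ hℓ hN).choose_spec
      have h2 := congrArg (fun g : CuspForm (Gamma0 M) 2 => qCoeff (⇑g) n) h1
      simp only [qCoeff_heckeTLin hℓ hN, qCoeff_smul] at h2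
      simp only [e, lam, hℓ, hN, dif_pos, dif_neg, if_neg, not_false_eq_true]
      exact h2
  have hb1 : qCoeff v 1 ≠ 0 := by
    intro h1
    exact hv0 (eq_zero_of_qCoeff v (eq_zero_of_hecke_rec (qCoeff_zero_idx v) h1 hrec))
  refine ⟨hb1, ?_⟩
  set c₁ : ℂ := qCoeff v 1 with hc₁
  set g : CuspForm (Gamma0 M) 2 := c₁⁻¹ • v with hgdef
  have hg : ∀ n, qCoeff g n = c₁⁻¹ * qCoeff v n := fun n => qCoeff_smul _ _ _
  have hg1 : qCoeff g 1 = 1 := by
    rw [hg, ← hc₁]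
    exact inv_mul_cancel₀ hb1
  have hrecg : ∀ ℓ : ℕ, ℓ.Prime → ∀ n : ℕ,
      qCoeff g (ℓ * n) + e ℓ * (if ℓ ∣ n then qCoeff g (n / ℓ) else 0) = lam ℓ * qCoeff g n := by
    intro ℓ hℓ n
    have := hrec ℓ hℓ n
    simp only [hg]
    split_ifs at this ⊢ with hd
    · linear_combination c₁⁻¹ * this
    · linear_combination c₁⁻¹ * this
  have hlam : ∀ ℓ : ℕ, ℓ.Prime → lam ℓ = qCoeff g ℓ := by
    intro ℓ hℓ
    have := hrecg ℓ hℓ 1
    have hd : ¬ ℓ ∣ 1 := fun hd => hℓ.one_lt.ne' (Nat.dvd_one.mp hd)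
    rw [if_neg hd, mul_one, mul_zero, add_zero, hg1, mul_one] at this
    exact this.symm
  have hgeig : FormalHecke.IsEigensystem e (fun n => qCoeff g n) := by
    refine ⟨hg1, ?_⟩
    intro ℓ hℓ n
    have := hrecg ℓ hℓ n
    rw [hlam ℓ hℓ] at this
    exact this
  refine ⟨hg1, isEigensystem_mul_of_coprime hgeig, ?_, ?_⟩
  · intro p r hp hpN
    have := isEigensystem_prime_pow hgeig p r hp
    simpa only [e, if_neg hpN] using this
  · intro p r hp hpN
    have := isEigensystem_prime_pow hgeig p r hp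
    simpa only [e, if_pos hpN, zero_mul, sub_zero] using this

end Normalize

section Equivariance

variable {M : ℕ} [NeZero M]

theorem up_periodHomPair_eq (f₁ f₂ : CuspForm (Gamma0 M) 2) :
    periodHomPair M (f₁, f₂) =
      (periodMap M f₁ + charInvolution M ℂ ℂ (periodMap M f₁)) +
        (periodMap M f₂ - charInvolution M ℂ ℂ (periodMap M f₂)) := by
  obtain ⟨p, hp, h⟩ := periodHomPair_def M (existsPeriodMapLinear M)
  rw [h]
  simp only [LinearMap.coprod_apply, LinearMap.comp_apply, LinearMap.add_apply,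
    LinearMap.sub_apply, LinearMap.id_apply, hp]

theorem up_equiv (t : Module.End ℂ (CuspForm (Gamma0 M) 2)) (l : ℕ) [NeZero l]
    (h : ∀ f, periodMap M (t f) = heckeHomU M l (periodMap M f)) (f₁ f₂ : CuspForm (Gamma0 M) 2) :
    periodHomPair M (t f₁, t f₂) = TUC M l (periodHomPair M (f₁, f₂)) := by
  rw [up_periodHomPair_eq, up_periodHomPair_eq, h, h, ← TUC_apply, ← TUC_apply, map_add, map_add,
    map_sub, TUC_charInvolution, TUC_charInvolution]

theorem up_eigen (t : Module.End ℂ (CuspForm (Gamma0 M) 2)) (l : ℕ) [NeZero l]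
    (h : ∀ f, periodMap M (t f) = heckeHomU M l (periodMap M f)) (f₁ f₂ : CuspForm (Gamma0 M) 2)
    (c : ℂ) (hc : heckeHomU M l (periodHomPair M (f₁, f₂)) = c • periodHomPair M (f₁, f₂)) :
    t f₁ = c • f₁ ∧ t f₂ = c • f₂ := by
  have h1 := up_equiv t l h f₁ f₂
  rw [TUC_apply, hc, ← map_smul] at h1
  have h2 := (Fermat.Agent.S21.result M).1 h1
  rw [Prod.smul_mk, Prod.mk.injEq] at h2
  exact h2

end Equivariance

section Main

variable {M : ℕ} [NeZero M]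

/-- **(UP)** a nonzero parabolic class which is an eigenvector of `T_ℓ` (`ℓ ∈ P`) and of `U_q`
comes from a normalised eigenform with these eigenvalues. -/
theorem up {q : ℕ} [NeZero q] (hq : q.Prime) (hqM : q ∣ M) (P : Set ℕ)
    (hP : ∀ l ∈ P, l.Prime ∧ ¬ l ∣ M) (φ : Additive (Gamma0 M) →+ ℂ) (hφ0 : φ ≠ 0)
    (hφ : IsParabolicHom (Gamma0 M) φ) (c : ℕ → ℂ)
    (hc : ∀ (l : ℕ) (_ : l ∈ P) [NeZero l], heckeHomU M l φ = c l • φ) (eps : ℂ)
    (he : heckeHomU M q φ = eps • φ) :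
    ∃ g : CuspForm (Gamma0 M) 2, g.IsNormalizedEigenform ∧
      (∀ l ∈ P, qCoeff g l = c l) ∧ qCoeff g q = eps := by
  classical
  -- step 1: `φ` is a period class
  have hmem : φ ∈ LinearMap.range (periodHomPair M) := by
    rw [(Fermat.Agent.S21.result M).2, mem_parabolicHoms_iff]
    exact hφ
  obtain ⟨⟨f₁, f₂⟩, rfl⟩ := hmem
  -- step 2: `f₁`, `f₂` are eigenvectors
  have hTe : ∀ (l : ℕ) (hl : l ∈ P),
      CuspForm.heckeTLin 2 (hP l hl).1 (hP l hl).2 f₁ = c l • f₁ ∧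
      CuspForm.heckeTLin 2 (hP l hl).1 (hP l hl).2 f₂ = c l • f₂ := by
    intro l hl
    have : NeZero l := ⟨(hP l hl).1.ne_zero⟩
    exact up_eigen (CuspForm.heckeTLin 2 (hP l hl).1 (hP l hl).2) l
      (periodMap_heckeTLin (hP l hl).1 (hP l hl).2) f₁ f₂ (c l) (hc l hl)
  have hUe := up_eigen (CuspForm.heckeULin 2 hqM) q (periodMap_heckeULin hqM) f₁ f₂ eps he
  -- step 3: the joint eigenspace
  let W : Submodule ℂ (CuspForm (Gamma0 M) 2) :=
    { carrier := {g | (∀ (l : ℕ) (hl : l ∈ P),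
        CuspForm.heckeTLin 2 (hP l hl).1 (hP l hl).2 g = c l • g) ∧
        CuspForm.heckeULin 2 hqM g = eps • g}
      add_mem' := by
        rintro a b ⟨ha1, ha2⟩ ⟨hb1, hb2⟩
        refine ⟨fun l hl => ?_, ?_⟩
        · rw [map_add, ha1 l hl, hb1 l hl, smul_add]
        · rw [map_add, ha2, hb2, smul_add]
      zero_mem' := ⟨fun l hl => by rw [map_zero, smul_zero], by rw [map_zero, smul_zero]⟩
      smul_mem' := by
        rintro a b ⟨hb1, hb2⟩
        refine ⟨fun l hl => ?_, ?_⟩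
        · rw [map_smul, hb1 l hl, smul_comm]
        · rw [map_smul, hb2, smul_comm] }
  have hWmem : ∀ g, g ∈ W ↔ (∀ (l : ℕ) (hl : l ∈ P),
        CuspForm.heckeTLin 2 (hP l hl).1 (hP l hl).2 g = c l • g) ∧
        CuspForm.heckeULin 2 hqM g = eps • g := fun g => Iff.rfl
  have hW : W ≠ ⊥ := by
    intro hbot
    have h1 : f₁ ∈ W := (hWmem _).2 ⟨fun l hl => (hTe l hl).1, hUe.1⟩
    have h2 : f₂ ∈ W := (hWmem _).2 ⟨fun l hl => (hTe l hl).2, hUe.2⟩
    rw [hbot, Submodule.mem_bot] at h1 h2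
    apply hφ0
    rw [h1, h2]
    exact map_zero _
  let S : Set (Module.End ℂ (CuspForm (Gamma0 M) 2)) :=
    {t | (∃ (p : ℕ) (hp : p.Prime) (hpN : ¬ p ∣ M), t = CuspForm.heckeTLin 2 hp hpN) ∨
      (∃ (p : ℕ) (hpN : p ∣ M), t = CuspForm.heckeULin 2 hpN)}
  have hcomm : ∀ s ∈ S, ∀ t ∈ S, Commute s t := by
    rintro s (⟨p, hp, hpN, rfl⟩ | ⟨p, hpN, rfl⟩) t (⟨p', hp', hpN', rfl⟩ | ⟨p', hpN', rfl⟩)
    · exact CuspForm.heckeTLin_comm 2 hp hpN hp' hpN'
    · exact CuspForm.heckeTLin_heckeULin_comm 2 hp hpN hpN'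
    · exact (CuspForm.heckeTLin_heckeULin_comm 2 hp' hpN' hpN).symm
    · exact CuspForm.heckeULin_comm 2 hpN hpN'
  have hstab : ∀ t ∈ S, ∀ w ∈ W, t w ∈ W := by
    intro t ht w hw
    obtain ⟨hw1, hw2⟩ := (hWmem w).1 hw
    refine (hWmem _).2 ⟨fun l hl => ?_, ?_⟩
    · have hc1 : Commute (CuspForm.heckeTLin 2 (hP l hl).1 (hP l hl).2) t :=
        hcomm _ (Or.inl ⟨l, _, _, rfl⟩) t ht
      have := congrArg (fun f : Module.End ℂ (CuspForm (Gamma0 M) 2) => f w) hc1.eq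
      simp only [Module.End.mul_apply] at this
      rw [this, hw1 l hl, map_smul]
    · have hc1 : Commute (CuspForm.heckeULin 2 hqM) t := hcomm _ (Or.inr ⟨q, _, rfl⟩) t ht
      have := congrArg (fun f : Module.End ℂ (CuspForm (Gamma0 M) 2) => f w) hc1.eq
      simp only [Module.End.mul_apply] at this
      rw [this, hw2, map_smul]
  obtain ⟨v, hvW, hv0, hv⟩ := exists_common_eigenvector S hcomm _ W rfl hW hstab
  obtain ⟨hb1, hnorm⟩ := up_normalize v hv0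
    (fun ℓ hℓ hN => hv _ (Or.inl ⟨ℓ, hℓ, hN, rfl⟩)) (fun ℓ _ hN => hv _ (Or.inr ⟨ℓ, hN, rfl⟩))
  obtain ⟨hv1, hv2⟩ := (hWmem v).1 hvW
  refine ⟨_, hnorm, fun l hl => ?_, ?_⟩
  · have h2 := congrArg (fun g : CuspForm (Gamma0 M) 2 => qCoeff (⇑g) 1) (hv1 l hl)
    simp only [qCoeff_heckeTLin (hP l hl).1 (hP l hl).2, qCoeff_smul] at h2
    have hd : ¬ l ∣ 1 := fun hd => (hP l hl).1.one_lt.ne' (Nat.dvd_one.mp hd)
    rw [if_neg hd, mul_one, mul_zero, add_zero] at h2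
    rw [qCoeff_smul, h2]
    field_simp
  · have h2 := congrArg (fun g : CuspForm (Gamma0 M) 2 => qCoeff (⇑g) 1) hv2
    simp only [qCoeff_heckeULin hq hqM, qCoeff_smul] at h2
    rw [mul_one] at h2
    rw [qCoeff_smul, h2]
    field_simp

end Main

end Fermat.Agent.S41Lib
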